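import Fermat.Agent.LT.Statement
import Fermat.Agent.LT.SphKer

/-!
# Operators at one place of the level

`rtV k` is the right translation by `k ∈ GL₂(κ)` in the fibre over a vertex; finite combinations of
local moves commuting with `GL₂(F)` preserve the forms.
-/

set_option autoImplicit false
open NumberField MeasureTheory Filter
open scoped Classical

namespace Fermat.LT3
open Fermat.LT

variable {F : Type*} [Field F] [NumberField F] {S : Set (Place F)} {v : Place F}

/-- At a vertex of `S` the class of `(g, 1)` is the vertex of `g`. -/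
lemma fcl_one (g : GL (Fin 2) F) (hvS : v ∈ S) : fcl (v := v) S g 1 = (g : Vert S v) := by
  rw [fcl, eq_comm, QuotientGroup.eq, lev_of_mem hvS, inv_mul_cancel_left]
  exact le_withScalars _ ((redG_eq_one_iff _).1 (Function.surjInv_eq redG_surjective 1))

/-- `GL₂(F)` acts on the classes `(g, M)` through the first entry. -/
lemma smul_fcl (g g' : GL (Fin 2) F) (M : GL (Fin 2) (Res v)) :
    g • fcl S g' M = fcl (v := v) S (g * g') M := by
  rw [fcl, fcl, MulAction.Quotient.smul_coe, smul_eq_mul, mul_assoc]

/-- Moving the base by an integral matrix multiplies the fibre coordinate by its reduction. -/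
lemma fcl_mul_incGL (hvS : v ∈ S) (g : GL (Fin 2) F) (a : GL (Fin 2) (v.valuation F).integer)
    (M : GL (Fin 2) (Res v)) : fcl S (g * incGL v a) M = fcl S g (redG v a * M) := by
  rw [fcl, fcl, QuotientGroup.eq, lev_of_mem hvS]
  set l := Function.surjInv redG_surjective M with hl
  set l' := Function.surjInv redG_surjective (redG v a * M) with hl'
  rw [show (g * incGL v a * incGL v l)⁻¹ * (g * incGL v l') = incGL v (l⁻¹ * a⁻¹ * l') by
    rw [map_mul, map_mul, map_inv, map_inv]; group]
  refine le_withScalars _ ((redG_eq_one_iff _).1 ?_)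
  rw [map_mul, map_mul, map_inv, map_inv, hl, hl', Function.surjInv_eq redG_surjective,
    Function.surjInv_eq redG_surjective]
  group

/-- A scalar on the base does not change the fibre coordinate. -/
lemma fcl_scal (hvS : v ∈ S) (c : Fˣ) (g : GL (Fin 2) F) (M : GL (Fin 2) (Res v)) :
    fcl (v := v) S (scal c * g) M = fcl S g M := by
  rw [fcl, fcl, QuotientGroup.eq, lev_of_mem hvS]
  set h := g * incGL v (Function.surjInv redG_surjective M) with hh
  rw [show (scal c * g * incGL v (Function.surjInv redG_surjective M))⁻¹ * h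
    = (scal c)⁻¹ by rw [mul_assoc, ← hh, mul_inv_rev, ← show scal c⁻¹ = (scal c : GL (Fin 2) F)⁻¹
      from map_inv _ c, mul_assoc, scal_comm, inv_mul_cancel_left]]
  exact (U1 _).inv_mem (scal_mem_withScalars _ c)

/-- A class does not change under a principal congruence element at `v`. -/
lemma fcl_mul_U1 (hvS : v ∈ S) {u : GL (Fin 2) F} (hu : u ∈ U1 (v.valuation F)) (g : GL (Fin 2) F)
    (M : GL (Fin 2) (Res v)) : fcl S (g * u) M = fcl (v := v) S g M := by
  obtain ⟨d, hd⟩ := hu
  obtain ⟨x, hx⟩ := hd.1
  have h1 : redG v x = 1 := (redG_eq_one_iff x).2 (by rw [show incGL v x = _ from hx]; exact hd)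
  have hu : u = scal d⁻¹ * incGL v x := by
    rw [show incGL v x = scal d * u from hx, ← mul_assoc, ← scal_mul, inv_mul_cancel]; simp [scal]
  rw [hu, ← mul_assoc, ← scal_comm, mul_assoc, fcl_scal hvS, fcl_mul_incGL hvS, h1, one_mul]

/-- Right translation in a fibre. -/
noncomputable def rtV (k : GL (Fin 2) (Res v)) (y : Vert S v) : Vert S v := fcl S y.out k

/-- The right translation of the vertex of `g` by `k` is the class `(g, k)`. -/
lemma rtV_mk (hvS : v ∈ S) (k : GL (Fin 2) (Res v)) (g : GL (Fin 2) F) :
    rtV k (g : Vert S v) = fcl S g k := by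
  obtain ⟨u, hu⟩ := QuotientGroup.mk_out_eq_mul (lev S v) g
  rw [rtV, hu, fcl_mul_U1 hvS ((lev_of_mem hvS).le u.2)]

/-- Right translations commute with the action of `GL₂(F)`. -/
lemma rtV_smul (hvS : v ∈ S) (k : GL (Fin 2) (Res v)) (g : GL (Fin 2) F) (y : Vert S v) :
    rtV k (g • y) = g • rtV k y := by
  obtain ⟨h, rfl⟩ := QuotientGroup.mk_surjective y
  rw [MulAction.Quotient.smul_coe, rtV_mk hvS, rtV_mk hvS, smul_fcl, smul_eq_mul]

/-- Right translations in a fibre compose. -/
lemma rtV_rtV (hvS : v ∈ S) (k k' : GL (Fin 2) (Res v)) (y : Vert S v) :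
    rtV k' (rtV k y) = rtV (k * k') y := by
  obtain ⟨g, rfl⟩ := QuotientGroup.mk_surjective y
  rw [rtV_mk hvS, rtV_mk hvS, fcl, rtV_mk hvS, fcl_mul_incGL hvS,
    Function.surjInv_eq redG_surjective]

/-- The translation by `1` is the identity. -/
lemma rtV_one (hvS : v ∈ S) (y : Vert S v) : rtV 1 y = y := by
  obtain ⟨g, rfl⟩ := QuotientGroup.mk_surjective y
  rw [rtV_mk hvS, fcl_one g hvS]

omit [NumberField F] in
/-- The scalar matrix of `1` is the identity. -/
lemma scal_one_eq : scal (1 : Fˣ) = (1 : GL (Fin 2) F) := by simp [scal]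

/-- A combination of moves at one place. -/
noncomputable def opV {ι : Type*} [Fintype ι] (c : ι → ℂ) (σ : ι → Vert S v → Vert S v)
    (Φ : Pt F S → ℂ) : Pt F S → ℂ :=
  fun p => ∑ i, c i * Φ (p.1.set v (σ i (p.1.1 v)), p.2)

/-- The properties of forms which all operators preserve. -/
structure IsPreForm (S : Set (Place F)) (v3 : Place F) (lam : Place F → ℝ) (Φ : Pt F S → ℂ) :
    Prop where
  /-- The function is invariant under `GL₂(F)`. -/
  invariant : IsInvariant Φ
  /-- The function is continuous in the archimedean variables. -/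
  continuous : ∀ ω : FinPt F S, Continuous fun x : InfinitePlace F → H3 => Φ (ω, x)
  /-- The function is bounded. -/
  bounded : ∃ C : ℝ, ∀ p, ‖Φ p‖ ≤ C
  /-- The function is an archimedean eigenfunction of parameter zero. -/
  arch : IsArchEigen Φ
  /-- The function is of cuspidal type at `v3`. -/
  cuspType : IsCuspType v3 Φ
  /-- Outside `S` the Hecke operator at `v` acts by `lam v`. -/
  hecke : ∀ v ∉ S, ∀ p, heckeT v Φ p = (lam v : ℂ) * Φ p

/-- A form has the properties preserved by the operators. -/
lemma isPreForm_of_isForm {v3 : Place F} {lam : Place F → ℝ} {Φ : Pt F S → ℂ}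
    (h : IsForm S {v3} lam Φ) : IsPreForm S v3 lam Φ :=
  ⟨h.invariant, h.continuous, h.bounded, h.arch, h.cuspType v3 rfl, h.hecke⟩

/-- Continuity in all archimedean places gives continuity in one. -/
lemma continuous_update_arg {Φ : Pt F S → ℂ} {ω : FinPt F S}
    (h : Continuous fun x : InfinitePlace F → H3 => Φ (ω, x)) (x : InfinitePlace F → H3)
    (w : InfinitePlace F) : Continuous fun y : H3 => Φ (ω, Function.update x w y) :=
  h.comp (continuous_const.update w continuous_id)

variable [Finite S] {v3 : Place F} {lam : Place F → ℝ} {Φ : Pt F S → ℂ}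

/-- A combination of local moves commuting with `GL₂(F)` preserves the properties of forms. -/
theorem IsPreForm.local_op {ι : Type*} [Fintype ι] (h : IsPreForm S v3 lam Φ) (hv3 : pnorm v3 = 3)
    (h3S : v3 ∈ S) (hvS : v ∈ S) (hne : v ≠ v3) (c : ι → ℂ) (σ : ι → Vert S v → Vert S v)
    (hσ : ∀ i (g : GL (Fin 2) F) (p : Pt F S),
      Φ ((g • p.1).set v (σ i (g • p.1.1 v)), p.2) = Φ ((g • p.1).set v (g • σ i (p.1.1 v)), p.2)) :
    IsPreForm S v3 lam (opV c σ Φ) where
  -- invariance: move `g` past each `σ i`, then use that of `Φ`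
  invariant := isInvariant_iff.2 fun g p => Finset.sum_congr rfl fun i _ => by
    rw [show (g • p).1 = g • p.1 from rfl, FinPt.smul_apply]
    have e := hσ i g (p.1, (g • p).2)
    simp only at e
    rw [e, ← FinPt.smul_set]
    congr 1
    exact isInvariant_iff.1 h.invariant g (p.1.set v (σ i (p.1.1 v)), p.2)
  -- continuity and boundedness hold term by term
  continuous ω := continuous_finsetSum _ fun i _ =>
    continuous_const.mul (h.continuous (ω.set v (σ i (ω.1 v))))
  bounded := by
    obtain ⟨C, hC⟩ := h.bounded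
    refine ⟨(∑ i, ‖c i‖) * C, fun p => ?_⟩
    rw [Finset.sum_mul]
    exact (norm_sum_le _ _).trans (Finset.sum_le_sum fun i _ => by
      rw [norm_mul]; exact mul_le_mul_of_nonneg_left (hC _) (norm_nonneg _))
  -- the equation at an infinite place: integrate term by term
  arch w k hk hs p := by
    obtain ⟨C, hC⟩ := h.bounded
    set K := AKer.ofRadial k hk hs
    have hint : ∀ i, Integrable (fun y => K (p.2 w) y *
        Φ (p.1.set v (σ i (p.1.1 v)), Function.update p.2 w y)) hmeas := fun i =>
      (K.integrable _).mul_bdd (c := C)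
        (continuous_update_arg (h.continuous _) _ _).aestronglyMeasurable
        (Eventually.of_forall fun y => hC _)
    have e1 : (fun y => (k (coshd (p.2 w) y) : ℂ) * opV c σ Φ (p.1, Function.update p.2 w y))
        = fun y => ∑ i, c i * (K (p.2 w) y *
          Φ (p.1.set v (σ i (p.1.1 v)), Function.update p.2 w y)) := funext fun y => by
      rw [LT3.opV, Finset.mul_sum]
      exact Finset.sum_congr rfl fun i _ => mul_left_comm _ _ _
    have hi2 : Integrable (fun y => ∑ i, c i * (K (p.2 w) y *
        Φ (p.1.set v (σ i (p.1.1 v)), Function.update p.2 w y))) hmeas :=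
      integrable_finsetSum _ fun i _ => (hint i).const_mul _
    rw [e1, hIntegral_eq_integral hi2.aestronglyMeasurable,
      integral_finsetSum _ fun i _ => (hint i).const_mul _, LT3.opV, Finset.mul_sum]
    refine Finset.sum_congr rfl fun i _ => ?_
    rw [integral_const_mul, ← hIntegral_eq_integral (hint i).aestronglyMeasurable, mul_left_comm]
    congr 1
    exact h.arch w k hk hs (p.1.set v (σ i (p.1.1 v)), p.2)
  -- the condition at `v3`: exchange the sums and commute the two places
  cuspType := by
    rw [isCuspType_iff_locAct hv3 h3S]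
    intro p
    rw [locAct, LT3.opV]
    simp only [Finset.mul_sum, LT3.opV]
    rw [Finset.sum_comm]
    refine Finset.sum_congr rfl fun i _ => ?_
    have e := (isCuspType_iff_locAct hv3 h3S Φ).1 h.cuspType (p.1.set v (σ i (p.1.1 v)), p.2)
    rw [← e, locAct, Finset.mul_sum, FinPt.set_of_ne _ hne.symm]
    refine Finset.sum_congr rfl fun y _ => ?_
    rw [FinPt.set_of_ne _ hne, ← FinPt.set_comm _ hne]
    ring
  -- the Hecke equations at a place `u ≠ v`, in the same way
  hecke u hu p := by
    have hne' : u ≠ v := fun e => hu (e ▸ hvS)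
    rw [heckeT_eq_locAct hu, locAct, LT3.opV]
    simp only [Finset.mul_sum, LT3.opV]
    rw [Finset.sum_comm]
    refine Finset.sum_congr rfl fun i _ => ?_
    have e := h.hecke u hu (p.1.set v (σ i (p.1.1 v)), p.2)
    rw [heckeT_eq_locAct hu, locAct] at e
    simp only [FinPt.set_of_ne _ hne'] at e
    rw [mul_left_comm, ← e, Finset.mul_sum]
    refine Finset.sum_congr rfl fun y _ => ?_
    rw [FinPt.set_of_ne _ hne'.symm, ← FinPt.set_comm _ hne'.symm]
    ring

/-- Combinations of right translations. -/
noncomputable def rsum (f : GL (Fin 2) (Res v) → ℂ) (Φ : Pt F S → ℂ) : Pt F S → ℂ :=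
  opV f (fun k => rtV k) Φ

/-- A combination of right translations at a place of `S` other than `v3` preserves these
properties. -/
theorem IsPreForm.local_rsum (h : IsPreForm S v3 lam Φ) (hv3 : pnorm v3 = 3) (h3S : v3 ∈ S)
    (hvS : v ∈ S) (hne : v ≠ v3) (f : GL (Fin 2) (Res v) → ℂ) : IsPreForm S v3 lam (rsum f Φ) :=
  h.local_op hv3 h3S hvS hne f _ fun k g p => by rw [rtV_smul hvS]

omit [Finite S] in
/-- The kernel of a function on the residue group as a combination of translations. -/
lemma locAct_fibKer (hvS : v ∈ S) {f : GL (Fin 2) (Res v) → ℂ} (hf : ScalInv f) (p : Pt F S) :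
    locAct v (fibKer hvS f hf) Φ p = (Fintype.card (Res v)ˣ : ℂ)⁻¹ * rsum f Φ p := by
  rw [locAct, sum_fibre hvS (p.1.1 v).out _ _
    (fun y hy _ => mem_U0_of_fibKer_ne_zero hvS (LKer.mem_row.1 hy))
    (fun y _ hne => LKer.mem_row.2 (left_ne_zero_of_mul hne))]
  congr 1
  refine Finset.sum_congr rfl fun M _ => ?_
  rw [fibKer_apply]
  congr 1
  conv_lhs => rw [show (p.1.1 v).out⁻¹
    = ((((p.1.1 v).out : GL (Fin 2) F) : Vert S v).out)⁻¹ by rw [QuotientGroup.out_eq']]
  exact fibFun_fcl hvS hf _ _

end Fermat.LT3
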