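import Fermat.Agent.LT3.Reduction

/-!
# Weights adapted to discrete groups, unfolding

`Part H n ρ`: the translates of `ρ` by `H` sum to `n`.  Integrals of invariant functions against
such weights do not depend on the weight.
-/

set_option autoImplicit false
open MeasureTheory Filter
open scoped MatrixGroups ENNReal

namespace Fermat.LT3
open Fermat.LT

/-- The weights of total mass `n`. -/
structure Part (H : Subgroup (GL (Fin 2) EI)) (n : ℝ) (ρ : H3 → ℝ) : Prop where
  /-- The weight is measurable. -/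
  meas : Measurable ρ
  /-- The weight is nonnegative. -/
  nonneg : ∀ w, 0 ≤ ρ w
  /-- The translates by `H` sum to `n`. -/
  hasSum : ∀ w, HasSum (fun δ : H => ρ (gC (δ : GL (Fin 2) EI) • w)) n

/-- The invariant integral is unchanged by a translation. -/
lemma integral_gC_smul (γ : GL (Fin 2) EI) (f : H3 → ℂ) :
    ∫ w, f (gC γ • w) ∂hmeas = ∫ w, f w ∂hmeas := by
  have h := measurePreserving_smul_H3 (gC γ)
  exact h.integral_comp (measurableEmbedding_const_smul (gC γ)) f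

variable {H : Subgroup (GL (Fin 2) EI)} {n : ℝ} {ρ : H3 → ℝ}

/-- A translate of a weight by `H` is at most `n`. -/
lemma Part.le (h : Part H n ρ) (δ : GL (Fin 2) EI) (hδ : δ ∈ H) (w : H3) : ρ (gC δ • w) ≤ n :=
  le_hasSum (h.hasSum w) ⟨δ, hδ⟩ fun _ _ => h.nonneg _

/-- A translate of a weight is measurable. -/
lemma Part.measurable_comp (h : Part H n ρ) (γ : GL (Fin 2) EI) :
    Measurable fun w => ρ (gC γ • w) :=
  h.meas.comp (continuous_const_smul (gC γ)).measurable

/-- A weight is its own absolute value. -/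
lemma Part.norm_smul (h : Part H n ρ) (γ : GL (Fin 2) EI) (w : H3) :
    ‖(ρ (gC γ • w) : ℂ)‖ = ρ (gC γ • w) := by
  rw [Complex.norm_real, Real.norm_of_nonneg (h.nonneg _)]

/-- A translated weight times an integrable function is integrable. -/
lemma Part.integrable_term (h : Part H n ρ) {f : H3 → ℂ} (hf : Integrable f hmeas)
    (γ : GL (Fin 2) EI) (hγ : γ ∈ H) :
    Integrable (fun w => (ρ (gC γ • w) : ℂ) * f w) hmeas := by
  refine hf.bdd_mul (c := n)
    (Complex.measurable_ofReal.comp (h.measurable_comp γ)).aestronglyMeasurable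
    (Eventually.of_forall fun w => ?_)
  rw [h.norm_smul]
  exact h.le γ hγ w

/-- Cutting an integral into pieces. -/
lemma Part.hasSum_integral (h : Part H n ρ) {f : H3 → ℂ} (hf : Integrable f hmeas) :
    HasSum (fun δ : H => ∫ w, (ρ (gC (δ : GL (Fin 2) EI) • w) : ℂ) * f w ∂hmeas)
      ((n : ℂ) * ∫ w, f w ∂hmeas) := by
  rw [← integral_const_mul]
  refine hasSum_integral_of_dominated_convergence
    (fun (δ : H) w => ρ (gC (δ : GL (Fin 2) EI) • w) * ‖f w‖)
    (fun δ => (h.integrable_term hf δ δ.2).1) (fun δ => Eventually.of_forall fun w => ?_)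
    (Eventually.of_forall fun w => ((h.hasSum w).mul_right ‖f w‖).summable) ?_
    (Eventually.of_forall fun w => ?_)
  · rw [norm_mul, h.norm_smul]
  · have e : (fun w => ∑' δ : H, ρ (gC (δ : GL (Fin 2) EI) • w) * ‖f w‖) = fun w => n * ‖f w‖ :=
      funext fun w => ((h.hasSum w).mul_right _).tsum_eq
    rw [e]
    exact hf.norm.const_mul n
  · exact ((h.hasSum w).map Complex.ofRealCLM Complex.ofRealCLM.continuous).mul_right _

/-- The translate of a term. -/
lemma integral_shift {ρ₁ ρ₂ : H3 → ℝ} {A : H3 → ℂ} (δ : GL (Fin 2) EI)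
    (hA : ∀ w, A (gC δ⁻¹ • w) = A w) :
    ∫ w, (ρ₂ (gC δ • w) : ℂ) * ((ρ₁ w : ℂ) * A w) ∂hmeas
      = ∫ u, (ρ₁ (gC δ⁻¹ • u) : ℂ) * ((ρ₂ u : ℂ) * A u) ∂hmeas := by
  rw [← integral_gC_smul δ⁻¹ (fun w => (ρ₂ (gC δ • w) : ℂ) * ((ρ₁ w : ℂ) * A w))]
  refine integral_congr_ae (Eventually.of_forall fun u => ?_)
  simp only [hA]
  rw [smul_smul, ← map_mul, mul_inv_cancel, map_one, one_smul]
  ring

/-- The invariant lower integral is unchanged by a translation. -/
lemma lintegral_gC_smul (γ : GL (Fin 2) EI) {f : H3 → ℝ≥0∞} (hf : Measurable f) :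
    ∫⁻ w, f (gC γ • w) ∂hmeas = ∫⁻ w, f w ∂hmeas :=
  (measurePreserving_smul_H3 (gC γ)).lintegral_comp hf

/-- The lintegrals against two weights agree. -/
lemma Part.lintegral_eq {n₂ : ℝ} {ρ₂ : H3 → ℝ} (h₁ : Part H n ρ) (h₂ : Part H n₂ ρ₂)
    {a : H3 → ℝ≥0∞} (ha : Measurable a) (hinv : ∀ δ ∈ H, ∀ w, a (gC δ • w) = a w) :
    ENNReal.ofReal n₂ * ∫⁻ w, ENNReal.ofReal (ρ w) * a w ∂hmeas
      = ENNReal.ofReal n * ∫⁻ w, ENNReal.ofReal (ρ₂ w) * a w ∂hmeas := by
  have key : ∀ {n₁ n₂ : ℝ} {ρ₁ ρ₂ : H3 → ℝ}, Part H n₁ ρ₁ → Part H n₂ ρ₂ →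
      ENNReal.ofReal n₂ * ∫⁻ w, ENNReal.ofReal (ρ₁ w) * a w ∂hmeas
        = ∑' δ : H, ∫⁻ w, ENNReal.ofReal (ρ₂ (gC (δ : GL (Fin 2) EI) • w)) *
            (ENNReal.ofReal (ρ₁ w) * a w) ∂hmeas := by
    intro n₁ n₂ ρ₁ ρ₂ g₁ g₂
    have hm : Measurable fun w => ENNReal.ofReal (ρ₁ w) * a w := g₁.meas.ennreal_ofReal.mul ha
    rw [← lintegral_const_mul _ hm, ← lintegral_tsum fun δ : H =>
      (((g₂.measurable_comp (δ : GL (Fin 2) EI)).ennreal_ofReal).fun_mul hm).aemeasurable]
    refine lintegral_congr fun w => ?_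
    rw [ENNReal.tsum_mul_right, ← ENNReal.ofReal_tsum_of_nonneg (fun δ => g₂.nonneg _)
      (g₂.hasSum w).summable, (g₂.hasSum w).tsum_eq]
  rw [key h₁ h₂, key h₂ h₁, ← (Equiv.inv H).tsum_eq]
  refine tsum_congr fun δ => ?_
  have hm : Measurable fun w =>
      ENNReal.ofReal (ρ₂ (gC (((Equiv.inv H) δ : H) : GL (Fin 2) EI) • w)) *
      (ENNReal.ofReal (ρ w) * a w) :=
    (h₂.measurable_comp _).ennreal_ofReal.mul (h₁.meas.ennreal_ofReal.mul ha)
  rw [← lintegral_gC_smul (δ : GL (Fin 2) EI) hm]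
  refine lintegral_congr fun u => ?_
  rw [Equiv.inv_apply, Subgroup.coe_inv, hinv _ δ.2, smul_smul, ← map_mul, inv_mul_cancel,
    map_one, one_smul]
  ring

/-- **Independence of the weight.** For two partitions of unity of a group the integrals of an
invariant function agree, up to their normalisations. -/
theorem Part.integral_eq {n₂ : ℝ} {ρ₂ : H3 → ℝ} (h₁ : Part H n ρ) (h₂ : Part H n₂ ρ₂)
    {A : H3 → ℂ} (hA : Measurable A) (hinv : ∀ δ ∈ H, ∀ w, A (gC δ • w) = A w)
    (hn : 0 < n)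
    (hint : Integrable (fun w => (ρ w : ℂ) * A w) hmeas) :
    Integrable (fun w => (ρ₂ w : ℂ) * A w) hmeas ∧
      (n₂ : ℂ) * ∫ w, (ρ w : ℂ) * A w ∂hmeas = (n : ℂ) * ∫ w, (ρ₂ w : ℂ) * A w ∂hmeas := by
  have he : ∀ (σ : H3 → ℝ), (∀ w, 0 ≤ σ w) → ∫⁻ w, ‖(σ w : ℂ) * A w‖ₑ ∂hmeas
      = ∫⁻ w, ENNReal.ofReal (σ w) * ‖A w‖ₑ ∂hmeas := fun σ hσ => lintegral_congr fun w => by
    rw [enorm_mul, ← ofReal_norm, Complex.norm_real, Real.norm_of_nonneg (hσ w)]
  have hl := h₁.lintegral_eq h₂ hA.enorm fun δ hδ w => by rw [hinv δ hδ]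
  have hint2 : Integrable (fun w => (ρ₂ w : ℂ) * A w) hmeas := by
    refine ⟨((Complex.measurable_ofReal.comp h₂.meas).mul hA).aestronglyMeasurable, ?_⟩
    rw [hasFiniteIntegral_iff_enorm, he ρ₂ h₂.nonneg]
    have h := hint.2
    rw [hasFiniteIntegral_iff_enorm, he ρ h₁.nonneg] at h
    refine lt_top_iff_ne_top.2 fun htop => ?_
    rw [htop, ENNReal.mul_top (by simpa using hn)] at hl
    exact (ENNReal.mul_lt_top ENNReal.ofReal_lt_top h).ne hl
  refine ⟨hint2, ?_⟩
  have s1 := h₂.hasSum_integral hint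
  have s2 := h₁.hasSum_integral hint2
  have e : ∀ δ : H, ∫ w, (ρ₂ (gC (δ : GL (Fin 2) EI) • w) : ℂ) * ((ρ w : ℂ) * A w) ∂hmeas
      = ∫ u, (ρ (gC ((δ⁻¹ : H) : GL (Fin 2) EI) • u) : ℂ) * ((ρ₂ u : ℂ) * A u) ∂hmeas := fun δ => by
    rw [Subgroup.coe_inv]
    exact integral_shift _ fun w => hinv _ (H.inv_mem δ.2) w
  simp only [e] at s1
  exact s1.unique ((Equiv.inv H).hasSum_iff.2 s2)

/-- The number of translates in the Siegel set. -/
noncomputable def cntSg (w : H3) : ℝ≥0∞ :=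
  ∑' γ : GL (Fin 2) EI, Sg.indicator 1 (gC γ • w)

/-- The count of translates is measurable. -/
lemma measurable_cntSg : Measurable cntSg :=
  Measurable.tsum fun γ =>
    (measurable_one.indicator measurableSet_Sg).comp (continuous_const_smul (gC γ)).measurable

/-- The count is the number of translates in the Siegel set. -/
lemma cntSg_eq (w : H3) : cntSg w = ((finite_mem_Sg w).toFinset.card : ℝ≥0∞) := by
  classical
  rw [cntSg, tsum_eq_sum (s := (finite_mem_Sg w).toFinset) fun γ hγ => ?_,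
    Finset.sum_congr rfl (g := fun _ => (1 : ℝ≥0∞)) fun γ hγ => ?_]
  · simp
  · exact Set.indicator_of_mem (s := Sg) (a := gC γ • w) ((finite_mem_Sg w).mem_toFinset.1 hγ) 1
  · exact Set.indicator_of_notMem (s := Sg) (a := gC γ • w)
      (fun h => hγ ((finite_mem_Sg w).mem_toFinset.2 h)) 1

/-- The count is invariant under translation. -/
lemma cntSg_smul (γ : GL (Fin 2) EI) (w : H3) : cntSg (gC γ • w) = cntSg w := by
  rw [cntSg, cntSg]
  conv_rhs => rw [← (Equiv.mulRight γ).tsum_eq]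
  refine tsum_congr fun δ => ?_
  rw [Equiv.coe_mulRight, map_mul, mul_smul]

/-- The count is at least one. -/
lemma one_le_toReal_cntSg (w : H3) : 1 ≤ (cntSg w).toReal := by
  obtain ⟨γ, hγ⟩ := exists_mem_Sg w
  have hpos : 0 < (finite_mem_Sg w).toFinset.card :=
    Finset.card_pos.2 ⟨γ, (finite_mem_Sg w).mem_toFinset.2 hγ⟩
  rw [cntSg_eq, ENNReal.toReal_natCast]
  exact_mod_cast hpos

/-- The weight on the Siegel set dividing out the number of its translates at a point. -/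
noncomputable def rho0 (w : H3) : ℝ := Sg.indicator (fun u => ((cntSg u).toReal)⁻¹) w

/-- The basic weight has total mass one for the full group. -/
lemma part_rho0 : Part (⊤ : Subgroup (GL (Fin 2) EI)) 1 rho0 where
  meas := (measurable_cntSg.ennreal_toReal.inv).indicator measurableSet_Sg
  nonneg w := Set.indicator_nonneg (fun _ _ => inv_nonneg.2 ENNReal.toReal_nonneg) w
  hasSum w := by
    classical
    rw [← (Subgroup.topEquiv (G := GL (Fin 2) EI)).symm.toEquiv.hasSum_iff]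
    set T := (finite_mem_Sg w).toFinset with hT
    have h1 : HasSum (fun γ : GL (Fin 2) EI => rho0 (gC γ • w)) (∑ γ ∈ T, rho0 (gC γ • w)) :=
      hasSum_sum_of_ne_finset_zero fun γ hγ => Set.indicator_of_notMem (s := Sg) (a := gC γ • w)
        (fun h => hγ ((finite_mem_Sg w).mem_toFinset.2 h)) _
    have h2 : ∑ γ ∈ T, rho0 (gC γ • w) = 1 := by
      rw [Finset.sum_congr rfl (g := fun _ => ((cntSg w).toReal)⁻¹) fun γ hγ => ?_,
        Finset.sum_const, nsmul_eq_mul, cntSg_eq, ENNReal.toReal_natCast, mul_inv_cancel₀]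
      · have := one_le_toReal_cntSg w
        rw [cntSg_eq, ENNReal.toReal_natCast] at this
        exact ne_of_gt (lt_of_lt_of_le one_pos this)
      · rw [rho0, Set.indicator_of_mem (s := Sg) (a := gC γ • w)
          ((finite_mem_Sg w).mem_toFinset.1 hγ), cntSg_smul]
    rw [h2] at h1
    exact h1

/-- The basic weight is at most the indicator of the Siegel set. -/
lemma rho0_le (w : H3) : rho0 w ≤ Sg.indicator 1 w := by
  rw [rho0]
  by_cases h : w ∈ Sg
  · rw [Set.indicator_of_mem h, Set.indicator_of_mem h]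
    exact inv_le_one_of_one_le₀ (one_le_toReal_cntSg w)
  · rw [Set.indicator_of_notMem h, Set.indicator_of_notMem h]

end Fermat.LT3
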