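import Fermat.Agent.LT3.TwistSpec
import Fermat.Agent.LT3.Part

/-!
# Classical automorphic functions on `H3` with values indexed by matrices modulo `9E`

`IsEig` is what each single function of such a family satisfies.
-/

set_option autoImplicit false
open Matrix QuadraticAlgebra MeasureTheory

namespace Fermat.LT3
open Fermat.LT

/-- Upper triangular matrix with unit diagonal entries. -/
def upG {R : Type*} [CommRing R] (a : Rˣ) (b : R) (d : Rˣ) : GL (Fin 2) R where
  val := !![(a : R), b; 0, (d : R)]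
  inv := !![((a⁻¹ : Rˣ) : R), -(((a⁻¹ : Rˣ) : R) * b * ((d⁻¹ : Rˣ) : R)); 0, ((d⁻¹ : Rˣ) : R)]
  val_inv := by
    ext i j : 1
    fin_cases i <;> fin_cases j <;> simp [Matrix.mul_apply, Fin.sum_univ_two, mul_assoc]
  inv_val := by
    ext i j : 1
    fin_cases i <;> fin_cases j <;> simp [Matrix.mul_apply, Fin.sum_univ_two, mul_assoc]

/-- The matrix of `upG a b d`. -/
@[simp] lemma upG_val {R : Type*} [CommRing R] (a : Rˣ) (b : R) (d : Rˣ) :
    (upG a b d).val = !![(a : R), b; 0, (d : R)] := rfl

/-- Reduction modulo `√-3`. -/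
def piHom : ER (ZMod 3) →+* ZMod 3 where
  toFun x := x.re - x.im
  map_one' := by simp
  map_zero' := by simp
  map_add' x y := by simp; ring
  map_mul' x y := by
    simp
    have h : (3 : ZMod 3) = 0 := rfl
    linear_combination (-(x.im * y.im)) * h

/-- A bounded continuous eigenfunction of the invariant integral operators, for one function on
`H3`: the archimedean part alone of `LT.IsEigFun` and `LTG.IsEigFn`, without invariance, Hecke
or cusp conditions. -/
structure IsEig (f : H3 → ℂ) : Prop where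
  /-- The function is continuous. -/
  cont : Continuous f
  /-- The function is bounded. -/
  bound : ∃ C, ∀ w, ‖f w‖ ≤ C
  /-- Every radial integral operator acts by its transform at parameter zero. -/
  arch : ∀ k : ℝ → ℝ, Continuous k → HasCompactSupport k → ∀ w,
    ∫ u, (k (coshd w u) : ℂ) * f u ∂hmeas = hhat0 k * f w

variable (E : ℕ)

/-- The modulus `9E`. -/
abbrev RN : Type := ER (ZMod (3 * (3 * E)))

/-- Reduction modulo `√-3` from the modulus `9E`. -/
def castPi : RN E →+* ZMod 3 := piHom.comp (castER 3 (dvd_mul_right 3 _))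

variable [NeZero E]

/-- `[[π, u], [0, 1]]` in `GL₂(ℂ)`. -/
noncomputable def aC (π u : EI) (h : π ≠ 0) : GL (Fin 2) ℂ :=
  Matrix.GeneralLinearGroup.mkOfDetNeZero !![toC π, toC u; 0, 1]
    (by
      rw [Matrix.det_fin_two_of]
      simpa using fun e => h (toC_injective (e.trans (map_zero toC).symm)))

/-- `[[1, 0], [0, π]]` in `GL₂(ℂ)`. -/
noncomputable def aInf (π : EI) (h : π ≠ 0) : GL (Fin 2) ℂ :=
  Matrix.GeneralLinearGroup.mkOfDetNeZero !![1, 0; 0, toC π]
    (by
      rw [Matrix.det_fin_two_of]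
      simpa using fun e => h (toC_injective (e.trans (map_zero toC).symm)))

/-- A classical automorphic function of level `√-3 E`. -/
structure Auto where
  /-- The values `Φ M w` of the function at matrices modulo `9E` and points of `H3`. -/
  Φ : GN (3 * E) → H3 → ℂ
  /-- The function is not identically zero. -/
  nonzero : ∃ M w, Φ M w ≠ 0
  /-- The family is equivariant for `GL₂` of the Eisenstein integers. -/
  inv : ∀ (γ : GL (Fin 2) EI) (M : GN (3 * E)) (w : H3),
    Φ (gr (3 * (3 * E)) γ * M) (gC γ • w) = Φ M w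
  /-- Scalars act trivially. -/
  scal : ∀ (z : (RN E)ˣ) (M : GN (3 * E)) (w : H3), Φ (upG z 0 z * M) w = Φ M w
  /-- The matrices trivial modulo the level act trivially on the right. -/
  level : ∀ (k M : GN (3 * E)), k.val.map (castPi E) = 1 → k.val.map (castEh E) = 1 →
    ∀ w, Φ (M * k) w = Φ M w
  /-- Each member is continuous. -/
  cont : ∀ M, Continuous (Φ M)
  /-- The family is bounded. -/
  bound : ∃ C, ∀ M w, ‖Φ M w‖ ≤ C
  /-- Each member is an eigenfunction of the invariant integral operators with parameter zero. -/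
  arch : ∀ k : ℝ → ℝ, Continuous k → HasCompactSupport k → ∀ M w,
    ∫ u, (k (coshd w u) : ℂ) * Φ M u ∂hmeas = hhat0 k * Φ M w
  /-- The Hecke eigenvalue at each prime off the level. -/
  lam : EI → ℝ
  /-- The Hecke operator at a prime off the level acts by `lam π`. -/
  hecke : ∀ (π : EI) (hπ : Prime π) (hu : IsUnit (red (3 * (3 * E)) π)) (T : Finset EI),
    (∀ x : EI, ∃! u, u ∈ T ∧ π ∣ x - u) → ∀ M w,
      (∑ u ∈ T, Φ ((upG hu.unit (red (3 * (3 * E)) u) 1)⁻¹ * M) ((aC π u hπ.ne_zero)⁻¹ • w))
        + Φ ((upG 1 0 hu.unit)⁻¹ * M) ((aInf π hπ.ne_zero)⁻¹ • w) = (lam π : ℂ) * Φ M w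
  /-- The sum over the three translates by `0`, `E`, `2E` vanishes. -/
  cusp : ∀ M w, Φ M w + Φ (upG 1 (E : RN E) 1 * M) w + Φ (upG 1 ((2 * E : ℕ) : RN E) 1 * M) w = 0

/-- Each function of an automorphic family is an eigenfunction on `H3`. -/
lemma Auto.isEig {E : ℕ} (A : Auto E) (M : GN (3 * E)) : IsEig (A.Φ M) :=
  ⟨A.cont M, A.bound.imp fun _ h => h M, fun k h1 h2 => A.arch k h1 h2 M⟩

end Fermat.LT3
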