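import Fermat.Agent.LT3.Raise

/-!
# Forms with a Borel character at the places of the level

At each place `v ≠ v3` of the level there is a cubic character `χ` of the residue field with
`Φ (g k) = χ (a / d) Φ (g)` for upper triangular `k`; if `χ = 1` the sums over `SL₂(κ)` vanish.
A nontrivial `χ` can be replaced by its inverse.
-/

set_option autoImplicit false
open NumberField
open scoped Classical

namespace Fermat.LT3
open Fermat.LT

variable {F : Type*} [Field F] [NumberField F] {S : Set (Place F)} {v : Place F}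

/-- A cubic character takes at an inverse the square of its value. -/
lemma mulChar_inv_arg {R : Type*} [Field R] {χ : MulChar R ℂ} (h : χ ^ 3 = 1) (x : R) :
    χ x⁻¹ = χ x ^ 2 := by
  rw [← MulChar.inv_apply', inv_eq_of_mul_eq_one_right (show χ * χ ^ 2 = 1 by rw [← pow_succ', h]),
    MulChar.pow_apply' χ two_ne_zero]

/-- The ratio of the diagonal. -/
noncomputable def dgRat (M : GL (Fin 2) (Res v)) : Res v :=
  (M : Matrix (Fin 2) (Fin 2) (Res v)) 0 0 / (M : Matrix (Fin 2) (Fin 2) (Res v)) 1 1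

/-- The type at a place of the level. -/
structure TypedAt (v : Place F) (χ : MulChar (Res v) ℂ) (Φ : Pt F S → ℂ) : Prop where
  /-- The cube of the character is trivial. -/
  cube : χ ^ 3 = 1
  /-- The Borel subgroup acts through the character of the ratio of the diagonal entries. -/
  borel : ∀ M : GL (Fin 2) (Res v), (M : Matrix (Fin 2) (Fin 2) (Res v)) 1 0 = 0 → ∀ p : Pt F S,
    Φ (p.1.set v (rtV M (p.1.1 v)), p.2) = χ (dgRat M) * Φ p
  /-- For the trivial character the sum over `SL₂` of the residue field vanishes. -/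
  slZero : χ = 1 → ∀ p : Pt F S,
    ∑ M ∈ (Finset.univ : Finset (GL (Fin 2) (Res v))).filter
      (fun M => Matrix.GeneralLinearGroup.det M = 1), Φ (p.1.set v (rtV M (p.1.1 v)), p.2) = 0

/-- `f` is a linear relation of `Φ` at `u` with eigenvalue `a`: the residual sum is `a Φ`. -/
def RelAt (u : Place F) (f : GL (Fin 2) (Res u) → ℂ) (a : ℂ) (Φ : Pt F S → ℂ) : Prop :=
  ∀ p, rsum f Φ p = a * Φ p

/-- The sum against the indicator of `k` is translation by `k`. -/
lemma rsum_single (k : GL (Fin 2) (Res v)) (Φ : Pt F S → ℂ) (p : Pt F S) :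
    rsum (fun M => if M = k then 1 else 0) Φ p = Φ (p.1.set v (rtV k (p.1.1 v)), p.2) := by
  simp [rsum, opV]

/-- The sum against the indicator of determinant one is the sum over `SL₂` of the residue field. -/
lemma rsum_indicator (Φ : Pt F S → ℂ) (p : Pt F S) :
    rsum (fun M : GL (Fin 2) (Res v) => if Matrix.GeneralLinearGroup.det M = 1 then 1 else 0) Φ p
      = ∑ M ∈ (Finset.univ : Finset (GL (Fin 2) (Res v))).filter
          (fun M => Matrix.GeneralLinearGroup.det M = 1), Φ (p.1.set v (rtV M (p.1.1 v)), p.2) := by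
  simp [rsum, opV, Finset.sum_filter]

/-- A linear relation at `u` is preserved by operators at another place. -/
lemma RelAt.opV {u : Place F} (hne : u ≠ v) {f : GL (Fin 2) (Res u) → ℂ} {a : ℂ} {Φ : Pt F S → ℂ}
    (h : RelAt u f a Φ) {ι : Type*} [Fintype ι] (c : ι → ℂ) (σ : ι → Vert S v → Vert S v) :
    RelAt u f a (opV c σ Φ) := by
  intro p
  simp only [rsum, LT3.opV, Finset.mul_sum]
  rw [Finset.sum_comm]
  refine Finset.sum_congr rfl fun i _ => ?_
  have e := h (p.1.set v (σ i (p.1.1 v)), p.2)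
  simp only [rsum, LT3.opV, FinPt.set_of_ne _ hne] at e
  rw [mul_left_comm, ← e, Finset.mul_sum]
  refine Finset.sum_congr rfl fun M _ => ?_
  rw [FinPt.set_of_ne _ hne.symm, FinPt.set_comm _ hne.symm]
  ring

/-- A linear relation at `u` is preserved by residual sums at another place. -/
lemma RelAt.rsum {u : Place F} (hne : u ≠ v) {f : GL (Fin 2) (Res u) → ℂ} {a : ℂ} {Φ : Pt F S → ℂ}
    (h : RelAt u f a Φ) (g : GL (Fin 2) (Res v) → ℂ) : RelAt u f a (rsum g Φ) := h.opV hne g _

/-- A type is inherited by any function with the same linear relations. -/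
lemma TypedAt.of_rel {u : Place F} {χ : MulChar (Res u) ℂ} {Φ Φ' : Pt F S → ℂ}
    (h : TypedAt u χ Φ) (hrel : ∀ f a, RelAt u f a Φ → RelAt u f a Φ') : TypedAt u χ Φ' where
  cube := h.cube
  borel M hM p := by
    have e := hrel (fun N => if N = M then 1 else 0) (χ (dgRat M))
      (fun q => by rw [rsum_single, h.borel M hM q]) p
    rwa [rsum_single] at e
  slZero h1 p := by
    have e := hrel (fun M => if Matrix.GeneralLinearGroup.det M = 1 then 1 else 0) 0
      (fun q => by rw [rsum_indicator, h.slZero h1 q, zero_mul]) p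
    rwa [rsum_indicator, zero_mul] at e

/-- A residual sum at a translated point is the sum with the translated coefficients. -/
lemma rsum_rtV (hvS : v ∈ S) (f : GL (Fin 2) (Res v) → ℂ) (Φ : Pt F S → ℂ) (k : GL (Fin 2) (Res v))
    (p : Pt F S) : rsum f Φ (p.1.set v (rtV k (p.1.1 v)), p.2)
      = ∑ N, f (k⁻¹ * N) * Φ (p.1.set v (rtV N (p.1.1 v)), p.2) := by
  simp only [rsum, opV, FinPt.set_self, FinPt.set_set, rtV_rtV hvS]
  refine (Fintype.sum_equiv (Equiv.mulLeft k) _ _ fun M => ?_)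
  simp

/-- The inverse of an upper triangular residual matrix is upper triangular, with inverse ratio of
the diagonal. -/
lemma upper_inv {k : GL (Fin 2) (Res v)} (hk : (k : Matrix (Fin 2) (Fin 2) (Res v)) 1 0 = 0) :
    (k⁻¹ : GL (Fin 2) (Res v)).val 1 0 = 0 ∧ dgRat k⁻¹ = (dgRat k)⁻¹ := by
  have h := (Matrix.GeneralLinearGroup.det k).ne_zero
  rw [Matrix.GeneralLinearGroup.val_det_apply, Matrix.det_fin_two, hk, mul_zero, sub_zero] at h
  obtain ⟨h0, h1⟩ := mul_ne_zero_iff.1 h
  rw [dgRat, dgRat, Matrix.coe_units_inv, Matrix.inv_def, Matrix.adjugate_fin_two,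
    Matrix.det_fin_two, hk]
  refine ⟨by simp, ?_⟩
  simp
  field_simp

/-- Left multiplication by an upper triangular matrix preserves being upper triangular and
multiplies the ratios. -/
lemma upper_mul {k M : GL (Fin 2) (Res v)} (hk : (k : Matrix (Fin 2) (Fin 2) (Res v)) 1 0 = 0) :
    ((k * M : GL (Fin 2) (Res v)).val 1 0 = 0 ↔ M.val 1 0 = 0) ∧
      (M.val 1 0 = 0 → dgRat (k * M) = dgRat k * dgRat M) := by
  have h := (Matrix.GeneralLinearGroup.det k).ne_zero
  rw [Matrix.GeneralLinearGroup.val_det_apply, Matrix.det_fin_two, hk, mul_zero, sub_zero] at h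
  obtain ⟨h0, h1⟩ := mul_ne_zero_iff.1 h
  refine ⟨?_, fun hM => ?_⟩
  · simp [Matrix.mul_apply, Fin.sum_univ_two, hk, h1]
  · simp [dgRat, Matrix.mul_apply, Fin.sum_univ_two, hk, hM, mul_div_mul_comm]

variable [Finite S] {v3 : Place F} {lam : Place F → ℝ}

omit [Finite ↑S] in
/-- The forms fixed by the kernel at `v`, up to the normalisation. -/
lemma relAt_ramFun (hvS : v ∈ S) {Φ : Pt F S → ℂ}
    (hfix : ∀ p, locAct v (ramKer v hvS) Φ p = Φ p) :
    RelAt v (ramFun v) (Fintype.card (Res v)ˣ) Φ := fun p => by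
  have e := hfix p
  rw [ramKer, locAct_fibKer] at e
  conv_rhs => rw [← e]
  rw [← mul_assoc, mul_inv_cancel₀ (Nat.cast_ne_zero.2 Fintype.card_ne_zero), one_mul]

variable [IsTotallyComplex F]

/-- **Typing at one place.** A preform fixed by the ramified function at `v` gives one typed at `v`,
keeping the relations at the other places. -/
theorem exists_typedAt {Φ : Pt F S → ℂ} (h : IsPreForm S v3 lam Φ) (hv3 : pnorm v3 = 3)
    (h3S : v3 ∈ S) (hvS : v ∈ S) (hne : v ≠ v3) (h3 : 3 ∣ Fintype.card (Res v) - 1)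
    (hfix : RelAt v (ramFun v) (Fintype.card (Res v)ˣ) Φ) (hΦ : ∃ p, Φ p ≠ 0) :
    ∃ (χ : MulChar (Res v) ℂ) (Φ' : Pt F S → ℂ), IsPreForm S v3 lam Φ' ∧ (∃ p, Φ' p ≠ 0) ∧
      TypedAt v χ Φ' ∧ ∀ u ∈ S, u ≠ v → ∀ f a, RelAt u f a Φ → RelAt u f a Φ' := by
  set q : ℂ := (Fintype.card (Res v) : ℂ) with hq
  set g : GL (Fin 2) (Res v) → ℂ := fun M =>
    if (M : Matrix (Fin 2) (Fin 2) (Res v)) 1 0 = 0 then cubChar v (dgRat M) *
      (q * (q - 1))⁻¹ else 0
  have hord := orderOf_cubChar v h3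
  have hcube : cubChar v ^ 3 = 1 := by rw [← hord, pow_orderOf_eq_one]
  have hχ1 : cubChar v ^ 2 ≠ 1 := pow_ne_one_of_lt_orderOf two_ne_zero (by rw [hord]; norm_num)
  have hinvchar : ∀ x : Res v, cubChar v x⁻¹ = (cubChar v ^ 2) x := fun x => by
    rw [mulChar_inv_arg hcube, MulChar.pow_apply' _ two_ne_zero]
  -- if the projection to the cubic character is nonzero, take it
  by_cases hg : ∃ p, rsum g Φ p ≠ 0
  · refine ⟨cubChar v ^ 2, rsum g Φ, h.local_rsum hv3 h3S hvS hne g, hg,
      ⟨?_, ?_, fun h1 => absurd h1 hχ1⟩, fun u _ hu f a hr => hr.rsum hu g⟩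
    · rw [← pow_mul, show 2 * 3 = 3 * 2 from rfl, pow_mul, hcube, one_pow]
    · intro M hM p
      rw [rsum_rtV hvS, rsum, opV, Finset.mul_sum]
      refine Finset.sum_congr rfl fun N _ => ?_
      obtain ⟨hi, hir⟩ := upper_inv hM
      obtain ⟨hm, hmr⟩ := upper_mul (M := N) hi
      simp only [g, hm]
      split_ifs with hN
      · rw [hmr hN, map_mul, hir, hinvchar]; ring
      · simp
  -- otherwise `Φ` is spherical at `v`
  push Not at hg
  have hsph : SphAt v Φ := by
    intro k p
    have hF : ∀ p, Φ p = (Fintype.card (Res v)ˣ : ℂ)⁻¹ *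
        ∑ M, (q * (q - 1) * (q + 1))⁻¹ * Φ (p.1.set v (rtV M (p.1.1 v)), p.2) := by
      intro p
      have e := hfix p
      have h2 := hg p
      simp only [rsum, opV] at e h2
      have e2 : ∀ M, ramFun v M = (q * (q - 1) * (q + 1))⁻¹ + g M := fun M => rfl
      simp only [e2, add_mul, Finset.sum_add_distrib, h2, add_zero] at e
      rw [e, inv_mul_cancel_left₀ (Nat.cast_ne_zero.2 Fintype.card_ne_zero)]
    rw [hF, hF p]
    congr 1
    simp only [FinPt.set_self, FinPt.set_set, rtV_rtV hvS]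
    exact Fintype.sum_equiv (Equiv.mulLeft k) _ _ fun M => rfl
  -- the raised form
  set D := (Finset.univ : Finset (GL (Fin 2) (Res v))).filter
    fun M => Matrix.GeneralLinearGroup.det M = 1 with hD
  have hD1 : (1 : GL (Fin 2) (Res v)) ∈ D := by simp [hD]
  have hcard : (D.card : ℂ) ≠ 0 := Nat.cast_ne_zero.2 (Finset.card_ne_zero_of_mem hD1)
  set f : GL (Fin 2) (Res v) → ℂ := fun M =>
    (if M = 1 then 1 else 0) - (D.card : ℂ)⁻¹ *
      (if Matrix.GeneralLinearGroup.det M = 1 then 1 else 0)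
  set R := rais v Φ
  set A : Pt F S → ℂ := fun p => ∑ M ∈ D, R (p.1.set v (rtV M (p.1.1 v)), p.2)
  have hR := h.local_rais hsph hv3 h3S hvS hne
  -- the projection of the raised form away from the `SL₂` invariants
  have heq : ∀ p, rsum f R p = R p - (D.card : ℂ)⁻¹ * A p := by
    intro p
    simp only [rsum, opV, f, sub_mul, Finset.sum_sub_distrib, mul_assoc, ← Finset.mul_sum]
    congr 1
    · simp [rtV_one hvS]
    · congr 1
      simp [A, hD, Finset.sum_filter]
  have hAinv : ∀ k, Matrix.GeneralLinearGroup.det k = 1 → ∀ p : Pt F S,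
      A (p.1.set v (rtV k (p.1.1 v)), p.2) = A p := by
    intro k hk p
    simp only [A, FinPt.set_self, FinPt.set_set, rtV_rtV hvS]
    refine Finset.sum_nbij' (fun M => k * M) (fun M => k⁻¹ * M) ?_ ?_ ?_ ?_ ?_ <;>
      simp +contextual [hD, hk]
  -- it is nonzero, since raising destroys the invariance under the Weyl element
  have hnz : ∃ p, rsum f R p ≠ 0 := by
    by_contra hc
    push Not at hc
    obtain ⟨p, hp⟩ := exists_rais_ne h hsph hv3 h3S hvS hΦ
    refine hp ?_
    have e : ∀ p, R p = (D.card : ℂ)⁻¹ * A p := fun p => by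
      have := hc p; rw [heq, sub_eq_zero] at this; exact this
    change R _ = R p
    rw [e, e p, hAinv _ ?_ p]
    refine Units.ext ?_
    rw [Matrix.GeneralLinearGroup.val_det_apply, wR, Matrix.det_fin_two, coe_redG,
      coe_redG, coe_redG, coe_redG]
    simp [wI]
    erw [map_zero, map_one, map_neg, map_one]
    simp
  -- it has trivial type
  refine ⟨1, rsum f R, hR.local_rsum hv3 h3S hvS hne f, hnz, ⟨one_pow 3, ?_, ?_⟩,
    fun u _ hu f' a hr => ?_⟩
  · intro M hM p
    rw [heq, heq, show R (p.1.set v (rtV M (p.1.1 v)), p.2) = R p from hsph.rais_borel hvS M hM p,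
      MulChar.one_apply ?_, one_mul]
    · congr 2
      simp only [A, FinPt.set_self, FinPt.set_set, rtV_rtV hvS]
      refine Finset.sum_nbij' (fun N => M * N * M⁻¹) (fun N => M⁻¹ * N * M) ?_ ?_ ?_ ?_ ?_
      · intro N hN; simp [hD] at hN ⊢; rw [hN]
      · intro N hN; simp [hD] at hN ⊢; rw [hN]
      · intro N _; group
      · intro N _; group
      · intro N _
        conv_rhs => rw [← rtV_rtV hvS (M * N) M⁻¹]
        have := hsph.rais_borel hvS M⁻¹ (upper_inv hM).1
          (p.1.set v (rtV (M * N) (p.1.1 v)), p.2)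
        simp only [FinPt.set_self, FinPt.set_set] at this
        exact this.symm
    · have h0 := (Matrix.GeneralLinearGroup.det M).ne_zero
      rw [Matrix.GeneralLinearGroup.val_det_apply, Matrix.det_fin_two, hM, mul_zero, sub_zero] at h0
      obtain ⟨h1, h2⟩ := mul_ne_zero_iff.1 h0
      exact (div_ne_zero h1 h2).isUnit
  · intro _ p
    simp only [heq, Finset.sum_sub_distrib, ← Finset.mul_sum]
    rw [show ∑ M ∈ D, A (p.1.set v (rtV M (p.1.1 v)), p.2) = (D.card : ℂ) * A p by
      rw [Finset.sum_congr rfl fun M hM => hAinv M (Finset.mem_filter.1 hM).2 p, Finset.sum_const,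
        nsmul_eq_mul]]
    rw [inv_mul_cancel_left₀ hcard]
    exact sub_self _
  · refine (RelAt.rsum hu ?_ f)
    rw [show R = rais v Φ from rfl, rais_eq_opV]
    exact hr.opV hu _ _

omit [IsTotallyComplex F] in
/-- `[[u, -1], [1, 0]]`. -/
noncomputable def nwR (u : Res v) : GL (Fin 2) (Res v) :=
  Matrix.GeneralLinearGroup.mkOfDetNeZero !![u, -1; 1, 0] (by simp [Matrix.det_fin_two_of])

omit [IsTotallyComplex F] in
/-- **Changing a character into its inverse.** -/
theorem exists_flip {Φ : Pt F S → ℂ} (h : IsPreForm S v3 lam Φ) (hv3 : pnorm v3 = 3)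
    (h3S : v3 ∈ S) (hvS : v ∈ S) (hne : v ≠ v3) {χ : MulChar (Res v) ℂ} (ht : TypedAt v χ Φ)
    (hχ : χ ≠ 1) (hΦ : ∃ p, Φ p ≠ 0) :
    ∃ Φ' : Pt F S → ℂ, IsPreForm S v3 lam Φ' ∧ (∃ p, Φ' p ≠ 0) ∧ TypedAt v (χ ^ 2) Φ' ∧
      ∀ u ∈ S, u ≠ v → ∀ f a, RelAt u f a Φ → RelAt u f a Φ' := by
  -- the intertwining sum
  set J : Pt F S → ℂ := opV (fun _ : Res v => (1 : ℂ)) (fun u => rtV (nwR u)) Φ
  have hJ : IsPreForm S v3 lam J :=
    h.local_op hv3 h3S hvS hne _ _ fun u g p => by rw [rtV_smul hvS]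
  have hcube := ht.cube
  have hχ2 : χ ^ 2 ≠ 1 := fun e => hχ (by
    calc χ = χ * χ ^ 2 := by rw [e, mul_one]
      _ = 1 := by rw [← pow_succ', hcube])
  have hinvchar : ∀ x : Res v, χ x⁻¹ = (χ ^ 2) x := fun x => by
    rw [mulChar_inv_arg hcube, MulChar.pow_apply' _ two_ne_zero]
  have hJp : ∀ p, J p = ∑ u, Φ (p.1.set v (rtV (nwR u) (p.1.1 v)), p.2) := fun p => by
    simp [J, opV]
  -- moving triangular elements to the right
  have hmove : ∀ (p : Pt F S) (k b : GL (Fin 2) (Res v)), b.val 1 0 = 0 →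
      Φ (p.1.set v (rtV (k * b) (p.1.1 v)), p.2) =
          χ (dgRat b) * Φ (p.1.set v (rtV k (p.1.1 v)), p.2) := by
    intro p k b hb
    have := ht.borel b hb (p.1.set v (rtV k (p.1.1 v)), p.2)
    simpa only [FinPt.set_self, FinPt.set_set, rtV_rtV hvS] using this
  refine ⟨J, hJ, ?_, ⟨?_, ?_, fun h1 => absurd h1 hχ2⟩, fun u _ hu f a hr => hr.opV hu _ _⟩
  -- it is nonzero: applying it again gives a multiple of `Φ`
  · by_contra hc
    push Not at hc
    obtain ⟨p, hp⟩ := hΦ
    refine hp ?_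
    have h0 : ∑ u, J (p.1.set v (rtV (nwR u) (p.1.1 v)), p.2) = 0 :=
      Finset.sum_eq_zero fun u _ => hc _
    simp only [hJp, FinPt.set_self, FinPt.set_set, rtV_rtV hvS] at h0
    rw [Finset.sum_comm] at h0
    have hterm : ∀ u' : Res v, ∑ u, Φ (p.1.set v (rtV (nwR u * nwR u') (p.1.1 v)), p.2)
        = if u' = 0 then (Fintype.card (Res v) : ℂ) * Φ p else 0 := by
      intro u'
      split_ifs with hu'
      · subst hu'
        rw [Finset.sum_congr rfl (g := fun _ => Φ p) fun u _ => ?_, Finset.sum_const,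
          Finset.card_univ, nsmul_eq_mul]
        rw [ht.borel _ (by simp [nwR, Matrix.mul_apply, Fin.sum_univ_two]) p]
        simp [dgRat, nwR, Matrix.mul_apply, Fin.sum_univ_two]
      · have hb : ∀ u : Res v, ∃ b : GL (Fin 2) (Res v), b.val 1 0 = 0 ∧ dgRat b = u' ^ 2 ∧
            nwR u * nwR u' = nwR (u - u'⁻¹) * b := by
          intro u
          refine ⟨Matrix.GeneralLinearGroup.mkOfDetNeZero !![u', -1; 0, u'⁻¹]
            (by simp [Matrix.det_fin_two_of, hu']), by simp, ?_, Units.ext ?_⟩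
          · simp [dgRat, pow_two]
          · ext i j
            fin_cases i <;> fin_cases j <;> simp [nwR, Matrix.mul_apply, Fin.sum_univ_two] <;>
              field_simp <;> ring
        choose b hb1 hb2 hb3 using hb
        rw [Finset.sum_congr rfl fun u _ => by rw [hb3 u, hmove p _ _ (hb1 u), hb2 u],
          ← Finset.mul_sum]
        refine mul_eq_zero_of_right _ ?_
        rw [← hc p, hJp]
        exact (Equiv.subRight u'⁻¹).sum_comp fun u => Φ (p.1.set v (rtV (nwR u) (p.1.1 v)), p.2)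
    rw [Finset.sum_congr rfl fun u' _ => hterm u', Finset.sum_ite_eq' Finset.univ (0 : Res v),
      if_pos (Finset.mem_univ _), mul_eq_zero] at h0
    exact h0.resolve_left (Nat.cast_ne_zero.2 Fintype.card_ne_zero)
  · rw [← pow_mul, show 2 * 3 = 3 * 2 from rfl, pow_mul, hcube, one_pow]
  -- the Borel acts through the square of `χ`
  · intro M hM p
    rw [hJp, hJp, Finset.mul_sum]
    simp only [FinPt.set_self, FinPt.set_set, rtV_rtV hvS]
    have h0 := (Matrix.GeneralLinearGroup.det M).ne_zero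
    rw [Matrix.GeneralLinearGroup.val_det_apply, Matrix.det_fin_two, hM, mul_zero, sub_zero] at h0
    obtain ⟨ha, hd⟩ := mul_ne_zero_iff.1 h0
    have hd' : M.val 1 1 ≠ 0 := hd
    have hb : ∀ u : Res v, ∃ b : GL (Fin 2) (Res v), b.val 1 0 = 0 ∧ dgRat b = (dgRat M)⁻¹ ∧
        M * nwR u = nwR ((M.val 0 0 * u + M.val 0 1) / M.val 1 1) * b := by
      intro u
      refine ⟨Matrix.GeneralLinearGroup.mkOfDetNeZero !![M.val 1 1, 0; 0, M.val 0 0]
        (by simp [Matrix.det_fin_two_of, ha, hd]), by simp, by simp [dgRat, inv_div],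
        Units.ext ?_⟩
      rw [Units.val_mul, Units.val_mul]
      ext i j
      fin_cases i <;> fin_cases j <;> simp [nwR, Matrix.mul_apply, Fin.sum_univ_two, hM]
      all_goals field_simp
    choose b hb1 hb2 hb3 using hb
    refine Finset.sum_bij' (fun u _ => (M.val 0 0 * u + M.val 0 1) / M.val 1 1)
      (fun u _ => (u * M.val 1 1 - M.val 0 1) / M.val 0 0) (by simp) (by simp) ?_ ?_ ?_
    · intro u _; field_simp; ring
    · intro u _; field_simp; ring
    · intro u _
      rw [hb3 u, hmove p _ _ (hb1 u), hb2 u, hinvchar]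

end Fermat.LT3
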