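import Fermat.Agent.LT3.Red
import Fermat.Agent.LT3.Auto
import Fermat.Agent.LT3.Typed

/-!
# Matrices modulo `9E` as adelic points

`ptM M w` has component `M mod v` over the standard vertex at `v ∈ S`, the
standard vertex elsewhere.
-/

set_option autoImplicit false
open IsDedekindDomain QuadraticAlgebra Matrix
open scoped Classical

namespace Fermat.LT3
open Fermat.LT

variable {K : Type*} [Field K] [NumberField K] (D : KData K) {E : ℕ} [NeZero E]
  {S : Set (Place K)} {v3 : Place K}

/-- The level data: `S` is the set of places over `3 E`, `3 ∤ E`, and `v3` is a place of norm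
three over `3`. -/
structure BData (D : KData K) (E : ℕ) (S : Set (Place K)) (v3 : Place K) : Prop where
  /-- The level consists of the places over `3E`. -/
  mem_iff : ∀ v, v ∈ S ↔ D.e ((3 * E : ℕ) : EI) ∈ v.asIdeal
  /-- `v3` has norm three. -/
  norm_v3 : pnorm v3 = 3
  /-- `v3` lies over `3`. -/
  three_mem : D.e 3 ∈ v3.asIdeal
  /-- Three does not divide `E`. -/
  not_three : ¬ 3 ∣ E

variable {D} (hB : BData D E S v3)
include hB

omit [NeZero E] in
/-- `9E` lies in every place of `S`. -/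
lemma BData.nine_mem {v : Place K} (hv : v ∈ S) : D.e ((3 * (3 * E) : ℕ) : EI) ∈ v.asIdeal := by
  rw [Nat.cast_mul, map_mul]
  exact v.asIdeal.mul_mem_left _ ((hB.mem_iff v).1 hv)

omit [NeZero E] in
/-- The place `v3` is in `S`. -/
lemma BData.v3_mem : v3 ∈ S := by
  rw [hB.mem_iff, Nat.cast_mul, map_mul]
  exact v3.asIdeal.mul_mem_right _ (by exact_mod_cast hB.three_mem)

/-- The residue map from the modulus `9E`. -/
noncomputable def rS {v : Place K} (hv : v ∈ S) : RN E →+* Res v := rMod D v (hB.nine_mem hv)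

/-- The residue of a matrix. -/
noncomputable def rG {v : Place K} (hv : v ∈ S) : GN (3 * E) →* GL (Fin 2) (Res v) :=
  Matrix.GeneralLinearGroup.map (rS hB hv)

/-- The finite point of a matrix. -/
noncomputable def ptF [Finite S] (M : GN (3 * E)) : FinPt K S :=
  ⟨fun v => if h : v ∈ S then fcl S 1 (rG hB h M) else ((1 : GL (Fin 2) K) : Vert S v), by
    filter_upwards [(Set.toFinite S).compl_mem_cofinite] with v hv
    simp [show v ∉ S from hv]⟩

variable [Finite S]

omit [NeZero E] in
/-- At a place of `S` the point of `M` is the class of its residue. -/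
lemma ptF_mem {v : Place K} (hv : v ∈ S) (M : GN (3 * E)) :
    (ptF hB M).1 v = fcl S 1 (rG hB hv M) := dif_pos hv

omit [NeZero E] in
/-- Away from `S` the point of `M` is the standard vertex. -/
lemma ptF_not_mem {v : Place K} (hv : v ∉ S) (M : GN (3 * E)) :
    (ptF hB M).1 v = ((1 : GL (Fin 2) K) : Vert S v) := dif_neg hv

/-- The adelic point attached to a matrix modulo `9E` and a point of `H3`. -/
noncomputable def ptM (M : GN (3 * E)) (w : H3) : Pt K S := (ptF hB M, fun _ => w)

omit [NeZero E] in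
/-- Right translation by residues. -/
lemma rtV_ptF {v : Place K} (hv : v ∈ S) (k M : GN (3 * E)) :
    rtV (rG hB hv k) ((ptF hB M).1 v) = fcl S 1 (rG hB hv (M * k)) := by
  rw [ptF_mem hB hv, map_mul, ← rtV_mk hv, ← rtV_mk hv, rtV_rtV hv]

omit [NeZero E] in
/-- A translation with trivial residues away from `v` only moves the coordinate at `v`. -/
lemma ptF_mul {v : Place K} (hv : v ∈ S) (k M : GN (3 * E))
    (hk : ∀ u, ∀ hu : u ∈ S, u ≠ v → rG hB hu k = 1) :
    ptF hB (M * k) = (ptF hB M).set v (rtV (rG hB hv k) ((ptF hB M).1 v)) := by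
  refine Subtype.ext (funext fun u => ?_)
  rcases eq_or_ne u v with rfl | hne
  · rw [FinPt.set_self, rtV_ptF hB hv, ptF_mem hB hv]
  · rw [FinPt.set_of_ne _ hne]
    by_cases hu : u ∈ S
    · rw [ptF_mem hB hu, ptF_mem hB hu, map_mul, hk u hu hne, mul_one]
    · rw [ptF_not_mem hB hu, ptF_not_mem hB hu]

omit [NeZero E] in
/-- A translation with trivial residues at all places of `S` does not move the point. -/
lemma ptF_mul_eq (k M : GN (3 * E)) (hk : ∀ u, ∀ hu : u ∈ S, rG hB hu k = 1) :
    ptF hB (M * k) = ptF hB M := by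
  refine Subtype.ext (funext fun u => ?_)
  by_cases hu : u ∈ S
  · rw [ptF_mem hB hu, ptF_mem hB hu, map_mul, hk u hu, mul_one]
  · rw [ptF_not_mem hB hu, ptF_not_mem hB hu]

omit hB [Finite S] [NeZero E] in
/-- An element integral at `v` acts on the classes through its residue matrix. -/
lemma smul_fcl_incGL {v : Place K} (hv : v ∈ S) {g : GL (Fin 2) K}
    {a : GL (Fin 2) (v.valuation K).integer} (ha : incGL v a = g) (X : GL (Fin 2) (Res v)) :
    g • fcl S 1 X = fcl (v := v) S 1 (redG v a * X) := by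
  rw [smul_fcl, mul_one, ← fcl_mul_incGL hv, one_mul, ha]

omit [NeZero E] in
/-- Moving a point by an element of `GL₂(K)` integral at `S`. -/
lemma smul_ptF (g : GL (Fin 2) K) (X M : GN (3 * E))
    (hS : ∀ u, ∀ hu : u ∈ S, ∃ a, incGL u a = g ∧ redG u a = rG hB hu X)
    (hout : ∀ u ∉ S, g ∈ U0 (u.valuation K)) : g • ptF hB M = ptF hB (X * M) := by
  refine Subtype.ext (funext fun u => ?_)
  rw [FinPt.smul_apply]
  by_cases hu : u ∈ S
  · obtain ⟨a, ha, hr⟩ := hS u hu
    rw [ptF_mem hB hu, ptF_mem hB hu, smul_fcl_incGL hu ha, hr, map_mul]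
  · rw [ptF_not_mem hB hu, ptF_not_mem hB hu, MulAction.Quotient.smul_coe, smul_eq_mul, mul_one,
      QuotientGroup.eq, lev_of_not_mem hu, mul_one]
    exact (U0 _).inv_mem (hout u hu)

omit hB [Finite S] [NeZero E] in
variable (D) in
/-- `ℤ[ω]` into the local ring. -/
noncomputable def toLoc (v : Place K) : EI →+* (v.valuation K).integer :=
  D.ι.codRestrict (v.valuation K).integer fun x => D.valuation_le_one v x

omit hB [Finite S] [NeZero E] in
/-- `toLoc` followed by the residue map is reduction modulo `v`. -/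
lemma residue_toLoc (v : Place K) (x : EI) :
    IsLocalRing.residue (v.valuation K).valuationSubring (toLoc D v x) = rZ D v x := rfl

omit [NeZero E] in
/-- **Left invariance.** An integral `γ` sends the point of `(M, w)` to that of its residue times
`M` and `γ • w`. -/
lemma smul_ptM (γ : GL (Fin 2) EI) (M : GN (3 * E)) (w : H3) :
    D.gK γ • ptM hB M w = ptM hB (gr (3 * (3 * E)) γ * M) (gC γ • w) := by
  refine Prod.ext ?_ (funext fun u => ?_)
  · refine smul_ptF hB _ _ _ (fun u hu => ⟨Matrix.GeneralLinearGroup.map (toLoc D u) γ, ?_, ?_⟩)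
      fun u _ => le_withScalars _ (D.gK_mem_intGL u γ)
    · exact Units.ext (Matrix.ext fun i j => rfl)
    · refine Units.ext (Matrix.ext fun i j => ?_)
      exact (rMod_red D u (hB.nine_mem hu) _).symm
  · exact congrArg (· • w) (D.atInf_gK u γ)

omit [NeZero E] in
/-- Scalars. -/
lemma ptF_scal (z : (RN E)ˣ) (M : GN (3 * E)) : ptF hB (upG z 0 z * M) = ptF hB M := by
  refine Subtype.ext (funext fun u => ?_)
  by_cases hu : u ∈ S
  · rw [ptF_mem hB hu, ptF_mem hB hu, eq_comm, fcl_inj hu]
    refine ⟨Units.map (rS hB hu).toMonoidHom z, ?_⟩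
    rw [map_mul]
    congr 1
    refine Units.ext (Matrix.ext fun i j => ?_)
    rw [scal_coe]
    fin_cases i <;> fin_cases j <;> simp [rG]
  · rw [ptF_not_mem hB hu, ptF_not_mem hB hu]

omit [Finite S] [NeZero E] in
/-- At the place over `3` reduction is `re - im` modulo `3`. -/
lemma BData.rZ_v3 (x : EI) : rZ D v3 x = ((x.re - x.im : ℤ) : Res v3) := by
  have h3 : rZ D v3 3 = 0 := (rZ_eq_zero_iff D v3 3).2 hB.three_mem
  have hw : rZ D v3 ⟨1, 1⟩ = 0 := by
    have hsq : (⟨1, 1⟩ : EI) ^ 2 = 3 * ⟨0, 1⟩ := by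
      rw [pow_two]; ext <;> simp
    exact pow_eq_zero_iff two_ne_zero |>.1 (by rw [← map_pow, hsq, map_mul, h3, zero_mul])
  have e : x = ((x.re - x.im : ℤ) : EI) + (x.im : EI) * ⟨1, 1⟩ := by ext <;> simp
  conv_lhs => rw [e]
  rw [map_add, map_mul, hw, mul_zero, add_zero, map_intCast]

omit [Finite S] [NeZero E] in
/-- `3` is zero in the residue field at `v3`. -/
lemma BData.three_res : ((3 : ℕ) : Res v3) = 0 := by
  rw [← rZ_natCast D, rZ_eq_zero_iff]
  exact_mod_cast hB.three_mem

omit [Finite S] [NeZero E] in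
/-- The place over three is unique. -/
lemma BData.eq_v3 {v : Place K} (h : D.e 3 ∈ v.asIdeal) : v = v3 := by
  have hv : ∀ x : EI, D.e x ∈ v3.asIdeal → D.e x ∈ v.asIdeal := by
    intro x hx
    rw [← rZ_eq_zero_iff, hB.rZ_v3] at hx
    have hd : (3 : ℤ) ∣ x.re - x.im := by
      have : CharP (Res v3) 3 := (CharP.charP_iff_prime_eq_zero Nat.prime_three).2 hB.three_res
      exact (CharP.intCast_eq_zero_iff (Res v3) 3 _).1 hx
    rw [← rZ_eq_zero_iff]
    have h3 : rZ D v 3 = 0 := (rZ_eq_zero_iff D v 3).2 h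
    have hw : rZ D v ⟨1, 1⟩ = 0 := by
      have hsq : (⟨1, 1⟩ : EI) ^ 2 = 3 * ⟨0, 1⟩ := by
        rw [pow_two]; ext <;> simp
      exact pow_eq_zero_iff two_ne_zero |>.1 (by rw [← map_pow, hsq, map_mul, h3, zero_mul])
    obtain ⟨d, hd⟩ := hd
    have e : x = ((x.re - x.im : ℤ) : EI) + (x.im : EI) * ⟨1, 1⟩ := by ext <;> simp
    rw [e, map_add, map_mul, hw, mul_zero, add_zero, hd, Int.cast_mul, map_mul,
      show (((3 : ℤ) : EI)) = 3 by norm_cast, h3, zero_mul]
  refine (HeightOneSpectrum.ext (v3.isMaximal.eq_of_le v.isPrime.ne_top fun a ha => ?_)).symm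
  obtain ⟨x, rfl⟩ := D.e.surjective a
  exact hv x ha

omit [Finite S] [NeZero E] in
/-- At the places of `S` other than `v3` the number `E` is in the prime. -/
lemma BData.E_mem {v : Place K} (hv : v ∈ S) (hne : v ≠ v3) : D.e (E : EI) ∈ v.asIdeal := by
  have h := (hB.mem_iff v).1 hv
  rw [Nat.cast_mul, map_mul] at h
  exact (v.isPrime.mem_or_mem h).resolve_left fun h3 => hne (hB.eq_v3 (by exact_mod_cast h3))

omit [Finite S] [NeZero E] in
/-- The residue at `v3` factors through `castPi`. -/
lemma rS_v3_eq_zero {x : RN E} (hx : castPi E x = 0) : rS hB hB.v3_mem x = 0 := by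
  obtain ⟨y, rfl⟩ := red_surjective (3 * (3 * E)) x
  rw [rS, rMod_red, hB.rZ_v3]
  rw [castPi, RingHom.comp_apply, castER_red] at hx
  change ((y.re : ZMod 3) - (y.im : ZMod 3)) = 0 at hx
  rw [← Int.cast_sub, ZMod.intCast_zmod_eq_zero_iff_dvd] at hx
  obtain ⟨d, hd⟩ := hx
  rw [hd, Int.cast_mul]
  exact mul_eq_zero_of_left (by exact_mod_cast hB.three_res) _

omit [Finite S] [NeZero E] in
/-- At those places the residue map factors through reduction modulo `E`. -/
lemma rS_eq_rMod {v : Place K} (hv : v ∈ S) (hne : v ≠ v3) (x : RN E) :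
    rS hB hv x = rMod D v (hB.E_mem hv hne) (castEh E x) := (rMod_castER D _ v _ _ x).symm

omit [Finite S] [NeZero E] in
/-- A matrix trivial modulo `√-3` and modulo `E` has trivial residues at `S`. -/
lemma rG_eq_one {k : GN (3 * E)} (h3 : k.val.map (castPi E) = 1) (hE : k.val.map (castEh E) = 1)
    {u : Place K} (hu : u ∈ S) : rG hB hu k = 1 := by
  refine Units.ext (Matrix.ext fun i j => ?_)
  change rS hB hu (k.val i j) = _
  rcases eq_or_ne u v3 with rfl | hne
  · have e := congrFun (congrFun h3 i) j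
    have h0 : rS hB hu (k.val i j - (1 : Matrix (Fin 2) (Fin 2) (RN E)) i j) = 0 :=
      rS_v3_eq_zero hB (by rw [map_sub, ← Matrix.map_apply (f := castPi E) (M := k.val), e];
                           fin_cases i <;> fin_cases j <;> simp)
    rw [map_sub, sub_eq_zero] at h0
    rw [h0]
    fin_cases i <;> fin_cases j <;> simp
  · rw [rS_eq_rMod hB hu hne, ← Matrix.map_apply (f := castEh E) (M := k.val), hE]
    fin_cases i <;> fin_cases j <;> simp

/-- The function on matrices. -/
noncomputable def cl (Φ : Pt K S → ℂ) (M : GN (3 * E)) (w : H3) : ℂ := Φ (ptM hB M w)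

variable {lam : Place K → ℝ} {Φ : Pt K S → ℂ}

omit [NeZero E] in
/-- `cl` is invariant under `GL₂(ℤ[ω])` acting on both arguments. -/
lemma cl_inv (h : IsPreForm S v3 lam Φ) (γ : GL (Fin 2) EI) (M : GN (3 * E)) (w : H3) :
    cl hB Φ (gr (3 * (3 * E)) γ * M) (gC γ • w) = cl hB Φ M w := by
  rw [cl, cl, ← smul_ptM hB, isInvariant_iff.1 h.invariant]

omit [NeZero E] in
/-- `cl` is invariant under scalar matrices modulo `9E`. -/
lemma cl_scal (z : (RN E)ˣ) (M : GN (3 * E)) (w : H3) :
    cl hB Φ (upG z 0 z * M) w = cl hB Φ M w := by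
  rw [cl, cl, ptM, ptF_scal hB]; rfl

omit [NeZero E] in
/-- `cl` is invariant on the right under the matrices trivial modulo `√-3` and modulo `E`. -/
lemma cl_level (k M : GN (3 * E)) (h3 : k.val.map (castPi E) = 1) (hE : k.val.map (castEh E) = 1)
    (w : H3) : cl hB Φ (M * k) w = cl hB Φ M w := by
  rw [cl, cl, ptM, ptF_mul_eq hB k M fun u hu => rG_eq_one hB h3 hE hu]; rfl

end Fermat.LT3
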