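import Fermat.Agent.LT3.BridgeTypes

/-!
# From the descended form to a typed classical function

`exists_tauto`: a nonzero pre-form on `K` with the types at the ramified primes gives a typed
classical function `TAuto` with the same eigenvalues: the characters are fixed place by place
(`Typed`, `BridgeTypes`) and every adelic point comes from a matrix modulo `9E` (`Surj`).
The lifts of this function are taken in `Main/Lift`.
-/

set_option autoImplicit false
open NumberField Matrix MeasureTheory
open scoped Classical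

namespace Fermat.LT3
open Fermat.LT

variable {K : Type*} [Field K] [NumberField K] {D : KData K} {E : ℕ} [NeZero E]
  {S : Set (Place K)} {v3 : Place K} {lam : Place K → ℝ} [Finite S] [IsTotallyComplex K]

/-- A nonzero pre-form fixed by `ramFun` at the places of `E` gives one typed by a character at
each. -/
theorem exists_fam (hB : BData D E S v3) {Φ : Pt K S → ℂ} (h : IsPreForm S v3 lam Φ)
    (hne : ∃ p, Φ p ≠ 0) (h3 : ∀ v : ETp D E, 3 ∣ Fintype.card (Res v.1) - 1)
    (hfix : ∀ v : ETp D E, RelAt v.1 (ramFun v.1) (Fintype.card (Res v.1)ˣ) Φ) :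
    ∃ (χ : ∀ v : ETp D E, MulChar (Res v.1) ℂ) (Φ' : Pt K S → ℂ), IsPreForm S v3 lam Φ' ∧
      (∃ p, Φ' p ≠ 0) ∧ ∀ v : ETp D E, TypedAt v.1 (χ v) Φ' := by
  suffices H : ∀ T : Finset (ETp D E), ∃ Φ' : Pt K S → ℂ, IsPreForm S v3 lam Φ' ∧ (∃ p, Φ' p ≠ 0) ∧
      (∀ v ∈ T, ∃ χ, TypedAt v.1 χ Φ') ∧
        ∀ v ∉ T, RelAt v.1 (ramFun v.1) (Fintype.card (Res v.1)ˣ) Φ' by
    obtain ⟨Φ', h1, h2, h3, -⟩ := H Finset.univ
    choose χ hχ using fun v => h3 v (Finset.mem_univ v)
    exact ⟨χ, Φ', h1, h2, hχ⟩
  intro T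
  induction T using Finset.induction_on with
  | empty => exact ⟨Φ, h, hne, by simp, fun v _ => hfix v⟩
  | insert u T hu ih =>
    obtain ⟨Φ', h', hne', ht, hf⟩ := ih
    obtain ⟨χ, Φ'', h'', hne'', hty, hrel⟩ := exists_typedAt h' hB.norm_v3 hB.v3_mem
      (hB.mem_of_E u.2) (hB.ne_v3 u.2) (h3 u) (hf u hu) hne'
    refine ⟨Φ'', h'', hne'', fun w hw => ?_, fun w hw => ?_⟩
    · rcases Finset.mem_insert.1 hw with rfl | hw
      · exact ⟨χ, hty⟩
      · obtain ⟨χw, hχw⟩ := ht w hw
        exact ⟨χw, hχw.of_rel (hrel w.1 (hB.mem_of_E w.2) fun e => hu (Subtype.ext e ▸ hw))⟩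
    · rw [Finset.mem_insert, not_or] at hw
      exact hrel w.1 (hB.mem_of_E w.2) (fun e => hw.1 (Subtype.ext e)) _ _ (hf w hw.2)

variable (hB : BData D E S v3)
include hB

omit [IsTotallyComplex K] [Finite S] [NeZero E] in
/-- At a place dividing `E` the residue matrix is the reduction of the matrix modulo `E`. -/
lemma rG_val (v : ETp D E) (k : GN (3 * E)) :
    (rG hB (hB.mem_of_E v.2) k).val = (k.val.map (castEh E)).map (rE D v) :=
  Matrix.ext fun _ _ => rS_eq_rE hB v _

omit [IsTotallyComplex K] [Finite S] [NeZero E] in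
/-- The residue at `v3` is trivial exactly when the matrix is trivial after the change of
modulus. -/
lemma rG_v3_iff [Finite S] (k : GN (3 * E)) :
    k.val.map (castPi E) = 1 ↔ rG hB hB.v3_mem k = 1 := by
  have hone : ∀ i j, castPi E ((1 : Matrix (Fin 2) (Fin 2) (RN E)) i j)
      = (1 : Matrix (Fin 2) (Fin 2) (ZMod 3)) i j := fun i j => by
    fin_cases i <;> fin_cases j <;> simp
  have hone' : ∀ i j, rS hB hB.v3_mem ((1 : Matrix (Fin 2) (Fin 2) (RN E)) i j)
      = (1 : Matrix (Fin 2) (Fin 2) (Res v3)) i j := fun i j => by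
    fin_cases i <;> fin_cases j <;> simp
  refine ⟨fun h => Units.ext (Matrix.ext fun i j => ?_), fun h => Matrix.ext fun i j => ?_⟩
  · change rS hB hB.v3_mem (k.val i j) = (1 : Matrix (Fin 2) (Fin 2) (Res v3)) i j
    rw [← hone' i j, ← sub_eq_zero, ← map_sub]
    refine rS_v3_eq_zero hB ?_
    rw [map_sub, hone, sub_eq_zero]
    exact congrFun (congrFun h i) j
  · rw [Matrix.map_apply, ← hone i j, ← sub_eq_zero, ← map_sub]
    refine hB.castPi_eq_zero ?_
    rw [map_sub, hone', sub_eq_zero]
    exact congrArg (fun g : GL (Fin 2) (Res v3) => g.val i j) h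

omit [IsTotallyComplex K] [Finite S] [NeZero E] hB in
/-- `E` lies in the place of each prime dividing it. -/
lemma piPlace_mem_E {π : EI} (hπ : Prime π) (hπE : π ∣ (E : EI)) :
    D.e (E : EI) ∈ (piPlace D hπ).asIdeal :=
  (mem_piPlace D hπ _).2 hπE

omit [IsTotallyComplex K] in
/-- `SLpi E π k` means that the residues of `k` at the other places of `S` are trivial and
the one at the place of `π` has determinant one. -/
lemma SLpi_iff (hsq : Squarefree E) {π : EI} (hπ : Prime π) (hπE : π ∣ (E : EI)) (k : GN (3 * E)) :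
    SLpi E π k ↔ (∀ u, ∀ hu : u ∈ S, u ≠ piPlace D hπ → rG hB hu k = 1) ∧
      Matrix.GeneralLinearGroup.det (rG hB (hB.mem_of_E (piPlace_mem_E hπ hπE)) k) = 1 := by
  set v : ETp D E := ⟨piPlace D hπ, piPlace_mem_E hπ hπE⟩
  set A := k.val.map (castEh E)
  have hdetv : ((Matrix.GeneralLinearGroup.det (rG hB (hB.mem_of_E v.2) k) : (Res v.1)ˣ) : Res v.1)
      = rE D v A.det := by
    rw [Matrix.GeneralLinearGroup.val_det_apply, rG_val hB v, ← RingHom.mapMatrix_apply,
      ← RingHom.map_det]
  constructor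
  -- at the places other than that of `π` the residue is trivial
  · rintro ⟨h3, hdet, hA⟩
    refine ⟨fun u hu hne => ?_, Units.ext (by rw [hdetv, hdet, map_one, Units.val_one])⟩
    rcases eq_or_ne u v3 with rfl | hu3
    · exact (rG_v3_iff hB k).1 h3
    set w : ETp D E := ⟨u, hB.E_mem hu hu3⟩
    refine Units.ext (Matrix.ext fun i j => ?_)
    rw [show (rG hB hu k).val = A.map (rE D w) from rG_val hB w k]
    have e := congrArg (rE D w) (congrFun (congrFun hA i) j)
    simp only [Matrix.smul_apply, Matrix.sub_apply, smul_eq_mul, map_mul, map_sub,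
      Matrix.zero_apply, map_zero, mul_eq_zero, sub_eq_zero] at e
    have hπw : rE D w (red E π) ≠ 0 := by
      rw [show rE D w (red E π) = rZ D u π from rMod_red D _ _ _, Ne, rZ_eq_zero_iff]
      exact fun h0 => hne (eq_piPlace D hπ h0).symm
    rw [Matrix.map_apply, e.resolve_left hπw]
    fin_cases i <;> fin_cases j <;> simp
  · rintro ⟨hu, hdet⟩
    have hw : ∀ w : ETp D E, w ≠ v → A.map (rE D w) = 1 := fun w hw => by
      rw [← rG_val hB w k, hu w.1 (hB.mem_of_E w.2) fun e => hw (Subtype.ext e)]; rfl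
    refine ⟨(rG_v3_iff hB k).2 (hu v3 hB.v3_mem (hB.ne_v3 v.2).symm), ?_, ?_⟩
    -- conversely the determinant is one at every place
    · rw [← sub_eq_zero]
      refine eq_zero_of_rE D hsq hB.not_three fun w => ?_
      rw [map_sub, map_one]
      rcases eq_or_ne w v with rfl | hne
      · rw [← hdetv, hdet, Units.val_one, sub_self]
      · rw [RingHom.map_det, RingHom.mapMatrix_apply, hw w hne, Matrix.det_one, sub_self]
    -- and `π` times the deviation from `1` vanishes at every place
    · refine Matrix.ext fun i j => eq_zero_of_rE D hsq hB.not_three fun w => ?_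
      simp only [Matrix.smul_apply, Matrix.sub_apply, smul_eq_mul, map_mul, map_sub]
      rcases eq_or_ne w v with rfl | hne
      · rw [show rE D v (red E π) = rZ D (piPlace D hπ) π from rMod_red D _ _ _,
          (rZ_eq_zero_iff D _ π).2 ((mem_piPlace D hπ π).2 dvd_rfl), zero_mul]
      · have e := congrFun (congrFun (hw w hne) i) j
        rw [Matrix.map_apply] at e
        rw [e]
        fin_cases i <;> fin_cases j <;> simp

omit [IsTotallyComplex K] hB [Finite ↑S] in
/-- A typed function sums to zero over right translates by determinant one matrices. -/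
lemma typedAt_sum_sl {v : Place K} (hvS : v ∈ S) {χ : MulChar (Res v) ℂ} {Φ : Pt K S → ℂ}
    (h : TypedAt v χ Φ) (p : Pt K S) :
    ∑ M ∈ (Finset.univ : Finset (GL (Fin 2) (Res v))).filter
      (fun M => Matrix.GeneralLinearGroup.det M = 1), Φ (p.1.set v (rtV M (p.1.1 v)), p.2) = 0 := by
  by_cases hχ : χ = 1
  · exact h.slZero hχ p
  -- `χ ≠ 1`: translate the sum by `diag (s, s⁻¹)`
  obtain ⟨s, hs⟩ : ∃ s : (Res v)ˣ, χ s ≠ 1 := by
    by_contra hh
    push Not at hh
    exact hχ (MulChar.ext fun t => by rw [hh t, MulChar.one_apply_coe])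
  set t : GL (Fin 2) (Res v) := upG s 0 s⁻¹
  set X := ∑ M ∈ (Finset.univ : Finset (GL (Fin 2) (Res v))).filter
      (fun M => Matrix.GeneralLinearGroup.det M = 1), Φ (p.1.set v (rtV M (p.1.1 v)), p.2)
  have ht : Matrix.GeneralLinearGroup.det t = 1 := Units.ext (by
    rw [Matrix.GeneralLinearGroup.val_det_apply]; simp [t, Matrix.det_fin_two_of])
  -- this multiplies it by `χ s ^ 2 ≠ 1`
  have e : X = χ (s : Res v) ^ 2 * X := by
    conv_lhs => rw [show X = ∑ M ∈ (Finset.univ : Finset (GL (Fin 2) (Res v))).filter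
      (fun M => Matrix.GeneralLinearGroup.det M = 1),
        Φ (p.1.set v (rtV (M * t) (p.1.1 v)), p.2) from
      (Finset.sum_nbij' (fun M => M * t) (fun M => M * t⁻¹) (by simp +contextual [ht])
        (by simp +contextual [ht]) (fun M _ => mul_inv_cancel_right M t)
        (fun M _ => inv_mul_cancel_right M t) (fun M _ => rfl)).symm]
    rw [Finset.mul_sum]
    refine Finset.sum_congr rfl fun M _ => ?_
    have hb := h.borel t (by simp [t]) (p.1.set v (rtV M (p.1.1 v)), p.2)
    simp only [FinPt.set_self, FinPt.set_set, rtV_rtV hvS] at hb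
    rw [hb]
    congr 1
    rw [dgRat, show t.val 0 0 = (s : Res v) from rfl, show t.val 1 1 =
      ((s⁻¹ : (Res v)ˣ) : Res v) from rfl,
      Units.val_inv_eq_inv_val, div_inv_eq_mul, map_mul, pow_two]
  have hs3 : χ (s : Res v) ^ 3 = 1 := by
    rw [← MulChar.pow_apply' _ three_ne_zero, h.cube, MulChar.one_apply_coe]
  have hne : χ (s : Res v) ^ 2 ≠ 1 := fun e2 => hs (by linear_combination hs3 - χ (s : Res v) * e2)
  have : (χ (s : Res v) ^ 2 - 1) * X = 0 := by linear_combination -e
  exact (mul_eq_zero.1 this).resolve_left (sub_ne_zero.2 hne)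

omit [IsTotallyComplex K] in
/-- Right translation by an upper triangular matrix modulo `E`, trivial modulo `√-3`, multiplies
`cl` by the product character of `a d²`. -/
lemma cl_borel {Φ : Pt K S → ℂ} {χ : ∀ v : ETp D E, MulChar (Res v.1) ℂ}
    (ht : ∀ v : ETp D E, TypedAt v.1 (χ v) Φ) (k M : GN (3 * E)) (h3 : k.val.map (castPi E) = 1)
    (h10 : castEh E (k.val 1 0) = 0) (w : H3) :
    cl hB Φ (M * k) w
      = thU χ (castEh E (k.val 0 0) * castEh E (k.val 1 1) ^ 2) * cl hB Φ M w := by
  set a := castEh E (k.val 0 0)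
  set d := castEh E (k.val 1 1)
  -- the two diagonal entries modulo `E` are units
  have hdet : IsUnit (a * d) := by
    have h := (Matrix.GeneralLinearGroup.det k).isUnit.map (castEh E)
    rw [Matrix.GeneralLinearGroup.val_det_apply, Matrix.det_fin_two, map_sub, map_mul, map_mul, h10,
      mul_zero, sub_zero] at h
    exact h
  have had : IsUnit (a * d ^ 2) := by
    rw [pow_two, ← mul_assoc]; exact hdet.mul (isUnit_of_mul_isUnit_right hdet)
  rw [thU_apply χ had]
  -- it is enough to treat matrices which are trivial outside a set `T` of places of `E`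
  suffices H : ∀ T : Finset (ETp D E), ∀ k : GN (3 * E),
      (∀ v : ETp D E, v ∈ T → rE D v (castEh E (k.val 1 0)) = 0) →
      (∀ u, ∀ hu : u ∈ S, (∀ v ∈ T, v.1 ≠ u) → rG hB hu k = 1) →
      cl hB Φ (M * k) w = (∏ v ∈ T, χ v (dgRat (rG hB (hB.mem_of_E v.2) k))) * cl hB Φ M w by
    rw [H Finset.univ k (fun v _ => by rw [h10, map_zero]) fun u hu hT => ?_]
    · congr 1
      refine Finset.prod_congr rfl fun v _ => ?_
      rw [dgRat, rG_val hB v, Matrix.map_apply, Matrix.map_apply, Matrix.map_apply,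
        Matrix.map_apply,
        div_eq_mul_inv, map_mul, mulChar_inv_arg (ht v).cube, map_mul, map_mul, map_pow, map_pow]
    · by_cases hu3 : u = v3
      · subst hu3; exact (rG_v3_iff hB k).1 h3
      · exact absurd rfl (hT ⟨u, hB.E_mem hu hu3⟩ (Finset.mem_univ _))
  intro T
  -- induction on `T`
  induction T using Finset.induction_on with
  | empty =>
    intro k _ hk
    rw [Finset.prod_empty, one_mul, cl, cl, ptM, ptF_mul_eq hB k M fun u hu => hk u hu (by simp)]
    rfl
  | insert v T hv ih =>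
    intro k h10 hk
    -- split `k` into its part `k2` at `v` and the rest `k1`
    obtain ⟨k2, hk2⟩ := exists_liftGN hB fun u hu => if u = v.1 then rG hB hu k else 1
    set k1 := k * k2⁻¹
    have e2v : rG hB (hB.mem_of_E v.2) k2 = rG hB (hB.mem_of_E v.2) k := by
      rw [hk2]; exact if_pos rfl
    have e1 : ∀ u, ∀ hu : u ∈ S, rG hB hu k1 = if u = v.1 then 1 else rG hB hu k := fun u hu => by
      rw [map_mul, map_inv, hk2]
      split_ifs with h
      · exact mul_inv_cancel _
      · rw [inv_one, mul_one]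
    have hne : ∀ w ∈ T, w.1 ≠ v.1 := fun w hw e => hv (Subtype.ext e ▸ hw)
    -- the induction hypothesis for `k1`, the Borel type at `v` for `k2`
    have hT := ih k1 (fun w hw => ?_) (fun u hu hnot => ?_)
    · rw [show M * k = M * k1 * k2 by simp [k1, mul_assoc], cl, ptM,
        ptF_mul hB (hB.mem_of_E v.2) k2 (M * k1) fun u hu hne => by rw [hk2]; exact if_neg hne]
      have hb := (ht v).borel (rG hB (hB.mem_of_E v.2) k2) ?_ (ptF hB (M * k1), fun _ => w)
      · rw [hb, e2v, Finset.prod_insert hv, mul_assoc]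
        congr 1
        rw [show Φ (ptF hB (M * k1), fun _ => w) = cl hB Φ (M * k1) w from rfl, hT]
        congr 1
        refine Finset.prod_congr rfl fun w hw => ?_
        rw [e1, if_neg (hne w hw)]
      · rw [e2v, rG_val hB v, Matrix.map_apply, Matrix.map_apply]
        exact h10 v (Finset.mem_insert_self v T)
    -- `k1` is upper triangular at the places of `T`
    · have h := congrArg (fun g : GL (Fin 2) (Res w.1) => g.val 1 0) (e1 w.1 (hB.mem_of_E w.2))
      rw [if_neg (hne w hw), rG_val hB w, rG_val hB w] at h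
      simp only [Matrix.map_apply] at h
      rw [h]
      exact h10 w (Finset.mem_insert_of_mem hw)
    -- and trivial at the others
    · rw [e1]
      split_ifs with h
      · rfl
      · exact hk u hu fun w hw => by
          rcases Finset.mem_insert.1 hw with rfl | hw
          · exact fun e => h e.symm
          · exact hnot w hw

omit [IsTotallyComplex K] in
/-- The sum of the right translates of `cl` over `SLpi E π` vanishes. -/
lemma cl_slZero (hsq : Squarefree E) {Φ : Pt K S → ℂ} {χ : ∀ v : ETp D E, MulChar (Res v.1) ℂ}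
    (ht : ∀ v : ETp D E, TypedAt v.1 (χ v) Φ) {π : EI} (hπ : Prime π) (hπE : π ∣ (E : EI))
    (M : GN (3 * E)) (w : H3) :
    ∑ k ∈ (Finset.univ : Finset (GN (3 * E))).filter (SLpi E π), cl hB Φ (M * k) w = 0 := by
  set v : ETp D E := ⟨piPlace D hπ, piPlace_mem_E hπ hπE⟩
  have hv := hB.mem_of_E v.2
  set F := (Finset.univ : Finset (GN (3 * E))).filter (SLpi E π)
  set D1 := (Finset.univ : Finset (GL (Fin 2) (Res v.1))).filter
    (fun N => Matrix.GeneralLinearGroup.det N = 1)
  have hmem : ∀ k, k ∈ F ↔ (∀ u, ∀ hu : u ∈ S, u ≠ v.1 → rG hB hu k = 1) ∧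
      Matrix.GeneralLinearGroup.det (rG hB hv k) = 1 := fun k => by
    rw [Finset.mem_filter, SLpi_iff hB hsq hπ hπE]
    simp only [Finset.mem_univ, true_and]; exact Iff.rfl
  -- lift each `N` at `v` to the level group, trivially at the other places
  choose l hl using fun N : GL (Fin 2) (Res v.1) =>
    exists_liftGN hB fun u hu => if h : u = v.1 then h ▸ N else 1
  have hlv : ∀ N, rG hB hv (l N) = N := fun N => by rw [hl]; simp
  have hlu : ∀ N u, ∀ hu : u ∈ S, u ≠ v.1 → rG hB hu (l N) = 1 := fun N u hu h => by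
    rw [hl]; exact dif_neg h
  -- translate the sum by the lifts of `det = 1`
  have h1 : (D1.card : ℂ) * ∑ k ∈ F, cl hB Φ (M * k) w
      = ∑ k ∈ F, ∑ N ∈ D1, cl hB Φ (M * k * l N) w := by
    rw [Finset.sum_comm, ← nsmul_eq_mul, ← Finset.sum_const]
    refine Finset.sum_congr rfl fun N hN => ?_
    have hN1 := (Finset.mem_filter.1 hN).2
    refine (Finset.sum_nbij' (fun k => k * l N) (fun k => k * (l N)⁻¹) ?_ ?_ ?_ ?_ ?_).symm
    · intro k hk
      rw [hmem] at hk ⊢
      exact ⟨fun u hu h => by rw [map_mul, hk.1 u hu h, hlu N u hu h, one_mul],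
        by rw [map_mul, map_mul, hk.2, hlv, hN1, one_mul]⟩
    · intro k hk
      rw [hmem] at hk ⊢
      exact ⟨fun u hu h => by rw [map_mul, map_inv, hk.1 u hu h, hlu N u hu h, inv_one, one_mul],
        by rw [map_mul, map_mul, map_inv, map_inv, hk.2, hlv, hN1, inv_one, one_mul]⟩
    · exact fun k _ => mul_inv_cancel_right k _
    · exact fun k _ => inv_mul_cancel_right k _
    · exact fun k _ => by rw [mul_assoc]
  -- each inner sum vanishes, as `Φ` has a type at `v`
  have h2 : ∀ k : GN (3 * E), ∑ N ∈ D1, cl hB Φ (M * k * l N) w = 0 := fun k => by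
    rw [← typedAt_sum_sl hv (ht v) (ptF hB (M * k), fun _ => w)]
    refine Finset.sum_congr rfl fun N _ => ?_
    rw [cl, ptM, ptF_mul hB hv (l N) (M * k) (hlu N), hlv]
  rw [Finset.sum_congr rfl fun k _ => h2 k, Finset.sum_const_zero, mul_eq_zero] at h1
  refine h1.resolve_left (Nat.cast_ne_zero.2 (Finset.card_ne_zero_of_mem (a := 1) ?_))
  simp [D1]

/-- **The classical typed function.** A preform fixed by the ramified functions gives a `TAuto` with
the same eigenvalues. -/
theorem exists_tauto (hsq : Squarefree E) {Φ : Pt K S → ℂ} (h : IsPreForm S v3 lam Φ)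
    (hne : ∃ p, Φ p ≠ 0) (h3 : ∀ v : ETp D E, 3 ∣ Fintype.card (Res v.1) - 1)
    (hfix : ∀ v : ETp D E, RelAt v.1 (ramFun v.1) (Fintype.card (Res v.1)ˣ) Φ) :
    ∃ A : TAuto E, ∀ π, ∀ hπ : Prime π, A.lam π = lam (piPlace D hπ) := by
  -- spread to a family, then pick good characters
  obtain ⟨χ0, Φ0, h0, hne0, ht0⟩ := exists_fam hB h hne h3 hfix
  obtain ⟨χ, Φ1, h1, hne1, ht, hgood⟩ := exists_good hB hsq h0 χ0 ht0 hne0
  have := D.unique
  obtain ⟨w0⟩ := (inferInstance : Nonempty (InfinitePlace K))
  have hconst : ∀ x : InfinitePlace K → H3, x = fun _ => x w0 := fun x =>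
    funext fun u => congrArg x (Subsingleton.elim u w0)
  refine ⟨{
    Φ := cl hB Φ1
    nonzero := ?_
    inv := fun γ M w => cl_inv hB h1 γ M w
    scal := fun z M w => cl_scal hB z M w
    level := fun k M h3 hE w => cl_level hB k M h3 hE w
    cont := fun M => (h1.continuous (ptF hB M)).comp (continuous_pi fun _ => continuous_id)
    bound := h1.bounded.imp fun C hC M w => hC _
    arch := fun k hk hs M w => ?_
    lam := fun π => if hπ : Prime π then lam (piPlace D hπ) else 0
    hecke := fun π hπ hu T hT M w => by rw [dif_pos hπ]; exact cl_hecke hB hπ hu h1 T hT M w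
    cusp := fun M w => cl_cusp hB h1 M w
    θ := thU χ
    θ_cube := thU_cube fun v => (ht v).cube
    borel := fun k M h3 h10 w => cl_borel hB ht k M h3 h10 w
    slZero := fun π hπ hπE M w => cl_slZero hB hsq ht hπ hπE M w
    dich := fun ℓ hℓ hℓE => ?_ }, fun π hπ => dif_pos hπ⟩
  · obtain ⟨⟨o, x⟩, hp⟩ := hne1
    obtain ⟨g, M, hg⟩ := exists_smul_ptF hB o
    refine ⟨M, (atInf w0 g)⁻¹ • x w0, fun h00 => hp ?_⟩
    rw [← h00, cl, ← isInvariant_iff.1 h1.invariant g (ptM hB M ((atInf w0 g)⁻¹ • x w0))]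
    congr 1
    refine Prod.ext hg.symm (funext fun u => ?_)
    change x u = atInf u g • (atInf w0 g)⁻¹ • x w0
    rw [Subsingleton.elim u w0, smul_inv_smul]
  · -- the archimedean eigenproperty, read classically
    obtain ⟨C, hC⟩ := h1.bounded
    set F : H3 → ℂ := fun u => (k (coshd w u) : ℂ) * cl hB Φ1 M u with hF
    have hFc : Continuous F := (Complex.continuous_ofReal.comp (hk.comp (continuous_coshd.comp
      (continuous_const.prodMk continuous_id)))).mul
        ((h1.continuous (ptF hB M)).comp (continuous_pi fun _ => continuous_id))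
    have e := h1.arch w0 k hk hs (ptF hB M, fun _ => w)
    simp only at e
    rw [show (fun y : H3 =>
      (k (coshd w y) : ℂ) * Φ1 (ptF hB M, Function.update (fun _ => w) w0 y)) = F from
      funext fun y => by
        rw [hF, hconst (Function.update (fun _ => w) w0 y), Function.update_self]; rfl,
      hIntegral_eq_integral hFc.aestronglyMeasurable] at e
    exact e
  · rcases hgood ℓ (Nat.mem_primeFactors.2 ⟨hℓ, hℓE, NeZero.ne E⟩) with hu | hall
    · exact Or.inl hu
    · refine Or.inr fun u hu hu2 => ?_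
      rw [thU_apply χ hu]
      refine Finset.prod_eq_one fun v _ => ?_
      by_cases hv : D.e (ℓ : EI) ∈ v.1.asIdeal
      · rw [hall v hv, MulChar.one_apply (hu.map (rE D v))]
      · rw [(sub_one_mul_eq_zero (D := D) hsq hB.not_three ℓ u).1 hu2 v hv, map_one]

end Fermat.LT3
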