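import Fermat.Agent.LT3.Bridge

/-!
# Hecke operators and cusp relation on matrices modulo `9E`

`cl_hecke` and `cl_cusp` are the two relations for the function on matrices.
-/

set_option autoImplicit false
open IsDedekindDomain NumberField Matrix
open scoped Classical

namespace Fermat.LT3
open Fermat.LT

variable {K : Type*} [Field K] [NumberField K] {D : KData K} {E : ℕ} [NeZero E]
  {S : Set (Place K)} {v3 : Place K}

/-- A prime as a unit of the field. -/
noncomputable def piU (D : KData K) {π : EI} (h : π ≠ 0) : Kˣ :=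
  Units.mk0 (D.ι π) fun e => h (D.ι_injective (e.trans (map_zero D.ι).symm))

/-- A prime has valuation one step at its place. -/
lemma val_piPlace (D : KData K) {π : EI} (h : Prime π) :
    (piPlace D h).valuation K (D.ι π) = WithZero.exp (-1 : ℤ) := by
  rw [D.ι_apply, show ((D.e π : 𝓞 K) : K) = algebraMap (𝓞 K) K (D.e π) from rfl,
    HeightOneSpectrum.valuation_of_algebraMap]
  exact HeightOneSpectrum.intValuation_singleton _
    (fun e => h.ne_zero (D.e.injective (e.trans (map_zero D.e).symm))) rfl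

/-- A prime is a unit at every other place. -/
lemma val_eq_one_of_ne (D : KData K) {π : EI} (h : Prime π) {u : Place K} (hu : u ≠ piPlace D h) :
    u.valuation K (D.ι π) = 1 := by
  rw [D.ι_apply, show ((D.e π : 𝓞 K) : K) = algebraMap (𝓞 K) K (D.e π) from rfl,
    HeightOneSpectrum.valuation_eq_one_iff_notMem]
  exact fun hm => hu (eq_piPlace D h hm).symm

/-- `[[π, x], [0, 1]]`. -/
noncomputable def aK (D : KData K) {π : EI} (h : π ≠ 0) (x : EI) : GL (Fin 2) K :=
  upMat (piU D h) (D.ι x)

/-- `[[1, 0], [0, π]]`. -/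
noncomputable def aKi (D : KData K) {π : EI} (h : π ≠ 0) : GL (Fin 2) K :=
  scal (piU D h) * upMat (piU D h)⁻¹ 0

/-- The matrix of `aKi` is `diag(1, π)`. -/
lemma coe_aKi (D : KData K) {π : EI} (h : π ≠ 0) :
    (aKi D h : Matrix (Fin 2) (Fin 2) K) = !![1, 0; 0, D.ι π] := by
  have h0 : D.ι π ≠ 0 := (piU D h).ne_zero
  rw [aKi, Units.val_mul, scal_coe, coe_upMat, Matrix.scalar_apply]
  ext i j
  have h0' : (D.e π : K) ≠ 0 := h0
  fin_cases i <;> fin_cases j <;> simp [piU, h0']

/-- At infinity `aK` is the classical neighbour matrix. -/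
lemma atInf_aK (D : KData K) {π : EI} (h : π ≠ 0) (x : EI) (w : InfinitePlace K) :
    atInf w (aK D h x) = aC π x h := by
  refine Units.ext (Matrix.ext fun i j => ?_)
  change w.embedding ((aK D h x).val i j) = (aC π x h).val i j
  fin_cases i <;> fin_cases j <;> simp [aK, aC, piU, D.emb_e]

/-- At infinity `aKi` is the classical neighbour matrix at infinity. -/
lemma atInf_aKi (D : KData K) {π : EI} (h : π ≠ 0) (w : InfinitePlace K) :
    atInf w (aKi D h) = aInf π h := by
  refine Units.ext (Matrix.ext fun i j => ?_)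
  change w.embedding ((aKi D h).val i j) = (aInf π h).val i j
  rw [coe_aKi]
  fin_cases i <;> fin_cases j <;> simp [aInf, D.emb_e]

/-- If `upMat a b` is in `U0` then `a` and `b / a` are integral. -/
lemma val_le_of_upMat_mem {v : Place K} {a : Kˣ} {b : K} (h : upMat a b ∈ U0 (v.valuation K)) :
    v.valuation K (a : K) ≤ 1 ∧ v.valuation K (b / (a : K)) ≤ 1 := by
  have hl : lvl (v.valuation K) (upMat a b) = 0 := (lvl_eq_zero_iff _ _).2 h
  have h1 := v_quad_le (v.valuation K) (upMat a b) ((0, 0), (0, 0))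
  have h2 := v_quad_le (v.valuation K) (upMat a b) ((0, 1), (1, 1))
  rw [hl, Nat.cast_zero, WithZero.exp_zero] at h1 h2
  rw [show quad (upMat a b) ((0, 0), (0, 0)) = (a : K) by simp [quad, Matrix.det_fin_two_of]] at h1
  rw [show quad (upMat a b) ((0, 1), (1, 1)) = b / (a : K) by
    simp [quad, Matrix.det_fin_two_of]] at h2
  exact ⟨h1, h2⟩

variable {π : EI}

/-- The `N π + 1` neighbours of the standard vertex at a prime, for a group equal to `U0`. -/
theorem nbr_enum (hπ : Prime π) (T : Finset EI) (hT : ∀ x : EI, ∃! u, u ∈ T ∧ π ∣ x - u)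
    {H : Subgroup (GL (Fin 2) K)} (hH : H = U0 ((piPlace D hπ).valuation K))
    (d : GL (Fin 2) K ⧸ H → GL (Fin 2) K ⧸ H → ℕ)
    (hd : ∀ g h : GL (Fin 2) K, d g h = lvl ((piPlace D hπ).valuation K) (g⁻¹ * h))
    {f : Option T → GL (Fin 2) K ⧸ H} (hf0 : f none = (aKi D hπ.ne_zero : GL (Fin 2) K))
    (hf : ∀ u : T, f (some u) = (aK D hπ.ne_zero (u : EI) : GL (Fin 2) K)) :
    Function.Injective f ∧
      ∀ y, d ((1 : GL (Fin 2) K) : GL (Fin 2) K ⧸ H) y = 1 ↔ y ∈ Finset.univ.image f := by
  obtain ⟨v, hvdef⟩ : ∃ v, piPlace D hπ = v := ⟨_, rfl⟩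
  rw [hvdef] at hH hd
  subst hH
  have hval : v.valuation K (D.ι π) = WithZero.exp (-1 : ℤ) := hvdef ▸ val_piPlace D hπ
  have hmem : ∀ x, D.e x ∈ v.asIdeal ↔ π ∣ x := hvdef ▸ mem_piPlace D hπ
  set i0 := upMat (piU D hπ.ne_zero)⁻¹ (0 : K) with hi0
  have hmk : f none = (i0 : GL (Fin 2) K ⧸ U0 (v.valuation K)) := by
    rw [hf0, aKi, QuotientGroup.eq, scal_comm, _root_.mul_inv_rev, mul_assoc, inv_mul_cancel,
      mul_one]
    exact (U0 _).inv_mem (scal_mem_withScalars _ _)
  -- two elements of `T` which are congruent modulo `π` are equal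
  have hTv : ∀ a b : T, v.valuation K (D.ι ((b : EI) - a)) ≤ WithZero.exp (-1 : ℤ) → a = b := by
    intro a b hab
    obtain ⟨u0, -, huniq⟩ := hT (b : EI)
    have hd : π ∣ (b : EI) - a := by
      have h2 : v.valuation K (D.ι ((b : EI) - a)) < 1 := hab.trans_lt (by
        rw [← WithZero.exp_zero, WithZero.exp_lt_exp]; omega)
      exact (hmem _).1 ((D.valuation_lt_one_iff v _).1 h2)
    exact Subtype.ext ((huniq a ⟨a.2, hd⟩).trans (huniq b ⟨b.2, by simp⟩).symm)
  -- the listed vertices are distinct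
  have hinj : Function.Injective f := by
    have hsn : ∀ a : T, f (some a) ≠ f none := fun a e => by
      rw [hmk, hf, QuotientGroup.eq,
        aK, upMat_inv, upMat_mul] at e
      have := (val_le_of_upMat_mem e).1
      rw [Units.val_mul, Units.val_inv_eq_inv_val, map_mul, map_inv₀, piU, Units.val_mk0, hval,
        ← WithZero.exp_neg, ← WithZero.exp_add, ← WithZero.exp_zero, WithZero.exp_le_exp] at this
      omega
    rintro (_ | a) (_ | b) e
    · rfl
    · exact absurd e.symm (hsn b)
    · exact absurd e (hsn a)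
    · rw [hf, hf] at e
      rw [QuotientGroup.eq, aK, aK, upMat_inv, upMat_mul, inv_mul_cancel] at e
      have e2 := (val_le_of_upMat_mem e).2
      simp only [Units.val_one, div_one, Units.val_inv_eq_inv_val] at e2
      rw [show (↑(piU D hπ.ne_zero))⁻¹ * D.ι b + -(↑(piU D hπ.ne_zero))⁻¹ * D.ι a
        = (D.ι π)⁻¹ * D.ι ((b : EI) - a) by rw [map_sub]; simp only [piU, Units.val_mk0]; ring,
        map_mul, map_inv₀, hval, inv_mul_le_one₀ (zero_lt_iff.2 WithZero.exp_ne_zero)] at e2
      rw [hTv a b e2]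
  -- an integral matrix with determinant of valuation one is a step
  have hstep : ∀ g : GL (Fin 2) K, (∀ i j, v.valuation K (g.val i j) ≤ 1) →
      v.valuation K g.val.det = WithZero.exp (-1 : ℤ) →
      d ((1 : GL (Fin 2) K) : GL (Fin 2) K ⧸ U0 (v.valuation K)) g = 1 := fun g h1 h2 => by
    rw [hd, inv_one, one_mul, ← isStep_iff_lvl]
    exact ⟨1, by rwa [scal_one_eq, one_mul], by rwa [scal_one_eq, one_mul]⟩
  -- each listed vertex is at distance one
  have hnb : ∀ o, d ((1 : GL (Fin 2) K) : GL (Fin 2) K ⧸ U0 (v.valuation K)) (f o) = 1 := by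
    rintro (_ | a)
    · rw [hf0]
      refine hstep _ (fun i j => ?_) ?_
      · rw [coe_aKi]
        fin_cases i <;> fin_cases j <;> simp
        exact D.valuation_le_one v π
      · rw [coe_aKi, Matrix.det_fin_two_of]; simpa using hval
    · rw [hf]
      refine hstep _ (fun i j => ?_) ?_
      · fin_cases i <;> fin_cases j <;> simp [aK, piU] <;> exact D.valuation_le_one v _
      · simpa [aK, piU, Matrix.det_fin_two_of] using hval
  -- `T` is in bijection with the residue field
  have hcardT : T.card = Nat.card (Res v) := by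
    rw [← Nat.card_coe_set_eq (↑T : Set EI) |>.trans (Set.ncard_coe_finset T)]
    refine Nat.card_congr (Equiv.ofBijective (fun u : T => rZ D v (u : EI)) ⟨fun a b e =>
      ?_, fun z => ?_⟩)
    · refine hTv a b ?_
      have h2 : rZ D v ((b : EI) - a) = 0 := by
        rw [map_sub, show rZ D v (b : EI) = rZ D v a from e.symm, sub_self]
      rw [rZ_eq_zero_iff] at h2
      exact (valuation_le_exp_neg_iff v _ 1).2 (by rwa [pow_one])
    · obtain ⟨x, rfl⟩ := rZ_surjective D v z
      obtain ⟨u, ⟨huT, hud⟩, -⟩ := hT x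
      exact ⟨⟨u, huT⟩,
        (sub_eq_zero.1
        (by rw [← map_sub]; exact (rZ_eq_zero_iff D v _).2 ((hmem _).2 hud))).symm⟩
  -- so the list is the whole sphere, by counting in the tree
  obtain ⟨Tr, hTr⟩ := exists_vtree_of_eq rfl d hd
  refine ⟨hinj, fun y => ⟨fun hy => ?_, fun hy => ?_⟩⟩
  · have hsub : ↑(Finset.univ.image f) ⊆ {z | Tr.dist ((1 : GL (Fin 2) K) :
        GL (Fin 2) K ⧸ U0 (v.valuation K)) z = 1} := fun z hz => by
      obtain ⟨o, -, rfl⟩ := Finset.mem_image.1 hz
      rw [Set.mem_ofPred_eq, hTr]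
      exact hnb o
    rw [← Finset.mem_coe, Set.eq_of_subset_of_ncard_le hsub (le_of_eq (by
      rw [Tr.nbr_card, Set.ncard_coe_finset, Finset.card_image_of_injective _ hinj,
        Finset.card_univ, Fintype.card_option, Fintype.card_coe, hcardT, natCard_residue]))
      (Tr.nbr_finite _)]
    rw [Set.mem_ofPred_eq, hTr]
    exact hy
  · obtain ⟨o, -, rfl⟩ := Finset.mem_image.1 hy
    exact hnb o

variable (hB : BData D E S v3) (hπ : Prime π) (hu : IsUnit (red (3 * (3 * E)) π))
include hB hπ hu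

omit [NeZero E] in
/-- The place of `π` is not in `S`. -/
lemma piPlace_not_mem : piPlace D hπ ∉ S := fun hv =>
  rMod_isUnit D _ (hB.nine_mem hv) hu ((mem_piPlace D hπ π).2 dvd_rfl)

omit [NeZero E] in
/-- Away from the place of `π` the matrix `[[π, x], [0, 1]]` is integral, with the expected
residue. -/
lemma exists_loc_aK (x : EI) {u : Place K} (hne : u ≠ piPlace D hπ) :
    ∃ a, incGL u a = aK D hπ.ne_zero x ∧
      ∀ huS : u ∈ S, redG u a = rG hB huS (upG hu.unit (red (3 * (3 * E)) x) 1) := by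
  have h1 : IsUnit (toLoc D u π) := (isUnit_integer_iff _).2 (val_eq_one_of_ne D hπ hne)
  refine ⟨upG h1.unit (toLoc D u x) 1, Units.ext (Matrix.ext fun i j => ?_),
    fun huS => Units.ext (Matrix.ext fun i j => ?_)⟩
  · change (((upG h1.unit (toLoc D u x) 1).val i j : (u.valuation K).integer) : K) =
      (aK D _ x).val i j
    fin_cases i <;> fin_cases j <;> simp [aK, piU, toLoc]
  · rw [coe_redG]
    change _ = rS hB huS ((upG hu.unit (red (3 * (3 * E)) x) 1).val i j)
    fin_cases i <;> fin_cases j <;> simp [rS] <;>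
      first | exact residue_toLoc _ _ | exact not_isUnit_zero | exact map_one _

omit [NeZero E] in
/-- Away from the place of `π` the matrix `[[1, 0], [0, π]]` is integral, with the expected
residue. -/
lemma exists_loc_aKi {u : Place K} (hne : u ≠ piPlace D hπ) :
    ∃ a, incGL u a = aKi D hπ.ne_zero ∧
      ∀ huS : u ∈ S, redG u a = rG hB huS (upG 1 0 hu.unit) := by
  have h1 : IsUnit (toLoc D u π) := (isUnit_integer_iff _).2 (val_eq_one_of_ne D hπ hne)
  refine ⟨upG 1 0 h1.unit, Units.ext (Matrix.ext fun i j => ?_),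
    fun huS => Units.ext (Matrix.ext fun i j => ?_)⟩
  · change (((upG 1 0 h1.unit).val i j : (u.valuation K).integer) : K) = (aKi D _).val i j
    rw [coe_aKi]
    fin_cases i <;> fin_cases j <;> simp [toLoc]
  · rw [coe_redG]
    change _ = rS hB huS ((upG 1 0 hu.unit).val i j)
    fin_cases i <;> fin_cases j <;> simp [rS] <;>
      first | exact residue_toLoc _ _ | exact not_isUnit_zero | exact map_one _

variable [Finite S] {lam : Place K → ℝ} {Φ : Pt K S → ℂ}

omit hu [NeZero E] in
/-- The value at a neighbouring coset at `π` is a value of `cl` at a translated matrix and point. -/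
lemma cl_nbr (h : IsPreForm S v3 lam Φ) (hv : piPlace D hπ ∉ S) (g : GL (Fin 2) K)
    (X M : GN (3 * E)) (G : GL (Fin 2) ℂ) (hg : ∀ u, u ≠ piPlace D hπ → ∃ a, incGL u a = g ∧
      ∀ huS : u ∈ S, redG u a = rG hB huS X)
    (hG : ∀ w, atInf w g = G) (w : H3) :
    Φ ((ptF hB M).set (piPlace D hπ) (g : Vert S (piPlace D hπ)), fun _ => w)
      = cl hB Φ (X⁻¹ * M) (G⁻¹ • w) := by
  rw [cl, ← isInvariant_iff.1 h.invariant g (ptM hB (X⁻¹ * M) (G⁻¹ • w))]
  congr 1
  refine Prod.ext (Subtype.ext (funext fun u => ?_)) (funext fun v => ?_)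
  · change _ = g • (ptF hB (X⁻¹ * M)).1 u
    rcases eq_or_ne u (piPlace D hπ) with rfl | hne
    · rw [FinPt.set_self, ptF_not_mem hB hv, MulAction.Quotient.smul_coe, smul_eq_mul, mul_one]
    · rw [FinPt.set_of_ne _ hne]
      obtain ⟨a, ha, hr⟩ := hg u hne
      by_cases huS : u ∈ S
      · rw [ptF_mem hB huS, ptF_mem hB huS, smul_fcl_incGL huS ha, hr huS, ← map_mul,
          mul_inv_cancel_left]
      · rw [ptF_not_mem hB huS, ptF_not_mem hB huS, MulAction.Quotient.smul_coe,
          smul_eq_mul, mul_one, eq_comm, QuotientGroup.eq, lev_of_not_mem huS, mul_one]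
        exact (U0 _).inv_mem (le_withScalars _ ⟨a, ha⟩)
  · change w = atInf v g • G⁻¹ • w
    rw [hG, smul_inv_smul]

omit [NeZero E] in
/-- **Hecke relation.** The function on matrices satisfies the Hecke relation at `π` with the
eigenvalue of the form. -/
theorem cl_hecke (h : IsPreForm S v3 lam Φ) (T : Finset EI)
    (hT : ∀ x : EI, ∃! u, u ∈ T ∧ π ∣ x - u) (M : GN (3 * E)) (w : H3) :
    (∑ u ∈ T, cl hB Φ ((upG hu.unit (red (3 * (3 * E)) u) 1)⁻¹ * M) ((aC π u hπ.ne_zero)⁻¹ • w))
      + cl hB Φ ((upG 1 0 hu.unit)⁻¹ * M) ((aInf π hπ.ne_zero)⁻¹ • w)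
      = (lam (piPlace D hπ) : ℂ) * cl hB Φ M w := by
  set v := piPlace D hπ with hvdef
  have hv : v ∉ S := piPlace_not_mem hB hπ hu
  rw [show (lam v : ℂ) * cl hB Φ M w = heckeT v Φ (ptM hB M w) from (h.hecke v hv _).symm]
  let f : Option T → Vert S v := fun o =>
    match o with
    | some u => ((aK D hπ.ne_zero (u : EI) : GL (Fin 2) K) : Vert S v)
    | none => ((aKi D hπ.ne_zero : GL (Fin 2) K) : Vert S v)
  obtain ⟨hinj, hnbr⟩ := nbr_enum hπ T hT (lev_of_not_mem hv) vd vd_mk (f := f) rfl fun _ => rfl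
  have hnb : ∀ o, vd ((1 : GL (Fin 2) K) : Vert S v) (f o) = 1 := fun o =>
    (hnbr _).2 (Finset.mem_image_of_mem f (Finset.mem_univ o))
  have hrow : (sphKer (S := S) hv Polynomial.X).row ((1 : GL (Fin 2) K) : Vert S v)
      = Finset.univ.image f := Finset.ext fun y => (mem_row_sphKer_X hv).trans (hnbr y)
  rw [heckeT_eq_locAct hv, locAct, show (ptM hB M w).1.1 v = ((1 : GL (Fin 2) K) : Vert S v) from
    ptF_not_mem hB hv M, hrow, Finset.sum_image hinj.injOn, Fintype.sum_option, add_comm]
  simp only [sphKer_apply, hnb, kern_X, if_true, one_mul]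
  congr 1
  · exact (cl_nbr hB hπ h hv _ _ M _ (fun u hne => exists_loc_aKi hB hπ hu hne)
      (fun w' => atInf_aKi D _ w') w).symm
  · rw [← Finset.sum_coe_sort T]
    refine Finset.sum_congr rfl fun u _ => ?_
    exact (cl_nbr hB hπ h hv _ _ M _ (fun x hne => exists_loc_aK hB hπ hu (u : EI) hne)
      (fun w' => atInf_aK D _ _ w') w).symm

omit hπ hu [NeZero E] in
/-- **Cusp relation.** The three translates of the function on matrices by the multiples of `E` sum
to zero. -/
theorem cl_cusp (h : IsPreForm S v3 lam Φ) (M : GN (3 * E)) (w : H3) :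
    cl hB Φ M w + cl hB Φ (upG 1 (E : RN E) 1 * M) w
      + cl hB Φ (upG 1 ((2 * E : ℕ) : RN E) 1 * M) w = 0 := by
  have hv := hB.v3_mem
  have hn := hB.norm_v3
  set a := Function.surjInv redG_surjective (rG hB hv M) with ha
  set F : Vert S v3 → ℂ := fun y => Φ ((ptF hB M).set v3 y, fun _ => w) with hF
  let U : ℕ → GL (Fin 2) (v3.valuation K).integer := fun j => upG 1 ((j * E : ℕ) : _) 1
  have hU : ∀ j, red3 hn (U j) = upG 1 ((j * E : ℕ) : ZMod 3) 1 := fun j => by
    refine Units.ext (Matrix.ext fun i k => ?_)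
    change res3 hn ((U j).val i k) = _
    fin_cases i <;> fin_cases k <;> simp [U]
  -- the three points
  have hpt : ∀ j : ℕ, cl hB Φ (upG 1 ((j * E : ℕ) : RN E) 1 * M) w
      = F (cls hn (1 : GL (Fin 2) K) (red3 hn (U j * a))) := by
    intro j
    rw [hF, cl, ptM]
    congr 2
    refine Subtype.ext (funext fun u => ?_)
    rcases eq_or_ne u v3 with rfl | hne
    · rw [FinPt.set_self, ptF_mem hB hv, ← cls_eq hn hv (1 : GL (Fin 2) K) 1, scal_one_eq, one_mul,
        one_mul]
      have e : redG u (U j * a) = rG hB hv (upG 1 ((j * E : ℕ) : RN E) 1 * M) := by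
        rw [map_mul, map_mul, ha, Function.surjInv_eq redG_surjective]
        congr 1
        refine Units.ext (Matrix.ext fun i k => ?_)
        rw [coe_redG]
        change _ = rS hB hv ((upG 1 ((j * E : ℕ) : RN E) 1).val i k)
        fin_cases i <;> fin_cases k <;> simp [U] <;>
          first | exact not_isUnit_zero
                    | exact map_one _ | exact (map_mul _ _ _).trans
                                          (congrArg₂ (· * ·) (map_natCast _ _) (map_natCast _ _))
      rw [← e, show fcl S 1 (redG u (U j * a)) = fcl S 1 (redG u (U j * a) * 1) by rw [mul_one],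
        ← fcl_mul_incGL hv, fcl_one _ hv, one_mul]
    · rw [FinPt.set_of_ne _ hne]
      by_cases hu : u ∈ S
      · rw [ptF_mem hB hu, ptF_mem hB hu, map_mul]
        congr 1
        conv_rhs => rw [← one_mul (rG hB hu M)]
        congr 1
        refine Units.ext (Matrix.ext fun i k => ?_)
        have hE0 : rS hB hu (E : RN E) = 0 := by
          rw [← map_natCast (red (3 * (3 * E))), rS, rMod_red, rZ_eq_zero_iff]
          exact hB.E_mem hu hne
        change rS hB hu ((upG 1 ((j * E : ℕ) : RN E) 1).val i k) = _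
        fin_cases i <;> fin_cases k <;> simp [hE0]
      · rw [ptF_not_mem hB hu, ptF_not_mem hB hu]
  -- the idempotent
  have hfix : ∀ M0 : GL (Fin 2) (ZMod 3), F (cls hn (1 : GL (Fin 2) K) M0)
      = 2⁻¹ * ∑ N, e3 ((M0⁻¹ * N : GL (Fin 2) (ZMod 3)) : Matrix (Fin 2) (Fin 2) (ZMod 3))
          * F (cls hn (1 : GL (Fin 2) K) N) := by
    intro M0
    set y := cls (S := S) hn (1 : GL (Fin 2) K) M0 with hy
    have h2 := (isCuspType_iff_locAct hn hv Φ).1 h.cuspType ((ptF hB M).set v3 y, fun _ => w)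
    simp only [locAct, FinPt.set_self, FinPt.set_set] at h2
    refine h2.symm.trans ?_
    rw [sum_coset hn hv (1 : GL (Fin 2) K) _ _ (fun z hz _ => ?_)
      (fun z _ hne => LKer.mem_row.2 (left_ne_zero_of_mul hne))]
    · refine congrArg (fun X : ℂ => (2 : ℂ)⁻¹ * X) (Finset.sum_congr rfl fun N _ => ?_)
      refine congrArg (fun X : ℂ => X * F (cls hn (1 : GL (Fin 2) K) N)) ?_
      rw [eKer_apply, hy, eCusp_cls_cls hn hv]
    · have h3 := (U0 _).mul_mem (cls_mem (S := S) hn (1 : GL (Fin 2) K) M0)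
        (mem_U0_of_eKer_ne_zero hn (LKer.mem_row.1 hz))
      rw [← hy] at h3
      simpa [mul_assoc] using h3
  -- each term is fixed by the idempotent, so add the three sums
  have h0 := hpt 0
  rw [show upG 1 ((0 * E : ℕ) : RN E) 1 = (1 : GN (3 * E)) by
    refine Units.ext ?_; rw [upG_val]; simp [Matrix.one_fin_two], one_mul] at h0
  have h1 := hpt 1
  rw [one_mul] at h1
  rw [h0, h1, hpt 2, hfix, hfix (red3 hn (U 1 * a)), hfix (red3 hn (U 2 * a)), ← mul_add, ← mul_add,
    ← Finset.sum_add_distrib, ← Finset.sum_add_distrib]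
  refine mul_eq_zero_of_right _ (Finset.sum_eq_zero fun N _ => ?_)
  rw [← add_mul, ← add_mul]
  refine mul_eq_zero_of_left ?_ _
  set B := N * (red3 hn a)⁻¹
  have hBd := (Matrix.GeneralLinearGroup.det B).ne_zero
  rw [Matrix.GeneralLinearGroup.val_det_apply, Matrix.det_fin_two] at hBd
  -- the three summands differ by a unipotent on the right of `B`
  have key : ∀ j,
      e3 (((red3 hn (U j * a))⁻¹ * N : GL (Fin 2) (ZMod 3)) : Matrix (Fin 2) (Fin 2) (ZMod 3))
      = e3 ((B : Matrix (Fin 2) (Fin 2) (ZMod 3)) * !![1, -((j * E : ℕ) : ZMod 3); 0, 1]) :=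
          fun j => by
    rw [map_mul, _root_.mul_inv_rev, mul_assoc, Units.val_mul, e3_mul_comm, Units.val_mul,
      Matrix.mul_assoc, e3_mul_comm, ← Units.val_mul, hU]
    refine congrArg e3 (congrArg (fun X => (B : Matrix (Fin 2) (Fin 2) (ZMod 3)) * X) ?_)
    change !![_, _; _, _] = _
    simp
  rw [key, key, key]
  -- `E` is a unit modulo three, so the unipotents run over all of `ℤ/3`
  have hE : ((E : ℕ) : ZMod 3) = 1 ∨ ((E : ℕ) : ZMod 3) = 2 := by
    have := hB.not_three
    rw [← ZMod.natCast_eq_zero_iff] at this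
    revert this; generalize ((E : ℕ) : ZMod 3) = z; revert z; decide
  have hsum : ∑ r : ZMod 3, e3 ((B : Matrix (Fin 2) (Fin 2) (ZMod 3)) * !![1, r; 0, 1]) = 0 := by
    simp only [e3, Matrix.mul_apply, Fin.sum_univ_two, Matrix.of_apply, Matrix.cons_val',
      Matrix.cons_val_zero, Matrix.cons_val_one, Matrix.cons_val_fin_one, mul_one,
        mul_zero, add_zero]
    rw [← Finset.sum_div, ← Int.cast_sum, e4_unip _ _ _ _ hBd]
    simp
  rw [show (Finset.univ : Finset (ZMod 3)) = {0, 1, 2} from by decide,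
    Finset.sum_insert (by decide), Finset.sum_insert (by decide), Finset.sum_singleton] at hsum
  rw [← hsum]
  push_cast
  rcases hE with e | e <;> simp only [e] <;>
    [rw [show -(0 * 1 : ZMod 3) = 0 by decide, show -(1 * 1 : ZMod 3) = 2 by decide,
      show -(2 * 1 : ZMod 3) = 1 by decide];
     rw [show -(0 * 2 : ZMod 3) = 0 by decide, show -(1 * 2 : ZMod 3) = 1 by decide,
      show -(2 * 2 : ZMod 3) = 2 by decide]] <;> ring

end Fermat.LT3
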