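import Fermat.Agent.LT3.Auto
import Mathlib.NumberTheory.MulChar.Basic

/-!
# Classical functions with types at the primes dividing `E`

`θ` is the cubic character of the Borel subgroup; on the norm one units above each `ℓ` it is either
nontrivial or `θ` is trivial above `ℓ`; sums over `SL₂` of each residue field vanish.
-/

set_option autoImplicit false
open scoped Classical

namespace Fermat.LT3
open Fermat.LT

variable (E : ℕ) [NeZero E]

/-- Trivial away from `π`, of determinant one. -/
def SLpi (π : EI) (k : GN (3 * E)) : Prop :=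
  k.val.map (castPi E) = 1 ∧ (k.val.map (castEh E)).det = 1 ∧
    red E π • (k.val.map (castEh E) - 1) = 0

/-- An automorphic function with types. -/
structure TAuto extends Auto E where
  /-- The character of the Borel subgroup. -/
  θ : MulChar (ER (ZMod E)) ℂ
  /-- The cube of the character is trivial. -/
  θ_cube : θ ^ 3 = 1
  /-- The Borel subgroup modulo `E` acts on the right through the character. -/
  borel : ∀ k M : GN (3 * E), k.val.map (castPi E) = 1 → castEh E (k.val 1 0) = 0 → ∀ w,
    Φ (M * k) w = θ (castEh E (k.val 0 0) * castEh E (k.val 1 1) ^ 2) * Φ M w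
  /-- The sums over `SL₂` at each prime dividing `E` vanish. -/
  slZero : ∀ π : EI, Prime π → π ∣ (E : EI) → ∀ M w,
    ∑ k ∈ (Finset.univ : Finset (GN (3 * E))).filter (SLpi E π), Φ (M * k) w = 0
  /-- On units above each `ℓ ∣ E` the character is nontrivial at norm one or trivial altogether. -/
  dich : ∀ ℓ : ℕ, ℓ.Prime → ℓ ∣ E →
    (∃ u : ER (ZMod E), QuadraticAlgebra.norm u = 1 ∧ (u - 1) * (ℓ : ER (ZMod E)) = 0 ∧ θ u ≠ 1) ∨
      ∀ u : ER (ZMod E), IsUnit u → (u - 1) * (ℓ : ER (ZMod E)) = 0 → θ u = 1

end Fermat.LT3
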