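import Fermat.Agent.LT3.Surj
import Fermat.Agent.LT3.TAuto

/-!
# The characters of a typed form at the places over the level

`thU` is the product of the characters; a typed form can be changed so that at each prime dividing
`E` it is nontrivial on the norm one units or trivial above the prime.
-/

set_option autoImplicit false
open IsDedekindDomain QuadraticAlgebra
open scoped Classical

namespace Fermat.LT3
open Fermat.LT

variable {K : Type*} [Field K] [NumberField K] {D : KData K} {E : ℕ} [NeZero E]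
  {S : Set (Place K)} {v3 : Place K} {lam : Place K → ℝ}

/-- The product of the characters. -/
noncomputable def thU (χ : ∀ v : ETp D E, MulChar (Res v.1) ℂ) : MulChar (ER (ZMod E)) ℂ :=
  MulChar.ofUnitHom (∏ v, (MulChar.toUnitHom (χ v)).comp (Units.map (rE D v).toMonoidHom))

/-- On units the product character is the product of the characters of the residues. -/
lemma thU_apply (χ : ∀ v : ETp D E, MulChar (Res v.1) ℂ) {x : ER (ZMod E)} (hx : IsUnit x) :
    thU χ x = ∏ v, χ v (rE D v x) := by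
  obtain ⟨u, rfl⟩ := hx
  rw [thU, MulChar.ofUnitHom_coe, MonoidHom.finsetProd_apply, Units.coe_prod]
  exact Finset.prod_congr rfl fun v _ => MulChar.coe_toUnitHom _ _

/-- Residue classes of norm one are units. -/
lemma isUnit_of_norm_eq_one {u : ER (ZMod E)} (h : QuadraticAlgebra.norm u = 1) : IsUnit u :=
  IsUnit.of_mul_eq_one (star u) (by
    rw [show u * star u = QuadraticAlgebra.C (QuadraticAlgebra.norm u) by
      ext <;> simp [QuadraticAlgebra.norm_def] <;> ring, h]
    simp)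

/-- A product of cubic characters is cubic. -/
lemma thU_cube {χ : ∀ v : ETp D E, MulChar (Res v.1) ℂ} (h : ∀ v, χ v ^ 3 = 1) : thU χ ^ 3 = 1 := by
  refine MulChar.ext fun u => ?_
  rw [MulChar.pow_apply_coe, thU_apply χ u.isUnit, MulChar.one_apply_coe, ← Finset.prod_pow]
  refine Finset.prod_eq_one fun v _ => ?_
  rw [← MulChar.pow_apply' _ three_ne_zero, h v, MulChar.one_apply (u.isUnit.map (rE D v))]

omit [NeZero E] in
/-- A natural number is zero at `v` modulo `E` exactly when it lies in the prime. -/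
lemma rE_natCast_eq_zero (v : ETp D E) (n : ℕ) :
    rE D v (n : ER (ZMod E)) = 0 ↔ D.e (n : EI) ∈ v.1.asIdeal := by
  rw [← map_natCast (red E) n, rE, rMod_red, rZ_eq_zero_iff]

/-- `(u - 1) ℓ = 0` modulo `E` means `u` reduces to `1` at the places not containing `ℓ`. -/
lemma sub_one_mul_eq_zero (hsq : Squarefree E) (h3 : ¬ 3 ∣ E) (ℓ : ℕ) (u : ER (ZMod E)) :
    (u - 1) * (ℓ : ER (ZMod E)) = 0 ↔
      ∀ v : ETp D E, D.e (ℓ : EI) ∉ v.1.asIdeal → rE D v u = 1 := by
  refine ⟨fun h v hv => ?_, fun h => eq_zero_of_rE D hsq h3 fun v => ?_⟩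
  · have e := congrArg (rE D v) h
    rw [map_mul, map_sub, map_one, map_zero, mul_eq_zero, sub_eq_zero] at e
    exact e.resolve_right fun h0 => hv ((rE_natCast_eq_zero v ℓ).1 h0)
  · rw [map_mul, map_sub, map_one]
    by_cases hv : D.e (ℓ : EI) ∈ v.1.asIdeal
    · rw [(rE_natCast_eq_zero v ℓ).2 hv, mul_zero]
    · rw [h v hv, sub_self, zero_mul]

/-- A place contains at most one rational prime. -/
lemma prime_unique {v : Place K} {ℓ ℓ' : ℕ} (hℓ : ℓ.Prime) (hℓ' : ℓ'.Prime)
    (h : D.e (ℓ : EI) ∈ v.asIdeal) (h' : D.e (ℓ' : EI) ∈ v.asIdeal) : ℓ = ℓ' := by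
  rw [← rZ_eq_zero_iff, rZ_natCast] at h h'
  have : CharP (Res v) ℓ := (CharP.charP_iff_prime_eq_zero hℓ).2 h
  exact (Nat.prime_dvd_prime_iff_eq hℓ hℓ').1 ((CharP.cast_eq_zero_iff (Res v) ℓ ℓ').1 h')

/-- The dichotomy at a prime. -/
def GoodL (χ : ∀ v : ETp D E, MulChar (Res v.1) ℂ) (ℓ : ℕ) : Prop :=
  (∃ u : ER (ZMod E), QuadraticAlgebra.norm u = 1 ∧ (u - 1) * (ℓ : ER (ZMod E)) = 0 ∧ thU χ u ≠ 1) ∨
    ∀ v : ETp D E, D.e (ℓ : EI) ∈ v.1.asIdeal → χ v = 1

omit [NeZero E] in
/-- Conjugation does not preserve a place over a prime split in `ℤ[ω]`. -/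
lemma star_omega_mem_contra {v : Place K} {ℓ : ℕ} [Fact ℓ.Prime] (hℓv : D.e (ℓ : EI) ∈ v.asIdeal)
    (h1 : ℓ % 3 = 1) (hst : ∀ x, rZ D v x = 0 → rZ D v (star x) = 0) : False := by
  -- As `3 ∣ ℓ - 1` there is `c` with `c ^ 2 - c + 1 ≡ 0` modulo `ℓ`.
  obtain ⟨z, hz⟩ := exists_prime_orderOf_dvd_card (G := (ZMod ℓ)ˣ) 3
    (by rw [ZMod.card_units]; omega)
  have hz3 : (z : ZMod ℓ) ^ 3 = 1 := by
    rw [← Units.val_pow_eq_pow_val, ← hz, pow_orderOf_eq_one]; rfl
  have hz1 : (z : ZMod ℓ) ≠ 1 := fun e => by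
    rw [Units.ext (u := z) (v := 1) e, orderOf_one] at hz
    omega
  have hz2 : (z : ZMod ℓ) ^ 2 + z + 1 = 0 :=
    (mul_eq_zero.1 (show ((z : ZMod ℓ) - 1) *
      ((z : ZMod ℓ) ^ 2 + z + 1) = 0 by linear_combination hz3)).resolve_left (sub_ne_zero.2 hz1)
  obtain ⟨c, hc⟩ := ZMod.intCast_surjective (-(z : ZMod ℓ))
  have hc2 : rZ D v ((c ^ 2 - c + 1 : ℤ) : EI) = 0 := by
    have hd : (ℓ : ℤ) ∣ c ^ 2 - c + 1 := by
      rw [← ZMod.intCast_zmod_eq_zero_iff_dvd]
      push_cast
      rw [hc]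
      linear_combination hz2
    obtain ⟨d, hd⟩ := hd
    rw [hd, Int.cast_mul, map_mul, Int.cast_natCast, (rZ_eq_zero_iff D v _).2 hℓv, zero_mul]
  -- A root stable under conjugation would put `3` in `v`.
  have hroot : ∀ c : ℤ, rZ D v (⟨-c, 1⟩ : EI) = 0 → rZ D v ((c ^ 2 - c + 1 : ℤ) : EI) =
      0 → False := by
    intro c hc hc2
    have hs := hst _ hc
    have e2 : rZ D v ((2 * c - 1 : ℤ) : EI) = 0 := by
      have e : ((2 * c - 1 : ℤ) : EI) = -(⟨-c, 1⟩ + star (⟨-c, 1⟩ : EI)) := by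
        ext <;> simp
        ring
      rw [e, map_neg, map_add, hc, hs, add_zero, neg_zero]
    have e3 : rZ D v ((3 : ℕ) : EI) = 0 := by
      have e : ((3 : ℕ) : EI) = 4 * ((c ^ 2 - c + 1 : ℤ) : EI) - ((2 * c - 1 : ℤ) : EI) ^ 2 := by
        push_cast; ring
      rw [e, map_sub, map_mul, map_pow, hc2, e2]; simp
    have := prime_unique Fact.out Nat.prime_three hℓv ((rZ_eq_zero_iff D v _).1 e3)
    omega
  -- But one of the two roots is in `v`.
  have hprod : rZ D v ((⟨-c, 1⟩ : EI) * ⟨-(1 - c), 1⟩) = 0 := by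
    have e : (⟨-c, 1⟩ : EI) * ⟨-(1 - c), 1⟩ = -((c ^ 2 - c + 1 : ℤ) : EI) := by
      ext <;> simp [pow_two] <;> ring
    rw [e, map_neg, hc2, neg_zero]
  rw [map_mul, mul_eq_zero] at hprod
  rcases hprod with h | h
  · exact hroot c h hc2
  · refine hroot (1 - c) h ?_
    rwa [show (1 - c) ^ 2 - (1 - c) + 1 = c ^ 2 - c + 1 by ring]

/-- An integer whose class modulo `E` is a unit, `t` at `v` and `1` at the other places of `E`. -/
lemma exists_unit_eq_at (v : ETp D E) (t : (Res v.1)ˣ) :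
    ∃ X : EI, IsUnit (red E X) ∧ rE D v (red E X) = t ∧
      ∀ w : ETp D E, w ≠ v → rE D w (red E X) = 1 := by
  set s : Finset (Place K) := (Finset.univ : Finset (ETp D E)).image Subtype.val
  let tgt : ∀ w : Place K, Res w := fun w => if h : w = v.1 then h ▸ (t : Res v.1) else 1
  choose a ha using fun w : Place K => rZ_surjective D w (tgt w)
  obtain ⟨c, hcc⟩ := IsDedekindDomain.exists_forall_sub_mem_ideal (s := s)
    (fun w : Place K => w.asIdeal) (fun _ => 1) (fun w _ => w.prime)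
    (fun w _ w' _ hne => fun e => hne (HeightOneSpectrum.ext e)) (fun w => D.e (a w.1))
  set y : ER (ZMod E) := red E (D.e.symm c)
  have hy : ∀ w : ETp D E, rE D w y = tgt w.1 := fun w => by
    have h := hcc w.1 (Finset.mem_image.2 ⟨w, Finset.mem_univ _, rfl⟩)
    rw [pow_one, ← ker_toResidue, RingHom.mem_ker, map_sub, sub_eq_zero] at h
    rw [show rE D w y = rZ D w.1 (D.e.symm c) from rMod_red D _ _ _, ← ha w.1, rZ,
      RingHom.comp_apply, RingHom.comp_apply]
    simpa using h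
  have hy1 : ∀ w : ETp D E, w ≠ v → rE D w y = 1 := fun w hw => by
    rw [hy]; exact dif_neg fun e => hw (Subtype.ext e)
  have hyv : rE D v y = t := by rw [hy]; simp [tgt]
  have hyu : IsUnit y := isUnit_of_rMod D fun w hw => by
    rw [show rMod D w hw y = rE D ⟨w, hw⟩ y from rfl]
    by_cases e : (⟨w, hw⟩ : ETp D E) = v
    · subst e; rw [hyv]; exact t.ne_zero
    · rw [hy1 _ e]; exact one_ne_zero
  exact ⟨D.e.symm c, hyu, hyv, hy1⟩

/-- A cubic character is trivial on the prime field when the prime is `2` modulo `3`. -/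
lemma cubic_intCast_eq_one {v : Place K} {ℓ : ℕ} (hℓ : ℓ.Prime) (hmod : ℓ % 3 = 2)
    (hv : D.e (ℓ : EI) ∈ v.asIdeal) {χ : MulChar (Res v) ℂ} (hc : χ ^ 3 = 1) {n : ℤ}
    (hn0 : (n : Res v) ≠ 0) : χ (n : Res v) = 1 := by
  obtain ⟨m, hm⟩ : ∃ m : ℕ, 2 * ℓ - 1 = 3 * m := ⟨(2 * ℓ - 1) / 3, by omega⟩
  have := Fact.mk hℓ
  have : CharP (Res v) ℓ := (CharP.charP_iff_prime_eq_zero hℓ).2 (by
    rw [← rZ_natCast D, rZ_eq_zero_iff]; exact hv)
  have e : (ZMod.castHom dvd_rfl (Res v)) (n : ZMod ℓ) = (n : Res v) := map_intCast _ _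
  have hpow : (n : ZMod ℓ) ^ (3 * m) = n := by
    rw [← hm, show 2 * ℓ - 1 = (ℓ - 1) + ℓ by omega, pow_add, ZMod.pow_card]
    rw [ZMod.pow_card_sub_one_eq_one fun h0 => hn0 (by rw [← e, h0, map_zero]), one_mul]
  rw [← e, ← hpow, map_pow, map_pow, pow_mul, ← MulChar.pow_apply' _ three_ne_zero, hc,
    MulChar.one_apply (Ne.isUnit (by rw [e]; exact hn0)), one_pow]

/-- If conjugation moves `v`, a class which is `1` away from `v` has conjugate `1` at `v`. -/
lemma rE_star_eq_one (v : ETp D E) {y : ER (ZMod E)} (hy1 : ∀ w : ETp D E, w ≠ v → rE D w y = 1)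
    {x : EI} (hx0 : rZ D v.1 x = 0) (hxs : rZ D v.1 (star x) ≠ 0) : rE D v (star y) = 1 := by
  set g : EI →+* Res v.1 := (rE D v).comp ((starRingEnd (ER (ZMod E))).comp (red E)) with hg
  have hgx : g x = rZ D v.1 (star x) := by
    change rE D v (star (red E x)) = _
    rw [red, ← erMap_star]; exact rMod_red D _ _ _
  have : (RingHom.ker g).IsPrime := RingHom.ker_isPrime g
  set Q : Ideal (ER (ZMod E)) := RingHom.ker ((rE D v).comp (starRingEnd (ER (ZMod E))))
  have : Q.IsPrime := RingHom.ker_isPrime _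
  obtain ⟨w, hw, hQ⟩ := exists_place_of_prime D Q
  have hwv : (⟨w, hw⟩ : ETp D E) ≠ v := by
    rintro e
    have h0 : rE D ⟨w, hw⟩ (red E x) = 0 := by
      rw [e, show rE D v (red E x) = rZ D v.1 x from rMod_red D _ _ _, hx0]
    have := (hQ (red E x)).2 h0
    exact hxs (hgx ▸ this)
  have h1 := hy1 _ hwv
  have h2 : y - 1 ∈ Q :=
    (hQ _).2 (by rw [map_sub, map_one, show rMod D w hw y = 1 from h1, sub_self])
  rw [RingHom.mem_ker, map_sub, map_one, sub_eq_zero] at h2
  exact h2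

/-- A nontrivial character is nontrivial on norm one units. -/
lemma exists_norm_one (hsq : Squarefree E) (h3 : ¬ 3 ∣ E) {ℓ : ℕ} (hℓ : ℓ.Prime) (hℓE : ℓ ∣ E)
    (v : ETp D E) (hv : D.e (ℓ : EI) ∈ v.1.asIdeal) {χ : MulChar (Res v.1) ℂ} (hc : χ ^ 3 = 1)
    (hχ : χ ≠ 1) :
    ∃ u : ER (ZMod E), QuadraticAlgebra.norm u = 1 ∧ (u - 1) * (ℓ : ER (ZMod E)) = 0 ∧
      χ (rE D v u) ≠ 1 := by
  -- a unit `t` of the residue field where `χ` is not `1`
  obtain ⟨t, ht⟩ : ∃ t : (Res v.1)ˣ, χ t ≠ 1 := by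
    by_contra hh
    push Not at hh
    exact hχ (MulChar.ext fun t => by rw [hh t, MulChar.one_apply_coe])
  -- a class `y` which is `t` at `v`, `1` at the other places of `E`, and a unit
  obtain ⟨X, hyu, hyv, hy1⟩ := exists_unit_eq_at v t
  set y : ER (ZMod E) := red E X
  have hy0 : (y - 1) * (ℓ : ER (ZMod E)) = 0 :=
    (sub_one_mul_eq_zero (D := D) hsq h3 ℓ y).2 fun w hw => hy1 w fun e => hw (e ▸ hv)
  have hys : (star y - 1) * (ℓ : ER (ZMod E)) = 0 := by
    have e := congrArg star hy0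
    rwa [star_mul', star_sub, star_one, star_natCast, star_zero] at e
  -- the candidate is `u = y / star y`
  obtain ⟨yi, hyi⟩ := hyu.map (starRingEnd (ER (ZMod E)))
  change (yi : ER (ZMod E)) = star y at hyi
  set u := y * (↑yi⁻¹ : ER (ZMod E)) with hu
  have hinv : star y * (↑yi⁻¹ : ER (ZMod E)) = 1 := by rw [← hyi, Units.mul_inv]
  refine ⟨u, ?_, (sub_one_mul_eq_zero (D := D) hsq h3 ℓ u).2 fun w hw => ?_, ?_⟩
  -- it has norm one
  · have hns : QuadraticAlgebra.norm (star y) = QuadraticAlgebra.norm y := by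
      simp [QuadraticAlgebra.norm_def]; ring
    have h := congrArg QuadraticAlgebra.norm hinv
    rw [map_mul, map_one, hns, ← map_mul] at h
    exact h
  -- it is `1` away from the places over `ℓ`
  · have h1 := (sub_one_mul_eq_zero (D := D) hsq h3 ℓ _).1 hys w hw
    have h2 := congrArg (rE D w) hinv
    rw [map_mul, map_one, h1, one_mul] at h2
    rw [hu, map_mul, h2, hy1 w fun e => hw (e ▸ hv), one_mul]
  -- its value at `v`
  · have hi : rE D v u = t * (rE D v (star y))⁻¹ := by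
      have h2 := congrArg (rE D v) hinv
      rw [map_mul, map_one] at h2
      rw [hu, map_mul, hyv, eq_inv_of_mul_eq_one_right h2]
    rw [hi, map_mul, mulChar_inv_arg hc]
    by_cases hst : ∀ x : EI, rZ D v.1 x = 0 → rZ D v.1 (star x) = 0
    · -- the prime is inert
      have h31 : ℓ ≠ 3 := fun e => h3 (e ▸ hℓE)
      have hmod : ℓ % 3 = 2 := by
        have h1 : ℓ % 3 ≠ 1 := fun e => by
          have := Fact.mk hℓ
          exact star_omega_mem_contra hv e hst
        have h0 : ℓ % 3 ≠ 0 := fun e =>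
          h31 ((Nat.prime_dvd_prime_iff_eq Nat.prime_three hℓ).1 (Nat.dvd_of_mod_eq_zero e)).symm
        omega
      have hn : rE D v y * rE D v (star y) = ((QuadraticAlgebra.norm X : ℤ) : Res v.1) := by
        rw [← map_mul, show y * star y = red E (X * star X) by rw [map_mul, red, erMap_star]; rfl,
          show rE D v (red E (X * star X)) = rZ D v.1 (X * star X) from rMod_red D _ _ _,
          show X * star X = ((QuadraticAlgebra.norm X : ℤ) : EI) by
            ext <;> simp [QuadraticAlgebra.norm_def] <;> ring, map_intCast]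
      have hcube : χ ((QuadraticAlgebra.norm X : ℤ) : Res v.1) = 1 :=
        cubic_intCast_eq_one hℓ hmod hv hc (by
          rw [← hn]
          exact mul_ne_zero (hyu.map (rE D v)).ne_zero
            ((hyu.map (starRingEnd _)).map (rE D v)).ne_zero)
      have hmul : χ t * χ (rE D v (star y)) = 1 := by rw [← hyv, ← map_mul, hn, hcube]
      have ht3 : χ (t : Res v.1) ^ 3 = 1 := by
        rw [← MulChar.pow_apply' _ three_ne_zero, hc, MulChar.one_apply_coe]
      intro hh
      refine ht ?_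
      have e2 : χ (rE D v (star y)) = χ (t : Res v.1) ^ 2 := by
        linear_combination (χ (t : Res v.1) ^ 2) * hmul - χ (rE D v (star y)) * ht3
      rw [e2] at hh
      linear_combination (-χ (t : Res v.1)) * hh + (χ (t : Res v.1) ^ 3 + 1) * ht3
    · -- the prime splits
      push Not at hst
      obtain ⟨x, hx0, hxs⟩ := hst
      rw [rE_star_eq_one v hy1 hx0 hxs, map_one, one_pow, mul_one]
      exact ht

/-- **Flips reach the dichotomy.** Some flipped characters and preform of the same eigenvalues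
satisfy `GoodL` at every prime of `E`. -/
theorem exists_good [Finite S] (hB : BData D E S v3) (hsq : Squarefree E) {Φ : Pt K S → ℂ}
    (h : IsPreForm S v3 lam Φ) (χ : ∀ v : ETp D E, MulChar (Res v.1) ℂ)
    (ht : ∀ v : ETp D E, TypedAt v.1 (χ v) Φ) (hne : ∃ p, Φ p ≠ 0) :
    ∃ (χ' : ∀ v : ETp D E, MulChar (Res v.1) ℂ) (Φ' : Pt K S → ℂ), IsPreForm S v3 lam Φ' ∧
      (∃ p, Φ' p ≠ 0) ∧ (∀ v : ETp D E, TypedAt v.1 (χ' v) Φ') ∧
        ∀ ℓ ∈ E.primeFactors, GoodL χ' ℓ := by
  -- induction on the primes made good so far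
  suffices H : ∀ L ⊆ E.primeFactors, ∃ (χ' : ∀ v : ETp D E, MulChar (Res v.1) ℂ) (Φ' : Pt K S → ℂ),
      IsPreForm S v3 lam Φ' ∧ (∃ p, Φ' p ≠ 0) ∧ (∀ v : ETp D E, TypedAt v.1 (χ' v) Φ') ∧
        ∀ ℓ ∈ L, GoodL χ' ℓ from H _ (Finset.Subset.refl _)
  intro L
  induction L using Finset.induction_on with
  | empty => exact fun _ => ⟨χ, Φ, h, hne, ht, by simp⟩
  | insert ℓ L hℓL ih =>
    intro hsub
    obtain ⟨χ', Φ', h', hne', ht', hL⟩ := ih fun x hx => hsub (Finset.mem_insert_of_mem hx)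
    have hℓ := Nat.prime_of_mem_primeFactors (hsub (Finset.mem_insert_self ℓ L))
    have hℓE := Nat.dvd_of_mem_primeFactors (hsub (Finset.mem_insert_self ℓ L))
    -- if `ℓ` is already good there is nothing to do
    by_cases hg : GoodL χ' ℓ
    · exact ⟨χ', Φ', h', hne', ht', Finset.forall_mem_insert _ _ _ |>.2 ⟨hg, hL⟩⟩
    rw [GoodL] at hg
    push Not at hg
    obtain ⟨htriv, v, hvℓ, hv1⟩ := hg
    -- otherwise square the character at one bad place over `ℓ`
    obtain ⟨Φ'', h'', hne'', ht'', hrel⟩ := exists_flip h' hB.norm_v3 hB.v3_mem (hB.mem_of_E v.2)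
      (hB.ne_v3 v.2) (ht' v) hv1 hne'
    set χ'' := Function.update χ' v (χ' v ^ 2) with hχ''
    refine ⟨χ'', Φ'', h'', hne'', fun w => ?_, Finset.forall_mem_insert _ _ _ |>.2 ⟨Or.inl ?_, ?_⟩⟩
    -- the new form has the new types
    · rcases eq_or_ne w v with rfl | hw
      · rw [hχ'', Function.update_self]; exact ht''
      · rw [hχ'', Function.update_of_ne hw]
        exact (ht' w).of_rel (hrel w.1 (hB.mem_of_E w.2) fun e => hw (Subtype.ext e))
    -- `ℓ` becomes good
    · obtain ⟨u, hu1, hu2, hu3⟩ := exists_norm_one hsq hB.not_three hℓ hℓE v hvℓ (ht' v).cube hv1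
      refine ⟨u, hu1, hu2, ?_⟩
      have huu := isUnit_of_norm_eq_one hu1
      have key : thU χ'' u = thU χ' u * χ' v (rE D v u) := by
        rw [thU_apply _ huu, thU_apply _ huu, ← Finset.mul_prod_erase _ _ (Finset.mem_univ v),
          ← Finset.mul_prod_erase _ _ (Finset.mem_univ v), hχ'', Function.update_self,
          MulChar.pow_apply' _ two_ne_zero,
          Finset.prod_congr rfl fun w hw => by
            rw [Function.update_of_ne (Finset.ne_of_mem_erase hw)]]
        ring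
      rw [key, htriv u hu1 hu2, one_mul]
      exact hu3
    -- the primes of `L` stay good
    · intro ℓ' hℓ'
      have hℓ'p := Nat.prime_of_mem_primeFactors (hsub (Finset.mem_insert_of_mem hℓ'))
      have hvne : D.e (ℓ' : EI) ∉ v.1.asIdeal := fun h0 =>
        hℓL (prime_unique hℓ hℓ'p hvℓ h0 ▸ hℓ')
      rcases hL ℓ' hℓ' with ⟨u, hu1, hu2, hu3⟩ | hall
      · refine Or.inl ⟨u, hu1, hu2, ?_⟩
        have huu := isUnit_of_norm_eq_one hu1
        have key : thU χ'' u = thU χ' u := by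
          rw [thU_apply _ huu, thU_apply _ huu]
          refine Finset.prod_congr rfl fun w _ => ?_
          rcases eq_or_ne w v with rfl | hw
          · rw [(sub_one_mul_eq_zero hsq hB.not_three ℓ' u).1 hu2 w hvne, map_one, map_one]
          · rw [hχ'', Function.update_of_ne hw]
        rwa [key]
      · refine Or.inr fun w hw => ?_
        rw [hχ'', Function.update_of_ne (fun e => hvne (by rwa [← e]))]
        exact hall w hw

end Fermat.LT3
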