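import Fermat.Agent.LT3.Eis
import Fermat.Agent.LT.H3Measure
import Fermat.Agent.LT.Domain

/-!
# A Siegel set for `GL₂(ℤ[ω])`

Every point of `H3` is moved into `Sg` by some element, and only by finitely many.
-/

set_option autoImplicit false
open Matrix QuadraticAlgebra MeasureTheory
open scoped MatrixGroups

namespace Fermat.LT3
open Fermat.LT

/-- First coordinate on the basis `1, ω`. -/
noncomputable def cu (z : ℂ) : ℝ := z.re - z.im / Real.sqrt 3

/-- Second coordinate on the basis `1, ω`. -/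
noncomputable def cv (z : ℂ) : ℝ := 2 * z.im / Real.sqrt 3

/-- Translation by `x` adds its first coordinate. -/
lemma cu_add_toC (z : ℂ) (x : EI) : cu (z + toC x) = cu z + x.re := by
  have := sqrt_three_ne
  rw [toC_apply, cu, cu, Complex.add_re, Complex.add_im, emb_re, emb_im]
  field_simp
  ring

/-- Translation by `x` adds its second coordinate. -/
lemma cv_add_toC (z : ℂ) (x : EI) : cv (z + toC x) = cv z + x.im := by
  have := sqrt_three_ne
  rw [toC_apply, cv, cv, Complex.add_im, emb_im]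
  field_simp

/-- The squared absolute value in the coordinates `1, ω`. -/
lemma normSq_eq_cuv (z : ℂ) : Complex.normSq z = cu z ^ 2 + cu z * cv z + cv z ^ 2 := by
  have := sqrt_three_ne
  rw [Complex.normSq_apply, cu, cv]
  field_simp
  ring_nf
  rw [show Real.sqrt 3 ^ 2 = 3 by rw [sq]; exact sqrt_three_sq]

/-- Balls contain finitely many integers of `ℤ[ω]`. -/
lemma finite_toC_le (R : ℝ) : {x : EI | ‖toC x‖ ≤ R}.Finite := by
  set n : ℤ := ⌈2 * |R|⌉ + 1
  refine Set.Finite.of_finite_image (f := fun x : EI => (x.re, x.im))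
    ((Set.finite_Icc (-n) n).prod (Set.finite_Icc (-n) n) |>.subset ?_)
    fun x _ y _ h => QuadraticAlgebra.ext (congrArg Prod.fst h) (congrArg Prod.snd h)
  rintro _ ⟨x, hx, rfl⟩
  have h2 : ‖toC x‖ ^ 2 ≤ |R| ^ 2 :=
    pow_le_pow_left₀ (norm_nonneg _) (hx.trans (le_abs_self R)) 2
  rw [← Complex.normSq_eq_norm_sq, toC_apply, normSq_emb, qh] at h2
  push_cast at h2
  have hn : 2 * |R| ≤ (n : ℝ) := by
    simp only [n]; push_cast; linarith [Int.le_ceil (2 * |R|)]
  have ha := abs_nonneg R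
  refine ⟨⟨?_, ?_⟩, ⟨?_, ?_⟩⟩ <;>
  · rw [← Int.cast_le (R := ℝ)]
    push_cast
    nlinarith [sq_nonneg ((x.re : ℝ) + x.im), sq_nonneg (x.re : ℝ), sq_nonneg (x.im : ℝ)]

/-- `GL₂(ℤ[ω])` is countable. -/
instance instCountableGLEI : Countable (GL (Fin 2) EI) :=
  Function.Injective.countable (f := fun g : GL (Fin 2) EI => fun i j => (g : Matrix _ _ EI) i j)
    fun _ _ h => Units.ext (funext fun i => funext fun j => congrFun (congrFun h i) j)

/-- The denominator of `γ` at `w`. -/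
noncomputable def den (γ : GL (Fin 2) EI) (w : H3) : ℝ :=
  Complex.normSq (toC ((γ : Matrix (Fin 2) (Fin 2) EI) 1 0)) * (H3.coord w).2 ^ 2 +
    Complex.normSq (toC ((γ : Matrix (Fin 2) (Fin 2) EI) 1 0) * (H3.coord w).1
      + toC ((γ : Matrix (Fin 2) (Fin 2) EI) 1 1))

/-- The height of `γ • w` is the height of `w` divided by the denominator. -/
lemma height_smul (γ : GL (Fin 2) EI) (w : H3) :
    (H3.coord (gC γ • w)).2 = (H3.coord w).2 / den γ w := by
  conv_lhs => rw [← H3.mk_coord w, H3.mk_of_pos _ (H3.coord_pos w), MulAction.Quotient.smul_coe,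
    H3.coord_mk, smul_eq_mul]
  simp only
  rw [tc_mul_triMat, norm_det_gC, one_mul]
  rfl

/-- The denominator is positive. -/
lemma den_pos (γ : GL (Fin 2) EI) (w : H3) : 0 < den γ w := by
  by_contra h
  have h1 := H3.coord_pos (gC γ • w)
  rw [height_smul] at h1
  exact absurd h1 (not_lt.2 (div_nonpos_of_nonneg_of_nonpos (H3.coord_pos w).le (not_lt.1 h)))

/-- The bottom row of a matrix. -/
def botRow (γ : GL (Fin 2) EI) : EI × EI :=
  ((γ : Matrix (Fin 2) (Fin 2) EI) 1 0, (γ : Matrix (Fin 2) (Fin 2) EI) 1 1)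

/-- Only finitely many bottom rows have bounded denominators at a point. -/
lemma finite_botRow (w : H3) (R : ℝ) :
    (botRow '' {γ | den γ w ≤ R}).Finite := by
  have ht := H3.coord_pos w
  set z := (H3.coord w).1
  set t := (H3.coord w).2
  set A := Real.sqrt |R| / t
  set B := Real.sqrt |R| + A * ‖z‖
  refine ((finite_toC_le A).prod (finite_toC_le B)).subset ?_
  rintro _ ⟨γ, hγ, rfl⟩
  have hγ' : den γ w ≤ |R| := le_trans hγ (le_abs_self R)
  simp only [den] at hγ'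
  set c := toC ((γ : Matrix (Fin 2) (Fin 2) EI) 1 0)
  set d := toC ((γ : Matrix (Fin 2) (Fin 2) EI) 1 1)
  have h1 : Complex.normSq c * t ^ 2 ≤ |R| := by linarith [Complex.normSq_nonneg (c * z + d)]
  have h2 : Complex.normSq (c * z + d) ≤ |R| := by
    linarith [mul_nonneg (Complex.normSq_nonneg c) (sq_nonneg t)]
  have hc : ‖c‖ ≤ A := by
    rw [le_div_iff₀ ht]
    refine Real.le_sqrt_of_sq_le ?_
    rw [mul_pow, ← Complex.normSq_eq_norm_sq]
    exact h1
  refine ⟨hc, ?_⟩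
  change ‖d‖ ≤ B
  have h3 : ‖c * z + d‖ ≤ Real.sqrt |R| := by
    refine Real.le_sqrt_of_sq_le ?_
    rw [← Complex.normSq_eq_norm_sq]
    exact h2
  calc ‖d‖ = ‖(c * z + d) - c * z‖ := by rw [add_sub_cancel_left]
    _ ≤ ‖c * z + d‖ + ‖c * z‖ := norm_sub_le _ _
    _ ≤ B := add_le_add h3 (by rw [norm_mul]; exact mul_le_mul_of_nonneg_right hc (norm_nonneg _))

/-- Translation by `x`. -/
def trI (x : EI) : GL (Fin 2) EI := Matrix.SpecialLinearGroup.toGL (upE x)

/-- Translations act on coordinates by translation. -/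
lemma coord_trI_smul (x : EI) (w : H3) :
    H3.coord (gC (trI x) • w) = ((H3.coord w).1 + toC x, (H3.coord w).2) := by
  have h := height_smul (trI x) w
  have hd : den (trI x) w = 1 := by simp [den, trI, upE]
  rw [hd, div_one] at h
  refine Prod.ext ?_ h
  conv_lhs => rw [← H3.mk_coord w, H3.mk_of_pos _ (H3.coord_pos w), MulAction.Quotient.smul_coe,
    H3.coord_mk, smul_eq_mul]
  simp only
  rw [zc_mul_triMat_of_upper _ (by simp [gC_coe, trI, upE])]
  simp [gC_coe, trI, upE]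

/-- The Siegel set. -/
def Sg : Set H3 :=
  {w | |cu (H3.coord w).1| ≤ 1 / 2 ∧ |cv (H3.coord w).1| ≤ 1 / 2 ∧ 1 / 2 ≤ (H3.coord w).2}

/-- The Siegel set is measurable. -/
lemma measurableSet_Sg : MeasurableSet Sg := by
  have hc := continuous_coord
  have h1 : Continuous fun w => |cu (H3.coord w).1| := by unfold cu; fun_prop
  have h2 : Continuous fun w => |cv (H3.coord w).1| := by unfold cv; fun_prop
  exact ((measurableSet_le h1.measurable measurable_const).inter
    ((measurableSet_le h2.measurable measurable_const).inter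
      (measurableSet_le measurable_const hc.snd.measurable)))

/-- The matrix `[[0, 1], [1, 0]]` over `ℤ[ω]`. -/
def swI : GL (Fin 2) EI where
  val := !![0, 1; 1, 0]
  inv := !![0, 1; 1, 0]
  val_inv := by
    ext i j : 1; fin_cases i <;> fin_cases j <;> simp [Matrix.mul_apply, Fin.sum_univ_two]
  inv_val := by
    ext i j : 1; fin_cases i <;> fin_cases j <;> simp [Matrix.mul_apply, Fin.sum_univ_two]

/-- **Reduction.** Every point of `H3` is moved by `GL₂` of the Eisenstein integers into the domain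
`Sg`. -/
theorem exists_mem_Sg (w : H3) : ∃ γ : GL (Fin 2) EI, gC γ • w ∈ Sg := by
  have hfin := finite_botRow w (den 1 w)
  have hval : ((fun γ => den γ w) '' {γ | den γ w ≤ den 1 w}).Finite := by
    refine (hfin.image fun r : EI × EI => Complex.normSq (toC r.1) * (H3.coord w).2 ^ 2 +
      Complex.normSq (toC r.1 * (H3.coord w).1 + toC r.2)).subset ?_
    rintro _ ⟨γ, hγ, rfl⟩
    exact ⟨botRow γ, ⟨γ, hγ, rfl⟩, rfl⟩
  -- `γ₀` minimises `den`, so maximises the height
  obtain ⟨m, ⟨γ₀, hγ₀, rfl⟩, hm⟩ := Set.exists_min_image _ id hval ⟨_, ⟨1, le_refl (den 1 w), rfl⟩⟩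
  have hmin : ∀ γ, den γ₀ w ≤ den γ w := fun γ => by
    by_cases h : den γ w ≤ den 1 w
    · exact hm _ ⟨γ, h, rfl⟩
    · exact le_trans hγ₀ (le_of_lt (not_le.1 h))
  have hmax : ∀ γ, (H3.coord (gC γ • w)).2 ≤ (H3.coord (gC γ₀ • w)).2 := fun γ => by
    rw [height_smul, height_smul]
    exact div_le_div_of_nonneg_left (H3.coord_pos w).le (den_pos γ₀ w) (hmin γ)
  set z := (H3.coord (gC γ₀ • w)).1
  -- translate so that `|cu|, |cv| ≤ 1/2`
  let x : EI := ⟨-round (cu z), -round (cv z)⟩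
  refine ⟨trI x * γ₀, ?_⟩
  set w' := gC (trI x * γ₀) • w with hw'
  have hw : w' = gC (trI x) • gC γ₀ • w := by rw [hw', map_mul, mul_smul]
  have hu : |cu (H3.coord w').1| ≤ 1 / 2 := by
    rw [hw, coord_trI_smul, cu_add_toC]
    simpa [x, ← sub_eq_add_neg] using abs_sub_round (cu z)
  have hv : |cv (H3.coord w').1| ≤ 1 / 2 := by
    rw [hw, coord_trI_smul, cv_add_toC]
    simpa [x, ← sub_eq_add_neg] using abs_sub_round (cv z)
  refine ⟨hu, hv, ?_⟩
  -- maximality against the inversion puts `w'` outside the unit sphere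
  have hs := hmax (swI * (trI x * γ₀))
  have hh : (H3.coord w').2 = (H3.coord (gC γ₀ • w)).2 := by rw [hw, coord_trI_smul]
  rw [map_mul, mul_smul, ← hw', height_smul, ← hh] at hs
  have ht := H3.coord_pos w'
  have hd : den swI w' = (H3.coord w').2 ^ 2 + Complex.normSq (H3.coord w').1 := by
    simp [den, swI]
  rw [hd, div_le_iff₀ (by positivity [Complex.normSq_nonneg (H3.coord w').1]),
    ← div_le_iff₀' ht, div_self ht.ne', normSq_eq_cuv] at hs
  obtain ⟨hu1, hu2⟩ := abs_le.1 hu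
  obtain ⟨hv1, hv2⟩ := abs_le.1 hv
  nlinarith [mul_nonneg (sub_nonneg.2 hu2) (sub_nonneg.2 hu1),
    mul_nonneg (sub_nonneg.2 hv2) (sub_nonneg.2 hv1),
      sq_nonneg (cu (H3.coord w').1 - cv (H3.coord w').1)]

/-- **Finiteness.** Only finitely many elements move a given point into `Sg`. -/
theorem finite_mem_Sg (w : H3) : {γ : GL (Fin 2) EI | gC γ • w ∈ Sg}.Finite := by
  have hrow := finite_botRow w (2 * (H3.coord w).2)
  have hunit : {u : EIˣ | ‖toC (u : EI)‖ ≤ 1}.Finite :=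
    Set.Finite.of_finite_image ((finite_toC_le 1).subset (Set.image_subset_iff.2 fun u hu => hu))
      Units.val_injective.injOn
  let f : GL (Fin 2) EI → (EI × EI) × EIˣ := fun γ => (botRow γ, Matrix.GeneralLinearGroup.det γ)
  -- the bottom row and the determinant take finitely many values
  have himg : (f '' {γ | gC γ • w ∈ Sg}).Finite := by
    refine (hrow.prod hunit).subset ?_
    rintro _ ⟨γ, hγ, rfl⟩
    refine ⟨⟨γ, ?_, rfl⟩, ?_⟩
    · have h := hγ.2.2
      rw [height_smul, le_div_iff₀ (den_pos γ w)] at h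
      change den γ w ≤ 2 * (H3.coord w).2
      linarith
    · have h := norm_det_gC γ
      rw [gC_coe, ← RingHom.mapMatrix_apply, ← RingHom.map_det] at h
      exact le_of_eq h
  -- each fibre is finite
  refine Set.Finite.of_finite_fibers f himg fun p hp => ?_
  by_cases hne : ({γ : GL (Fin 2) EI | gC γ • w ∈ Sg} ∩ f ⁻¹' {p}).Nonempty
  swap
  · rw [Set.not_nonempty_iff_eq_empty.1 hne]; exact Set.finite_empty
  obtain ⟨γ₁, hγ₁, hfγ₁⟩ := hne
  refine ((finite_toC_le 4).image fun x => trI x * γ₁).subset ?_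
  rintro γ ⟨hγ, hfγ⟩
  simp only [Set.mem_preimage, Set.mem_singleton_iff] at hfγ hfγ₁
  have he : f γ = f γ₁ := hfγ.trans hfγ₁.symm
  simp only [f, botRow, Prod.mk.injEq] at he
  obtain ⟨⟨hc, hd⟩, hdet⟩ := he
  set d₀ := Matrix.GeneralLinearGroup.det γ₁
  let M := (γ : Matrix (Fin 2) (Fin 2) EI)
  let M₁ := (γ₁ : Matrix (Fin 2) (Fin 2) EI)
  set x : EI := ((d₀⁻¹ : EIˣ) : EI) * (M 0 1 * M₁ 0 0 - M 0 0 * M₁ 0 1) with hx
  have hdγ : M 0 0 * M 1 1 - M 0 1 * M 1 0 = (d₀ : EI) := by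
    rw [← Matrix.det_fin_two, ← hdet, Matrix.GeneralLinearGroup.val_det_apply]
  have hdγ₁ : M₁ 0 0 * M₁ 1 1 - M₁ 0 1 * M₁ 1 0 = (d₀ : EI) := by
    rw [← Matrix.det_fin_two, Matrix.GeneralLinearGroup.val_det_apply]
  have hu : ((d₀⁻¹ : EIˣ) : EI) * (d₀ : EI) = 1 := d₀.inv_mul
  simp only [M, M₁] at hdγ hdγ₁ hx
  rw [hc, hd] at hdγ
  -- two elements of a fibre differ by a translation
  have hmat : γ = trI x * γ₁ := by
    apply Units.ext
    ext i j : 1
    fin_cases i <;> fin_cases j <;>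
      simp [trI, upE, Matrix.mul_apply, Fin.sum_univ_two, hc, hd, hx]
    · linear_combination
        ((γ₁ : Matrix (Fin 2) (Fin 2) EI) 0 0 - (γ : Matrix (Fin 2) (Fin 2) EI) 0 0) * hu
        - ((d₀⁻¹ : EIˣ) : EI) * (γ : Matrix (Fin 2) (Fin 2) EI) 0 0 * hdγ₁
        + ((d₀⁻¹ : EIˣ) : EI) * (γ₁ : Matrix (Fin 2) (Fin 2) EI) 0 0 * hdγ
    · linear_combination
        ((γ₁ : Matrix (Fin 2) (Fin 2) EI) 0 1 - (γ : Matrix (Fin 2) (Fin 2) EI) 0 1) * hu
        - ((d₀⁻¹ : EIˣ) : EI) * (γ : Matrix (Fin 2) (Fin 2) EI) 0 1 * hdγ₁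
        + ((d₀⁻¹ : EIˣ) : EI) * (γ₁ : Matrix (Fin 2) (Fin 2) EI) 0 1 * hdγ
  refine ⟨x, ?_, hmat.symm⟩
  -- which is bounded by the shape of the Siegel set
  have h1 : gC γ • w = gC (trI x) • gC γ₁ • w := by rw [hmat, map_mul, mul_smul]
  obtain ⟨ha, hb, -⟩ := hγ
  rw [h1, coord_trI_smul, cu_add_toC] at ha
  rw [h1, coord_trI_smul, cv_add_toC] at hb
  obtain ⟨hu1, hu2⟩ := abs_le.1 hγ₁.1
  obtain ⟨hv1, hv2⟩ := abs_le.1 hγ₁.2.1
  obtain ⟨ha1, ha2⟩ := abs_le.1 ha
  obtain ⟨hb1, hb2⟩ := abs_le.1 hb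
  change ‖toC x‖ ≤ 4
  rw [← Real.sqrt_sq (norm_nonneg _), ← Complex.normSq_eq_norm_sq, toC_apply, normSq_emb, qh,
    Real.sqrt_le_iff]
  refine ⟨by norm_num, ?_⟩
  push_cast
  have h4 : |(x.re : ℝ)| ≤ 1 := abs_le.2 ⟨by linarith, by linarith⟩
  have h5 : |(x.im : ℝ)| ≤ 1 := abs_le.2 ⟨by linarith, by linarith⟩
  obtain ⟨p1, p2⟩ := abs_le.1 h4
  obtain ⟨q1, q2⟩ := abs_le.1 h5
  nlinarith

end Fermat.LT3
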