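import Fermat.Agent.LT3.Samp

/-!
# The functional at negative norm

If the averaging hypothesis holds at `n = -c² < 0`, the functional is a multiple of
`F ↦ ∫ r sinh r F(c cosh r)` on even functions.
-/

set_option autoImplicit false
open MeasureTheory Set Filter

namespace Fermat.LT3.Samp
open Fermat.LT3

variable {Ω : Type*} [MeasurableSpace Ω] (S : Samp Ω)

/-- The radius of `x`. -/
noncomputable def rad (c x : ℝ) : ℝ := Real.arcosh (max 1 (|x| / c))

/-- The radius is continuous. -/
lemma continuous_rad (c : ℝ) : Continuous (rad c) :=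
  Real.continuousOn_arcosh.comp_continuous (continuous_const.max (continuous_abs.div_const c))
    fun _ => Set.mem_Ici.2 (le_max_left _ _)

/-- The radius of `c cosh u` is `|u|`. -/
lemma rad_cosh {c : ℝ} (hc : 0 < c) (u : ℝ) : rad c (c * Real.cosh u) = |u| := by
  rw [rad, abs_mul, abs_of_pos hc, abs_of_pos (Real.cosh_pos u), mul_div_cancel_left₀ _ hc.ne',
    max_eq_right (Real.one_le_cosh u), ← Real.cosh_abs u, Real.arcosh_cosh (abs_nonneg u)]

/-- The radius is positive when `c < |x|`. -/
lemma rad_pos {c x : ℝ} (hc : 0 < c) (hx : c < |x|) : 0 < rad c x :=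
  Real.arcosh_pos (lt_max_of_lt_right (by rwa [one_lt_div hc]))

/-- `c cosh` of the radius of `x` is `|x|` when `c ≤ |x|`. -/
lemma cosh_rad {c x : ℝ} (hc : 0 < c) (hx : c ≤ |x|) : c * Real.cosh (rad c x) = |x| := by
  rw [rad, max_eq_right (by rwa [one_le_div hc]), Real.cosh_arcosh (by rwa [one_le_div hc])]
  field_simp

/-- The function of `x = ± c cosh r` attached to `P`. -/
noncomputable def qF (c σ : ℝ) (P : ℝ → ℂ) (x : ℝ) : ℂ := quo σ P (rad c x)

/-- The attached function of `x` is even. -/
lemma isEvenF_qF (c σ : ℝ) (P : ℝ → ℂ) : IsEvenF (qF c σ P) := fun x => by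
  simp [qF, rad]

/-- The attached function of `x` is continuous. -/
lemma continuous_qF (c σ : ℝ) {P : ℝ → ℂ} (hP : Continuous P) : Continuous (qF c σ P) :=
  (continuous_quo σ hP).comp (continuous_rad c)

/-- The quotient of an odd function is even. -/
lemma quo_neg {σ : ℝ} {P : ℝ → ℂ} (hP : Continuous P) (ho : IsOddF P) (r : ℝ) :
    quo σ P (-r) = quo σ P r := by
  rcases eq_or_ne r 0 with rfl | hr
  · rw [neg_zero]
  · rw [quo_eq hP ho (neg_ne_zero.2 hr), quo_eq hP ho hr, (ho.avg σ) r, Real.sinh_neg]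
    simp [neg_div_neg_eq]

/-- The quotient of an odd function depends only on `|r|`. -/
lemma quo_abs {σ : ℝ} {P : ℝ → ℂ} (hP : Continuous P) (ho : IsOddF P) (r : ℝ) :
    quo σ P |r| = quo σ P r := by
  rcases abs_choice r with h | h
  · rw [h]
  · rw [h, quo_neg hP ho]

/-- The support of the attached function. -/
lemma supp_qF {c R σ : ℝ} (hc : 0 < c) (hσ : 0 ≤ σ) {P : ℝ → ℂ} (hP : Continuous P)
    (ho : IsOddF P) (hR : Supp R P) : Supp (max c (c * Real.cosh (R + σ))) (qF c σ P) := by
  intro x hx
  have h1 := cosh_rad hc ((le_max_left _ _).trans hx.le)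
  have h2 : c * Real.cosh (R + σ) < c * Real.cosh (rad c x) := by
    rw [h1]; exact (le_max_right _ _).trans_lt hx
  have h3 : |R + σ| < |rad c x| := Real.cosh_lt_cosh.1 ((mul_lt_mul_iff_right₀ hc).1 h2)
  rw [qF, quo_eq hP ho (rad_pos hc ((le_max_left _ _).trans_lt hx)).ne',
    (hR.avg hσ) _ ((le_abs_self _).trans_lt h3), zero_div]

/-- The inner integral at negative norm is the transformed average. -/
lemma neg_inner {c : ℝ} (hc : 0 < c) {F : ℝ → ℂ} (hF : Continuous F) (he : IsEvenF F) {l : ℝ}
    (hl : c < |l|) (ρ : ℝ) :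
    (((Real.sqrt (l ^ 2 + -(c ^ 2)))⁻¹ : ℝ) •
      ∫ x in l * Real.cosh ρ - Real.sqrt (l ^ 2 + -(c ^ 2)) * Real.sinh ρ..
        l * Real.cosh ρ + Real.sqrt (l ^ 2 + -(c ^ 2)) * Real.sinh ρ, F x)
      = qF c ρ (fun u => F (c * Real.cosh u) * (Real.sinh u : ℂ)) l := by
  set P : ℝ → ℂ := fun u => F (c * Real.cosh u) * (Real.sinh u : ℂ) with hP
  have hPc : Continuous P := by fun_prop
  have hPo : IsOddF P := fun u => by simp [hP]
  -- write `|l| = c * cosh r`
  set r := rad c l with hr
  have hr0 : 0 < r := rad_pos hc hl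
  have hlc : c * Real.cosh r = |l| := cosh_rad hc hl.le
  have he' : Real.sqrt (l ^ 2 + -(c ^ 2)) = c * Real.sinh r := by
    rw [Real.sqrt_eq_iff_eq_sq (by rw [← sq_abs l]; nlinarith) (by positivity), ← sq_abs l, ← hlc,
      mul_pow, mul_pow, Real.cosh_sq]
    ring
  -- substitute `x = c * cosh u`
  have key : ∫ x in c * Real.cosh (r - ρ)..c * Real.cosh (r + ρ), F x = (c : ℂ) * avg ρ P r := by
    rw [← intervalIntegral.integral_deriv_smul_comp (f := fun u => c * Real.cosh u)
      (f' := fun u => c * Real.sinh u) (fun x _ => (Real.hasDerivAt_cosh x).const_mul c)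
      (by fun_prop) hF, avg_eq, ← intervalIntegral.integral_const_mul]
    refine intervalIntegral.integral_congr fun u _ => ?_
    simp only [Function.comp_apply, hP, Complex.real_smul, Complex.ofReal_mul]
    ring
  have hint : ∫ x in l * Real.cosh ρ - c * Real.sinh r * Real.sinh ρ..
      l * Real.cosh ρ + c * Real.sinh r * Real.sinh ρ, F x = (c : ℂ) * avg ρ P r := by
    rw [← key]
    -- by evenness the sign of `l` does not matter
    rcases le_or_gt 0 l with h0 | h0
    · rw [abs_of_nonneg h0] at hlc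
      rw [← hlc, Real.cosh_sub, Real.cosh_add]
      congr 1 <;> ring
    · rw [abs_of_neg h0] at hlc
      rw [← intervalIntegral.integral_congr (f := fun x => F (-x)) fun x _ => he x,
        intervalIntegral.integral_comp_neg, Real.cosh_sub, Real.cosh_add]
      congr 1
      · linear_combination (-Real.cosh ρ) * hlc
      · linear_combination (-Real.cosh ρ) * hlc
  rw [he', hint, qF, ← hr, quo_eq hPc hPo hr0.ne', Complex.real_smul]
  have hcc : (c : ℂ) ≠ 0 := by exact_mod_cast hc.ne'
  push_cast
  field_simp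

/-- Averages commute. -/
lemma avg_comm {P : ℝ → ℂ} (hP : Continuous P) {a b : ℝ} (ha : 0 ≤ a) (hb : 0 ≤ b) :
    avg a (avg b P) = avg b (avg a P) := by
  funext r
  simp only [avg]
  rw [intervalIntegral.integral_of_le (by linarith : -a ≤ a),
    intervalIntegral.integral_of_le (by linarith : -b ≤ b)]
  simp only [intervalIntegral.integral_of_le (by linarith : -a ≤ a),
    intervalIntegral.integral_of_le (by linarith : -b ≤ b)]
  rw [integral_integral_swap]
  · refine integral_congr_ae (Eventually.of_forall fun t => integral_congr_ae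
      (Eventually.of_forall fun s => ?_))
    simp only
    congr 1
    ring
  · have hc : Continuous (Function.uncurry fun s t : ℝ => P (r + s + t)) := by
      simp only [Function.uncurry_def]; fun_prop
    rw [Measure.prod_restrict]
    exact (hc.continuousOn.integrableOn_compact (μ := volume.prod volume)
      (isCompact_Icc.prod isCompact_Icc)).mono_set
      (prod_mono Ioc_subset_Icc_self Ioc_subset_Icc_self)

/-- **The averaging rule** on the functions attached to `F`. -/
lemma I_qF_of_avg {c : ℝ} (hc : 0 < c) (h : S.Avg (-(c ^ 2))) (hl : ∀ᵐ ω ∂S.μ, c < |S.l ω|)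
    {F : ℝ → ℂ} {B : ℝ} (hF : Continuous F) (he : IsEvenF F) (hB : Supp B F) {ρ : ℝ} (hρ : 0 < ρ) :
    S.I (qF c ρ fun u => F (c * Real.cosh u) * (Real.sinh u : ℂ)) = (2 * ρ : ℝ) * S.I F := by
  rw [← h F hF ⟨B, hB⟩ ρ hρ]
  refine integral_congr_ae ?_
  filter_upwards [hl] with ω hω
  rw [neg_inner hc hF he hω]

/-- Averaging multiplies the functional by the length. -/
lemma I_qF_avg {c : ℝ} (hc : 0 < c) (h : S.Avg (-(c ^ 2))) (hl : ∀ᵐ ω ∂S.μ, c < |S.l ω|)
    {P : ℝ → ℂ} {R : ℝ} (hP : Continuous P) (ho : IsOddF P) (hR : Supp R P) {σ ρ : ℝ}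
    (hσ : 0 < σ) (hρ : 0 < ρ) : S.I (qF c σ (avg ρ P)) = (2 * ρ : ℝ) * S.I (qF c σ P) := by
  rw [← S.I_qF_of_avg hc h hl (continuous_qF c σ hP) (isEvenF_qF c σ P)
    (supp_qF hc hσ.le hP ho hR) hρ]
  refine integral_congr_ae ?_
  filter_upwards [hl] with ω hω
  have e : (fun u => qF c σ P (c * Real.cosh u) * (Real.sinh u : ℂ)) = avg σ P := funext fun u => by
    rw [qF, rad_cosh hc, quo_abs hP ho, quo_mul hP ho]
  rw [e]
  congr 1
  simp only [qF]
  have hr := (rad_pos hc hω).ne'
  rw [quo_eq (continuous_avg ρ hP) (ho.avg ρ) hr, quo_eq (continuous_avg σ hP) (ho.avg σ) hr,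
    avg_comm hP hσ.le hρ.le]

/-- The attached functions of a continuous family form a continuous family. -/
lemma continuous_qF₂ (c : ℝ) {G : ℝ → ℝ → ℂ} (hG : Continuous G.uncurry) :
    Continuous (Function.uncurry fun s => qF c 1 (G s)) := by
  have h1 : Continuous fun p : (ℝ × ℝ) × ℝ =>
      G p.1.1 (p.2 * rad c p.1.2 + 1) - G p.1.1 (p.2 * rad c p.1.2 - 1) := by
    have hr := (continuous_rad c).comp ((continuous_snd.comp continuous_fst) :
      Continuous fun p : (ℝ × ℝ) × ℝ => p.1.2)
    exact ((hG.comp ((continuous_fst.comp continuous_fst).prodMk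
      ((continuous_snd.mul hr).add continuous_const))).sub
      (hG.comp ((continuous_fst.comp continuous_fst).prodMk
      ((continuous_snd.mul hr).sub continuous_const))))
  exact (intervalIntegral.continuous_parametric_intervalIntegral_of_continuous' h1 _ _).div
    (Complex.continuous_ofReal.comp (continuous_shq.comp ((continuous_rad c).comp continuous_snd)))
    fun p => Complex.ofReal_ne_zero.2 (lt_of_lt_of_le one_pos (one_le_shq _)).ne'

/-- Symmetric translates of an odd function are odd and boundedly supported. -/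
lemma shift_add_odd {P : ℝ → ℂ} {R : ℝ} (ho : IsOddF P) (hR : Supp R P) (s : ℝ) :
    IsOddF (fun r => P (r + s) + P (r + -s)) ∧
      ∀ B : ℝ, |s| ≤ B → Supp (R + B) (fun r => P (r + s) + P (r + -s)) := by
  refine ⟨fun r => ?_, fun B hB r hr => ?_⟩
  · change P (-r + s) + P (-r + -s) = -(P (r + s) + P (r + -s))
    rw [show -r + s = -(r + -s) by ring, show -r + -s = -(r + s) by ring, ho, ho]
    ring
  · have h1 := abs_add_le (r + s) (-s)
    have h2 := abs_add_le (r + -s) s
    rw [add_neg_cancel_right, abs_neg] at h1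
    rw [neg_add_cancel_right] at h2
    simp only [hR (r + s) (by linarith), hR (r + -s) (by linarith), add_zero]

/-- Attaching commutes with integrals in a parameter. -/
lemma integral_qF (c a b : ℝ) (G : ℝ → ℝ → ℂ) (hG : Continuous G.uncurry) (x : ℝ) :
    ∫ s in a..b, qF c 1 (G s) x = qF c 1 (fun r => ∫ s in a..b, G s r) x := by
  simp only [qF, quo, intervalIntegral.integral_div]
  congr 1
  have hc2 : Continuous (Function.uncurry fun s θ : ℝ =>
      G s (θ * rad c x + 1) - G s (θ * rad c x - 1)) :=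
    (hG.comp (continuous_fst.prodMk
      ((continuous_snd.mul continuous_const).add continuous_const))).sub
      (hG.comp (continuous_fst.prodMk ((continuous_snd.mul continuous_const).sub continuous_const)))
  have hint : IntegrableOn (Function.uncurry fun s θ : ℝ =>
      G s (θ * rad c x + 1) - G s (θ * rad c x - 1)) (uIoc a b ×ˢ uIoc (0 : ℝ) 1)
      ((volume : Measure ℝ).prod volume) :=
    (hc2.continuousOn.integrableOn_compact
      (isCompact_uIcc.prod isCompact_uIcc)).mono_set (prod_mono uIoc_subset_uIcc uIoc_subset_uIcc)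
  have hsw : ∫ s in a..b, ∫ θ in (0 : ℝ)..1, (G s (θ * rad c x + 1) - G s (θ * rad c x - 1))
      = ∫ θ in (0 : ℝ)..1, ∫ s in a..b, (G s (θ * rad c x + 1) - G s (θ * rad c x - 1)) := by
    simp only [intervalIntegral.intervalIntegral_eq_integral_uIoc, integral_smul]
    rw [integral_integral_swap (by rw [Measure.prod_restrict]; exact hint), smul_comm]
  rw [hsw]
  refine intervalIntegral.integral_congr fun θ _ => ?_
  exact intervalIntegral.integral_sub
    ((hG.comp (continuous_id.prodMk continuous_const)).intervalIntegrable _ _)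
    ((hG.comp (continuous_id.prodMk continuous_const)).intervalIntegrable _ _)

/-- Attaching is homogeneous. -/
lemma qF_const_mul (c : ℝ) (k : ℂ) (P : ℝ → ℂ) :
    (qF c 1 fun r => k * P r) = fun x => k * qF c 1 P x := by
  funext x
  simp only [qF, quo, ← mul_sub, intervalIntegral.integral_const_mul, mul_div_assoc]

/-- The functional does not see symmetric translation. -/
lemma I_qF_shift {c : ℝ} (hc : 0 < c) (h : S.Avg (-(c ^ 2))) (hl : ∀ᵐ ω ∂S.μ, c < |S.l ω|)
    {P : ℝ → ℂ} {R : ℝ} (hP : Continuous P) (ho : IsOddF P) (hR : Supp R P) (s : ℝ) :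
    S.I (qF c 1 fun r => P (r + s) + P (r + -s)) = 2 * S.I (qF c 1 P) := by
  set φ : ℝ → ℂ := fun s => S.I (qF c 1 fun r => P (r + s) + P (r + -s)) with hφ
  have hG : Continuous (Function.uncurry fun s r : ℝ => P (r + s) + P (r + -s)) :=
    (hP.comp (continuous_snd.add continuous_fst)).add
      (hP.comp (continuous_snd.add continuous_fst.neg))
  have hGs : ∀ s : ℝ, Continuous fun r => P (r + s) + P (r + -s) := fun s => by fun_prop
  have hB : ∀ a b : ℝ, ∀ s ∈ Icc a b, Supp (max c (c * Real.cosh (R + max |a| |b| + 1)))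
      (qF c 1 fun r => P (r + s) + P (r + -s)) := fun a b s hs =>
    supp_qF hc zero_le_one (hGs s) (shift_add_odd ho hR s).1
      ((shift_add_odd ho hR s).2 _ (abs_le_max_abs_abs hs.1 hs.2))
  have hφc : Continuous φ := S.continuous_I (continuous_qF₂ c hG) fun a b => ⟨_, hB a b⟩
  have h0 : φ 0 = 2 * S.I (qF c 1 P) := by
    simp only [hφ, neg_zero, add_zero, ← two_mul, qF_const_mul, S.I_const_mul]
  have hi : ∀ ρ : ℝ, 0 < ρ → ∫ s in -ρ..ρ, φ s = (2 * ρ : ℝ) * φ 0 := by
    intro ρ hρ
    rw [S.integral_I (continuous_qF₂ c hG) (by linarith) (hB _ _)]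
    have e : (fun x => ∫ s in -ρ..ρ, qF c 1 (fun r => P (r + s) + P (r + -s)) x)
        = qF c 1 (fun r => 2 * avg ρ P r) := by
      funext x
      rw [integral_qF c _ _ (fun s r => P (r + s) + P (r + -s)) hG x]
      congr 1
      funext r
      rw [intervalIntegral.integral_add (f := fun s => P (r + s)) (g := fun s => P (r + -s))
        ((by fun_prop : Continuous fun s => P (r + s)).intervalIntegrable _ _)
        ((by fun_prop : Continuous fun s => P (r + -s)).intervalIntegrable _ _),
        intervalIntegral.integral_comp_neg (fun s => P (r + s)), neg_neg, avg, two_mul]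
    rw [e, qF_const_mul, S.I_const_mul, S.I_qF_avg hc h hl hP ho hR one_pos hρ, h0]
    ring
  have h' := sym_of_integral hφc hi rfl s
  have he : φ (-s) = φ s := by simp only [hφ, neg_neg, add_comm]
  rw [he, ← two_mul, h0] at h'
  exact mul_left_cancel₀ two_ne_zero h'

/-- Attaching a symmetric integral of translates is attaching a correlation. -/
lemma qF_corr_eq (c B : ℝ) {P E : ℝ → ℂ} (hP : Continuous P) (hE : Continuous E) (hEe : IsEvenF E) :
    (fun x => ∫ s in -B..B, E s * qF c 1 (fun r => P (r + s) + P (r + -s)) x)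
      = fun x => 2 * qF c 1 (corr B E P) x := by
  have hG : Continuous (Function.uncurry fun s r : ℝ => E s * (P (r + s) + P (r + -s))) :=
    (hE.comp continuous_fst).mul ((hP.comp (continuous_snd.add continuous_fst)).add
      (hP.comp (continuous_snd.add continuous_fst.neg)))
  have h2 : (fun r => ∫ s in -B..B, E s * (P (r + s) + P (r + -s))) =
      fun r => 2 * corr B E P r := by
    funext r
    have h3 : ∫ s in -B..B, E s * P (r + -s) = corr B E P r := by
      rw [corr]
      conv_rhs => rw [← neg_neg B, ← intervalIntegral.integral_comp_neg, neg_neg]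
      exact intervalIntegral.integral_congr fun s _ => by simp only [hEe s]
    simp only [mul_add]
    rw [intervalIntegral.integral_add (f := fun s => E s * P (r + s))
      (g := fun s => E s * P (r + -s))
      ((by fun_prop : Continuous fun s => E s * P (r + s)).intervalIntegrable _ _)
      ((by fun_prop : Continuous fun s => E s * P (r + -s)).intervalIntegrable _ _), h3,
      ← corr, two_mul]
  funext x
  rw [← congrFun (qF_const_mul c 2 _) x, ← h2,
    ← integral_qF c _ _ (fun s r => E s * (P (r + s) + P (r + -s))) hG x]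
  simp only [qF_const_mul]

/-- The functional on a correlation factors. -/
lemma I_qF_corr {c : ℝ} (hc : 0 < c) (h : S.Avg (-(c ^ 2))) (hl : ∀ᵐ ω ∂S.μ, c < |S.l ω|)
    {P E : ℝ → ℂ} {R B : ℝ} (hP : Continuous P) (hE : Continuous E) (ho : IsOddF P) (hR : Supp R P)
    (hRE : Supp R E) (hEe : IsEvenF E) (hRB : R < B) (hB0 : 0 ≤ B) :
    S.I (qF c 1 (corr B E P)) = S.I (qF c 1 P) * ∫ s, E s := by
  have hG : Continuous (Function.uncurry fun s r : ℝ => E s * (P (r + s) + P (r + -s))) :=
    (hE.comp continuous_fst).mul ((hP.comp (continuous_snd.add continuous_fst)).add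
      (hP.comp (continuous_snd.add continuous_fst.neg)))
  have hGs : ∀ s : ℝ, Continuous fun r => P (r + s) + P (r + -s) := fun s => by fun_prop
  have hB : ∀ s ∈ Icc (-B) B, Supp (max c (c * Real.cosh (R + B + 1)))
      (qF c 1 fun r => E s * (P (r + s) + P (r + -s))) := fun s hs x hx => by
    rw [qF_const_mul]
    simp only [supp_qF hc zero_le_one (hGs s) (shift_add_odd ho hR s).1
      ((shift_add_odd ho hR s).2 B (abs_le.2 ⟨hs.1, hs.2⟩)) x hx, mul_zero]
  have h1 := S.integral_I (continuous_qF₂ c hG) (by linarith : -B ≤ B) hB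
  simp only [qF_const_mul, S.I_const_mul, S.I_qF_shift hc h hl hP ho hR,
    intervalIntegral.integral_mul_const, integral_of_supp hRE hRB] at h1
  rw [qF_corr_eq c B hP hE hEe, S.I_const_mul] at h1
  linear_combination (-1 / 2 : ℂ) * h1

/-- The primitive vanishing on the left. -/
noncomputable def primF (R : ℝ) (P : ℝ → ℂ) (r : ℝ) : ℂ := ∫ u in -(R + 1)..r, P u

/-- The primitive differentiates back. -/
lemma hasDerivAt_primF (R : ℝ) {P : ℝ → ℂ} (hP : Continuous P) (r : ℝ) :
    HasDerivAt (primF R P) (P r) r :=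
  (hP.integral_hasStrictDerivAt (-(R + 1)) r).hasDerivAt

/-- The primitive is continuous. -/
lemma continuous_primF (R : ℝ) {P : ℝ → ℂ} (hP : Continuous P) : Continuous (primF R P) :=
  continuous_iff_continuousAt.2 fun r => (hasDerivAt_primF R hP r).continuousAt

/-- The primitive of an odd function is even. -/
lemma isEvenF_primF (R : ℝ) {P : ℝ → ℂ} (hP : Continuous P) (ho : IsOddF P) :
    IsEvenF (primF R P) := by
  intro r
  have h : ∫ u in -r..r, P u = -∫ u in -r..r, P u := by
    conv_lhs => rw [← neg_neg r, ← intervalIntegral.integral_comp_neg, neg_neg,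
      intervalIntegral.integral_congr (g := fun u => -P u) fun u _ => ho u,
      intervalIntegral.integral_neg]
  simp only [primF]
  rw [← intervalIntegral.integral_add_adjacent_intervals (hP.intervalIntegrable (-(R + 1)) (-r))
    (hP.intervalIntegrable (-r) r), self_eq_neg.1 h, add_zero]

/-- The primitive of an odd function has the same support. -/
lemma supp_primF {R : ℝ} (hR0 : 0 ≤ R) {P : ℝ → ℂ} (hP : Continuous P) (ho : IsOddF P)
    (hR : Supp R P) :
    Supp R (primF R P) := by
  have hneg : ∀ r, r < -R → primF R P r = 0 := fun r hr => by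
    rw [primF, intervalIntegral.integral_congr (g := fun _ => (0 : ℂ)) fun u hu => hR u ?_]
    · simp
    · have : u ≤ max (-(R + 1)) r := hu.2
      rw [abs_of_nonpos (by linarith [max_le (by linarith : -(R + 1) ≤ -R) hr.le])]
      rcases le_max_iff.1 this with h | h <;> linarith
  intro r hr
  rcases lt_abs.1 hr with h | h
  · rw [← isEvenF_primF R hP ho r]; exact hneg _ (by linarith)
  · exact hneg _ (by linarith)

/-- Integration by parts for the primitive. -/
lemma integral_primF {R : ℝ} (hR0 : 0 ≤ R) {P : ℝ → ℂ} (hP : Continuous P) (ho : IsOddF P)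
    (hR : Supp R P) : ∫ r, primF R P r = -∫ r : ℝ, (r : ℂ) * P r := by
  have hs := supp_primF hR0 hP ho hR
  have hb := intervalIntegral.integral_mul_deriv_eq_deriv_mul (u := fun r : ℝ => (r : ℂ))
    (u' := fun _ => (1 : ℂ)) (v := primF R P) (v' := P) (a := -(R + 1)) (b := R + 1)
    (fun x _ => (hasDerivAt_id x).ofReal_comp) (fun x _ => hasDerivAt_primF R hP x)
    intervalIntegrable_const (hP.intervalIntegrable _ _)
  rw [hs (R + 1) (by rw [abs_of_nonneg (by linarith)]; linarith),
    hs (-(R + 1)) (by rw [abs_neg, abs_of_nonneg (by linarith)]; linarith)] at hb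
  simp only [one_mul, mul_zero, sub_zero, zero_sub] at hb
  rw [← integral_of_supp hs (lt_add_one R), ← integral_of_supp
    (f := fun r : ℝ => (r : ℂ) * P r) (fun r hr => by simp only [hR r hr, mul_zero])
      (lt_add_one R), hb,
    neg_neg]

/-- Correlations against primitives are symmetric. -/
lemma corr_primF_comm {P Q : ℝ → ℂ} {R : ℝ} (hR0 : 0 ≤ R) (hP : Continuous P) (hQ : Continuous Q)
    (hPo : IsOddF P) (hQo : IsOddF Q) (hRP : Supp R P) (hRQ : Supp R Q) :
    corr (R + 1) (primF R Q) P = corr (R + 1) (primF R P) Q := by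
  have hsP := supp_primF hR0 hP hPo hRP
  have hsQ := supp_primF hR0 hQ hQo hRQ
  funext r
  have hb := intervalIntegral.integral_mul_deriv_eq_deriv_mul (u := primF R Q) (u' := Q)
    (v := fun s => primF R P (r + s)) (v' := fun s => P (r + s)) (a := -(R + 1)) (b := R + 1)
    (fun x _ => hasDerivAt_primF R hQ x)
    (fun x _ => HasDerivAt.comp_const_add r x (hasDerivAt_primF R hP (r + x)))
    (hQ.intervalIntegrable _ _) ((hP.comp (continuous_const_add r)).intervalIntegrable _ _)
  rw [hsQ (R + 1) (by rw [abs_of_nonneg (by linarith)]; linarith),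
    hsQ (-(R + 1)) (by rw [abs_neg, abs_of_nonneg (by linarith)]; linarith)] at hb
  simp only [zero_mul, sub_zero, zero_sub] at hb
  rw [corr, hb, integral_of_supp (f := fun s => Q s * primF R P (r + s))
    (fun s hs => by simp only [hRQ s hs, zero_mul]) (lt_add_one R),
      corr_eq_integral hsP (lt_add_one R),
    ← integral_neg_eq_self (fun s => Q s * primF R P (r + s)),
    ← integral_add_left_eq_self (fun s => Q (-s) * primF R P (r + -s)) r, ← integral_neg]
  refine integral_congr_ae (Eventually.of_forall fun s => ?_)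
  simp only
  rw [hQo, show r + -(r + s) = -s by ring, isEvenF_primF R hP hPo]
  ring

/-- An odd test function of nonzero first moment. -/
lemma exists_odd_test : ∃ P₀ : ℝ → ℂ,
    Continuous P₀ ∧ IsOddF P₀ ∧ Supp 1 P₀ ∧ ∫ r : ℝ, (r : ℂ) * P₀ r ≠ 0 := by
  refine ⟨fun r => ((r * max 0 (1 - |r|) : ℝ) : ℂ), by fun_prop, fun r => by simp, fun r hr => by
    simp only [max_eq_left (by linarith : 1 - |r| ≤ 0), mul_zero, Complex.ofReal_zero], ?_⟩
  have e : (fun r : ℝ => (r : ℂ) * ((r * max 0 (1 - |r|) : ℝ) : ℂ))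
      = fun r => ((r ^ 2 * max 0 (1 - |r|) : ℝ) : ℂ) := by
    funext r; push_cast; ring
  rw [e, integral_complex_ofReal, Complex.ofReal_ne_zero]
  refine (Continuous.integral_pos_of_hasCompactSupport_nonneg_nonzero (x := 1 / 2)
    (f := fun x : ℝ => x ^ 2 * max (0 : ℝ) (1 - |x|)) (by fun_prop) ?_
    (fun x => mul_nonneg (sq_nonneg x) (le_max_left _ _)) (by norm_num [abs_of_pos])).ne'
  exact HasCompactSupport.of_support_subset_isCompact (K := Icc (-1) 1) isCompact_Icc
    fun x hx => abs_le.1 (by
      by_contra hc'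
      exact hx (by simp only; rw [max_eq_left (by linarith [not_le.1 hc']), mul_zero]))

/-- **Negative norm**: the functional is a multiple of `∫ r sinh r F(c cosh r)`. -/
theorem exists_const_neg {c : ℝ} (hc : 0 < c) (h : S.Avg (-(c ^ 2)))
    (hl : ∀ᵐ ω ∂S.μ, c < |S.l ω|) :
    ∃ κ : ℂ, ∀ F : ℝ → ℂ, Continuous F → IsEvenF F → (∃ B, Supp B F) →
      S.I F = κ * ∫ r : ℝ, ((r * Real.sinh r : ℝ) : ℂ) * F (c * Real.cosh r) := by
  obtain ⟨P0, hP0c, hP0o, hP0s, hP0i⟩ := exists_odd_test
  refine ⟨S.I (qF c 1 P0) / (∫ r : ℝ, (r : ℂ) * P0 r) / 2, fun F hF he ⟨B0, hB0⟩ => ?_⟩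
  set P : ℝ → ℂ := fun u => F (c * Real.cosh u) * (Real.sinh u : ℂ) with hP
  set R : ℝ := max 1 (Real.arcosh (max 1 (B0 / c))) with hRdef
  have hR0 : 0 ≤ R := zero_le_one.trans (le_max_left _ _)
  have hPc : Continuous P := by fun_prop
  have hPo : IsOddF P := fun u => by simp [hP]
  have hPs : Supp R P := fun u hu => by
    simp only [hP]
    rw [hB0 _ ?_, zero_mul]
    rw [abs_mul, abs_of_pos hc, abs_of_pos (Real.cosh_pos u), ← div_lt_iff₀' hc]
    refine (le_max_right 1 (B0 / c)).trans_lt ?_
    rw [← Real.cosh_arcosh (le_max_left 1 (B0 / c)), Real.cosh_lt_cosh,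
      abs_of_nonneg (Real.arcosh_nonneg (le_max_left _ _))]
    exact (le_max_right _ _).trans_lt hu
  have hP0s' : Supp R P0 := fun r hr => hP0s r ((le_max_left _ _).trans_lt hr)
  have k1 := S.I_qF_corr hc h hl hPc (continuous_primF R hP0c) hPo hPs
    (supp_primF hR0 hP0c hP0o hP0s') (isEvenF_primF R hP0c hP0o) (lt_add_one R) (by linarith)
  have k2 := S.I_qF_corr hc h hl hP0c (continuous_primF R hPc) hP0o hP0s'
    (supp_primF hR0 hPc hPo hPs) (isEvenF_primF R hPc hPo) (lt_add_one R) (by linarith)
  rw [corr_primF_comm hR0 hPc hP0c hPo hP0o hPs hP0s', k2, integral_primF hR0 hP0c hP0o hP0s',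
    integral_primF hR0 hPc hPo hPs, S.I_qF_of_avg hc h hl hF he hB0 one_pos] at k1
  have e : ∫ r : ℝ, ((r * Real.sinh r : ℝ) : ℂ) * F (c * Real.cosh r) = ∫ r : ℝ, (r : ℂ) * P r :=
    integral_congr_ae (Eventually.of_forall fun r => by simp only [hP]; push_cast; ring)
  rw [e]
  push_cast at k1
  field_simp
  linear_combination k1

end Fermat.LT3.Samp
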