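import Fermat.Agent.LT3.Samp

/-!
# The functional at positive norm

If the averaging hypothesis holds at `n = c² > 0`, the functional is a multiple of the Lebesgue
integral on even functions.
-/

set_option autoImplicit false
open MeasureTheory Set Filter

namespace Fermat.LT3.Samp
open Fermat.LT3

variable {Ω : Type*} [MeasurableSpace Ω] (S : Samp Ω)

/-- The function of `x = c sinh r` attached to `P`. -/
noncomputable def pF (c : ℝ) (P : ℝ → ℂ) (x : ℝ) : ℂ :=
  P (Real.arsinh (x / c)) / (Real.cosh (Real.arsinh (x / c)) : ℂ)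

/-- The attached function of `x` is continuous. -/
lemma continuous_pF (c : ℝ) {P : ℝ → ℂ} (hP : Continuous P) : Continuous (pF c P) := by
  have ha : Continuous fun x : ℝ => Real.arsinh (x / c) :=
    Real.continuous_arsinh.comp (continuous_id.div_const c)
  exact (hP.comp ha).div (Complex.continuous_ofReal.comp (Real.continuous_cosh.comp ha)) fun x =>
    Complex.ofReal_ne_zero.2 (Real.cosh_pos _).ne'

/-- The attached functions of a continuous family form a continuous family. -/
lemma continuous_pF₂ (c : ℝ) {G : ℝ → ℝ → ℂ} (hG : Continuous G.uncurry) :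
    Continuous (Function.uncurry fun s => pF c (G s)) := by
  have ha : Continuous fun p : ℝ × ℝ => Real.arsinh (p.2 / c) :=
    Real.continuous_arsinh.comp (continuous_snd.div_const c)
  exact (hG.comp (continuous_fst.prodMk ha)).div
    (Complex.continuous_ofReal.comp (Real.continuous_cosh.comp ha)) fun p =>
    Complex.ofReal_ne_zero.2 (Real.cosh_pos _).ne'

/-- The support of the attached function. -/
lemma supp_pF {c R : ℝ} (hc : 0 < c) {P : ℝ → ℂ} (hP : Supp R P) :
    Supp (c * Real.sinh R) (pF c P) := by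
  intro x hx
  rw [pF, hP _ ?_, zero_div]
  have h1 : Real.sinh R < |x / c| := by rw [abs_div, abs_of_pos hc, lt_div_iff₀' hc]; exact hx
  rcases abs_cases (x / c) with ⟨h2, -⟩ | ⟨h2, -⟩
  · rw [h2, ← Real.arsinh_lt_arsinh, Real.arsinh_sinh] at h1
    exact h1.trans_le (le_abs_self _)
  · rw [h2, ← Real.arsinh_lt_arsinh, Real.arsinh_sinh, Real.arsinh_neg] at h1
    exact h1.trans_le (neg_le_abs _)

/-- The inner integral at positive norm is the transformed average. -/
lemma pF_inner {c : ℝ} (hc : 0 < c) {P : ℝ → ℂ} (hP : Continuous P) (l ρ : ℝ) :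
    (((Real.sqrt (l ^ 2 + c ^ 2))⁻¹ : ℝ) •
      ∫ x in l * Real.cosh ρ - Real.sqrt (l ^ 2 + c ^ 2) * Real.sinh ρ..
        l * Real.cosh ρ + Real.sqrt (l ^ 2 + c ^ 2) * Real.sinh ρ, pF c P x)
      = pF c (avg ρ P) l := by
  set r := Real.arsinh (l / c) with hr
  have hl : l = c * Real.sinh r := by rw [hr, Real.sinh_arsinh]; field_simp
  have he : Real.sqrt (l ^ 2 + c ^ 2) = c * Real.cosh r := by
    rw [Real.sqrt_eq_iff_eq_sq (by positivity) (by positivity), hl, mul_pow, mul_pow,
      Real.cosh_sq]
    ring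
  have h1 : l * Real.cosh ρ - Real.sqrt (l ^ 2 + c ^ 2) * Real.sinh ρ
      = c * Real.sinh (r - ρ) := by rw [he, hl, Real.sinh_sub]; ring
  have h2 : l * Real.cosh ρ + Real.sqrt (l ^ 2 + c ^ 2) * Real.sinh ρ
      = c * Real.sinh (r + ρ) := by rw [he, hl, Real.sinh_add]; ring
  rw [h1, h2, ← intervalIntegral.integral_deriv_smul_comp (f := fun u => c * Real.sinh u)
    (f' := fun u => c * Real.cosh u) (fun x _ => (Real.hasDerivAt_sinh x).const_mul c)
    (by fun_prop) (continuous_pF c hP)]
  have e : ∀ u, (c * Real.cosh u) • (pF c P ∘ fun u => c * Real.sinh u) u = (c : ℂ) * P u := by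
    intro u
    have hne : (Real.cosh u : ℂ) ≠ 0 := by exact_mod_cast (Real.cosh_pos u).ne'
    simp only [Function.comp_apply, pF, mul_div_cancel_left₀ _ hc.ne', Real.arsinh_sinh,
      Complex.real_smul, Complex.ofReal_mul]
    field_simp
  rw [intervalIntegral.integral_congr (g := fun u => (c : ℂ) * P u) fun u _ => e u,
    intervalIntegral.integral_const_mul, ← avg_eq, he, pF, ← hr, Complex.real_smul]
  have hcc : (c : ℂ) ≠ 0 := by exact_mod_cast hc.ne'
  push_cast
  field_simp

/-- A translate by at most `b` is supported within `b` more. -/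
lemma supp_translate {R b s : ℝ} {P : ℝ → ℂ} (hP : Supp R P) (hs : |s| ≤ b) :
    Supp (R + b) fun r => P (r + s) := fun r hr => hP _ (by
  have h := abs_add_le (r + s) (-s)
  rw [add_neg_cancel_right, abs_neg] at h
  linarith)

/-- The attached functions of the translates form a continuous family. -/
lemma continuous_pF_translate (c : ℝ) {P : ℝ → ℂ} (hP : Continuous P) :
    Continuous (Function.uncurry fun s => pF c fun r => P (r + s)) :=
  continuous_pF₂ c (G := fun s r => P (r + s)) (hP.comp (continuous_snd.add continuous_fst))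

/-- The functional is continuous in the translation. -/
lemma continuous_I_translate {c R : ℝ} (hc : 0 < c) {P : ℝ → ℂ} (hP : Continuous P)
    (hR : Supp R P) : Continuous fun s => S.I (pF c fun r => P (r + s)) :=
  S.continuous_I (continuous_pF_translate c hP) fun a b => ⟨c * Real.sinh (R + max |a| |b|),
    fun _ hs => supp_pF hc (supp_translate hR (abs_le_max_abs_abs hs.1 hs.2))⟩

/-- Under the averaging hypothesis the functional of a translate is symmetric about the original. -/
lemma I_translate_symm {c R : ℝ} (hc : 0 < c) (h : S.Avg (c ^ 2)) {P : ℝ → ℂ} (hP : Continuous P)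
    (hR : Supp R P) (s : ℝ) :
    S.I (pF c fun r => P (r + s)) + S.I (pF c fun r => P (r + -s)) = 2 * S.I (pF c P) := by
  refine sym_of_integral (φ := fun s => S.I (pF c fun r => P (r + s)))
    (S.continuous_I_translate hc hP hR) (fun ρ hρ => ?_) (by simp) s
  have hA : S.I (pF c (avg ρ P)) = (2 * ρ : ℝ) * S.I (pF c P) := by
    rw [← h _ (continuous_pF c hP) ⟨_, supp_pF hc hR⟩ ρ hρ]
    exact integral_congr_ae (Eventually.of_forall fun ω => by simp only [pF_inner hc hP])
  rw [S.integral_I (continuous_pF_translate c hP) (by linarith)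
    (fun t ht => supp_pF hc (supp_translate hR (abs_le_max_abs_abs ht.1 ht.2))), ← hA]
  congr 1
  funext x
  simp only [pF, avg, intervalIntegral.integral_div]

/-- The functional factors through a correlation with an even weight. -/
lemma I_corr {c R B : ℝ} (hc : 0 < c) (h : S.Avg (c ^ 2)) {P Q : ℝ → ℂ} (hP : Continuous P)
    (hQ : Continuous Q) (hRP : Supp R P) (hRQ : Supp R Q) (hQe : IsEvenF Q) (hRB : R < B)
    (hB0 : 0 ≤ B) : S.I (pF c (corr B Q P)) = S.I (pF c P) * ∫ s, Q s := by
  have hΨ : Continuous (Function.uncurry fun s => pF c fun r => Q s * P (r + s)) :=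
    continuous_pF₂ c (G := fun s r => Q s * P (r + s))
      ((hQ.comp continuous_fst).mul (hP.comp (continuous_snd.add continuous_fst)))
  have hB : ∀ s ∈ Icc (-B) B,
      Supp (c * Real.sinh (R + B)) (pF c fun r => Q s * P (r + s)) := fun s hs =>
    supp_pF hc fun r hr => by
      rw [show P (r + s) = 0 from supp_translate hRP (abs_le.2 ⟨hs.1, hs.2⟩) r hr, mul_zero]
  have e1 : pF c (corr B Q P) = fun x => ∫ s in -B..B, pF c (fun r => Q s * P (r + s)) x := by
    funext x; simp only [pF, corr, intervalIntegral.integral_div]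
  have e2 : ∀ s, S.I (pF c fun r => Q s * P (r + s))
      = Q s * S.I (pF c fun r => P (r + s)) := fun s => by
    rw [← S.I_const_mul]; congr 1; funext x; simp only [pF, mul_div_assoc]
  rw [e1, ← S.integral_I hΨ (by linarith) hB, ← integral_of_supp hRQ hRB]
  simp only [e2]
  set φ : ℝ → ℂ := fun s => S.I (pF c fun r => P (r + s)) with hφ
  have hφc : Continuous φ := S.continuous_I_translate hc hP hRP
  have hneg : ∫ s in -B..B, Q s * φ s = ∫ s in -B..B, Q s * φ (-s) := by
    conv_lhs => rw [← neg_neg B, ← intervalIntegral.integral_comp_neg, neg_neg]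
    exact intervalIntegral.integral_congr fun s _ => by simp only [hQe s]
  have hsum : (∫ s in -B..B, Q s * φ s) + ∫ s in -B..B, Q s * φ (-s)
      = (2 * S.I (pF c P)) * ∫ s in -B..B, Q s := by
    rw [← intervalIntegral.integral_add (f := fun s => Q s * φ s) (g := fun s => Q s * φ (-s))
      ((hQ.mul hφc).intervalIntegrable _ _)
      ((hQ.mul (hφc.comp continuous_neg)).intervalIntegrable _ _),
      ← intervalIntegral.integral_const_mul]
    refine intervalIntegral.integral_congr fun s _ => ?_
    simp only [← mul_add, hφ, S.I_translate_symm hc h hP hRP s]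
    ring
  rw [← hneg] at hsum
  linear_combination hsum / 2

/-- An even weight of nonzero integral supported in `[-1, 1]`. -/
lemma exists_even_weight :
    ∃ Q : ℝ → ℂ, Continuous Q ∧ Supp 1 Q ∧ IsEvenF Q ∧ ∫ s, Q s ≠ 0 := by
  set Q0 : ℝ → ℂ := fun r => ((max 0 (1 - |r|) : ℝ) : ℂ) with hQ0
  have hQ0c : Continuous Q0 := by fun_prop
  have hQ0s : Supp 1 Q0 := fun r hr => by
    simp only [hQ0, max_eq_left (by linarith : 1 - |r| ≤ 0), Complex.ofReal_zero]
  have hQ0e : IsEvenF Q0 := fun r => by simp [hQ0]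
  have hQ0i : ∫ s, Q0 s ≠ 0 := by
    rw [integral_complex_ofReal, Complex.ofReal_ne_zero]
    refine (Continuous.integral_pos_of_hasCompactSupport_nonneg_nonzero (x := 0)
      (f := fun x : ℝ => max (0 : ℝ) (1 - |x|)) (by fun_prop) ?_
      (fun x => le_max_left _ _) (by norm_num)).ne'
    exact HasCompactSupport.of_support_subset_isCompact (K := Icc (-1) 1) isCompact_Icc
      fun x hx => abs_le.1 (by
        by_contra hc'
        exact hx (max_eq_left (by linarith [not_le.1 hc'])))
  exact ⟨Q0, hQ0c, hQ0s, hQ0e, hQ0i⟩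

/-- An even function of bounded support is attached to one whose integral is `c⁻¹` times its own:
the change of variable `x = c sinh r`. -/
lemma exists_eq_pF {c B0 : ℝ} (hc : 0 < c) {F : ℝ → ℂ} (hF : Continuous F) (he : IsEvenF F)
    (hB0 : Supp B0 F) : ∃ (P : ℝ → ℂ) (R : ℝ), Continuous P ∧ IsEvenF P ∧ 1 ≤ R ∧ Supp R P ∧
      pF c P = F ∧ (c : ℂ) * ∫ r, P r = ∫ x, F x := by
  set P : ℝ → ℂ := fun r => F (c * Real.sinh r) * (Real.cosh r : ℂ) with hPdef
  set R := max 1 (Real.arsinh (B0 / c)) with hR
  have hPc : Continuous P := by fun_prop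
  have hPe : IsEvenF P := fun r => by simp [hPdef, he (c * Real.sinh r)]
  have hPs : Supp R P := fun r hr => by
    simp only [hPdef]
    rw [hB0 _ ?_, zero_mul]
    rw [abs_mul, abs_of_pos hc, Real.abs_sinh, ← div_lt_iff₀' hc, ← Real.sinh_arsinh (B0 / c),
      Real.sinh_lt_sinh]
    exact (le_max_right _ _).trans_lt hr
  have hFP : pF c P = F := by
    funext x
    have hne : (Real.cosh (Real.arsinh (x / c)) : ℂ) ≠ 0 := by
      exact_mod_cast (Real.cosh_pos _).ne'
    simp only [pF, hPdef, mul_div_cancel_right₀ _ hne, Real.sinh_arsinh, mul_div_cancel₀ _ hc.ne']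
  have hint : (c : ℂ) * ∫ r, P r = ∫ x, F x := by
    have hB : B0 < c * Real.sinh (R + 1) := by
      rw [← div_lt_iff₀' hc, ← Real.sinh_arsinh (B0 / c), Real.sinh_lt_sinh]
      linarith [le_max_right (1 : ℝ) (Real.arsinh (B0 / c))]
    rw [← integral_of_supp hPs (lt_add_one R), ← integral_of_supp hB0 hB,
      ← intervalIntegral.integral_const_mul, ← mul_neg, ← Real.sinh_neg,
      ← intervalIntegral.integral_deriv_smul_comp (f := fun u => c * Real.sinh u)
      (f' := fun u => c * Real.cosh u) (fun x _ => (Real.hasDerivAt_sinh x).const_mul c)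
      (by fun_prop) hF]
    refine intervalIntegral.integral_congr fun u _ => ?_
    simp only [Function.comp_apply, hPdef, Complex.real_smul, Complex.ofReal_mul]
    ring
  exact ⟨P, R, hPc, hPe, le_max_left _ _, hPs, hFP, hint⟩

/-- **Positive norm**: the functional is a multiple of the integral. -/
theorem exists_const_pos {c : ℝ} (hc : 0 < c) (h : S.Avg (c ^ 2)) :
    ∃ κ : ℂ, ∀ F : ℝ → ℂ, Continuous F → IsEvenF F → (∃ B, Supp B F) →
      S.I F = κ * ∫ x, F x := by
  obtain ⟨Q0, hQ0c, hQ0s, hQ0e, hQ0i⟩ := exists_even_weight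
  refine ⟨S.I (pF c Q0) / (∫ s, Q0 s) / c, fun F hF he ⟨B0, hB0⟩ => ?_⟩
  -- `F` is attached to `P`; compare the two ways of correlating `P` with `Q0`
  obtain ⟨P, R, hPc, hPe, hR1, hPs, hFP, hint⟩ := exists_eq_pF hc hF he hB0
  have hQ0s' : Supp R Q0 := fun r hr => hQ0s r (hR1.trans_lt hr)
  have key := S.I_corr hc h hPc hQ0c hPs hQ0s' hQ0e (lt_add_one R) (by linarith)
  rw [corr_comm hQ0s' hPs hQ0e hPe (lt_add_one R),
    S.I_corr hc h hQ0c hPc hQ0s' hPs hPe (lt_add_one R) (by linarith), hFP] at key
  rw [← hint]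
  have hcc : (c : ℂ) ≠ 0 := by exact_mod_cast hc.ne'
  field_simp
  linear_combination (-1 : ℂ) * key

end Fermat.LT3.Samp
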