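import Mathlib

/-!
# Weighted samples of a height function

`Samp Ω` is a weight `g` and a real function `l` on a measure space with all Gaussian moments
finite; `I F = ∫ g F(l)`.  `avg ρ P` is the sliding integral of a function over intervals of
radius `ρ`, and `quo ρ P` its quotient by `sinh`.
-/

set_option autoImplicit false
open MeasureTheory Set Filter
open scoped Topology

namespace Fermat.LT3

/-- Vanishing outside `[-R, R]`. -/
def Supp (R : ℝ) (P : ℝ → ℂ) : Prop := ∀ r, R < |r| → P r = 0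

/-- A continuous function of bounded support is bounded. -/
lemma Supp.exists_bound {R : ℝ} {P : ℝ → ℂ} (h : Supp R P) (hP : Continuous P) :
    ∃ M, 0 ≤ M ∧ ∀ r, ‖P r‖ ≤ M := by
  obtain ⟨M, hM⟩ := (isCompact_Icc (a := -R) (b := R)).exists_bound_of_continuousOn
    hP.continuousOn
  refine ⟨max M 0, le_max_right _ _, fun r => ?_⟩
  by_cases hr : R < |r|
  · rw [h r hr, norm_zero]; exact le_max_right _ _
  · exact (hM r (abs_le.1 (not_lt.1 hr))).trans (le_max_left _ _)

/-- Even. -/
def IsEvenF (P : ℝ → ℂ) : Prop := ∀ r, P (-r) = P r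

/-- Odd. -/
def IsOddF (P : ℝ → ℂ) : Prop := ∀ r, P (-r) = -P r

/-- The sliding integral. -/
noncomputable def avg (ρ : ℝ) (P : ℝ → ℂ) (r : ℝ) : ℂ := ∫ s in -ρ..ρ, P (r + s)

/-- The sliding integral as an integral over `[r - ρ, r + ρ]`. -/
lemma avg_eq (ρ : ℝ) (P : ℝ → ℂ) (r : ℝ) : avg ρ P r = ∫ u in r - ρ..r + ρ, P u := by
  rw [avg, intervalIntegral.integral_comp_add_left, sub_eq_add_neg]

/-- The sliding integral of a continuous function is continuous. -/
lemma continuous_avg (ρ : ℝ) {P : ℝ → ℂ} (hP : Continuous P) : Continuous (avg ρ P) := by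
  unfold avg
  exact intervalIntegral.continuous_parametric_intervalIntegral_of_continuous' (by fun_prop) _ _

/-- The derivative of the sliding integral. -/
lemma hasDerivAt_avg (ρ : ℝ) {P : ℝ → ℂ} (hP : Continuous P) (r : ℝ) :
    HasDerivAt (avg ρ P) (P (r + ρ) - P (r - ρ)) r := by
  have e : avg ρ P = fun r => (∫ u in (0 : ℝ)..r + ρ, P u) - ∫ u in (0 : ℝ)..r - ρ, P u := by
    funext r
    rw [avg_eq, intervalIntegral.integral_interval_sub_left (hP.intervalIntegrable _ _)
      (hP.intervalIntegrable _ _)]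
  rw [e]
  exact ((hP.integral_hasStrictDerivAt (0 : ℝ) (r + ρ)).hasDerivAt.comp_add_const r ρ).sub
    ((hP.integral_hasStrictDerivAt (0 : ℝ) (r - ρ)).hasDerivAt.comp_sub_const r ρ)

/-- Averaging over radius `ρ` enlarges the support by `ρ`. -/
lemma Supp.avg {R : ℝ} {P : ℝ → ℂ} (h : Supp R P) {ρ : ℝ} (hρ : 0 ≤ ρ) :
    Supp (R + ρ) (avg ρ P) := by
  intro r hr
  rw [Fermat.LT3.avg, intervalIntegral.integral_congr (g := fun _ => (0 : ℂ)) fun s hs => ?_]
  · simp
  · rw [uIcc_of_le (by linarith)] at hs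
    refine h _ ?_
    have h1 : |r| ≤ |r + s| + |s| := by
      have := abs_add_le (r + s) (-s); rwa [add_neg_cancel_right, abs_neg] at this
    have h2 : |s| ≤ ρ := abs_le.2 hs
    linarith

/-- Averaging preserves oddness. -/
lemma IsOddF.avg {P : ℝ → ℂ} (h : IsOddF P) (ρ : ℝ) : IsOddF (avg ρ P) := by
  intro r
  rw [Fermat.LT3.avg, Fermat.LT3.avg]
  conv_rhs => rw [← neg_neg ρ, ← intervalIntegral.integral_comp_neg, neg_neg,
    ← intervalIntegral.integral_neg]
  refine intervalIntegral.integral_congr fun s _ => ?_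
  rw [← neg_neg (P (-r + s)), ← h (-r + s)]
  congr 2
  ring

/-- `∫₀¹ cosh (θ r) = sinh r / r`. -/
noncomputable def shq (r : ℝ) : ℝ := ∫ θ in (0 : ℝ)..1, Real.cosh (θ * r)

/-- `sinh r / r`, extended at `0`, is continuous. -/
lemma continuous_shq : Continuous shq :=
  intervalIntegral.continuous_parametric_intervalIntegral_of_continuous' (by fun_prop) _ _

/-- `sinh r / r` is at least `1`. -/
lemma one_le_shq (r : ℝ) : 1 ≤ shq r := by
  have h := intervalIntegral.integral_mono_on (μ := volume) (f := fun _ : ℝ => (1 : ℝ))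
    (g := fun θ => Real.cosh (θ * r)) (zero_le_one : (0 : ℝ) ≤ 1) intervalIntegrable_const
    ((by fun_prop : Continuous fun θ : ℝ => Real.cosh (θ * r)).intervalIntegrable _ _)
    fun θ _ => Real.one_le_cosh _
  simpa [shq] using h

/-- `r * shq r` is `sinh r`. -/
lemma mul_shq (r : ℝ) : r * shq r = Real.sinh r := by
  have h := intervalIntegral.mul_integral_comp_mul_left (f := Real.cosh) (a := (0 : ℝ)) (b := 1) r
  rw [show (fun θ => Real.cosh (r * θ)) = fun θ => Real.cosh (θ * r) by simp [mul_comm]] at h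
  rw [shq, h, mul_zero, mul_one, intervalIntegral.integral_eq_sub_of_hasDerivAt
    (fun x _ => Real.hasDerivAt_sinh x) (Real.continuous_cosh.intervalIntegrable _ _)]
  simp

/-- `avg ρ P / sinh`, continuously extended. -/
noncomputable def quo (ρ : ℝ) (P : ℝ → ℂ) (r : ℝ) : ℂ :=
  (∫ θ in (0 : ℝ)..1, (P (θ * r + ρ) - P (θ * r - ρ))) / (shq r : ℂ)

/-- The quotient times `sinh` is the average. -/
lemma quo_mul {ρ : ℝ} {P : ℝ → ℂ} (hP : Continuous P) (ho : IsOddF P) (r : ℝ) :
    quo ρ P r * (Real.sinh r : ℂ) = avg ρ P r := by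
  have hs : (shq r : ℂ) ≠ 0 := by exact_mod_cast (lt_of_lt_of_le one_pos (one_le_shq r)).ne'
  have h0 : avg ρ P 0 = 0 := by
    have := (ho.avg ρ) 0
    rw [neg_zero] at this
    exact self_eq_neg.1 this
  have h := intervalIntegral.integral_eq_sub_of_hasDerivAt
    (f := fun θ : ℝ => avg ρ P (θ * r)) (f' := fun θ => r • (P (θ * r + ρ) - P (θ * r - ρ)))
    (a := 0) (b := 1) (fun θ _ => HasDerivAt.scomp (g₁ := avg ρ P) θ (hasDerivAt_avg ρ hP (θ * r))
      (hasDerivAt_mul_const r))
    ((by fun_prop : Continuous fun θ : ℝ =>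
      r • (P (θ * r + ρ) - P (θ * r - ρ))).intervalIntegrable _ _)
  rw [intervalIntegral.integral_smul, one_mul, zero_mul, h0, sub_zero] at h
  rw [← h, quo, ← mul_shq, Complex.ofReal_mul, Complex.real_smul]
  rw [div_mul_eq_mul_div, ← mul_assoc, mul_div_assoc, div_self hs, mul_one, mul_comm]

/-- Away from `0` the quotient is the sliding integral divided by `sinh`. -/
lemma quo_eq {ρ : ℝ} {P : ℝ → ℂ} (hP : Continuous P) (ho : IsOddF P) {r : ℝ} (hr : r ≠ 0) :
    quo ρ P r = avg ρ P r / (Real.sinh r : ℂ) := by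
  rw [eq_div_iff (by exact_mod_cast fun h => hr (Real.sinh_eq_zero.1 h)), quo_mul hP ho]

/-- The quotient is continuous. -/
lemma continuous_quo (ρ : ℝ) {P : ℝ → ℂ} (hP : Continuous P) : Continuous (quo ρ P) := by
  refine Continuous.div ?_ (Complex.continuous_ofReal.comp continuous_shq) fun r => ?_
  · exact intervalIntegral.continuous_parametric_intervalIntegral_of_continuous' (by fun_prop) _ _
  · exact_mod_cast (lt_of_lt_of_le one_pos (one_le_shq r)).ne'

/-- A weight and a height on a measure space. -/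
structure Samp (Ω : Type*) [MeasurableSpace Ω] where
  /-- The measure on the space. -/
  μ : Measure Ω
  /-- The measure is s-finite. -/
  sfin : SFinite μ
  /-- The weight of each point. -/
  g : Ω → ℂ
  /-- The height of each point. -/
  l : Ω → ℝ
  /-- The weight is measurable. -/
  mg : AEStronglyMeasurable g μ
  /-- The height is measurable. -/
  ml : Measurable l
  /-- The weight times any Gaussian in the height is integrable. -/
  hint : ∀ a : ℝ, 0 < a → Integrable (fun ω => ‖g ω‖ * Real.exp (-(a * l ω ^ 2))) μ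

namespace Samp

variable {Ω : Type*} [MeasurableSpace Ω] (S : Samp Ω)

/-- The integral of the weight times `F` at the height. -/
noncomputable def I (F : ℝ → ℂ) : ℂ := ∫ ω, S.g ω * F (S.l ω) ∂S.μ

/-- The hypothesis coming from the eigenfunction equation. -/
def Avg (n : ℝ) : Prop :=
  ∀ F : ℝ → ℂ, Continuous F → (∃ B, Supp B F) → ∀ ρ : ℝ, 0 < ρ →
    ∫ ω, S.g ω * (((Real.sqrt (S.l ω ^ 2 + n))⁻¹ : ℝ) •
      ∫ x in S.l ω * Real.cosh ρ - Real.sqrt (S.l ω ^ 2 + n) * Real.sinh ρ..
        S.l ω * Real.cosh ρ + Real.sqrt (S.l ω ^ 2 + n) * Real.sinh ρ, F x) ∂S.μ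
      = (2 * ρ : ℝ) * S.I F

/-- The integrand is dominated by a Gaussian moment. -/
lemma norm_mul_le {B M : ℝ} {F : ℝ → ℂ} (hB : Supp B F) (hM : ∀ x, ‖F x‖ ≤ M) (ω : Ω) :
    ‖S.g ω * F (S.l ω)‖
      ≤ M * Real.exp (B ^ 2) * (‖S.g ω‖ * Real.exp (-(1 * S.l ω ^ 2))) := by
  have hM0 : 0 ≤ M := (norm_nonneg (F 0)).trans (hM 0)
  by_cases h : B < |S.l ω|
  · rw [hB _ h, mul_zero, norm_zero]; positivity
  · rw [norm_mul]
    have h1 : 1 ≤ Real.exp (B ^ 2) * Real.exp (-(1 * S.l ω ^ 2)) := by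
      rw [← Real.exp_add, Real.one_le_exp_iff, one_mul]
      have : |S.l ω| ^ 2 ≤ B ^ 2 := pow_le_pow_left₀ (abs_nonneg _) (not_lt.1 h) 2
      rw [sq_abs] at this
      linarith
    calc ‖S.g ω‖ * ‖F (S.l ω)‖ ≤ ‖S.g ω‖ * M *
           (Real.exp (B ^ 2) * Real.exp (-(1 * S.l ω ^ 2))) := by
          exact (mul_le_mul_of_nonneg_left (hM _) (norm_nonneg _)).trans
            (le_mul_of_one_le_right (by positivity) h1)
      _ = _ := by ring

section family

variable {Ψ : ℝ → ℝ → ℂ}

/-- A continuous family with common bounded support is uniformly bounded on a compact parameter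
interval. -/
lemma exists_bound_family (hΨ : Continuous Ψ.uncurry) {B : ℝ} (a b : ℝ)
    (hB : ∀ s ∈ Icc a b, Supp B (Ψ s)) : ∃ M, ∀ s ∈ Icc a b, ∀ x, ‖Ψ s x‖ ≤ M := by
  obtain ⟨M, hM⟩ :=
    (isCompact_Icc.prod (isCompact_Icc (a := -B) (b := B))).exists_bound_of_continuousOn
    (f := Ψ.uncurry) (s := Icc a b ×ˢ Icc (-B) B) hΨ.continuousOn
  refine ⟨max M 0, fun s hs x => ?_⟩
  by_cases hx : B < |x|
  · rw [hB s hs x hx, norm_zero]; exact le_max_right _ _
  · exact (hM (s, x) ⟨hs, abs_le.1 (not_lt.1 hx)⟩).trans (le_max_left _ _)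

/-- The functional is continuous in a parameter. -/
lemma continuous_I (hΨ : Continuous Ψ.uncurry)
    (hB : ∀ a b : ℝ, ∃ B, ∀ s ∈ Icc a b, Supp B (Ψ s)) :
    Continuous fun s => S.I (Ψ s) := by
  rw [continuous_iff_continuousAt]
  intro s0
  obtain ⟨B, hB⟩ := hB (s0 - 1) (s0 + 1)
  obtain ⟨M, hM⟩ := exists_bound_family hΨ (s0 - 1) (s0 + 1) hB
  have hn : Icc (s0 - 1) (s0 + 1) ∈ 𝓝 s0 := Icc_mem_nhds (by linarith) (by linarith)
  refine continuousAt_of_dominated (bound := fun ω => M * Real.exp (B ^ 2) *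
      (‖S.g ω‖ * Real.exp (-(1 * S.l ω ^ 2)))) (Eventually.of_forall fun s => ?_) ?_
    ((S.hint 1 one_pos).const_mul _) (Eventually.of_forall fun ω => ?_)
  · exact S.mg.mul ((hΨ.comp (Continuous.prodMk_right s)).measurable.comp S.ml).aestronglyMeasurable
  · filter_upwards [hn] with s hs
    exact Eventually.of_forall (S.norm_mul_le (hB s hs) (hM s hs))
  · exact (continuous_const.mul (hΨ.comp (Continuous.prodMk_left (S.l ω)))).continuousAt

/-- The functional commutes with integration in a parameter. -/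
lemma integral_I (hΨ : Continuous Ψ.uncurry) {a b : ℝ} (hab : a ≤ b) {B : ℝ}
    (hB : ∀ s ∈ Icc a b, Supp B (Ψ s)) :
    ∫ s in a..b, S.I (Ψ s) = S.I fun x => ∫ s in a..b, Ψ s x := by
  have := S.sfin
  obtain ⟨M, hM⟩ := exists_bound_family hΨ a b hB
  have hint : Integrable (Function.uncurry fun s ω => S.g ω * Ψ s (S.l ω))
      ((volume.restrict (Ioc a b)).prod S.μ) := by
    refine Integrable.mono' (g := fun p : ℝ × Ω => M * Real.exp (B ^ 2) *
      (‖S.g p.2‖ * Real.exp (-(1 * S.l p.2 ^ 2)))) ?_ ?_ ?_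
    · have : IsFiniteMeasure (volume.restrict (Ioc a b) : Measure ℝ) :=
        ⟨by rw [Measure.restrict_apply_univ, Real.volume_Ioc]; exact ENNReal.ofReal_lt_top⟩
      exact ((S.hint 1 one_pos).const_mul _).comp_snd (volume.restrict (Ioc a b))
    · exact S.mg.comp_snd.mul
        (hΨ.measurable.comp (measurable_fst.prodMk (S.ml.comp measurable_snd))).aestronglyMeasurable
    · rw [Measure.restrict_prod_eq_prod_univ]
      filter_upwards [ae_restrict_mem (measurableSet_Ioc.prod MeasurableSet.univ)] with p hp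
      exact S.norm_mul_le (hB p.1 (Ioc_subset_Icc_self hp.1))
        (hM p.1 (Ioc_subset_Icc_self hp.1)) p.2
  rw [intervalIntegral.integral_of_le hab]
  unfold Samp.I
  rw [integral_integral_swap hint]
  refine integral_congr_ae (Eventually.of_forall fun ω => ?_)
  simp only
  rw [intervalIntegral.integral_of_le hab, integral_const_mul]

end family

end Samp

end Fermat.LT3

namespace Fermat.LT3

/-- Integrals over the line of functions vanishing outside a smaller interval. -/
lemma integral_of_supp {R B : ℝ} {f : ℝ → ℂ} (h : Supp R f) (hB : R < B) :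
    ∫ r in -B..B, f r = ∫ r, f r := by
  refine intervalIntegral.integral_eq_integral_of_support_subset fun r hr => ?_
  have : ¬ R < |r| := fun h' => hr (h r h')
  exact ⟨by linarith [neg_abs_le r], by linarith [le_abs_self r]⟩

/-- The correlation of `Q` and `P` over `[-B, B]`. -/
noncomputable def corr (B : ℝ) (Q P : ℝ → ℂ) (r : ℝ) : ℂ := ∫ s in -B..B, Q s * P (r + s)

/-- The correlation as an integral over the whole line. -/
lemma corr_eq_integral {R B : ℝ} {Q : ℝ → ℂ} (h : Supp R Q) (hB : R < B) (P : ℝ → ℂ) (r : ℝ) :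
    corr B Q P r = ∫ s, Q s * P (r + s) :=
  integral_of_supp (fun s hs => by rw [h s hs, zero_mul]) hB

/-- The correlation of even functions is symmetric. -/
lemma corr_comm {R B : ℝ} {Q P : ℝ → ℂ} (hQ : Supp R Q) (hP : Supp R P) (hQe : IsEvenF Q)
    (hPe : IsEvenF P) (hB : R < B) : corr B Q P = corr B P Q := by
  funext r
  rw [corr_eq_integral hQ hB, corr_eq_integral hP hB,
    ← integral_neg_eq_self (fun s => Q s * P (r + s)),
    ← integral_add_left_eq_self (fun s => Q (-s) * P (r + -s)) r]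
  refine integral_congr_ae (Eventually.of_forall fun s => ?_)
  simp only
  rw [hQe, mul_comm]
  congr 1
  rw [← hPe s]
  congr 1
  ring

/-- A function whose centred integrals are linear has constant symmetrisation. -/
lemma sym_of_integral {φ : ℝ → ℂ} (hφ : Continuous φ) {c0 : ℂ}
    (h : ∀ ρ : ℝ, 0 < ρ → ∫ s in -ρ..ρ, φ s = (2 * ρ : ℝ) * c0) (h0 : φ 0 = c0) (ρ : ℝ) :
    φ ρ + φ (-ρ) = 2 * c0 := by
  have main : ∀ ρ : ℝ, 0 < ρ → φ ρ + φ (-ρ) = 2 * c0 := fun ρ hρ => by
    have e : (fun x : ℝ => ∫ s in -x..x, φ s)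
        = fun x => (∫ s in (0 : ℝ)..x, φ s) - ∫ s in (0 : ℝ)..(-x), φ s := funext fun x => by
      rw [intervalIntegral.integral_interval_sub_left (hφ.intervalIntegrable _ _)
        (hφ.intervalIntegrable _ _)]
    have h1 : HasDerivAt (fun x : ℝ => ∫ s in -x..x, φ s) (φ ρ + φ (-ρ)) ρ := by
      rw [e]
      have ha := (hφ.integral_hasStrictDerivAt (0 : ℝ) ρ).hasDerivAt
      have hb := HasDerivAt.scomp (g₁ := fun u => ∫ s in (0 : ℝ)..u, φ s) ρ
        (hφ.integral_hasStrictDerivAt (0 : ℝ) (-ρ)).hasDerivAt (hasDerivAt_neg ρ)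
      exact (ha.sub hb).congr_deriv (by simp)
    have h2 : HasDerivAt (fun x : ℝ => ∫ s in -x..x, φ s) (2 * c0) ρ := by
      refine HasDerivAt.congr_of_eventuallyEq ?_
        (eventually_of_mem (Ioi_mem_nhds hρ) fun x hx => h x hx)
      have h3 := ((hasDerivAt_id ρ).const_mul 2).ofReal_comp.mul_const c0
      simpa using h3
    exact h1.unique h2
  rcases lt_trichotomy ρ 0 with hn | rfl | hp
  · have := main (-ρ) (by linarith)
    rwa [neg_neg, add_comm] at this
  · rw [neg_zero, h0]; ring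
  · exact main ρ hp

namespace Samp

variable {Ω : Type*} [MeasurableSpace Ω] (S : Samp Ω)

/-- The functional commutes with scalar multiples. -/
lemma I_const_mul (a : ℂ) (F : ℝ → ℂ) : S.I (fun x => a * F x) = a * S.I F := by
  rw [I, I, ← integral_const_mul]
  exact integral_congr_ae (Eventually.of_forall fun ω => by ring)

/-- Gaussian decay. -/
def Decay (F : ℝ → ℂ) : Prop :=
  Continuous F ∧ ∃ a C : ℝ, 0 < a ∧ ∀ x, ‖F x‖ ≤ C * Real.exp (-(a * x ^ 2))

/-- The continuous cut-off of `|x|` between `j - 1` and `j`. -/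
noncomputable def cut (j : ℕ) (x : ℝ) : ℝ := max 0 (min 1 ((j : ℝ) - |x|))

/-- Cut-off functions approximate the functional. -/
lemma tendsto_I_cut {F : ℝ → ℂ} (hF : Decay F) :
    Tendsto (fun j : ℕ => S.I fun x => (cut j x : ℂ) * F x) atTop (𝓝 (S.I F)) := by
  obtain ⟨hc, a, C, ha, hC⟩ := hF
  refine tendsto_integral_of_dominated_convergence
    (fun ω => C * (‖S.g ω‖ * Real.exp (-(a * S.l ω ^ 2)))) (fun j => ?_) ((S.hint a ha).const_mul C)
    (fun j => Eventually.of_forall fun ω => ?_) (Eventually.of_forall fun ω => ?_)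
  · have : Continuous fun x => (cut j x : ℂ) * F x := by unfold cut; fun_prop
    exact S.mg.mul (this.measurable.comp S.ml).aestronglyMeasurable
  · rw [norm_mul, norm_mul, Complex.norm_real, Real.norm_eq_abs]
    have h1 : |cut j (S.l ω)| ≤ 1 := by
      rw [cut, abs_of_nonneg (le_max_left _ _)]; exact max_le zero_le_one (min_le_left _ _)
    calc ‖S.g ω‖ * (|cut j (S.l ω)| * ‖F (S.l ω)‖) ≤ ‖S.g ω‖ * ‖F (S.l ω)‖ := by
          exact mul_le_mul_of_nonneg_left (mul_le_of_le_one_left (norm_nonneg _) h1) (norm_nonneg _)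
      _ ≤ ‖S.g ω‖ * (C * Real.exp (-(a * S.l ω ^ 2))) :=
          mul_le_mul_of_nonneg_left (hC _) (norm_nonneg _)
      _ = _ := by ring
  · refine tendsto_const_nhds.congr' ?_
    filter_upwards [eventually_ge_atTop (⌈|S.l ω|⌉₊ + 1)] with j hj
    have : |S.l ω| + 1 ≤ j := by
      calc |S.l ω| + 1 ≤ (⌈|S.l ω|⌉₊ : ℝ) + 1 := by linarith [Nat.le_ceil |S.l ω|]
        _ ≤ j := by exact_mod_cast hj
    rw [cut, min_eq_left (by linarith), max_eq_right zero_le_one, Complex.ofReal_one, one_mul]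

/-- Functionals proportional on compactly supported even functions are proportional on decaying
ones. -/
lemma eq_of_eq_compact {Ω' : Type*} [MeasurableSpace Ω'] (T : Samp Ω') (κ : ℂ)
    (h : ∀ F : ℝ → ℂ, Continuous F → IsEvenF F → (∃ B, Supp B F) → S.I F = κ * T.I F)
    {F : ℝ → ℂ} (hF : Decay F) (he : IsEvenF F) : S.I F = κ * T.I F := by
  refine tendsto_nhds_unique (S.tendsto_I_cut hF) ?_
  have h2 := (T.tendsto_I_cut hF).const_mul κ
  refine h2.congr fun j => (h _ ?_ ?_ ⟨j, fun x hx => ?_⟩).symm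
  · have := hF.1; unfold cut; fun_prop
  · intro x; simp only [cut, abs_neg, he x]
  · rw [cut, min_eq_right (by linarith), max_eq_left (by linarith), Complex.ofReal_zero, zero_mul]

end Samp

end Fermat.LT3
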