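import Fermat.Agent.LT3.Lat
import Fermat.Agent.LT3.Theta.Bin

/-!
# The theta series of signature `(3,1)` and its behaviour under `T` and `S`

`lat N Ψ` twists the Siegel theta series of `vec` by a function `Ψ` periodic modulo `N Λ`.  Poisson
summation in the first coordinate writes it as a series over `(k, d)` of binary theta series
(`lat_eq_mix`); hence `T` multiplies `Ψ` by a phase and `S` is the finite Fourier transform.
-/

set_option autoImplicit false
open Complex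
open scoped Real

namespace Fermat.LT3
open Fermat.LT

/-- The lattice `Λ` in dual coordinates. -/
def lam (μ : Lz) : Lz := (μ.1, (2 * μ.2.1.1 + μ.2.1.2, μ.2.1.1 + 2 * μ.2.1.2), μ.2.2)

/-- `lam` is additive. -/
lemma lam_add (μ ν : Lz) : lam (μ + ν) = lam μ + lam ν := by
  simp [lam, Prod.ext_iff]; constructor <;> ring

/-- `lam` commutes with integer multiples. -/
lemma lam_smul (n : ℤ) (μ : Lz) : lam (n • μ) = n • lam μ := by
  simp [lam, Prod.ext_iff]; constructor <;> ring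

/-- Periodicity modulo `N Λ`. -/
def Per (N : ℕ) (Ψ : Lz → ℂ) : Prop := ∀ X μ, Ψ (X + (N : ℤ) • lam μ) = Ψ X

/-- A term of the theta series. -/
noncomputable def tt (τ : ℂ) (w : H3) (X : HV) : ℂ :=
  (Real.sqrt τ.im : ℂ) *
    cexp (2 * π * I * ((τ.re * qf X : ℝ) : ℂ) - ((2 * π * τ.im * maj X w : ℝ) : ℂ))

/-- The theta series of the coefficient `Ψ` at `τ / N` and the point `w`. -/
noncomputable def lat (N : ℕ) (Ψ : Lz → ℂ) (τ : ℂ) (w : H3) : ℂ :=
  ∑' X : Lz, Ψ X * tt (τ / N) w (vec X)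

variable {N : ℕ} [NeZero N]

variable (N) in
/-- Classes of vectors modulo `(N, 3N, N)`. -/
abbrev Cl4 : Type := ZMod N × CP (3 * N) × ZMod N

variable (N) in
/-- The class of a vector in `Cl4`. -/
def red4 (X : Lz) : Cl4 N := ((X.1 : ZMod N), redv (3 * N) X.2.1, (X.2.2 : ZMod N))

/-- The least nonnegative representative of a class in `Cl4`. -/
def lift4 (c : Cl4 N) : Lz := ((c.1.val : ℤ), liftv c.2.1, (c.2.2.val : ℤ))

omit [NeZero N] in
/-- A periodic function only depends on the class. -/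
lemma Per.eq_of_red {Ψ : Lz → ℂ} (h : Per N Ψ) {X Y : Lz} (hXY : red4 N X = red4 N Y) :
    Ψ X = Ψ Y := by
  simp only [red4, redv, Prod.mk.injEq, ZMod.intCast_eq_intCast_iff_dvd_sub] at hXY
  obtain ⟨⟨i, hi⟩, ⟨⟨j, hj⟩, ⟨k, hk⟩⟩, ⟨l, hl⟩⟩ := hXY
  rw [← h X (i, (2 * j - k, 2 * k - j), l)]
  congr 1
  push_cast at hi hj hk hl
  refine Prod.ext ?_ (Prod.ext (Prod.ext ?_ ?_) ?_)
  · simp [lam]; linarith
  · simp [lam]; linarith
  · simp [lam]; linarith
  · simp [lam]; linarith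

/-- `lift4` gives representatives of the classes. -/
lemma red4_lift4 (c : Cl4 N) : red4 N (lift4 c) = c := by
  simp [red4, lift4, redv_liftv]

/-- A periodic function depends only on the class. -/
lemma Per.eq_lift {Ψ : Lz → ℂ} (h : Per N Ψ) (X : Lz) : Ψ X = Ψ (lift4 (red4 N X)) :=
  h.eq_of_red (red4_lift4 _).symm

/-- A periodic function is bounded. -/
lemma Per.exists_bound {Ψ : Lz → ℂ} (h : Per N Ψ) : ∃ M, 0 ≤ M ∧ ∀ X, ‖Ψ X‖ ≤ M :=
  ⟨∑ c : Cl4 N, ‖Ψ (lift4 c)‖, Finset.sum_nonneg fun _ _ => norm_nonneg _, fun X => by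
    rw [h.eq_lift X]
    exact Finset.single_le_sum (f := fun c : Cl4 N => ‖Ψ (lift4 c)‖)
      (fun c _ => norm_nonneg _) (Finset.mem_univ _)⟩

/-- The absolute value of a term of the theta series. -/
lemma norm_tt (τ : ℂ) (w : H3) (X : HV) :
    ‖tt τ w X‖ = Real.sqrt τ.im * Real.exp (-(2 * π * τ.im * maj X w)) := by
  rw [tt, norm_mul, Complex.norm_real, Real.norm_of_nonneg (Real.sqrt_nonneg _), Complex.norm_exp]
  congr 2
  simp

/-- The theta series converges absolutely. -/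
lemma summable_lat {Ψ : Lz → ℂ} (h : Per N Ψ) {τ : ℂ} (hτ : 0 < τ.im) (w : H3) :
    Summable fun X : Lz => Ψ X * tt (τ / N) w (vec X) := by
  obtain ⟨M, hM0, hM⟩ := h.exists_bound
  have hy : 0 < 2 * π * (τ / N).im := mul_pos (by positivity) (div_im_pos hτ)
  refine Summable.of_norm_bounded (g := fun X => M * (Real.sqrt (τ / N).im *
    Real.exp (-(2 * π * (τ / N).im * maj (vec X) w))))
    (((summable_maj hy w).mul_left _).mul_left _) fun X => ?_
  rw [norm_mul, norm_tt]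
  exact mul_le_mul_of_nonneg_right (hM X) (by positivity)

/-- The character modulo `3N` at `3 j` is the character modulo `N` at `j`. -/
lemma ee_three_mul (j : ℤ) : ee (3 * N) ((3 * j : ℤ) : ZMod (3 * N)) = ee N (j : ZMod N) := by
  rw [ee_int, ee_int]
  congr 1
  push_cast
  have : (N : ℂ) ≠ 0 := by exact_mod_cast NeZero.ne N
  field_simp

/-- Translation by one. -/
noncomputable def tph (N : ℕ) [NeZero N] (Ψ : Lz → ℂ) (X : Lz) : ℂ :=
  ee (3 * N) (q3 X : ZMod (3 * N)) * Ψ X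

/-- Translation by one preserves periodicity. -/
lemma Per.tph {Ψ : Lz → ℂ} (h : Per N Ψ) : Per N (Fermat.LT3.tph N Ψ) := fun X μ => by
  rw [Fermat.LT3.tph, Fermat.LT3.tph, h X μ]
  congr 2
  rw [ZMod.intCast_eq_intCast_iff_dvd_sub]
  refine ⟨-((X.2.1.1 * μ.2.1.1 + X.2.1.2 * μ.2.1.2 - (X.1 * μ.2.2 + μ.1 * X.2.2))
    + N * (μ.2.1.1 ^ 2 + μ.2.1.1 * μ.2.1.2 + μ.2.1.2 ^ 2 - μ.1 * μ.2.2)), ?_⟩
  simp [q3, lam, qd]
  ring

/-- Translating `τ` by one is translation of the function. -/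
lemma lat_add_one (Ψ : Lz → ℂ) (τ : ℂ) (w : H3) :
    lat N Ψ (τ + 1) w = lat N (tph N Ψ) τ w := by
  refine tsum_congr fun X => ?_
  have hN : (N : ℂ) ≠ 0 := by exact_mod_cast NeZero.ne N
  rw [tph, ee_int, mul_comm (cexp _) (Ψ X), mul_assoc (Ψ X)]
  congr 1
  rw [tt, tt, show ((τ + 1) / (N : ℂ)).im = (τ / N).im by simp [Complex.div_natCast_im],
    mul_left_comm (cexp _) _ (cexp _), ← Complex.exp_add]
  congr 2
  rw [show ((τ + 1) / (N : ℂ)).re = (τ / N).re + 1 / (N : ℝ) by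
    simp [Complex.div_natCast_re]; ring]
  have hq : ((q3 X : ℤ) : ℂ) = 3 * ((qf (vec X) : ℝ) : ℂ) := by
    rw [← Complex.ofReal_intCast, ← q3_eq]; push_cast; ring
  push_cast
  rw [hq]
  field_simp
  ring

/-- The transform of the first coordinate. -/
noncomputable def hatA (N : ℕ) [NeZero N] (Ψ : Lz → ℂ) (k : ℤ) (p : ℤ × ℤ) (d : ℤ) : ℂ :=
  ∑ a : ZMod N, Ψ ((a.val : ℤ), p, d) * ee N ((k : ZMod N) * a)

/-- The partial Fourier transform of `Ψ` as a function of a binary class. -/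
noncomputable def psiK (N : ℕ) [NeZero N] (Ψ : Lz → ℂ) (k d : ℤ) (x : CP (3 * N)) : ℂ :=
  hatA N Ψ k (liftv x) d

/-- The transform of the first coordinate depends on the middle coordinate only modulo `3N`. -/
lemma hatA_red {Ψ : Lz → ℂ} (h : Per N Ψ) (k : ℤ) (p : ℤ × ℤ) (d : ℤ) :
    hatA N Ψ k p d = psiK N Ψ k d (redv (3 * N) p) := by
  refine Finset.sum_congr rfl fun a _ => ?_
  rw [h.eq_of_red (X := ((a.val : ℤ), p, d)) (Y := ((a.val : ℤ), liftv (redv (3 * N) p), d))]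
  simp [red4, redv_liftv]

/-- The Gaussian of `(k, d)`. -/
noncomputable def gd (N : ℕ) (τ : ℂ) (t : ℝ) (v : ℤ × ℤ) : ℝ :=
  Real.exp (-(π * t ^ 2 * Complex.normSq ((v.1 : ℂ) + (v.2 : ℂ) * τ) / (N * τ.im)))

variable (N) in
/-- An integer as a class modulo `N` and a multiple of `N`. -/
noncomputable def splitOne : ZMod N × ℤ ≃ ℤ :=
  Equiv.ofBijective (fun p => (p.1.val : ℤ) + N * p.2)
    ⟨fun p q h => by
      have h1 : p.1 = q.1 := by
        have := congrArg (fun z : ℤ => (z : ZMod N)) h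
        simpa using this
      simp only [h1, add_right_inj] at h
      exact Prod.ext h1 (mul_left_cancel₀ (by exact_mod_cast NeZero.ne N) h),
    fun a => ⟨((a : ZMod N), a / N), by
      change ((a : ZMod N).val : ℤ) + N * (a / N) = a
      rw [ZMod.val_intCast, Int.emod_add_mul_ediv]⟩⟩

/-- A summable series over `ℤ` split by classes modulo `N`. -/
lemma tsum_split_one {f : ℤ → ℂ} (hf : Summable f) :
    ∑' a, f a = ∑ a0 : ZMod N, ∑' j : ℤ, f ((a0.val : ℤ) + N * j) := by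
  have h := (splitOne N).summable_iff.2 hf
  rw [← (splitOne N).tsum_eq f]
  exact h.tsum_prod.trans (tsum_fintype _)

/-- Poisson summation in the first coordinate. -/
lemma poisson_row {Ψ : Lz → ℂ} (h : Per N Ψ) {τ : ℂ} (hτ : 0 < τ.im) (z : ℂ) {t : ℝ} (ht : 0 < t)
    (p : ℤ × ℤ) (d : ℤ) :
    ∑' a : ℤ, Ψ (a, p, d) * tt (τ / N) (H3.mk z t) (vec (a, p, d))
      = (t / N : ℂ) * ∑' k : ℤ, hatA N Ψ k p d * ((gd N τ t (k, d) : ℝ) : ℂ) *
          jterm (τ / N) ((d : ℂ) * z) ((k : ℂ) * z / N) (demb p) := by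
  have hN : (N : ℂ) ≠ 0 := by exact_mod_cast NeZero.ne N
  have hNr : (0 : ℝ) < N := Nat.cast_pos.2 (NeZero.pos N)
  have htc : (t : ℂ) ≠ 0 := by exact_mod_cast ht.ne'
  have hyc : (τ.im : ℂ) ≠ 0 := by exact_mod_cast hτ.ne'
  set A : ℝ := N * τ.im / t ^ 2 with hA
  have hA0 : 0 < A := by positivity
  set c : ℝ := num (0, demb p, (d : ℝ)) z with hc
  have hs : Summable fun a : ℤ => Ψ (a, p, d) * tt (τ / N) (H3.mk z t) (vec (a, p, d)) :=
    (summable_lat h hτ (H3.mk z t)).comp_injective (i := fun a : ℤ => ((a, p, d) : Lz))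
      fun a b hab => (Prod.ext_iff.1 hab).1
  -- split the row into the classes of `a` modulo `N`
  rw [tsum_split_one (N := N) hs]
  have hinner : ∀ a0 : ZMod N, ∑' j : ℤ, Ψ (((a0.val : ℤ) + N * j), p, d) *
      tt (τ / N) (H3.mk z t) (vec (((a0.val : ℤ) + N * j), p, d))
      = Ψ ((a0.val : ℤ), p, d) * ((t / N : ℂ) * ∑' k : ℤ, ee N ((k : ZMod N) * a0) *
          ((gd N τ t (k, d) : ℝ) : ℂ) *
          jterm (τ / N) ((d : ℂ) * z) ((k : ℂ) * z / N) (demb p)) := by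
    intro a0
    set s : ℝ := (a0.val : ℝ) + c with hsdef
    set b : ℂ := -((A * s / N : ℝ) : ℂ) - I * (τ.re * d : ℝ) with hb
    set C0 : ℂ := 2 * π * I * (((τ.re / N) * (Complex.normSq (demb p) - a0.val * d) : ℝ) : ℂ)
      - ((2 * π * (τ.im / N) * (Complex.normSq (demb p - (d : ℂ) * z)
          + (s ^ 2 / t ^ 2 + (d * t) ^ 2) / 2) : ℝ) : ℂ) with hC0
    -- each term of a class as a Gaussian in `j`
    have e1 : ∀ j : ℤ, Ψ (((a0.val : ℤ) + N * j), p, d) *
        tt (τ / N) (H3.mk z t) (vec (((a0.val : ℤ) + N * j), p, d))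
        = Ψ ((a0.val : ℤ), p, d) * (((Real.sqrt (τ.im / N) : ℝ) : ℂ) * cexp C0) *
          cexp (-π * (A : ℂ) * (j : ℂ) ^ 2 + 2 * π * b * j) := fun j => by
      rw [h.eq_of_red (Y := ((a0.val : ℤ), p, d)) (by simp [red4]), tt, Complex.div_natCast_im,
        Complex.div_natCast_re, mul_assoc (Ψ _) _ (cexp _), mul_assoc _ (cexp C0),
        ← Complex.exp_add]
      congr 3
      rw [maj_coord _ z ht, hC0, hb, hsdef, hc, hA]
      simp [qf, vec, num, Complex.normSq_apply]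
      field_simp
      ring_nf
    -- the Poisson dual terms
    have e2 : ∀ k : ℤ, cexp C0 * cexp (-π / (A : ℂ) * ((k : ℂ) + I * b) ^ 2)
        = ee N ((k : ZMod N) * a0) * ((gd N τ t (k, d) : ℝ) : ℂ) *
          jterm (τ / N) ((d : ℂ) * z) ((k : ℂ) * z / N) (demb p) := fun k => by
      rw [show (k : ZMod N) * a0 = ((k * (a0.val : ℤ) : ℤ) : ZMod N) by simp, ee_int, gd, jterm,
        Complex.ofReal_exp, ← Complex.exp_add, ← Complex.exp_add, ← Complex.exp_add]
      congr 1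
      rw [hC0, hb, hsdef, hc, hA, jE]
      simp [num, Complex.normSq_apply, -ZMod.natCast_val]
      field_simp
      have hτ' := Complex.re_add_im τ
      generalize τ.re = x, τ.im = y at hτ' ⊢
      subst hτ'
      ring_nf
      simp only [I_sq, I_pow_three, I_pow_four]
      ring_nf
    -- Poisson summation in one variable
    rw [tsum_congr e1, tsum_mul_left, Complex.tsum_exp_neg_quadratic (by simpa using hA0),
      ← tsum_congr e2, tsum_mul_left]
    have hsq : ((A : ℂ) ^ (1 / 2 : ℂ)) = ((Real.sqrt A : ℝ) : ℂ) := by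
      rw [show ((1 : ℂ) / 2) = (((1 : ℝ) / 2 : ℝ) : ℂ) by norm_num, ← Complex.ofReal_cpow hA0.le,
        ← Real.sqrt_eq_rpow]
    have hpre : ((Real.sqrt (τ.im / N) : ℝ) : ℂ) * (1 / ((A : ℂ) ^ (1 / 2 : ℂ))) = (t / N : ℂ) := by
      rw [hsq, one_div, ← Complex.ofReal_inv, ← Complex.ofReal_mul, ← Real.sqrt_inv,
        ← Real.sqrt_mul (by positivity), hA,
        show τ.im / N * (N * τ.im / t ^ 2)⁻¹ = (t / N) ^ 2 by field_simp,
        Real.sqrt_sq (by positivity)]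
      push_cast
      rfl
    linear_combination (Ψ ((a0.val : ℤ), p, d) * cexp C0 *
      ∑' k : ℤ, cexp (-π / (A : ℂ) * ((k : ℂ) + I * b) ^ 2)) * hpre
  rw [Finset.sum_congr rfl fun a0 _ => hinner a0]
  simp only [mul_left_comm (Ψ _) (t / N : ℂ), ← Finset.mul_sum]
  congr 1
  -- the dual series converge, so the finite and infinite sums may be exchanged
  have hsk : ∀ a0 : ZMod N, Summable fun k : ℤ => ee N ((k : ZMod N) * a0) *
      ((gd N τ t (k, d) : ℝ) : ℂ) * jterm (τ / N) ((d : ℂ) * z) ((k : ℂ) * z / N) (demb p) := by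
    intro a0
    have hl : 0 < π * t ^ 2 / (N * τ.im) := by positivity
    refine Summable.of_norm_bounded (g := fun k : ℤ =>
      Real.exp (-(π * t ^ 2 / (N * τ.im) * ((k : ℝ) + d * τ.re) ^ 2)))
      (summable_gsum hl _) fun k => ?_
    rw [norm_mul, norm_mul, ee, show ‖ZMod.stdAddChar ((k : ZMod N) * a0)‖ = 1 from
      AddChar.norm_apply _ _, one_mul, Complex.norm_real, Real.norm_eq_abs, gd, Real.abs_exp,
      jterm, Complex.norm_exp, ← Real.exp_add]
    refine Real.exp_le_exp.2 ?_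
    have h1 : (2 * π * I * jE (τ / N) ((d : ℂ) * z) ((k : ℂ) * z / N) (demb p)).re ≤ 0 := by
      simp [jE, Complex.div_natCast_im]
      have := Complex.normSq_nonneg (demb p - (d : ℂ) * z)
      positivity
    have h2 : π * t ^ 2 / (N * τ.im) * ((k : ℝ) + d * τ.re) ^ 2
        ≤ π * t ^ 2 * Complex.normSq ((k : ℂ) + (d : ℂ) * τ) / (N * τ.im) := by
      rw [div_mul_eq_mul_div]
      refine div_le_div_of_nonneg_right (mul_le_mul_of_nonneg_left ?_ (by positivity))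
        (by positivity)
      simp [Complex.normSq_apply]
      nlinarith [sq_nonneg ((d : ℝ) * τ.im)]
    simp only
    linarith
  simp only [hatA, Finset.sum_mul]
  rw [Summable.tsum_finsetSum (fun a0 _ =>
    ((hsk a0).mul_left (Ψ ((a0.val : ℤ), p, d))).congr fun k => by ring)]
  refine Finset.sum_congr rfl fun a0 _ => ?_
  rw [← tsum_mul_left]
  exact tsum_congr fun k => by ring

/-- A term of the mixed series. -/
noncomputable def mixTerm (N : ℕ) [NeZero N] (Ψ : Lz → ℂ) (τ z : ℂ) (t : ℝ)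
    (v : (ℤ × ℤ) × (ℤ × ℤ)) : ℂ :=
  hatA N Ψ v.1.1 v.2 v.1.2 * ((gd N τ t v.1 : ℝ) : ℂ) *
    jterm (τ / N) ((v.1.2 : ℂ) * z) ((v.1.1 : ℂ) * z / N) (demb v.2)

attribute [local irreducible] gsum

/-- The Gaussians of `(k, d)` are summable. -/
lemma summable_gd {τ : ℂ} (hτ : 0 < τ.im) {t : ℝ} (ht : 0 < t) :
    Summable fun v : ℤ × ℤ => gd N τ t v := by
  have hNr : (0 : ℝ) < N := Nat.cast_pos.2 (NeZero.pos N)
  set l := π * t ^ 2 / (N * τ.im) with hl
  have hl0 : 0 < l := by positivity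
  let e : ℤ × ℤ ≃ ℤ × ℤ := Equiv.prodComm ℤ ℤ
  refine e.summable_iff.1 ?_
  have hg : ∀ v : ℤ × ℤ, (gd N τ t ∘ e) v
      = Real.exp (-(l * ((v.2 : ℝ) + v.1 * τ.re) ^ 2))
        * Real.exp (-(l * τ.im ^ 2 * ((v.1 : ℝ) + 0) ^ 2)) := fun v => by
    simp only [e, Function.comp_apply, Equiv.prodComm_apply, gd, Prod.fst_swap, Prod.snd_swap,
      ← Real.exp_add]
    congr 1
    simp [hl, Complex.normSq_apply]
    field_simp
    ring
  refine Summable.congr ?_ fun v => (hg v).symm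
  have hn : ∀ v : ℤ × ℤ, 0 ≤ Real.exp (-(l * ((v.2 : ℝ) + v.1 * τ.re) ^ 2))
      * Real.exp (-(l * τ.im ^ 2 * ((v.1 : ℝ) + 0) ^ 2)) := fun v =>
    mul_nonneg (Real.exp_pos _).le (Real.exp_pos _).le
  refine (summable_prod_of_nonneg hn).2 ⟨fun d => ?_, ?_⟩
  · exact (summable_gsum hl0 ((d : ℝ) * τ.re)).mul_right
      (Real.exp (-(l * τ.im ^ 2 * ((d : ℝ) + 0) ^ 2)))
  have hd := (summable_gsum (show 0 < l * τ.im ^ 2 by positivity) 0).mul_left (gsum l 0)
  refine hd.of_nonneg_of_le (fun d => tsum_nonneg fun n => hn (d, n)) fun d => ?_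
  have h1 := (gsum_le_centred hl0 ((d : ℝ) * τ.re)).1
  rw [gsum] at h1
  simp only
  rw [tsum_mul_right]
  exact mul_le_mul_of_nonneg_right h1 (Real.exp_pos _).le

/-- The mixed series converges absolutely. -/
lemma summable_mixTerm {Ψ : Lz → ℂ} (h : Per N Ψ) {τ : ℂ} (hτ : 0 < τ.im) (z : ℂ) {t : ℝ}
    (ht : 0 < t) : Summable (mixTerm N Ψ τ z t) := by
  obtain ⟨M, hM0, hM⟩ := h.exists_bound
  have hy : 0 < 2 * π * (τ / N).im := mul_pos (by positivity) (div_im_pos hτ)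
  set Q := gsum (2 * π * (τ / N).im / 4) 0 * gsum (2 * π * (τ / N).im / 3) 0
  -- each term is at most `N * M * gd` times a shifted Gaussian
  have hbound : ∀ v : (ℤ × ℤ) × (ℤ × ℤ), ‖mixTerm N Ψ τ z t v‖ ≤ (N * M * gd N τ t v.1) *
      Real.exp (-(2 * π * (τ / N).im * Complex.normSq (demb v.2 - (v.1.2 : ℂ) * z))) := fun v => by
    rw [mixTerm, norm_mul, norm_mul, Complex.norm_real, Real.norm_eq_abs]
    have h1 : ‖hatA N Ψ v.1.1 v.2 v.1.2‖ ≤ N * M := by
      refine (norm_sum_le _ _).trans ((Finset.sum_le_card_nsmul _ _ M fun a _ => ?_).trans ?_)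
      · rw [norm_mul, ee, show ‖ZMod.stdAddChar ((v.1.1 : ZMod N) * a)‖ = 1 from
          AddChar.norm_apply _ _, mul_one]
        exact hM _
      · simp
    have h2 : ‖jterm (τ / N) ((v.1.2 : ℂ) * z) ((v.1.1 : ℂ) * z / N) (demb v.2)‖
        = Real.exp (-(2 * π * (τ / N).im * Complex.normSq (demb v.2 - (v.1.2 : ℂ) * z))) := by
      rw [jterm, Complex.norm_exp]
      congr 1
      simp [jE]
      ring
    rw [h2, gd, Real.abs_exp]
    gcongr
  have hgn : ∀ v : ℤ × ℤ, 0 ≤ gd N τ t v := fun v => (Real.exp_pos _).le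
  refine Summable.of_norm_bounded ((summable_prod_of_nonneg fun v => ?_).2 ⟨fun v => ?_, ?_⟩) hbound
  · have := hgn v.1
    positivity
  · simpa only using (summable_hexshift hy ((v.2 : ℂ) * z)).1.mul_left (N * M * gd N τ t v)
  -- the inner lattice sums are uniformly bounded by `Q`
  · refine ((summable_gd (N := N) hτ ht).mul_left (N * M * Q)).of_nonneg_of_le
      (fun v => tsum_nonneg fun p => by have := hgn v; positivity) fun v => ?_
    simp only
    rw [tsum_mul_left]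
    calc N * M * gd N τ t v * ∑' p : ℤ × ℤ,
          Real.exp (-(2 * π * (τ / N).im * Complex.normSq (demb p - (v.2 : ℂ) * z)))
        ≤ N * M * gd N τ t v * Q := mul_le_mul_of_nonneg_left (summable_hexshift hy _).2
          (by have := hgn v; positivity)
      _ = N * M * Q * gd N τ t v := by ring

/-- **The mixed model.** The theta series is a Gaussian sum over pairs of integers of binary theta
series at `3τ`. -/
theorem lat_eq_mix {Ψ : Lz → ℂ} (h : Per N Ψ) {τ : ℂ} (hτ : 0 < τ.im) (z : ℂ) {t : ℝ}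
    (ht : 0 < t) :
    lat N Ψ τ (H3.mk z t) = (t / N : ℂ) * ∑' v : ℤ × ℤ, ((gd N τ t v : ℝ) : ℂ) *
      bind (psiK N Ψ v.1 v.2) (3 * τ) ((v.2 : ℂ) * z) (3 * ((v.1 : ℂ) * z)) := by
  have hN : (N : ℂ) ≠ 0 := by exact_mod_cast NeZero.ne N
  let e1 : ((ℤ × ℤ) × ℤ) × ℤ ≃ Lz :=
    ⟨fun v => (v.2, v.1.1, v.1.2), fun X => ((X.2.1, X.2.2), X.1), fun _ => rfl, fun _ => rfl⟩
  let e2 : ((ℤ × ℤ) × ℤ) × ℤ ≃ (ℤ × ℤ) × (ℤ × ℤ) :=
    ⟨fun v => ((v.2, v.1.2), v.1.1), fun v => ((v.2, v.1.2), v.1.1), fun _ => rfl, fun _ => rfl⟩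
  have hs1 := e1.summable_iff.2 (summable_lat h hτ (H3.mk z t))
  have hm := summable_mixTerm h hτ z ht
  have hs2 := e2.summable_iff.2 hm
  rw [lat, ← e1.tsum_eq]
  rw [show (∑' c, (fun X => Ψ X * tt (τ / N) (H3.mk z t) (vec X)) (e1 c))
    = ∑' w : (ℤ × ℤ) × ℤ, ∑' a : ℤ, Ψ (a, w.1, w.2) * tt (τ / N) (H3.mk z t) (vec (a, w.1, w.2))
    from hs1.tsum_prod]
  simp only [poisson_row h hτ z ht]
  rw [tsum_mul_left]
  congr 1
  have h3 : ∑' w : (ℤ × ℤ) × ℤ, ∑' k : ℤ, hatA N Ψ k w.1 w.2 * ((gd N τ t (k, w.2) : ℝ) : ℂ) *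
      jterm (τ / N) ((w.2 : ℂ) * z) ((k : ℂ) * z / N) (demb w.1)
      = ∑' v : (ℤ × ℤ) × (ℤ × ℤ), mixTerm N Ψ τ z t v := by
    rw [← e2.tsum_eq (mixTerm N Ψ τ z t)]
    exact hs2.tsum_prod.symm
  rw [h3, hm.tsum_prod]
  refine tsum_congr fun v => ?_
  rw [bind, ← tsum_mul_left]
  refine tsum_congr fun p => ?_
  rw [mixTerm, ← hatA_red h, show 3 * τ / ((3 * N : ℕ) : ℂ) = τ / N by push_cast; field_simp,
    show 3 * ((v.1 : ℂ) * z) / ((3 * N : ℕ) : ℂ) = (v.1 : ℂ) * z / N by push_cast; field_simp]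
  ring

/-- The finite Fourier transform. -/
noncomputable def fou (N : ℕ) [NeZero N] (Ψ : Lz → ℂ) (Y : Lz) : ℂ :=
  ∑ c : Cl4 N, Ψ (lift4 c) * ee (3 * N) ((-b3 (lift4 c) Y : ℤ) : ZMod (3 * N))

/-- The finite Fourier transform is periodic. -/
lemma per_fou (Ψ : Lz → ℂ) : Per N (fou N Ψ) := fun Y μ => by
  refine Finset.sum_congr rfl fun c _ => ?_
  congr 2
  rw [ZMod.intCast_eq_intCast_iff_dvd_sub]
  refine ⟨(lift4 c).2.1.1 * μ.2.1.1 + (lift4 c).2.1.2 * μ.2.1.2
    - ((lift4 c).1 * μ.2.2 + μ.1 * (lift4 c).2.2), ?_⟩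
  simp [b3, lam]
  ring

/-- The embedding of the dual lattice into `ℤ[ω]` by `-3`. -/
def iot (p : ℤ × ℤ) : ℤ × ℤ := (p.2 - 2 * p.1, p.1 - 2 * p.2)

/-- The embedding of `iot p` is `-3` times that of `p`. -/
lemma emb_iot (p : ℤ × ℤ) : emb (iot p) = -3 * demb p := by
  apply Complex.ext
  · rw [emb_re]; simp [iot, demb]; ring
  · rw [emb_im]; simp [iot, demb]
    have := sqrt_three_ne
    field_simp
    ring_nf
    rw [show Real.sqrt 3 ^ 2 = 3 by rw [sq]; exact sqrt_three_sq]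
    ring

/-- The first transform of the Fourier transform is a binary transform with indices exchanged. -/
lemma hatA_fou (Ψ : Lz → ℂ) (k : ℤ) (p : ℤ × ℤ) (d : ℤ) (h : Per N Ψ) :
    hatA N (fou N Ψ) (-d) p k = N * ftb (psiK N Ψ k d) (redv (3 * N) (iot p)) := by
  simp only [hatA, fou, Finset.sum_mul]
  -- Sum over the auxiliary variable first: it forces the last class coordinate to be `d`.
  rw [Finset.sum_comm]
  have hin : ∀ c : Cl4 N, ∑ a' : ZMod N, Ψ (lift4 c) *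
      ee (3 * N) ((-b3 (lift4 c) ((a'.val : ℤ), p, k) : ℤ) : ZMod (3 * N)) *
      ee N (((-d : ℤ) : ZMod N) * a')
      = if c.2.2 - (d : ZMod N) = 0 then (N : ℂ) * (Ψ (lift4 c) *
          ee (3 * N) (cdot (redv (3 * N) (iot p)) c.2.1) * ee N ((k : ZMod N) * c.1)) else 0 := by
    intro c
    have e : ∀ a' : ZMod N, ee (3 * N) ((-b3 (lift4 c) ((a'.val : ℤ), p, k) : ℤ) : ZMod (3 * N))
        * ee N (((-d : ℤ) : ZMod N) * a')
        = ee (3 * N) (cdot (redv (3 * N) (iot p)) c.2.1) * ee N ((k : ZMod N) * c.1)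
          * ee N (a' * (c.2.2 - (d : ZMod N))) := fun a' => by
      have hb : -b3 (lift4 c) ((a'.val : ℤ), p, k)
          = ((iot p).1 * (liftv c.2.1).1 + (iot p).2 * (liftv c.2.1).2)
            + 3 * ((c.1.val : ℤ) * k + (a'.val : ℤ) * (c.2.2.val : ℤ)) := by
        simp [b3, lift4, iot]; ring
      rw [hb, Int.cast_add, ee_add, ee_three_mul, mul_assoc, ← ee_add, mul_assoc, ← ee_add]
      congr 1
      · congr 1; simp [cdot, redv, liftv]
      · congr 1; simp; ring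
    simp only [mul_assoc (Ψ (lift4 c)), e]
    rw [← Finset.mul_sum, ← Finset.mul_sum]
    have hs : ∑ a' : ZMod N, ee N (a' * (c.2.2 - (d : ZMod N)))
        = if c.2.2 - (d : ZMod N) = 0 then (N : ℂ) else 0 := by
      have := AddChar.sum_mulShift (c.2.2 - (d : ZMod N)) (ZMod.isPrimitive_stdAddChar N)
      simpa [ee, ZMod.card] using this
    rw [hs]
    split_ifs with h0
    · ring
    · ring
  -- What remains is the binary transform of the slice at `d`.
  rw [Finset.sum_congr rfl fun c _ => hin c]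
  simp only [sub_eq_zero]
  rw [ftb, Finset.mul_sum, Fintype.sum_prod_type, Finset.sum_comm]
  simp only [psiK, hatA, Finset.sum_mul, Finset.mul_sum]
  rw [Fintype.sum_prod_type]
  refine Finset.sum_congr rfl fun x _ => ?_
  rw [Finset.sum_eq_single (d : ZMod N)]
  · refine Finset.sum_congr rfl fun a _ => ?_
    rw [if_pos rfl]
    have hl : Ψ (lift4 ((a, x, (d : ZMod N)) : Cl4 N)) = Ψ ((a.val : ℤ), liftv x, d) :=
      h.eq_of_red (by simp [red4, lift4, redv_liftv])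
    rw [hl]
    ring
  · intro b _ hb
    exact Finset.sum_eq_zero fun a _ => if_neg hb
  · exact fun hn => absurd (Finset.mem_univ _) hn

/-- The binary transform vanishes outside the image of the dual lattice. -/
lemma ftb_eq_zero {Ψ : Lz → ℂ} (h : Per N Ψ) (k d : ℤ) {γ : ℤ × ℤ} (hγ : ¬ (3 : ℤ) ∣ γ.1 - γ.2) :
    ftb (psiK N Ψ k d) (redv (3 * N) γ) = 0 := by
  set s : CP (3 * N) := ((((2 * N : ℕ) : ℤ) : ZMod (3 * N)), ((N : ℤ) : ZMod (3 * N))) with hs
  set S := ftb (psiK N Ψ k d) (redv (3 * N) γ) with hS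
  have key : S = S * ee (3 * N) (cdot (redv (3 * N) γ) s) := by
    rw [hS, ftb, Finset.sum_mul]
    conv_lhs => rw [← Equiv.sum_comp (Equiv.addRight s)]
    refine Finset.sum_congr rfl fun x _ => ?_
    rw [Equiv.coe_addRight, mul_assoc (psiK N Ψ k d x), ← ee_add]
    congr 1
    · simp only [psiK, hatA]
      refine Finset.sum_congr rfl fun a _ => ?_
      congr 1
      rw [← h ((a.val : ℤ), liftv x, d) (0, (1, 0), 0)]
      refine h.eq_of_red ?_
      simp [red4, lam, redv, liftv, hs, mul_comm]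
    · congr 1
      simp [cdot]; ring
  have hne : ee (3 * N) (cdot (redv (3 * N) γ) s) ≠ 1 := by
    intro h1
    have h2 : cdot (redv (3 * N) γ) s = 0 :=
      ZMod.injective_stdAddChar (h1.trans ee_zero.symm)
    have h3 : (((γ.1 * (2 * N) + γ.2 * N) : ℤ) : ZMod (3 * N)) = 0 := by
      rw [← h2]; simp [cdot, redv, hs]
    rw [ZMod.intCast_zmod_eq_zero_iff_dvd] at h3
    obtain ⟨m, hm⟩ := h3
    refine hγ ⟨γ.1 - m, ?_⟩
    have hN : (N : ℤ) ≠ 0 := by exact_mod_cast NeZero.ne N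
    push_cast at hm
    have : 2 * γ.1 + γ.2 = 3 * m := mul_left_cancel₀ hN (by linarith)
    linarith
  by_contra hS0
  exact hne (mul_left_cancel₀ hS0 (by rw [mul_one]; exact key.symm))

/-- The binary theta series transform between the indices `(k, d)` and `(-d, k)`. -/
lemma bin_ftb_eq {Ψ : Lz → ℂ} (h : Per N Ψ) {τ : ℂ} (k d : ℤ) (z : ℂ) :
    bin (ftb (psiK N Ψ k d)) (τ / 3) (-(3 * ((k : ℂ) * z))) ((d : ℂ) * z)
      = (1 / (N : ℂ)) *
        bind (psiK N (fou N Ψ) (-d) k) (3 * τ) ((k : ℂ) * z) (3 * (((-d : ℤ) : ℂ) * z)) := by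
  have hN : (N : ℂ) ≠ 0 := by exact_mod_cast NeZero.ne N
  have hinj : Function.Injective iot := fun p q hpq => by
    simp only [iot, Prod.mk.injEq] at hpq
    ext <;> omega
  -- the transformed coefficients live on the image of `iot`
  have hsupp : Function.support (fun γ => ftb (psiK N Ψ k d) (redv (3 * N) γ) *
      jterm (τ / 3 / ((3 * N : ℕ) : ℂ)) (-(3 * ((k : ℂ) * z))) ((d : ℂ) * z / ((3 * N : ℕ) : ℂ))
        (emb γ)) ⊆ Set.range iot := by
    intro γ hγ
    by_contra hr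
    refine hγ (?_ : _ = (0 : ℂ))
    simp only
    rw [ftb_eq_zero h k d ?_, zero_mul]
    rintro ⟨m, hm⟩
    exact hr ⟨(m - γ.1, 2 * m - γ.1),
      Prod.ext (by simp [iot]; linarith) (by simp [iot]; linarith)⟩
  rw [bin, bind, ← hinj.tsum_eq hsupp, ← tsum_mul_left]
  refine tsum_congr fun p => ?_
  rw [← hatA_red (per_fou Ψ), hatA_fou Ψ k p d h, emb_iot]
  -- there the exponentials agree
  have hj : jterm (τ / 3 / ((3 * N : ℕ) : ℂ)) (-(3 * ((k : ℂ) * z)))
      ((d : ℂ) * z / ((3 * N : ℕ) : ℂ)) (-3 * demb p)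
      = jterm (3 * τ / ((3 * N : ℕ) : ℂ)) ((k : ℂ) * z)
        (3 * (((-d : ℤ) : ℂ) * z) / ((3 * N : ℕ) : ℂ)) (demb p) := by
    rw [jterm, jterm]
    congr 2
    rw [jE, jE, show ((3 * N : ℕ) : ℂ) = (((3 * N : ℕ) : ℝ) : ℂ) from by simp]
    simp [Complex.normSq_apply, -Nat.cast_mul]
    push_cast
    field_simp
    ring
  rw [hj]
  field_simp

/-- **Inversion.** At `-1/τ` the theta series is `τ` times the one of the Fourier transform, up to a
constant. -/
theorem lat_inv {Ψ : Lz → ℂ} (h : Per N Ψ) {τ : ℂ} (hτ : 0 < τ.im) (w : H3) :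
    lat N Ψ (-τ⁻¹) w
      = -I * (Real.sqrt 3 : ℂ) / (9 * (N : ℂ) ^ 2) * τ * lat N (fou N Ψ) τ w := by
  have hN : (N : ℂ) ≠ 0 := by exact_mod_cast NeZero.ne N
  have h0 : τ ≠ 0 := fun e => by simp [e] at hτ
  obtain ⟨z, t, ht, rfl⟩ : ∃ z t, 0 < t ∧ H3.mk z t = w :=
    ⟨_, _, H3.coord_pos w, H3.mk_coord w⟩
  rw [lat_eq_mix h (neg_inv_im_pos hτ) z ht, lat_eq_mix (per_fou Ψ) hτ z ht]
  let e : ℤ × ℤ ≃ ℤ × ℤ :=
    ⟨fun v => (-v.2, v.1), fun v => (v.2, -v.1), fun v => by simp, fun v => by simp⟩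
  rw [← e.tsum_eq (fun v : ℤ × ℤ => ((gd N τ t v : ℝ) : ℂ) *
    bind (psiK N (fou N Ψ) v.1 v.2) (3 * τ) ((v.2 : ℂ) * z) (3 * ((v.1 : ℂ) * z))),
    ← mul_assoc, ← tsum_mul_left, ← tsum_mul_left]
  refine tsum_congr fun v => ?_
  have hg : gd N (-τ⁻¹) t v = gd N τ t (e v) := by
    rw [gd, gd]
    congr 2
    simp only [e, Equiv.coe_fn_mk, Complex.neg_im, Complex.inv_im, neg_div, neg_neg]
    rw [show (v.1 : ℂ) + (v.2 : ℂ) * -τ⁻¹ = (((-v.2 : ℤ) : ℂ) + (v.1 : ℂ) * τ) / τ by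
      push_cast; field_simp; ring, Complex.normSq_div]
    have := (Complex.normSq_pos.2 h0).ne'
    field_simp
  have hτ3 : 0 < (τ / 3).im := by
    rw [show τ / 3 = τ / ((3 : ℕ) : ℂ) by norm_num, Complex.div_natCast_im]
    positivity
  rw [hg, show 3 * -τ⁻¹ = -(τ / 3)⁻¹ by rw [inv_div]; field_simp, bind_inv _ hτ3]
  have hb := bin_ftb_eq h (τ := τ) v.1 v.2 z
  simp only [e, Equiv.coe_fn_mk]
  rw [hb]
  push_cast
  field_simp
  ring

end Fermat.LT3
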