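import Fermat.Agent.LT3.Eis
import Fermat.Agent.LT3.LatTheta

/-!
# Integral matrices on the dual lattice; twisting periodic functions

`dact m X = m X mᴴ` on dual coordinates; `twist Ψ M` is `Ψ ∘ dact M⁻¹` for `M` modulo `3N`.
-/

set_option autoImplicit false
open Complex Matrix QuadraticAlgebra
open scoped ComplexConjugate MatrixGroups

namespace Fermat.LT3
open Fermat.LT

/-- `√-3`. -/
def sR : EI := ⟨-1, 2⟩

/-- `√-3 β`. -/
def bY (p : ℤ × ℤ) : EI := ⟨-p.2, p.1⟩

/-- The pairing of the coordinates of `y` with an integer pair. -/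
def dotE (y : EI) (p : ℤ × ℤ) : ℤ := y.re * p.1 + y.im * p.2

/-- The `β`-part of the image, times `√-3`. -/
def bImg (m : Matrix (Fin 2) (Fin 2) EI) (X : Lz) : EI :=
  sR * ((X.1 : EI) * (m 0 0 * star (m 1 0)) + (X.2.2 : EI) * (m 0 1 * star (m 1 1)))
    + m 0 0 * star (m 1 1) * bY X.2.1 - m 0 1 * star (m 1 0) * star (bY X.2.1)

/-- `m X mᴴ` on dual coordinates. -/
def dact (m : Matrix (Fin 2) (Fin 2) EI) (X : Lz) : Lz :=
  (X.1 * QuadraticAlgebra.norm (m 0 0) + X.2.2 * QuadraticAlgebra.norm (m 0 1)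
      + dotE (star (m 0 0) * m 0 1) X.2.1,
    ((bImg m X).im, -(bImg m X).re),
    X.1 * QuadraticAlgebra.norm (m 1 0) + X.2.2 * QuadraticAlgebra.norm (m 1 1)
      + dotE (star (m 1 0) * m 1 1) X.2.1)

/-- `bY` of the middle coordinate of the image is `bImg`. -/
lemma bY_img (m : Matrix (Fin 2) (Fin 2) EI) (X : Lz) : bY (dact m X).2.1 = bImg m X := by
  apply QuadraticAlgebra.ext <;> simp [bY, dact]

/-- The image of `√-3` in `ℂ` is nonzero. -/
lemma toC_sR_ne : toC sR ≠ 0 := fun h => by
  have := toC_injective (h.trans (map_zero toC).symm)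
  simp [sR, QuadraticAlgebra.ext_iff] at this

/-- The image of `√-3` in `ℂ` is purely imaginary. -/
lemma conj_toC_sR : conj (toC sR) = -toC sR := by
  rw [← toC_star, ← map_neg]
  congr 1

/-- The embedding of `√-3 β`. -/
lemma toC_bY (p : ℤ × ℤ) : toC (bY p) = toC sR * demb p := by
  rw [toC_apply, toC_apply]
  apply Complex.ext
  · rw [Complex.mul_re, emb_re, emb_re, emb_im]
    simp [bY, sR, demb]
    have := sqrt_three_ne
    field_simp
    ring
  · rw [Complex.mul_im, emb_re, emb_im, emb_im]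
    simp [bY, sR, demb]
    ring

/-- The embedding of the middle coordinate is injective. -/
lemma demb_injective : Function.Injective demb := fun p q h => by
  have h2 : bY p = bY q := toC_injective (by rw [toC_bY, toC_bY, h])
  simp [bY, QuadraticAlgebra.ext_iff] at h2
  exact Prod.ext h2.2 h2.1

/-- The embedding of the dual lattice is injective. -/
lemma vec_injective : Function.Injective vec := fun X Y h => by
  simp only [vec, Prod.mk.injEq] at h
  exact Prod.ext (by exact_mod_cast h.1) (Prod.ext (demb_injective h.2.1) (by exact_mod_cast h.2.2))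

/-- The pairing in complex terms. -/
lemma dotE_eq (y : EI) (p : ℤ × ℤ) :
    ((dotE y p : ℤ) : ℂ) = conj (toC y) * demb p + toC y * conj (demb p) := by
  have e : conj (toC y) * demb p + toC y * conj (demb p)
      = ((2 * (toC y * conj (demb p)).re : ℝ) : ℂ) := by
    push_cast
    rw [Complex.re_eq_add_conj, map_mul, Complex.conj_conj]
    ring
  rw [e, toC_apply, pair_emb_demb]
  simp [dotE]

/-- The norm is a number times its conjugate. -/
lemma norm_eq_mul_conj (y : EI) :
    ((QuadraticAlgebra.norm y : ℤ) : ℂ) = toC y * conj (toC y) := by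
  rw [Complex.mul_conj, normSq_toC]
  push_cast
  rfl

/-- `dact m` acts on the Hermitian matrix of a point by `X ↦ m X mᴴ`. -/
lemma toMat_dact (m : Matrix (Fin 2) (Fin 2) EI) (X : Lz) :
    toMat (vec (dact m X)) = m.map toC * toMat (vec X) * (m.map toC)ᴴ := by
  have hb : toC sR * demb (dact m X).2.1 = toC sR *
      ((X.1 : ℂ) * (toC (m 0 0) * conj (toC (m 1 0)))
        + (X.2.2 : ℂ) * (toC (m 0 1) * conj (toC (m 1 1)))
        + toC (m 0 0) * conj (toC (m 1 1)) * demb X.2.1
        + toC (m 0 1) * conj (toC (m 1 0)) * conj (demb X.2.1)) := by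
    rw [← toC_bY, bY_img, bImg]
    simp only [map_add, map_sub, map_mul, map_intCast, toC_star, toC_bY, map_mul, conj_toC_sR]
    ring
  have hb' := mul_left_cancel₀ toC_sR_ne hb
  ext i j
  fin_cases i <;> fin_cases j <;>
    simp [toMat, vec, Matrix.mul_apply, Fin.sum_univ_two, hb']
  · simp [dact, dotE_eq, norm_eq_mul_conj, toC_star]
    ring
  · ring
  · ring
  · simp [dact, dotE_eq, norm_eq_mul_conj, toC_star]
    ring

/-- The action on the dual lattice is multiplicative. -/
lemma dact_mul (m n : Matrix (Fin 2) (Fin 2) EI) (X : Lz) :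
    dact (m * n) X = dact m (dact n X) := by
  refine vec_injective ?_
  rw [← ofMat_toMat (vec (dact (m * n) X)), ← ofMat_toMat (vec (dact m _))]
  congr 1
  rw [toMat_dact, toMat_dact, toMat_dact, Matrix.map_mul, Matrix.conjTranspose_mul]
  simp only [Matrix.mul_assoc]

/-- The identity fixes every point. -/
lemma dact_one (X : Lz) : dact 1 X = X := by
  refine vec_injective ?_
  rw [← ofMat_toMat (vec (dact 1 X)), ← ofMat_toMat (vec X), toMat_dact, ofMat_toMat]
  simp

/-- The action is additive in the point. -/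
lemma dact_add (m : Matrix (Fin 2) (Fin 2) EI) (X Y : Lz) :
    dact m (X + Y) = dact m X + dact m Y := by
  simp [dact, bImg, dotE, bY, Prod.ext_iff]
  refine ⟨?_, ⟨?_, ?_⟩, ?_⟩ <;> ring

/-- The action commutes with integer multiples. -/
lemma dact_smul (m : Matrix (Fin 2) (Fin 2) EI) (k : ℤ) (X : Lz) :
    dact m (k • X) = k • dact m X := by
  simp [dact, bImg, dotE, bY, Prod.ext_iff]
  refine ⟨?_, ⟨?_, ?_⟩, ?_⟩ <;> ring

/-- The action multiplies the form by the norm of the determinant. -/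
lemma q3_dact (m : Matrix (Fin 2) (Fin 2) EI) (X : Lz) :
    q3 (dact m X) = QuadraticAlgebra.norm m.det * q3 X := by
  have h := congrArg Matrix.det (toMat_dact m X)
  rw [det_toMat, Matrix.det_mul, Matrix.det_mul, det_toMat, Matrix.det_conjTranspose,
    RCLike.star_def, show (m.map toC).det = toC m.det from (RingHom.map_det toC m).symm,
    mul_right_comm, ← norm_eq_mul_conj, ← Complex.ofReal_intCast, ← Complex.ofReal_mul] at h
  have h2 := Complex.ofReal_injective h
  have : ((q3 (dact m X) : ℤ) : ℝ) = ((QuadraticAlgebra.norm m.det * q3 X : ℤ) : ℝ) := by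
    push_cast
    rw [← q3_eq, ← q3_eq]
    linarith
  exact_mod_cast this

/-- `b3` is the bilinear form of `q3`. -/
lemma b3_eq_sub (X Y : Lz) : b3 X Y = q3 (X + Y) - q3 X - q3 Y := by
  simp [b3, q3, qd]; ring

/-- The action multiplies `b3` by the norm of the determinant. -/
lemma b3_dact (m : Matrix (Fin 2) (Fin 2) EI) (X Y : Lz) :
    b3 (dact m X) (dact m Y) = QuadraticAlgebra.norm m.det * b3 X Y := by
  rw [b3_eq_sub, b3_eq_sub, ← dact_add, q3_dact, q3_dact, q3_dact]; ring

/-- The action of a matrix on `Λ`, in the coordinates of `lam`. -/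
def lact (m : Matrix (Fin 2) (Fin 2) EI) (μ : Lz) : Lz :=
  let y : EI := (μ.1 : EI) * (m 0 0 * star (m 1 0)) + (μ.2.2 : EI) * (m 0 1 * star (m 1 1))
    + m 0 0 * star (m 1 1) * ⟨μ.2.1.1, μ.2.1.2⟩ + m 0 1 * star (m 1 0) *
      star (⟨μ.2.1.1, μ.2.1.2⟩ : EI)
  ((dact m (lam μ)).1, (y.re, y.im), (dact m (lam μ)).2.2)

/-- The action on the dual lattice restricts to the action on `Λ`. -/
lemma dact_lam (m : Matrix (Fin 2) (Fin 2) EI) (μ : Lz) :
    dact m (lam μ) = lam (lact m μ) := by
  have hy : ∀ v : ℤ × ℤ, bY (2 * v.1 + v.2, v.1 + 2 * v.2) = sR * ⟨v.1, v.2⟩ := fun v => by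
    apply QuadraticAlgebra.ext <;> simp [bY, sR] <;> ring
  have hs : star sR = -sR := by apply QuadraticAlgebra.ext <;> simp [sR]
  refine Prod.ext rfl (Prod.ext ?_ rfl)
  have key : bY (dact m (lam μ)).2.1 = bY (lam (lact m μ)).2.1 := by
    rw [bY_img, bImg]
    simp only [lact, lam]
    rw [hy, hy (_, _), star_mul', hs]
    simp only [QuadraticAlgebra.mk_eta]
    ring
  simp [bY, QuadraticAlgebra.ext_iff] at key
  exact Prod.ext key.2 key.1

section Classes

variable {N : ℕ} [NeZero N]

variable (N) in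
/-- Classes in which all coordinates are taken modulo `3N`. -/
abbrev P4 : Type := ZMod (3 * N) × CP (3 * N) × ZMod (3 * N)

variable (N) in
/-- The class of a vector modulo `3N`. -/
def red34 (X : Lz) : P4 N := ((X.1 : ZMod (3 * N)), redv (3 * N) X.2.1, (X.2.2 : ZMod (3 * N)))

/-- The least nonnegative representative of a class modulo `3N`. -/
def lift34 (c : P4 N) : Lz := ((c.1.val : ℤ), liftv c.2.1, (c.2.2.val : ℤ))

/-- `lift34` gives representatives of the classes modulo `3N`. -/
lemma red34_lift34 (c : P4 N) : red34 N (lift34 c) = c := by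
  simp [red34, lift34, redv_liftv]

omit [NeZero N] in
/-- Points of one class differ by a multiple of `3N`. -/
lemma exists_of_red34 {X X' : Lz} (h : red34 N X = red34 N X') :
    ∃ Z : Lz, X' = X + ((3 * N : ℕ) : ℤ) • Z := by
  simp only [red34, redv, Prod.mk.injEq, ZMod.intCast_eq_intCast_iff_dvd_sub] at h
  obtain ⟨⟨i, hi⟩, ⟨⟨j, hj⟩, ⟨l, hl⟩⟩, ⟨o, ho⟩⟩ := h
  exact ⟨(i, (j, l), o), by
    refine Prod.ext ?_ (Prod.ext (Prod.ext ?_ ?_) ?_) <;> simp at * <;> linarith⟩

omit [NeZero N] in
/-- The class is periodic modulo `3N`. -/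
lemma red34_add (X Z : Lz) : red34 N (X + ((3 * N : ℕ) : ℤ) • Z) = red34 N X := by
  have h : (3 : ZMod (3 * N)) * (N : ZMod (3 * N)) = 0 := by
    have := ZMod.natCast_self (3 * N)
    push_cast at this
    exact this
  simp [red34, redv, h]

omit [NeZero N] in
/-- The class of the image modulo `3N` depends only on the class of the point. -/
lemma red34_dact (k : Matrix (Fin 2) (Fin 2) EI) {X X' : Lz} (h : red34 N X = red34 N X') :
    red34 N (dact k X) = red34 N (dact k X') := by
  obtain ⟨Z, rfl⟩ := exists_of_red34 h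
  rw [dact_add, dact_smul, red34_add]

omit [NeZero N] in
/-- The fine class determines the coarse class. -/
lemma red4_of_red34 {X X' : Lz} (h : red34 N X = red34 N X') : red4 N X = red4 N X' := by
  obtain ⟨Z, rfl⟩ := exists_of_red34 h
  simp [red4, redv, mul_assoc]
  refine ⟨?_, ?_⟩ <;>
  · rw [← mul_assoc, show (3 : ZMod (3 * N)) * (N : ZMod (3 * N)) = ((3 * N : ℕ) : ZMod (3 * N)) by
      push_cast; ring, ZMod.natCast_self, zero_mul]

/-- A function modulo `N` summed over `ℤ/3N` gives three times its sum. -/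
lemma sum_cast_three (g : ZMod N → ℂ) :
    ∑ a : ZMod (3 * N), g ((a.val : ℤ) : ZMod N) = 3 * ∑ b : ZMod N, g b := by
  let f : Fin 3 × ZMod N → ZMod (3 * N) := fun p => ((p.2.val + N * p.1.val : ℕ) : ZMod (3 * N))
  have hlt : ∀ p : Fin 3 × ZMod N, p.2.val + N * p.1.val < 3 * N := fun p => by
    have h1 := ZMod.val_lt p.2
    have h2 := Nat.mul_le_mul_left N (Nat.lt_succ_iff.1 p.1.isLt)
    omega
  have hinj : Function.Injective f := fun p q h => by
    have h' := congrArg ZMod.val h
    simp only [f, ZMod.val_natCast, Nat.mod_eq_of_lt (hlt _)] at h'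
    have h1 : p.2 = q.2 := by
      have := congrArg (fun n : ℕ => (n : ZMod N)) h'
      simpa using this
    rw [h1, add_right_inj] at h'
    exact Prod.ext (Fin.ext (Nat.eq_of_mul_eq_mul_left (NeZero.pos N) h')) h1
  have hbij : Function.Bijective f :=
    (Fintype.bijective_iff_injective_and_card f).2 ⟨hinj, by simp [ZMod.card]⟩
  rw [← hbij.sum_comp (fun a => g ((a.val : ℤ) : ZMod N))]
  have e : ∀ p : Fin 3 × ZMod N, (((f p).val : ℤ) : ZMod N) = p.2 := fun p => by
    simp only [f, ZMod.val_natCast, Nat.mod_eq_of_lt (hlt p)]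
    simp
  rw [Fintype.sum_congr _ (fun p : Fin 3 × ZMod N => g p.2) fun p => congrArg g (e p),
    Fintype.sum_prod_type]
  simp

/-- A sum over the classes modulo `3N` of a function of the coarser class is nine times the sum. -/
lemma sum_P4 {F : Lz → ℂ} (hF : ∀ X X', red4 N X = red4 N X' → F X = F X') :
    ∑ c : P4 N, F (lift34 c) = 9 * ∑ c : Cl4 N, F (lift4 c) := by
  have e : ∀ c : P4 N, F (lift34 c)
      = F (lift4 ((((c.1.val : ℤ) : ZMod N), c.2.1, ((c.2.2.val : ℤ) : ZMod N)) : Cl4 N)) :=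
          fun c =>
    hF _ _ (by rw [red4_lift4]; simp [red4, lift34, redv_liftv])
  simp only [e, Fintype.sum_prod_type]
  rw [sum_cast_three fun a => ∑ p₁, ∑ p₂, ∑ d : ZMod (3 * N),
    F (lift4 ((a, (p₁, p₂), ((d.val : ℤ) : ZMod N)) : Cl4 N))]
  simp only [fun a p₁ p₂ => sum_cast_three fun d => F (lift4 ((a, (p₁, p₂), d) : Cl4 N)),
    Finset.mul_sum]
  exact Finset.sum_congr rfl fun a _ => Finset.sum_congr rfl fun p₁ _ =>
    Finset.sum_congr rfl fun p₂ _ => Finset.sum_congr rfl fun d _ => by ring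

end Classes

/-- Congruent matrices act alike on classes. -/
lemma red34_congr {N : ℕ} {m m' : Matrix (Fin 2) (Fin 2) EI}
    (h : m.map (red (3 * N)) = m'.map (red (3 * N))) (X : Lz) :
    red34 N (dact m X) = red34 N (dact m' X) := by
  have he : ∀ i j, red (3 * N) (m i j) = red (3 * N) (m' i j) := fun i j =>
    congrFun (congrFun h i) j
  have hs : ∀ i j, red (3 * N) (star (m i j)) = red (3 * N) (star (m' i j)) := fun i j => by
    rw [red, erMap_star, erMap_star]
    exact congrArg star (he i j)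
  have hint : ∀ a b : ℤ, red (3 * N) (a : EI) = red (3 * N) (b : EI) → ∃ k, a - b =
      (3 * N : ℕ) * k := by
    intro a b hab
    have h1 := congrArg QuadraticAlgebra.re hab
    simp only [red_re, re_intCast] at h1
    obtain ⟨k, hk⟩ := (ZMod.intCast_eq_intCast_iff_dvd_sub _ _ _).1 h1.symm
    exact ⟨k, hk⟩
  -- Norms and products of congruent entries are congruent,
  have hnorm : ∀ i j, red (3 * N) ((QuadraticAlgebra.norm (m i j) : ℤ) : EI)
      = red (3 * N) ((QuadraticAlgebra.norm (m' i j) : ℤ) : EI) := fun i j => by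
    have e : ∀ x : EI, ((QuadraticAlgebra.norm x : ℤ) : EI) = x * star x := fun x => by
      apply QuadraticAlgebra.ext <;> simp [QuadraticAlgebra.norm_def] <;> ring
    rw [e, e, map_mul, map_mul, he, hs]
  have hdot : ∀ i, red (3 * N) ((dotE (star (m i 0) * m i 1) X.2.1 : ℤ) : EI)
      = red (3 * N) ((dotE (star (m' i 0) * m' i 1) X.2.1 : ℤ) : EI) := fun i => by
    have h1 : red (3 * N) (star (m i 0) * m i 1) = red (3 * N) (star (m' i 0) * m' i 1) := by
      rw [map_mul, map_mul, he, hs]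
    have h2 := congrArg QuadraticAlgebra.re h1
    have h3 := congrArg QuadraticAlgebra.im h1
    simp only [red_re, red_im] at h2 h3
    apply QuadraticAlgebra.ext <;> simp only [red_re, red_im, re_intCast, im_intCast]
    simp only [dotE]
    push_cast
    rw [h2, h3]
  -- hence the two diagonal coordinates,
  obtain ⟨ka, hka⟩ := hint (dact m X).1 (dact m' X).1 (by
    simp only [dact, Int.cast_add, Int.cast_mul, map_add, map_mul, hnorm, hdot])
  obtain ⟨kd, hkd⟩ := hint (dact m X).2.2 (dact m' X).2.2 (by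
    simp only [dact, Int.cast_add, Int.cast_mul, map_add, map_mul, hnorm, hdot])
  -- and the off-diagonal one.
  have hb : red (3 * N) (bImg m X - bImg m' X) = 0 := by
    rw [map_sub, sub_eq_zero]
    simp only [bImg, map_add, map_sub, map_mul, he, hs]
  obtain ⟨y, hy⟩ := (red_eq_zero_iff _ _).1 hb
  have h1 := congrArg QuadraticAlgebra.re hy
  have h2 := congrArg QuadraticAlgebra.im hy
  simp at h1 h2
  simp only [red34, redv, Prod.mk.injEq, ZMod.intCast_eq_intCast_iff_dvd_sub]
  refine ⟨⟨-ka, by linarith⟩, ⟨⟨-y.im, ?_⟩, ⟨y.re, ?_⟩⟩, ⟨-kd, by linarith⟩⟩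
  · simp [dact]; linarith
  · simp [dact]; linarith

/-- Matrices congruent modulo `3N` move a periodic function alike. -/
lemma dact_congr {N : ℕ} [NeZero N] {m m' : Matrix (Fin 2) (Fin 2) EI}
    (h : m.map (red (3 * N)) = m'.map (red (3 * N))) {Ψ : Lz → ℂ} (hΨ : Per N Ψ) (X : Lz) :
    Ψ (dact m X) = Ψ (dact m' X) :=
  hΨ.eq_of_red (red4_of_red34 (red34_congr h X))

section Twist

variable {N : ℕ} [NeZero N]

variable (N) in
/-- Matrices modulo `3N`. -/
abbrev GN : Type := GL (Fin 2) (ER (ZMod (3 * N)))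

/-- An entrywise lift to `ℤ[ω]` of a matrix modulo `3N`. -/
noncomputable def liftM (M : Matrix (Fin 2) (Fin 2) (ER (ZMod (3 * N)))) :
    Matrix (Fin 2) (Fin 2) EI :=
  M.map (Function.surjInv (red_surjective (3 * N)))

omit [NeZero N] in
/-- The lift reduces to the matrix. -/
lemma red_liftM (M : Matrix (Fin 2) (Fin 2) (ER (ZMod (3 * N)))) :
    (liftM M).map (red (3 * N)) = M := by
  ext i j : 1
  exact Function.surjInv_eq (red_surjective (3 * N)) (M i j)

/-- `Ψ ∘ M⁻¹`. -/
noncomputable def twist (Ψ : Lz → ℂ) (M : GN N) (X : Lz) : ℂ :=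
  Ψ (dact (liftM (M⁻¹).val) X)

/-- `twist` may be computed with any integral matrix lifting the inverse. -/
lemma twist_eq {Ψ : Lz → ℂ} (hΨ : Per N Ψ) {M : GN N} {m : Matrix (Fin 2) (Fin 2) EI}
    (hm : m.map (red (3 * N)) = (M⁻¹).val) (X : Lz) :
    twist Ψ M X = Ψ (dact m X) :=
  dact_congr (by rw [red_liftM, hm]) hΨ X

omit [NeZero N] in
/-- A twist of a periodic function is periodic. -/
lemma per_twist {Ψ : Lz → ℂ} (hΨ : Per N Ψ) (M : GN N) : Per N (twist Ψ M) := fun X μ => by
  rw [twist, twist, dact_add, dact_smul, dact_lam, hΨ]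

/-- Twists follow the action of units of `GL₂(ℤ[ω])`. -/
lemma twist_gr_mul {Ψ : Lz → ℂ} (hΨ : Per N Ψ) (γ : GL (Fin 2) EI) (M : GN N) (X : Lz) :
    twist Ψ (gr (3 * N) γ * M) (dact (γ : Matrix (Fin 2) (Fin 2) EI) X) = twist Ψ M X := by
  rw [twist_eq hΨ (M := gr (3 * N) γ * M)
    (m := liftM (M⁻¹).val * ((γ⁻¹ : GL (Fin 2) EI) : Matrix _ _ EI))
    (by rw [_root_.mul_inv_rev, Units.val_mul, Matrix.map_mul, red_liftM, ← map_inv, gr_coe]),
    dact_mul, ← dact_mul ((γ⁻¹ : GL (Fin 2) EI) : Matrix _ _ EI), Units.inv_mul, dact_one]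
  rfl

/-- The embedding turns `dact γ` into the action of `γ` on Hermitian matrices. -/
lemma vec_dact (γ : GL (Fin 2) EI) (X : Lz) :
    vec (dact (γ : Matrix (Fin 2) (Fin 2) EI) X) = act (gC γ) (vec X) := by
  rw [act, norm_det_gC, ← ofMat_toMat (vec (dact (γ : Matrix (Fin 2) (Fin 2) EI) X)), toMat_dact]
  simp [gC_coe]

/-- The action of `γ` as a permutation of the dual lattice. -/
noncomputable def dequiv (γ : GL (Fin 2) EI) : Lz ≃ Lz where
  toFun := dact (γ : Matrix (Fin 2) (Fin 2) EI)
  invFun := dact ((γ⁻¹ : GL (Fin 2) EI) : Matrix (Fin 2) (Fin 2) EI)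
  left_inv X := by rw [← dact_mul, Units.inv_mul, dact_one]
  right_inv X := by rw [← dact_mul, Units.mul_inv, dact_one]

/-- **Invariance of the theta series.** The twisted theta series is invariant under `GL₂` of the
Eisenstein integers acting on both variables. -/
theorem lat_twist_smul {Ψ : Lz → ℂ} (hΨ : Per N Ψ) (γ : GL (Fin 2) EI) (M : GN N) (τ : ℂ) (w : H3) :
    lat N (twist Ψ (gr (3 * N) γ * M)) τ (gC γ • w) = lat N (twist Ψ M) τ w := by
  rw [lat, lat, ← (dequiv γ).tsum_eq]
  refine tsum_congr fun X => ?_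
  simp only [dequiv, Equiv.coe_fn_mk, twist_gr_mul hΨ, vec_dact, tt, qf_act, maj_act]

/-- The norm of the determinant. -/
noncomputable def ndet (M : GN N) : ZMod (3 * N) :=
  QuadraticAlgebra.norm M.val.det

omit [NeZero N] in
/-- The norm of the determinant is multiplicative. -/
lemma ndet_mul (M M' : GN N) : ndet (M * M') = ndet M * ndet M' := by
  rw [ndet, Units.val_mul, Matrix.det_mul, map_mul]; rfl

omit [NeZero N] in
/-- The norm of the determinant of `1` is `1`. -/
lemma ndet_one : ndet (1 : GN N) = 1 := by simp [ndet]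

omit [NeZero N] in
/-- Reductions of units of `GL₂(ℤ[ω])` have norm determinant one. -/
lemma ndet_gr (γ : GL (Fin 2) EI) : ndet (gr (3 * N) γ : GN N) = 1 := by
  rw [ndet, gr_coe, ← RingHom.mapMatrix_apply, ← RingHom.map_det, norm_red,
    ← Matrix.GeneralLinearGroup.val_det_apply, norm_unit_EI, Int.cast_one]

omit [NeZero N] in
/-- Norm one passes to the inverse. -/
lemma ndet_inv {M : GN N} (h : ndet M = 1) : ndet M⁻¹ = 1 := by
  have := ndet_mul M M⁻¹
  rw [mul_inv_cancel, ndet_one, h, one_mul] at this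
  exact this.symm

omit [NeZero N] in
/-- Lifts of matrices of norm determinant one have determinant norm `1` modulo `3N`. -/
lemma cast_norm_det_lift {M : GN N} (h : ndet M = 1) :
    ((QuadraticAlgebra.norm (liftM M.val).det : ℤ) : ZMod (3 * N)) = 1 := by
  refine Eq.trans ?_ h
  rw [ndet]
  conv_rhs => rw [← red_liftM M.val]
  rw [← RingHom.mapMatrix_apply, ← RingHom.map_det, QuadraticAlgebra.norm_def,
    QuadraticAlgebra.norm_def]
  simp

/-- `tph` commutes with the twists of norm one. -/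
lemma tph_twist (Ψ : Lz → ℂ) {M : GN N} (h : ndet M = 1) :
    tph N (twist Ψ M) = twist (tph N Ψ) M := funext fun X => by
  simp only [tph, twist, q3_dact]
  rw [Int.cast_mul, cast_norm_det_lift (ndet_inv h), one_mul]

omit [NeZero N] in
/-- `b3` modulo `3N` does not change when one argument moves by `N Λ`. -/
lemma b3_per (X Y μ : Lz) :
    ((b3 (X + (N : ℤ) • lam μ) Y : ℤ) : ZMod (3 * N)) = ((b3 X Y : ℤ) : ZMod (3 * N)) := by
  rw [ZMod.intCast_eq_intCast_iff_dvd_sub]
  refine ⟨-(Y.2.1.1 * μ.2.1.1 + Y.2.1.2 * μ.2.1.2 - (Y.1 * μ.2.2 + μ.1 * Y.2.2)), ?_⟩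
  simp [b3, lam]
  ring

/-- The finite Fourier transform commutes with twists of norm determinant one. -/
lemma fou_twist {Ψ : Lz → ℂ} (hΨ : Per N Ψ) {M : GN N} (h : ndet M = 1) :
    fou N (twist Ψ M) = twist (fou N Ψ) M := by
  funext Y
  set m := liftM (M⁻¹).val with hm
  set m' := liftM M.val with hm'
  have hcomp : ∀ (k k' : GN N) (X : Lz), red34 N (dact (liftM k.val) (dact (liftM k'.val) X))
      = red34 N (dact (liftM (k * k').val) X) := fun k k' X => by
    rw [← dact_mul]
    exact red34_congr (by rw [Matrix.map_mul, red_liftM, red_liftM, red_liftM]; rfl) X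
  have hid : ∀ X : Lz, red34 N (dact (liftM (1 : GN N).val) X) = red34 N X := fun X => by
    rw [red34_congr (m' := 1) (by rw [red_liftM]; simp) X, dact_one]
  -- the linear action permutes the classes mod `N`
  let σ : P4 N ≃ P4 N :=
    { toFun := fun c => red34 N (dact m (lift34 c))
      invFun := fun c => red34 N (dact m' (lift34 c))
      left_inv := fun c => by
        change red34 N (dact m' (lift34 (red34 N (dact m (lift34 c))))) = c
        rw [red34_dact m' (red34_lift34 _), hm, hm', hcomp, mul_inv_cancel, hid, red34_lift34]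
      right_inv := fun c => by
        change red34 N (dact m (lift34 (red34 N (dact m' (lift34 c))))) = c
        rw [red34_dact m (red34_lift34 _), hm, hm', hcomp, inv_mul_cancel, hid, red34_lift34] }
  let F : Lz → ℂ := fun c => Ψ c * ee (3 * N) ((-b3 c (dact m Y) : ℤ) : ZMod (3 * N))
  let G : Lz → ℂ := fun c => twist Ψ M c * ee (3 * N) ((-b3 c Y : ℤ) : ZMod (3 * N))
  -- both summands are periodic
  have hF : ∀ (Ψ' : Lz → ℂ), Per N Ψ' → ∀ Z X X', red4 N X = red4 N X' →
      Ψ' X * ee (3 * N) ((-b3 X Z : ℤ) : ZMod (3 * N))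
        = Ψ' X' * ee (3 * N) ((-b3 X' Z : ℤ) : ZMod (3 * N)) := by
    intro Ψ' hΨ' Z X X' hXX
    have hper : Per N fun c => Ψ' c * ee (3 * N) ((-b3 c Z : ℤ) : ZMod (3 * N)) := fun c μ => by
      simp only
      rw [hΨ', Int.cast_neg, Int.cast_neg, b3_per]
    exact hper.eq_of_red hXX
  -- so the substitution matches the two sums
  have h1 : ∑ c : P4 N, G (lift34 c) = ∑ c : P4 N, F (lift34 c) := by
    rw [← σ.sum_comp (fun c => F (lift34 c))]
    refine Finset.sum_congr rfl fun c _ => ?_
    have e : red34 N (lift34 (σ c)) = red34 N (dact m (lift34 c)) := by rw [red34_lift34]; rfl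
    refine Eq.trans ?_ (hF Ψ hΨ (dact m Y) _ _ (red4_of_red34 e)).symm
    simp only [G, twist]
    congr 2
    rw [Int.cast_neg, Int.cast_neg, b3_dact, Int.cast_mul, cast_norm_det_lift (ndet_inv h), one_mul]
  rw [sum_P4 (hF _ (per_twist hΨ M) Y), sum_P4 (hF Ψ hΨ (dact m Y))] at h1
  exact mul_left_cancel₀ (by norm_num) h1

end Twist

end Fermat.LT3
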