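import Fermat.Agent.LT3.Theta.Weil
import Mathlib.Algebra.QuadraticAlgebra.Basic

/-!
# The ring `ℤ[ω]` and its matrices

`EI` is `ℤ[ω]`, `ω ^ 2 = ω - 1`, embedded by `toC`; reduction of `SL₂` modulo `n` is surjective.
-/

set_option autoImplicit false
open Complex Matrix QuadraticAlgebra
open scoped ComplexConjugate MatrixGroups

namespace Fermat.LT3

/-- `R[X]/(X² - X + 1)`. -/
abbrev ER (R : Type*) [CommRing R] : Type _ := QuadraticAlgebra R (-1) 1

/-- `ℤ[ω]`. -/
abbrev EI : Type := ER ℤ

/-- The map on `ER` induced by a ring homomorphism. -/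
def erMap {R S : Type*} [CommRing R] [CommRing S] (f : R →+* S) : ER R →+* ER S where
  toFun x := ⟨f x.re, f x.im⟩
  map_one' := by ext <;> simp
  map_zero' := by ext <;> simp
  map_add' x y := by ext <;> simp
  map_mul' x y := by ext <;> simp

/-- The first coordinate under `erMap`. -/
@[simp] lemma erMap_re {R S : Type*} [CommRing R] [CommRing S] (f : R →+* S) (x : ER R) :
    (erMap f x).re = f x.re := rfl

/-- The second coordinate under `erMap`. -/
@[simp] lemma erMap_im {R S : Type*} [CommRing R] [CommRing S] (f : R →+* S) (x : ER R) :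
    (erMap f x).im = f x.im := rfl

/-- `erMap` commutes with conjugation. -/
lemma erMap_star {R S : Type*} [CommRing R] [CommRing S] (f : R →+* S) (x : ER R) :
    erMap f (star x) = star (erMap f x) := by ext <;> simp

/-- Reduction of `ℤ[ω]` modulo `n`. -/
def red (n : ℕ) : EI →+* ER (ZMod n) := erMap (Int.castRingHom (ZMod n))

/-- The first coordinate of a reduction. -/
@[simp] lemma red_re (n : ℕ) (x : EI) : (red n x).re = (x.re : ZMod n) := rfl

/-- The second coordinate of a reduction. -/
@[simp] lemma red_im (n : ℕ) (x : EI) : (red n x).im = (x.im : ZMod n) := rfl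

/-- Reduction commutes with the norm. -/
lemma norm_red (m : ℕ) (x : EI) :
    QuadraticAlgebra.norm (red m x) = ((QuadraticAlgebra.norm x : ℤ) : ZMod m) := by
  simp [QuadraticAlgebra.norm_def]

/-- Reduction modulo `n` is surjective. -/
lemma red_surjective (n : ℕ) : Function.Surjective (red n) := fun x => by
  obtain ⟨a, ha⟩ := ZMod.intCast_surjective x.re
  obtain ⟨b, hb⟩ := ZMod.intCast_surjective x.im
  exact ⟨⟨a, b⟩, QuadraticAlgebra.ext ha hb⟩

/-- An element reduces to zero exactly when it is divisible by the modulus. -/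
lemma red_eq_zero_iff (n : ℕ) (x : EI) : red n x = 0 ↔ ∃ y : EI, x = (n : EI) * y := by
  constructor
  · intro h
    have h1 := congrArg QuadraticAlgebra.re h
    have h2 := congrArg QuadraticAlgebra.im h
    simp only [red_re, red_im, re_zero, im_zero, ZMod.intCast_zmod_eq_zero_iff_dvd] at h1 h2
    obtain ⟨a, ha⟩ := h1
    obtain ⟨b, hb⟩ := h2
    exact ⟨⟨a, b⟩, by ext <;> simp [ha, hb]⟩
  · rintro ⟨y, rfl⟩
    ext <;> simp

/-- `ℤ[ω]` modulo `n` is finite. -/
instance instFiniteER (n : ℕ) [NeZero n] : Finite (ER (ZMod n)) :=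
  Finite.of_equiv _ (QuadraticAlgebra.equivProd (-1 : ZMod n) 1).symm

/-- A choice of enumeration of `ℤ[ω]` modulo `n`. -/
noncomputable instance instFintypeER (n : ℕ) [NeZero n] : Fintype (ER (ZMod n)) :=
  Fintype.ofFinite _

/-- The pair of coordinates. -/
def prER {n : ℕ} (x : ER (ZMod n)) : CP n := (x.re, x.im)

/-- Products in pairs of coordinates. -/
lemma prER_mul {n : ℕ} (x y : ER (ZMod n)) : prER (x * y) = cmul (prER x) (prER y) := by
  simp [prER, cmul]; ring

/-- Norms in pairs of coordinates. -/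
lemma cnorm_prER {n : ℕ} (x : ER (ZMod n)) :
    cnorm (prER x) = QuadraticAlgebra.norm x := by
  simp [prER, cnorm, qh, QuadraticAlgebra.norm_def]; ring

/-- `w6² = w6 - 1`. -/
lemma w6_sq : w6 * w6 = w6 - 1 := by
  apply Complex.ext
  · simp [w6]; linear_combination (-1 / 4 : ℝ) * sqrt_three_sq
  · simp [w6]; ring

/-- The conjugate of `w6` is `1 - w6`. -/
lemma conj_w6 : conj w6 = 1 - w6 := by
  apply Complex.ext <;> simp [w6]; norm_num

/-- The embedding of `ℤ[ω]` in `ℂ` with `ω ↦ w6`. -/
noncomputable def toC : EI →+* ℂ where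
  toFun x := (x.re : ℂ) + (x.im : ℂ) * w6
  map_one' := by simp
  map_zero' := by simp
  map_add' x y := by simp; ring
  map_mul' x y := by simp; linear_combination (-(x.im : ℂ) * y.im) * w6_sq

/-- `toC` is the embedding of the pair of coordinates. -/
lemma toC_apply (x : EI) : toC x = emb (x.re, x.im) := rfl

/-- `toC` commutes with conjugation. -/
lemma toC_star (x : EI) : toC (star x) = conj (toC x) := by
  simp [toC, conj_w6]; ring

/-- The squared absolute value is the norm. -/
lemma normSq_toC (x : EI) : Complex.normSq (toC x) = ((QuadraticAlgebra.norm x : ℤ) : ℝ) := by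
  rw [toC_apply, normSq_emb]; simp [qh, QuadraticAlgebra.norm_def]; ring

/-- The embedding of `ℤ[ω]` is injective. -/
lemma toC_injective : Function.Injective toC := by
  intro x y h
  have hre := congrArg Complex.re h
  have him := congrArg Complex.im h
  rw [toC_apply, toC_apply, emb_re, emb_re] at hre
  rw [toC_apply, toC_apply, emb_im, emb_im] at him
  simp only at hre him
  have h2 : (x.im : ℝ) = y.im := mul_right_cancel₀ (div_ne_zero sqrt_three_ne two_ne_zero) him
  rw [h2] at hre
  exact QuadraticAlgebra.ext (by exact_mod_cast (add_right_cancel hre)) (by exact_mod_cast h2)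

/-- Norms are nonnegative. -/
lemma norm_nonneg_EI (x : EI) : 0 ≤ QuadraticAlgebra.norm x := by
  have := Complex.normSq_nonneg (toC x)
  rw [normSq_toC] at this
  exact_mod_cast this

/-- Units have norm one. -/
lemma norm_unit_EI (u : EIˣ) : QuadraticAlgebra.norm (u : EI) = 1 := by
  have h := congrArg QuadraticAlgebra.norm (Units.mul_inv u)
  rw [map_mul, map_one] at h
  exact Int.eq_one_of_mul_eq_one_right (norm_nonneg_EI _) h

/-- `ℤ[ω]` is countable. -/
instance instCountableEI : Countable EI :=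
  Countable.of_equiv _ (QuadraticAlgebra.equivProd (-1 : ℤ) 1).symm

/-- Matrices over `ℤ[ω]` inside `GL₂(ℂ)`. -/
noncomputable def gC : GL (Fin 2) EI →* GL (Fin 2) ℂ := Matrix.GeneralLinearGroup.map toC

/-- The entries of `gC g` are the images of those of `g` in `ℂ`. -/
lemma gC_coe (g : GL (Fin 2) EI) :
    (gC g : Matrix (Fin 2) (Fin 2) ℂ) = (g : Matrix (Fin 2) (Fin 2) EI).map toC := rfl

/-- The image in `GL₂(ℂ)` of an element of `GL₂(ℤ[ω])` has determinant of absolute value one. -/
lemma norm_det_gC (g : GL (Fin 2) EI) : ‖(gC g : Matrix (Fin 2) (Fin 2) ℂ).det‖ = 1 := by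
  have h : (gC g : Matrix (Fin 2) (Fin 2) ℂ).det
      = toC ((Matrix.GeneralLinearGroup.det g : EIˣ) : EI) := by
    rw [gC_coe]
    exact (RingHom.map_det toC _).symm
  have h2 : ‖(gC g : Matrix (Fin 2) (Fin 2) ℂ).det‖ ^ 2 = 1 := by
    rw [h, ← Complex.normSq_eq_norm_sq, normSq_toC, norm_unit_EI]; norm_num
  exact (pow_eq_one_iff_of_nonneg (norm_nonneg _) two_ne_zero).1 h2

/-- A map applied entrywise to a two by two matrix. -/
lemma map_fin_two_of {R S : Type*} (f : R → S) (a b c d : R) :
    (!![a, b; c, d] : Matrix (Fin 2) (Fin 2) R).map f = !![f a, f b; f c, f d] := by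
  ext i j : 1
  fin_cases i <;> fin_cases j <;> rfl

/-- Reduction of matrices. -/
noncomputable def gr (n : ℕ) : GL (Fin 2) EI →* GL (Fin 2) (ER (ZMod n)) :=
  Matrix.GeneralLinearGroup.map (red n)

/-- The matrix of `gr n g`. -/
lemma gr_coe (n : ℕ) (g : GL (Fin 2) EI) :
    (gr n g : Matrix (Fin 2) (Fin 2) (ER (ZMod n))) = (g : Matrix (Fin 2) (Fin 2) EI).map (red n) :=
  rfl

section Surj

variable {R : Type*} [CommRing R]

/-- Upper elementary matrix. -/
def upE (x : R) : SL(2, R) := ⟨!![1, x; 0, 1], by simp [Matrix.det_fin_two_of]⟩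

/-- Lower elementary matrix. -/
def loE (x : R) : SL(2, R) := ⟨!![1, 0; x, 1], by simp [Matrix.det_fin_two_of]⟩

/-- In a finite ring a unimodular pair can be shifted to a unit first entry. -/
lemma exists_add_mul_isUnit [Finite R] {a c p q : R} (h : a * p + c * q = 1) :
    ∃ x, IsUnit (a + x * c) := by
  -- Some positive power `a ^ k` is idempotent.
  obtain ⟨k, hk, he⟩ : ∃ k : ℕ, 0 < k ∧ a ^ k * a ^ k = a ^ k := by
    obtain ⟨i, j, hne, hij⟩ := Finite.exists_ne_map_eq_of_infinite (fun n : ℕ => a ^ n)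
    wlog hlt : i < j generalizing i j
    · exact this j i hne.symm hij.symm (by omega)
    have hij' : a ^ i = a ^ j := hij
    have hper : ∀ m, a ^ (i + m * (j - i)) = a ^ i := fun m => by
      induction m with
      | zero => simp
      | succ m ih =>
        rw [show i + (m + 1) * (j - i) = (j - i) + (i + m * (j - i)) by ring, pow_add, ih,
          ← pow_add, Nat.sub_add_cancel hlt.le, hij']
    refine ⟨(i + 1) * (j - i), Nat.mul_pos (by omega) (by omega), ?_⟩
    set L := (i + 1) * (j - i) with hL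
    have hiL : i ≤ L := by
      rw [hL]; exact le_trans (Nat.le_succ i) (Nat.le_mul_of_pos_right _ (by omega))
    rw [← pow_add]
    calc a ^ (L + L) = a ^ (i + (i + 1) * (j - i)) * a ^ (L - i) := by
          rw [← pow_add]; congr 1; omega
      _ = a ^ i * a ^ (L - i) := by rw [hper]
      _ = a ^ L := by rw [← pow_add]; congr 1; omega
  -- Shift by `(1 - a ^ k) q`.
  refine ⟨(1 - a ^ k) * q, ?_⟩
  set u := a + (1 - a ^ k) * q * c with hu
  refine isUnit_iff_exists_inv.2 ?_
  -- Multiplication by the result is injective, hence surjective.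
  have hinj : Function.Injective fun y => u * y := fun y z hyz => by
    have hw : u * (y - z) = 0 := by rw [mul_sub]; exact sub_eq_zero.2 hyz
    set w := y - z
    have h1 : a ^ k * w = 0 := by
      have h2 : a * (a ^ k * w) = 0 := by linear_combination a ^ k * hw + q * c * w * he
      have h3 : a ^ k * (a ^ k * w) = 0 := by
        rw [show a ^ k = a ^ (k - 1) * a by rw [← pow_succ]; congr 1; omega, mul_assoc, mul_assoc]
        rw [show a * (a ^ (k - 1) * (a * w)) = a * (a ^ k * w) by
          rw [show a ^ k = a ^ (k - 1) * a by rw [← pow_succ]; congr 1; omega]; ring, h2, mul_zero]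
      rwa [← mul_assoc, he] at h3
    have h4 : w = (-(a * (1 - p))) * w := by linear_combination hw + q * c * h1 - w * h
    have h5 : ∀ m : ℕ, w = (-(a * (1 - p))) ^ m * w := fun m => by
      induction m with
      | zero => simp
      | succ m ih => rw [pow_succ, mul_assoc, ← h4]; exact ih
    have h6 := h5 k
    rw [neg_pow, mul_pow, show (-1 : R) ^ k * (a ^ k * (1 - p) ^ k) * w
      = (-1) ^ k * (1 - p) ^ k * (a ^ k * w) by ring, h1, mul_zero] at h6
    exact sub_eq_zero.1 h6
  exact (Finite.surjective_of_injective hinj) 1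

/-- Elementary matrices generate `SL₂` of a finite ring. -/
lemma sl2_mem_of_elementary [Finite R] (H : Subgroup SL(2, R)) (hU : ∀ x, upE x ∈ H)
    (hL : ∀ x, loE x ∈ H) (g : SL(2, R)) : g ∈ H := by
  have hdiag : ∀ u : Rˣ, ∀ D : SL(2, R),
      (D : Matrix (Fin 2) (Fin 2) R) = !![(u : R), 0; 0, ((u⁻¹ : Rˣ) : R)] → D ∈ H := by
    intro u D hD
    have e : D = upE (u : R) * loE (-((u⁻¹ : Rˣ) : R)) * upE (u : R) *
        (upE (-1) * loE 1 * upE (-1)) := by
      apply Subtype.ext
      simp only [upE, loE, hD]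
      ext i j
      fin_cases i <;> fin_cases j <;> simp [Matrix.mul_apply, Fin.sum_univ_two]
    rw [e]
    exact H.mul_mem (H.mul_mem (H.mul_mem (hU _) (hL _)) (hU _))
      (H.mul_mem (H.mul_mem (hU _) (hL _)) (hU _))
  have hdet := g.det_coe
  rw [Matrix.det_fin_two] at hdet
  obtain ⟨x, hx⟩ := exists_add_mul_isUnit (a := g 0 0) (c := g 1 0) (p := g 1 1) (q := -g 0 1)
    (by linear_combination hdet)
  obtain ⟨u, hu⟩ := hx
  let D : SL(2, R) := ⟨!![(u : R), 0; 0, ((u⁻¹ : Rˣ) : R)], by simp [Matrix.det_fin_two_of]⟩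
  have e : g = upE (-x) * loE (g 1 0 * ((u⁻¹ : Rˣ) : R)) * D *
      upE (((u⁻¹ : Rˣ) : R) * (g 0 1 + x * g 1 1)) := by
    apply Subtype.ext
    simp only [upE, loE, D]
    have h1 : (u : R) * ((u⁻¹ : Rˣ) : R) = 1 := u.mul_inv
    ext i j
    fin_cases i <;> fin_cases j <;> simp [Matrix.mul_apply, Fin.sum_univ_two]
    · linear_combination -hu + (x * g 1 0) * h1
    · linear_combination (-(g 0 1 + x * g 1 1) + x * g 1 0 * ((u⁻¹ : Rˣ) : R) * (g 0 1 + x * g 1 1)
        + x * g 1 1) * h1 - (x * ((u⁻¹ : Rˣ) : R) * g 1 1) * hu - (x * ((u⁻¹ : Rˣ) : R)) * hdet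
    · linear_combination (-g 1 1) * h1
        + (((u⁻¹ : Rˣ) : R) * g 1 1) * hu + ((u⁻¹ : Rˣ) : R) * hdet
  rw [e]
  exact H.mul_mem (H.mul_mem (H.mul_mem (hU _) (hL _)) (hdiag u D rfl)) (hU _)

end Surj

/-- Reduction of `SL₂` is surjective. -/
theorem sl2_red_surjective (n : ℕ) [NeZero n] :
    Function.Surjective (SpecialLinearGroup.map (n := Fin 2) (red n)) := fun g => by
  refine sl2_mem_of_elementary (SpecialLinearGroup.map (n := Fin 2) (red n)).range
    (fun x => ?_) (fun x => ?_) g
  · obtain ⟨y, rfl⟩ := red_surjective n x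
    exact ⟨upE y,
      Matrix.SpecialLinearGroup.ext _ _ fun i j => by fin_cases i <;> fin_cases j <;> simp [upE]⟩
  · obtain ⟨y, rfl⟩ := red_surjective n x
    exact ⟨loE y,
      Matrix.SpecialLinearGroup.ext _ _ fun i j => by fin_cases i <;> fin_cases j <;> simp [loE]⟩

/-- Norms are never `2` modulo `3`. -/
lemma norm_mod_three (π : EI) {ℓ : ℕ} (h : QuadraticAlgebra.norm π = (ℓ : ℤ)) : ℓ % 3 ≠ 2 := by
  intro h2
  rw [QuadraticAlgebra.norm_def] at h
  have e : ((ℓ : ℤ) : ZMod 3) = 2 := by
    rw [Int.cast_natCast, ← ZMod.natCast_mod, h2]; rfl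
  rw [← h] at e
  push_cast at e
  revert e
  generalize (π.re : ZMod 3) = a
  generalize (π.im : ZMod 3) = b
  revert a b
  decide

end Fermat.LT3
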