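import Fermat.Agent.LT.H3Measure

/-!
# Binary hermitian forms and their functions on `H3`

`HV = ℝ × ℂ × ℝ` is the space of hermitian matrices `[[a, β], [conj β, d]]` with the quadratic form
`qf = |β|² - a d` of signature `(3, 1)`; `lin X` is the attached height function on `H3`, so that
`qf X + 2 (lin X x)²` is the majorant at the point `x`.
-/

set_option autoImplicit false
open scoped Matrix ComplexConjugate

namespace Fermat.LT3
open Fermat.LT

/-- Hermitian forms `(a, β, d)`. -/
abbrev HV : Type := ℝ × ℂ × ℝ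

/-- The hermitian matrix `[[a, β], [β̄, d]]` of `(a, β, d)`. -/
noncomputable def toMat (X : HV) : Matrix (Fin 2) (Fin 2) ℂ :=
  !![(X.1 : ℂ), X.2.1; conj X.2.1, (X.2.2 : ℂ)]

/-- Coefficients of a hermitian matrix. -/
noncomputable def ofMat (M : Matrix (Fin 2) (Fin 2) ℂ) : HV :=
  ((M 0 0).re, M 0 1, (M 1 1).re)

/-- The coefficients of `toMat X` are those of `X`. -/
@[simp] lemma ofMat_toMat (X : HV) : ofMat (toMat X) = X := by
  simp [ofMat, toMat]

/-- The matrix of a form is Hermitian. -/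
lemma isHermitian_toMat (X : HV) : (toMat X).IsHermitian := by
  ext i j
  fin_cases i <;> fin_cases j <;> simp [toMat]

/-- A Hermitian matrix is the matrix of its coefficients. -/
lemma toMat_ofMat {M : Matrix (Fin 2) (Fin 2) ℂ} (h : M.IsHermitian) : toMat (ofMat M) = M := by
  have e00 := h.apply 0 0
  have e11 := h.apply 1 1
  have e10 := h.apply 1 0
  rw [RCLike.star_def] at e00 e11 e10
  ext i j
  fin_cases i <;> fin_cases j <;> simp [toMat, ofMat]
  · exact Complex.conj_eq_iff_re.1 e00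
  · exact e10
  · exact Complex.conj_eq_iff_re.1 e11

/-- The quadratic form `|β|² - a d`. -/
noncomputable def qf (X : HV) : ℝ := Complex.normSq X.2.1 - X.1 * X.2.2

/-- The determinant of the matrix is `-qf`. -/
lemma det_toMat (X : HV) : (toMat X).det = ((-qf X : ℝ) : ℂ) := by
  simp [toMat, qf, Matrix.det_fin_two, Complex.mul_conj]

/-- A real multiple of `g X gᴴ` is Hermitian. -/
lemma isHermitian_conj (g : Matrix (Fin 2) (Fin 2) ℂ) (r : ℝ) (X : HV) :
    ((r : ℂ) • (g * toMat X * gᴴ)).IsHermitian := by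
  rw [Matrix.IsHermitian, Matrix.conjTranspose_smul, Matrix.conjTranspose_mul,
    Matrix.conjTranspose_mul, Matrix.conjTranspose_conjTranspose, isHermitian_toMat,
    Matrix.mul_assoc]
  simp

/-- `X ↦ g X gᴴ / |det g|`. -/
noncomputable def act (g : GL (Fin 2) ℂ) (X : HV) : HV :=
  ofMat (((‖(g : Matrix (Fin 2) (Fin 2) ℂ).det‖⁻¹ : ℝ) : ℂ) •
    ((g : Matrix (Fin 2) (Fin 2) ℂ) * toMat X * (g : Matrix (Fin 2) (Fin 2) ℂ)ᴴ))

/-- The matrix of `act g X`. -/
lemma toMat_act (g : GL (Fin 2) ℂ) (X : HV) :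
    toMat (act g X) = ((‖(g : Matrix (Fin 2) (Fin 2) ℂ).det‖⁻¹ : ℝ) : ℂ) •
      ((g : Matrix (Fin 2) (Fin 2) ℂ) * toMat X * (g : Matrix (Fin 2) (Fin 2) ℂ)ᴴ) :=
  toMat_ofMat (isHermitian_conj _ _ _)

/-- The identity acts trivially. -/
lemma act_one (X : HV) : act 1 X = X := by simp [act]

/-- The action is multiplicative. -/
lemma act_mul (g h : GL (Fin 2) ℂ) (X : HV) : act (g * h) X = act g (act h X) := by
  conv_rhs => rw [act, toMat_act]
  rw [act, Units.val_mul, Matrix.det_mul, norm_mul, mul_inv, Complex.ofReal_mul,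
    Matrix.mul_smul, Matrix.smul_mul, smul_smul, Matrix.conjTranspose_mul]
  simp only [Matrix.mul_assoc]

/-- `g⁻¹` undoes `g`. -/
lemma act_inv_act (g : GL (Fin 2) ℂ) (X : HV) : act g⁻¹ (act g X) = X := by
  rw [← act_mul, inv_mul_cancel, act_one]

/-- `g` undoes `g⁻¹`. -/
lemma act_act_inv (g : GL (Fin 2) ℂ) (X : HV) : act g (act g⁻¹ X) = X := by
  rw [← act_mul, mul_inv_cancel, act_one]

/-- The action preserves the quadratic form. -/
lemma qf_act (g : GL (Fin 2) ℂ) (X : HV) : qf (act g X) = qf X := by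
  have hd : (g : Matrix (Fin 2) (Fin 2) ℂ).det ≠ 0 := by
    simpa [Matrix.GeneralLinearGroup.val_det_apply] using
      (Matrix.GeneralLinearGroup.det g).ne_zero
  have h := det_toMat (act g X)
  rw [toMat_act, Matrix.det_smul, Matrix.det_mul, Matrix.det_mul, Matrix.det_conjTranspose,
    det_toMat, RCLike.star_def, Fintype.card_fin] at h
  have e : (g : Matrix (Fin 2) (Fin 2) ℂ).det * conj (g : Matrix (Fin 2) (Fin 2) ℂ).det
      = ((‖(g : Matrix (Fin 2) (Fin 2) ℂ).det‖ : ℝ) : ℂ) ^ 2 := by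
    rw [Complex.mul_conj, Complex.normSq_eq_norm_sq]; push_cast; ring
  have hn : ((‖(g : Matrix (Fin 2) (Fin 2) ℂ).det‖ : ℝ) : ℂ) ≠ 0 := by
    exact_mod_cast norm_ne_zero_iff.2 hd
  have h2 : ((-qf X : ℝ) : ℂ) = ((-qf (act g X) : ℝ) : ℂ) := by
    rw [← h, mul_right_comm ((g : Matrix (Fin 2) (Fin 2) ℂ).det), e, ← mul_assoc,
      Complex.ofReal_inv, ← mul_pow, inv_mul_cancel₀ hn, one_pow, one_mul]
  exact neg_injective (Complex.ofReal_injective h2.symm)

/-- Half the trace, `(a + d) / 2`. -/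
noncomputable def tr2 (X : HV) : ℝ := (X.1 + X.2.2) / 2

/-- `tr2` is half the trace of the matrix. -/
lemma tr2_eq (X : HV) : ((tr2 X : ℝ) : ℂ) = (toMat X).trace / 2 := by
  simp [tr2, toMat, Matrix.trace_fin_two]

/-- The unitary subgroup preserves `tr2`. -/
lemma tr2_act_UC {k : GL (Fin 2) ℂ} (hk : k ∈ UC) (X : HV) : tr2 (act k X) = tr2 X := by
  obtain ⟨r, hr, h, -, hd⟩ := UC.det_norm_pos hk
  have hrc : (r : ℂ) ≠ 0 := by exact_mod_cast hr.ne'
  apply Complex.ofReal_injective
  rw [tr2_eq, tr2_eq, toMat_act, Matrix.trace_smul, Matrix.trace_mul_cycle, h, hd,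
    Matrix.scalar_apply, ← Matrix.smul_eq_diagonal_mul, Matrix.trace_smul, smul_smul,
    Complex.ofReal_inv, inv_mul_cancel₀ hrc, one_smul]

/-- The height function of `X` on `H3`. -/
noncomputable def lin (X : HV) : H3 → ℝ :=
  Quotient.lift (fun g => tr2 (act g⁻¹ X)) fun a b hab => by
    have h : a⁻¹ * b ∈ UC := QuotientGroup.leftRel_apply.1 hab
    change tr2 (act a⁻¹ X) = tr2 (act b⁻¹ X)
    rw [show b⁻¹ = (a⁻¹ * b)⁻¹ * a⁻¹ by group, act_mul, tr2_act_UC (UC.inv_mem h)]

/-- The height function at the point of `g`. -/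
@[simp] lemma lin_mk (X : HV) (g : GL (Fin 2) ℂ) : lin X (g : H3) = tr2 (act g⁻¹ X) := rfl

/-- The height function is equivariant. -/
lemma lin_act (g : GL (Fin 2) ℂ) (X : HV) (x : H3) : lin (act g X) (g • x) = lin X x := by
  obtain ⟨h, rfl⟩ := QuotientGroup.mk_surjective x
  rw [MulAction.Quotient.smul_coe, lin_mk, lin_mk, smul_eq_mul, mul_inv_rev, act_mul, act_inv_act]

/-- The height function at a translate. -/
lemma lin_smul (g : GL (Fin 2) ℂ) (X : HV) (x : H3) : lin X (g • x) = lin (act g⁻¹ X) x := by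
  conv_lhs => rw [← act_act_inv g X]
  exact lin_act g _ x

/-- The numerator `a - 2 Re (β conj z) + d |z|²`. -/
noncomputable def num (X : HV) (z : ℂ) : ℝ :=
  X.1 - 2 * (X.2.1 * conj z).re + X.2.2 * Complex.normSq z

/-- The inverse coordinate matrix acts through the numerator. -/
lemma act_inv_triMat (X : HV) (z : ℂ) {t : ℝ} (ht : 0 < t) :
    act (triMat z ht)⁻¹ X = (num X z / t, X.2.1 - (X.2.2 : ℂ) * z, X.2.2 * t) := by
  have htc : (t : ℂ) ≠ 0 := by exact_mod_cast ht.ne'
  set Y : HV := (num X z / t, X.2.1 - (X.2.2 : ℂ) * z, X.2.2 * t) with hY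
  suffices act (triMat z ht) Y = X by rw [← this, act_inv_act]
  rw [act, coe_triMat, Matrix.det_fin_two_of, hY, num]
  simp only [mul_zero, sub_zero, mul_one, Complex.norm_real, Real.norm_eq_abs, abs_of_pos ht]
  have hT : (!![(t : ℂ), z; 0, 1] : Matrix (Fin 2) (Fin 2) ℂ)ᴴ = !![(t : ℂ), 0; conj z, 1] := by
    ext i j
    fin_cases i <;> fin_cases j <;> simp
  rw [hT, toMat, Matrix.mul_fin_two, Matrix.mul_fin_two]
  refine Prod.ext ?_ (Prod.ext ?_ ?_)
  · simp [ofMat, Complex.normSq_apply]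
    field_simp
    ring
  · simp [ofMat]
    field_simp
    ring
  · simp [ofMat]
    field_simp

/-- The height function in coordinates. -/
lemma lin_mk_coord (X : HV) (z : ℂ) {t : ℝ} (ht : 0 < t) :
    lin X (H3.mk z t) = (num X z / t + X.2.2 * t) / 2 := by
  rw [H3.mk_of_pos z ht, lin_mk, act_inv_triMat X z ht, tr2]

/-- The height function at a point through its coordinates. -/
lemma lin_eq_coord (X : HV) (x : H3) :
    lin X x = (num X (H3.coord x).1 / (H3.coord x).2 + X.2.2 * (H3.coord x).2) / 2 := by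
  conv_lhs => rw [← H3.mk_coord x]
  exact lin_mk_coord X _ (H3.coord_pos x)

/-- The height function is continuous. -/
lemma continuous_lin (X : HV) : Continuous (lin X) := by
  have e : lin X = fun x =>
      (num X (H3.coord x).1 / (H3.coord x).2 + X.2.2 * (H3.coord x).2) / 2 :=
    funext (lin_eq_coord X)
  rw [e]
  have h := continuous_coord
  refine Continuous.div_const (Continuous.add ?_ (continuous_const.mul h.snd)) 2
  refine Continuous.div ?_ h.snd fun x => (H3.coord_pos x).ne'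
  unfold num
  fun_prop

/-- The origin of `H3`: the class of the identity. -/
noncomputable abbrev base : H3 := ((1 : GL (Fin 2) ℂ) : H3)

/-- The height function at the origin is `tr2`. -/
lemma lin_base (X : HV) : lin X base = tr2 X := by simp [act_one]

/-- The majorant `qf X + 2 (lin X x)²` at the point `x`. -/
noncomputable def maj (X : HV) (x : H3) : ℝ := qf X + 2 * lin X x ^ 2

/-- The majorant is equivariant. -/
lemma maj_act (g : GL (Fin 2) ℂ) (X : HV) (x : H3) : maj (act g X) (g • x) = maj X x := by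
  rw [maj, maj, qf_act, lin_act]

/-- The majorant at the origin. -/
lemma maj_base (X : HV) :
    maj X base = Complex.normSq X.2.1 + (X.1 ^ 2 + X.2.2 ^ 2) / 2 := by
  rw [maj, lin_base, tr2, qf]; ring

end Fermat.LT3
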