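import Fermat.Agent.LT3.Eis
import Fermat.Agent.LT.FinSpace
import Mathlib.NumberTheory.NumberField.Cyclotomic.PID

/-!
# The field `ℚ(√-3)`

An isomorphism of `ℤ[ω]` with the ring of integers, compatible with the embeddings.
-/

set_option autoImplicit false
open NumberField IsDedekindDomain QuadraticAlgebra Matrix

namespace Fermat.LT3
open Fermat.LT

/-- `ℤ[ω]` as ring of integers of `K`. -/
structure KData (K : Type*) [Field K] [NumberField K] where
  /-- The isomorphism of `ℤ[ω]` with the ring of integers. -/
  e : EI ≃+* 𝓞 K
  /-- At every infinite place the isomorphism is the standard embedding. -/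
  emb_e : ∀ (w : InfinitePlace K) (x : EI), w.embedding (e x : K) = toC x
  /-- There is only one infinite place. -/
  unique : Subsingleton (InfinitePlace K)
  /-- The ring of integers is principal. -/
  pid : IsPrincipalIdealRing (𝓞 K)

/-- **Existence.** An imaginary quadratic field with a primitive cube root of unity has data
`KData`. -/
theorem exists_kData (K : Type*) [Field K] [NumberField K] [IsTotallyComplex K]
    (h2 : Module.finrank ℚ K = 2) {ζ₀ : K} (hζ₀ : IsPrimitiveRoot ζ₀ 3) : Nonempty (KData K) := by
  obtain ⟨w⟩ := (inferInstance : Nonempty (InfinitePlace K))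
  -- one infinite place
  have hu : Subsingleton (InfinitePlace K) := by
    have h := InfinitePlace.card_add_two_mul_card_eq_rank K
    rw [h2] at h
    have h0 : InfinitePlace.nrRealPlaces K = 0 := IsTotallyComplex.nrRealPlaces_eq_zero K
    have hc := InfinitePlace.card_eq_nrRealPlaces_add_nrComplexPlaces K
    exact Fintype.card_le_one_iff_subsingleton.1 (by omega)
  -- choose the cube root of unity which goes to `ω - 1` at that place
  have hroot : ∀ z : ℂ, z ^ 2 + z + 1 = 0 → z = w6 - 1 ∨ z = -w6 := fun z hz => by
    have : (z - (w6 - 1)) * (z - -w6) = 0 := by linear_combination hz - w6_sq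
    rcases mul_eq_zero.1 this with h | h
    · exact Or.inl (sub_eq_zero.1 h)
    · exact Or.inr (sub_eq_zero.1 h)
  obtain ⟨ζ, hζ, hζw⟩ : ∃ ζ : K, IsPrimitiveRoot ζ 3 ∧ w.embedding ζ = w6 - 1 := by
    have hsum : ζ₀ ^ 2 + ζ₀ + 1 = 0 := by
      have h := hζ₀.geom_sum_eq_zero (by norm_num)
      simp [Finset.sum_range_succ] at h
      linear_combination h
    have hz : (w.embedding ζ₀) ^ 2 + w.embedding ζ₀ + 1 = 0 := by
      simpa using congrArg w.embedding hsum
    rcases hroot _ hz with h | h
    · exact ⟨ζ₀, hζ₀, h⟩
    · refine ⟨ζ₀ ^ 2, hζ₀.pow_of_coprime 2 (by norm_num), ?_⟩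
      rw [map_pow, h]
      linear_combination w6_sq
  -- `K` is the cyclotomic field, with integral basis `1, ζ`
  have : IsCyclotomicExtension {3} ℚ K := by
    have hint : IsIntegral ℚ ζ := (hζ.isIntegral (by norm_num)).tower_top
    have htop : IntermediateField.adjoin ℚ {ζ} = ⊤ := by
      refine IntermediateField.eq_of_le_of_finrank_eq le_top ?_
      rw [IntermediateField.adjoin.finrank hint, IntermediateField.finrank_top', h2,
        ← Polynomial.cyclotomic_eq_minpoly_rat hζ (by norm_num), Polynomial.natDegree_cyclotomic]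
      decide
    have := hζ.intermediateField_adjoin_isCyclotomicExtension ℚ
    exact IsCyclotomicExtension.equiv _ ℚ _
      ((IntermediateField.equivOfEq htop).trans IntermediateField.topEquiv)
  set b := hζ.integralPowerBasis with hb
  have hdim : b.dim = 2 := by rw [hb, hζ.integralPowerBasis_dim]; decide
  have hgen : (b.gen : K) = ζ := by rw [hb, hζ.integralPowerBasis_gen]; rfl
  have hrel : (b.gen : 𝓞 K) * b.gen = -b.gen - 1 := by
    apply RingOfIntegers.ext
    push_cast
    simp only [hgen]
    have h := hζ.geom_sum_eq_zero (by norm_num)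
    simp [Finset.sum_range_succ] at h
    linear_combination h
  -- the map `x + y ω ↦ x + y (1 + ζ)`
  let f : EI →+* 𝓞 K :=
    { toFun := fun x => (x.re : 𝓞 K) + (x.im : 𝓞 K) * (1 + b.gen)
      map_one' := by simp
      map_zero' := by simp
      map_add' := fun x y => by simp; ring
      map_mul' := fun x y => by simp; linear_combination (-(x.im : 𝓞 K) * y.im) * hrel }
  -- it agrees with the standard embedding, so it is injective
  have hemb : ∀ x, w.embedding (f x : K) = toC x := fun x => by
    simp [f, hgen, hζw, toC]
  have hinj : Function.Injective f := fun x y h =>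
    toC_injective (by rw [← hemb, ← hemb, h])
  -- surjective by the integral basis
  have hsurj : Function.Surjective f := fun y => by
    let c : Fin b.dim → ℤ := fun i => b.basis.repr y i
    have h := b.basis.sum_repr y
    have e : ∑ i : Fin b.dim, b.basis.repr y i • b.basis i
        = (c ⟨0, by omega⟩ : 𝓞 K) + (c ⟨1, by omega⟩ : 𝓞 K) * b.gen := by
      rw [← (finCongr hdim.symm).sum_comp, Fin.sum_univ_two]
      simp [PowerBasis.coe_basis, c, zsmul_eq_mul]; rfl
    rw [e] at h
    exact ⟨⟨c ⟨0, by omega⟩ - c ⟨1, by omega⟩, c ⟨1, by omega⟩⟩, by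
      rw [← h]; simp [f]; ring⟩
  exact ⟨⟨RingEquiv.ofBijective f ⟨hinj, hsurj⟩, fun w' x => by rw [hu.elim w' w]; exact hemb x, hu,
    IsCyclotomicExtension.Rat.three_pid K⟩⟩

namespace KData

variable {K : Type*} [Field K] [NumberField K] (D : KData K)

/-- The inclusion of `ℤ[ω]` in `K`. -/
noncomputable def ι : EI →+* K := (algebraMap (𝓞 K) K).comp D.e.toRingHom

/-- The inclusion is the isomorphism followed by the inclusion of the integers. -/
@[simp] lemma ι_apply (x : EI) : D.ι x = (D.e x : K) := rfl

/-- The inclusion is injective. -/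
lemma ι_injective : Function.Injective D.ι := fun _ _ h => D.e.injective (RingOfIntegers.ext h)

/-- Matrices in `GL₂(K)`. -/
noncomputable def gK : GL (Fin 2) EI →* GL (Fin 2) K := Matrix.GeneralLinearGroup.map D.ι

/-- Every archimedean embedding sends `gK g` to `gC g`. -/
lemma atInf_gK (w : InfinitePlace K) (g : GL (Fin 2) EI) : atInf w (D.gK g) = gC g :=
  Units.ext (Matrix.ext fun _ _ => D.emb_e w _)

/-- Elements of `ℤ[ω]` are integral at every place. -/
lemma valuation_le_one (v : Place K) (x : EI) : v.valuation K (D.ι x) ≤ 1 :=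
  v.valuation_le_one _

/-- An element of `ℤ[ω]` has valuation below one exactly when it lies in the prime. -/
lemma valuation_lt_one_iff (v : Place K) (x : EI) :
    v.valuation K (D.ι x) < 1 ↔ D.e x ∈ v.asIdeal :=
  HeightOneSpectrum.valuation_lt_one_iff_mem v _

/-- Matrices over `ℤ[ω]` are integral at every place. -/
lemma gK_mem_intGL (v : Place K) (g : GL (Fin 2) EI) : D.gK g ∈ intGL (v.valuation K) := by
  refine mem_intGL_of_le (fun i j => D.valuation_le_one v _) (fun i j => ?_)
  rw [← map_inv]
  exact D.valuation_le_one v _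

end KData

end Fermat.LT3
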