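import Fermat.Agent.LT3.LatTheta
import Fermat.Agent.LT3.Theta.Shifted

/-!
# The special theta kernel and its law under `Γ₁(27)`

`spec cls φ` fixes a class modulo `3`, forces `E ∣ d` and twists by `φ (β mod E)`; the kernel
`kerS cls φ τ w = lat (3E) (spec cls φ) (3τ) w` transforms by the operators `wW`.
-/

set_option autoImplicit false
open Complex
open scoped MatrixGroups

namespace Fermat.LT3
open Fermat.LT

/-- Classes of vectors modulo three. -/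
abbrev Cl3 : Type := ZMod 3 × CP 3 × ZMod 3

variable {E : ℕ} [NeZero E]

/-- Coordinates on `ℤ[ω]` of a point of the dual lattice. -/
def mn (p : ℤ × ℤ) : ℤ × ℤ := ((2 * p.1 - p.2) / 3, (2 * p.2 - p.1) / 3)

/-- The `β`-part of the special function. -/
noncomputable def specB (b₀ : CP 3) (φ : CP E → ℂ) (p : ℤ × ℤ) : ℂ :=
  if (3 : ℤ) ∣ 2 * p.1 - p.2 ∧ redv 3 (mn p) = b₀ then φ (redv E (mn p)) else 0

/-- The condition that `d` is `d₀` modulo `3` and `0` modulo `E`. -/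
def dCond (E : ℕ) (d₀ : ZMod 3) (d : ℤ) : Prop := (d : ZMod 3) = d₀ ∧ (d : ZMod E) = 0

open scoped Classical in
/-- The function on `Λ` supported on a class modulo three and built from `φ` modulo `E`. -/
noncomputable def spec (cls : Cl3) (φ : CP E → ℂ) (X : Lz) : ℂ :=
  if (X.1 : ZMod 3) = cls.1 ∧ dCond E cls.2.2 X.2.2 then specB cls.2.1 φ X.2.1 else 0

omit [NeZero E] in
/-- A move of `p` by `3E` times the lattice, in the coordinates `mn`. -/
lemma mn_add_lam (p μ : ℤ × ℤ) :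
    (2 * (p.1 + (3 * E : ℕ) * (2 * μ.1 + μ.2)) - (p.2 + (3 * E : ℕ) * (μ.1 + 2 * μ.2))
      = 2 * p.1 - p.2 + 3 * (3 * E * μ.1)) ∧
    mn (p.1 + (3 * E : ℕ) * (2 * μ.1 + μ.2), p.2 + (3 * E : ℕ) * (μ.1 + 2 * μ.2))
      = ((mn p).1 + 3 * E * μ.1, (mn p).2 + 3 * E * μ.2) := by
  have e1 : 2 * (p.1 + (3 * E : ℕ) * (2 * μ.1 + μ.2)) - (p.2 + (3 * E : ℕ) * (μ.1 + 2 * μ.2))
      = 2 * p.1 - p.2 + 3 * (3 * (E : ℤ) * μ.1) := by push_cast; ring
  have e2 : 2 * (p.2 + (3 * E : ℕ) * (μ.1 + 2 * μ.2)) - (p.1 + (3 * E : ℕ) * (2 * μ.1 + μ.2))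
      = 2 * p.2 - p.1 + 3 * (3 * (E : ℤ) * μ.2) := by push_cast; ring
  refine ⟨e1, Prod.ext ?_ ?_⟩
  · simp only [mn]; rw [e1, Int.add_mul_ediv_left _ _ (by norm_num : (3 : ℤ) ≠ 0)]
  · simp only [mn]; rw [e2, Int.add_mul_ediv_left _ _ (by norm_num : (3 : ℤ) ≠ 0)]

/-- The coordinates `mn` invert the lattice map. -/
lemma mn_lam (μ : ℤ × ℤ) : (3 : ℤ) ∣ 2 * (2 * μ.1 + μ.2) - (μ.1 + 2 * μ.2) ∧
    mn (2 * μ.1 + μ.2, μ.1 + 2 * μ.2) = μ := by
  refine ⟨⟨μ.1, by ring⟩, Prod.ext ?_ ?_⟩ <;> simp [mn] <;> omega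

omit [NeZero E] in
/-- The special function is periodic modulo `3E`. -/
lemma per_spec (cls : Cl3) (φ : CP E → ℂ) : Per (3 * E) (spec cls φ) := by
  intro X μ
  obtain ⟨h1, h2⟩ := mn_add_lam (E := E) X.2.1 μ.2.1
  have hX : (X + ((3 * E : ℕ) : ℤ) • lam μ) = (X.1 + ((3 * E : ℕ) : ℤ) * μ.1,
      (X.2.1.1 + ((3 * E : ℕ) : ℤ) * (2 * μ.2.1.1 + μ.2.1.2),
        X.2.1.2 + ((3 * E : ℕ) : ℤ) * (μ.2.1.1 + 2 * μ.2.1.2)), X.2.2 +
            ((3 * E : ℕ) : ℤ) * μ.2.2) := by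
    simp [lam, Prod.ext_iff]
  rw [hX]
  simp only [spec, specB, dCond, h1, h2]
  have h3 : (3 : ℤ) ∣ 2 * X.2.1.1 - X.2.1.2 + 3 * (3 * (E : ℤ) * μ.2.1.1) ↔
      (3 : ℤ) ∣ 2 * X.2.1.1 - X.2.1.2 := dvd_add_left (dvd_mul_right _ _)
  simp [redv, show (3 : ZMod 3) = 0 from rfl, h3]

omit [NeZero E] in
/-- The special function on the lattice `Λ` in coordinates. -/
lemma spec_lam (cls : Cl3) (φ : CP E → ℂ) (μ : Lz) :
    spec cls φ (lam μ) = if ((μ.1 : ZMod 3), redv 3 μ.2.1, (μ.2.2 : ZMod 3)) = cls ∧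
      (μ.2.2 : ZMod E) = 0 then φ (redv E μ.2.1) else 0 := by
  obtain ⟨h1, h2⟩ := mn_lam μ.2.1
  obtain ⟨a, b, d⟩ := cls
  simp only [spec, specB, dCond, lam, h1, h2, true_and, Prod.mk.injEq]
  split_ifs <;> first | rfl | (exfalso; tauto)

omit [NeZero E] in
/-- The special function lives on the lattice `Λ`. -/
lemma support_spec (cls : Cl3) (φ : CP E → ℂ) :
    Function.support (spec cls φ) ⊆ Set.range lam := by
  intro X hX
  have h : (3 : ℤ) ∣ 2 * X.2.1.1 - X.2.1.2 := by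
    by_contra h
    refine hX ?_
    simp [spec, specB, h]
  obtain ⟨i, hi⟩ := h
  exact ⟨(X.1, (i, X.2.1.1 - 2 * i), X.2.2), by
    simp [lam, Prod.ext_iff]; omega⟩

/-- The theta series of `spec cls φ` at `3 τ`. -/
noncomputable def kerS (cls : Cl3) (φ : CP E → ℂ) (τ : ℂ) (w : H3) : ℂ :=
  lat (3 * E) (spec cls φ) (3 * τ) w

open scoped Classical in
/-- The coefficient of `(k, d)` in the mixed series. -/
noncomputable def coefS (E : ℕ) [NeZero E] (a₀ d₀ : ZMod 3) (v : ℤ × ℤ) : ℂ :=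
  if dCond E d₀ v.2 then
    ∑ a : ZMod (3 * E), (if ((a.val : ℤ) : ZMod 3) = a₀ then (1 : ℂ) else 0) *
      ee (3 * E) ((v.1 : ZMod (3 * E)) * a)
  else 0

open scoped Classical in
/-- The coefficient forces divisibility of `k` by `E` and the condition on `d`. -/
lemma coefS_dvd {a₀ d₀ : ZMod 3} {v : ℤ × ℤ} (h : coefS E a₀ d₀ v ≠ 0) :
    (E : ℤ) ∣ v.1 ∧ dCond E d₀ v.2 := by
  by_cases hd : dCond E d₀ v.2
  swap
  · simp [coefS, hd] at h
  refine ⟨?_, hd⟩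
  by_contra hk
  rw [coefS, if_pos hd] at h
  set S := ∑ a : ZMod (3 * E), (if ((a.val : ℤ) : ZMod 3) = a₀ then (1 : ℂ) else 0) *
    ee (3 * E) ((v.1 : ZMod (3 * E)) * a) with hS
  have key : S = S * ee (3 * E) ((v.1 : ZMod (3 * E)) * 3) := by
    rw [hS, Finset.sum_mul]
    conv_lhs => rw [← Equiv.sum_comp (Equiv.addRight (3 : ZMod (3 * E)))]
    refine Finset.sum_congr rfl fun a _ => ?_
    rw [Equiv.coe_addRight, mul_add, ee_add, ← mul_assoc]
    congr 3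
    have e : ∀ b : ZMod (3 * E),
        ((b.val : ℤ) : ZMod 3) = ZMod.castHom (dvd_mul_right 3 E) (ZMod 3) b := fun b => by
      conv_rhs => rw [← ZMod.natCast_zmod_val b]
      simp only [map_natCast, Int.cast_natCast]
    rw [e, e, map_add, show (3 : ZMod (3 * E)) = ((3 : ℕ) : ZMod (3 * E)) by norm_num, map_natCast]
    simp [show (3 : ZMod 3) = 0 from rfl]
  have hne : ee (3 * E) ((v.1 : ZMod (3 * E)) * 3) ≠ 1 := by
    intro h1
    have h2 : (v.1 : ZMod (3 * E)) * 3 = 0 := ZMod.injective_stdAddChar (h1.trans ee_zero.symm)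
    have h3 : (((v.1 * 3 : ℤ)) : ZMod (3 * E)) = 0 := by push_cast; exact h2
    rw [ZMod.intCast_zmod_eq_zero_iff_dvd] at h3
    refine hk (Int.dvd_of_mul_dvd_mul_left (by norm_num : (3 : ℤ) ≠ 0) ?_)
    push_cast at h3
    rwa [mul_comm 3 v.1]
  exact hne (mul_left_cancel₀ h (by rw [mul_one]; exact key.symm))

/-- The mixed form of the kernel. -/
theorem kerS_eq_mix (cls : Cl3) (φ : CP E → ℂ) {τ : ℂ} (hτ : 0 < τ.im) (z : ℂ) {t : ℝ}
    (ht : 0 < t) :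
    kerS cls φ τ (H3.mk z t) = (t / ((3 * E : ℕ) : ℂ)) * ∑' v : ℤ × ℤ,
      coefS E cls.1 cls.2.2 v * ((gd (3 * E) (3 * τ) t v : ℝ) : ℂ) *
        binC cls.2.1 φ τ ((v.2 : ℂ) * z) ((v.1 : ℂ) * z / 3) := by
  have h3 : 0 < (3 * τ).im := by simp; exact hτ
  rw [kerS, lat_eq_mix (per_spec cls φ) h3 z ht]
  congr 1
  refine tsum_congr fun v => ?_
  rw [mul_comm (coefS E cls.1 cls.2.2 v), mul_assoc]
  congr 1
  have hinj : Function.Injective fun μ : ℤ × ℤ => (2 * μ.1 + μ.2, μ.1 + 2 * μ.2) := fun p q h => by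
    simp only [Prod.mk.injEq] at h
    ext <;> omega
  -- the Poisson kernel at a pair
  have hpsi : ∀ p : ℤ × ℤ, psiK (3 * E) (spec cls φ) v.1 v.2 (redv (3 * (3 * E)) p)
      = coefS E cls.1 cls.2.2 v * specB cls.2.1 φ p := fun p => by
    rw [← hatA_red (per_spec cls φ), hatA, coefS]
    split_ifs with hd
    · rw [Finset.sum_mul]
      refine Finset.sum_congr rfl fun a _ => ?_
      simp only [spec, hd, and_true]
      split_ifs <;> ring
    · simp [spec, hd]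
  rw [bind, binC]
  simp only [hpsi]
  rw [show (∑' γ : ℤ × ℤ, coefS E cls.1 cls.2.2 v * specB cls.2.1 φ γ *
      jterm (3 * (3 * τ) / ((3 * (3 * E) : ℕ) : ℂ)) ((v.2 : ℂ) * z)
        (3 * ((v.1 : ℂ) * z) / ((3 * (3 * E) : ℕ) : ℂ)) (demb γ))
    = coefS E cls.1 cls.2.2 v * ∑' γ : ℤ × ℤ, specB cls.2.1 φ γ *
      jterm (3 * (3 * τ) / ((3 * (3 * E) : ℕ) : ℂ)) ((v.2 : ℂ) * z)
        (3 * ((v.1 : ℂ) * z) / ((3 * (3 * E) : ℕ) : ℂ)) (demb γ) from by
    rw [← tsum_mul_left]; exact tsum_congr fun γ => by ring]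
  congr 1
  -- reindex the pairs by `μ`
  rw [← hinj.tsum_eq]
  swap
  · intro γ hγ
    have h : (3 : ℤ) ∣ 2 * γ.1 - γ.2 := by
      by_contra h
      exact hγ (by simp [specB, h])
    obtain ⟨i, hi⟩ := h
    exact ⟨(i, γ.1 - 2 * i), by simp [Prod.ext_iff]; omega⟩
  refine tsum_congr fun μ => ?_
  obtain ⟨h1, h2⟩ := mn_lam μ
  have hE : (E : ℂ) ≠ 0 := by exact_mod_cast NeZero.ne E
  have hd : demb (2 * μ.1 + μ.2, μ.1 + 2 * μ.2) = emb μ := by
    apply Complex.ext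
    · rw [emb_re]; simp [demb]; ring
    · rw [emb_im]; simp [demb]
      have := sqrt_three_ne
      field_simp
      ring_nf
      rw [show Real.sqrt 3 ^ 2 = 3 by rw [sq]; exact sqrt_three_sq]
  simp only [specB, h1, h2, true_and, hd]
  congr 2 <;> push_cast <;> field_simp

variable [Fact (Nat.Coprime E 3)]

/-- The action of `γ` on the indices `(k, d)`. -/
def rowMap (γ : SL(2, ℤ)) (v : ℤ × ℤ) : ℤ × ℤ :=
  (γ 1 1 * v.1 + 3 * γ 0 1 * v.2, γ 1 0 / 3 * v.1 + γ 0 0 * v.2)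

omit [Fact (Nat.Coprime E 3)] in
/-- The coefficient is invariant under the action of `Γ₁(27)` on indices. -/
lemma rowMap_coef {γ : SL(2, ℤ)} (hγ : InG27 γ) (a₀ d₀ : ZMod 3) {v : ℤ × ℤ}
    (h : coefS E a₀ d₀ v ≠ 0) : coefS E a₀ d₀ (rowMap γ v) = coefS E a₀ d₀ v := by
  obtain ⟨⟨k, hk⟩, hd3, hdE⟩ := coefS_dvd h
  obtain ⟨⟨i, hi⟩, ⟨j, hj⟩, ⟨l, hl⟩⟩ := hγ.dvd
  have hdvd := (ZMod.intCast_zmod_eq_zero_iff_dvd _ E).1 hdE
  obtain ⟨d', hd'⟩ := hdvd
  have e1 : ((rowMap γ v).1 : ZMod (3 * E)) = (v.1 : ZMod (3 * E)) := by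
    rw [ZMod.intCast_eq_intCast_iff_dvd_sub]
    refine ⟨-(9 * l * k + γ 0 1 * d'), ?_⟩
    have : γ 1 1 = 1 + 27 * l := by linarith
    simp only [rowMap, this, hk, hd']
    push_cast
    ring
  have e10 : γ 1 0 / 3 = 9 * j := by omega
  have e2 : dCond E d₀ (rowMap γ v).2 := by
    have : γ 0 0 = 1 + 27 * i := by linarith
    refine ⟨?_, ?_⟩
    · rw [← hd3]
      simp [rowMap, e10, this, show (27 : ZMod 3) = 0 from rfl, show (9 : ZMod 3) = 0 from rfl]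
    · simp [rowMap, e10, hk, hdE]
  rw [coefS, coefS, if_pos e2, if_pos ⟨hd3, hdE⟩, e1]

omit [Fact (Nat.Coprime E 3)] in
/-- `rowMap γ` is bijective, with `rowMap` of some element of `Γ₁(27)` as a left inverse. -/
lemma rowMap_bijective {γ : SL(2, ℤ)} (hγ : InG27 γ) :
    Function.Bijective (rowMap γ) ∧ ∃ δ : SL(2, ℤ), InG27 δ ∧
      ∀ v, rowMap δ (rowMap γ v) = v := by
  obtain ⟨-, ⟨j, hj⟩, -⟩ := hγ.dvd
  have hdet := γ.det_coe
  rw [Matrix.det_fin_two] at hdet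
  have e10 : γ 1 0 / 3 = 9 * j := by omega
  -- the inverse is the adjugate
  have hinv : ((γ⁻¹ : SL(2, ℤ)) : Matrix (Fin 2) (Fin 2) ℤ)
      = !![γ 1 1, -(γ 0 1); -(γ 1 0), γ 0 0] :=
    (Matrix.SpecialLinearGroup.coe_inv γ).trans (Matrix.adjugate_fin_two _)
  -- which again lies in the group
  have hδ : InG27 γ⁻¹ := by
    obtain ⟨-, ⟨j', hj'⟩, ⟨l, hl⟩⟩ := hγ.dvd
    constructor
    · rw [hinv]
      simp
      rw [show γ 1 1 = 1 + 27 * l by linarith]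
      simp [show (27 : ZMod 27) = 0 from rfl]
    · rw [hinv]
      simp [hj', show (27 : ZMod 27) = 0 from rfl]
  -- and its row map undoes that of `γ`
  have e1 : ∀ v, rowMap γ⁻¹ (rowMap γ v) = v := fun v => by
    simp only [rowMap, hinv, Matrix.of_apply, Matrix.cons_val', Matrix.cons_val_zero,
      Matrix.cons_val_one, Matrix.empty_val', Matrix.cons_val_fin_one]
    rw [show -γ 1 0 / 3 = -(9 * j) by omega, e10]
    rw [hj] at hdet
    refine Prod.ext ?_ ?_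
    · simp only; linear_combination v.1 * hdet
    · simp only; linear_combination v.2 * hdet
  have e2 : ∀ v, rowMap γ (rowMap γ⁻¹ v) = v := fun v => by
    simp only [rowMap, hinv, Matrix.of_apply, Matrix.cons_val', Matrix.cons_val_zero,
      Matrix.cons_val_one, Matrix.empty_val', Matrix.cons_val_fin_one]
    rw [show -γ 1 0 / 3 = -(9 * j) by omega, e10]
    rw [hj] at hdet
    refine Prod.ext ?_ ?_
    · simp only; linear_combination v.1 * hdet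
    · simp only; linear_combination v.2 * hdet
  exact ⟨Function.bijective_iff_has_inverse.2 ⟨_, e1, e2⟩, _, hδ, e1⟩

/-- **The law of the kernel.** On `Γ₁(27)` the kernel transforms in weight one with the operator
`wW γ` on its class function. -/
theorem kerS_law (cls : Cl3) {γ : SL(2, ℤ)} (hγ : InG27 γ) (φ : CP E → ℂ) {τ : ℂ} (hτ : 0 < τ.im)
    (w : H3) :
    kerS cls φ (((γ 0 0 : ℂ) * τ + γ 0 1) / ((γ 1 0 : ℂ) * τ + γ 1 1)) w
      = ((γ 1 0 : ℂ) * τ + γ 1 1) * kerS cls (wW γ φ) τ w := by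
  obtain ⟨z, t, ht, rfl⟩ : ∃ z t, 0 < t ∧ H3.mk z t = w :=
    ⟨_, _, H3.coord_pos w, H3.mk_coord w⟩
  -- compare the series at `γ τ` and at `τ` through the bijection `v ↦ rowMap γ v`
  set σ := ((γ 0 0 : ℂ) * τ + γ 0 1) / ((γ 1 0 : ℂ) * τ + γ 1 1) with hσdef
  have hσ : 0 < σ.im := im_mob γ hτ
  obtain ⟨-, ⟨j, hj⟩, -⟩ := hγ.dvd
  obtain ⟨hbij, δ, hδ, hδe⟩ := rowMap_bijective hγ
  rw [kerS_eq_mix cls φ hσ z ht, kerS_eq_mix cls _ hτ z ht,
    ← (Equiv.ofBijective _ hbij).tsum_eq (fun v : ℤ × ℤ =>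
      coefS E cls.1 cls.2.2 v * ((gd (3 * E) (3 * τ) t v : ℝ) : ℂ) *
        binC cls.2.1 (wW γ φ) τ ((v.2 : ℂ) * z) ((v.1 : ℂ) * z / 3)),
    ← mul_assoc, mul_comm ((γ 1 0 : ℂ) * τ + γ 1 1), mul_assoc]
  congr 1
  rw [← tsum_mul_left]
  refine tsum_congr fun v => ?_
  rw [Equiv.ofBijective_apply]
  -- the coefficients agree
  have hc : coefS E cls.1 cls.2.2 (rowMap γ v) = coefS E cls.1 cls.2.2 v := by
    by_cases h : coefS E cls.1 cls.2.2 v = 0
    · by_contra h2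
      rw [h] at h2
      have := rowMap_coef hδ _ _ h2
      rw [hδe, h] at this
      exact h2 this.symm
    · exact rowMap_coef hγ _ _ h
  have e10 : γ 1 0 / 3 = 9 * j := by omega
  have hd := denom_ne γ hτ
  -- the Gaussian factors agree
  have hg : gd (3 * E) (3 * σ) t v = gd (3 * E) (3 * τ) t (rowMap γ v) := by
    rw [gd, gd]
    congr 2
    have hdet : ((γ 0 0 : ℝ) * γ 1 1 - γ 0 1 * γ 1 0) = 1 := by
      have := γ.det_coe
      rw [Matrix.det_fin_two] at this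
      exact_mod_cast this
    have him : σ.im = τ.im / Complex.normSq ((γ 1 0 : ℂ) * τ + γ 1 1) := by
      rw [hσdef, Complex.div_im, ← sub_div]
      congr 1
      simp
      linear_combination τ.im * hdet
    have hnum : (v.1 : ℂ) + (v.2 : ℂ) * (3 * σ)
        = (((rowMap γ v).1 : ℂ) + ((rowMap γ v).2 : ℂ) * (3 * τ)) / ((γ 1 0 : ℂ) * τ + γ 1 1) := by
      have key : ∀ N D : ℂ, D ≠ 0 → ((v.1 : ℂ) + v.2 * (3 * (N / D))) * D
          = v.1 * D + 3 * v.2 * N := fun N D h => by field_simp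
      rw [eq_div_iff hd, hσdef, key _ _ hd]
      simp only [rowMap, e10]
      rw [hj]
      push_cast
      ring
    have := (Complex.normSq_pos.2 hd).ne'
    rw [hnum, Complex.normSq_div, show (3 * σ).im = 3 * σ.im by simp, him,
      show (3 * τ).im = 3 * τ.im by simp]
    generalize Complex.normSq ((γ 1 0 : ℂ) * τ + γ 1 1) = P at this ⊢
    generalize Complex.normSq (((rowMap γ v).1 : ℂ) + ((rowMap γ v).2 : ℂ) * (3 * τ)) = Q
    field_simp
  -- the inner theta series obey `binC_law`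
  rw [hc, hg, hσdef, binC_law cls.2.1 hγ φ hτ]
  have eu : (γ 0 0 : ℂ) * ((v.2 : ℂ) * z) + (γ 1 0 : ℂ) * ((v.1 : ℂ) * z / 3)
      = ((rowMap γ v).2 : ℂ) * z := by
    simp only [rowMap, e10]; rw [hj]; push_cast; ring
  have ev : (γ 0 1 : ℂ) * ((v.2 : ℂ) * z) + (γ 1 1 : ℂ) * ((v.1 : ℂ) * z / 3)
      = ((rowMap γ v).1 : ℂ) * z / 3 := by
    simp only [rowMap]; push_cast; ring
  rw [eu, ev]
  ring

end Fermat.LT3
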