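import Fermat.Agent.LT3.Herm
import Fermat.Agent.LT3.Theta.Jacobi

/-!
# The lattice of integral hermitian forms and Gaussian sums over it

`vec` is the dual lattice `ℤ × 𝓞^# × ℤ` inside `HV`; Gaussian sums of the majorant over it are
bounded by `C (1 + t)(1 + 1/t)` at height `t`.
-/

set_option autoImplicit false
open Complex
open scoped Real

namespace Fermat.LT3
open Fermat.LT

/-- A shifted Gaussian sum. -/
noncomputable def gsum (l s : ℝ) : ℝ := ∑' n : ℤ, Real.exp (-(l * ((n : ℝ) + s) ^ 2))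

/-- A shifted Gaussian is summable over `ℤ`. -/
lemma summable_gsum {l : ℝ} (hl : 0 < l) (s : ℝ) :
    Summable fun n : ℤ => Real.exp (-(l * ((n : ℝ) + s) ^ 2)) := by
  have h : 0 < ((l / π : ℝ) : ℂ).re := by simpa using div_pos hl Real.pi_pos
  refine (((summable_gterm h (-((l / π * s : ℝ) : ℂ))).norm).mul_left
    (Real.exp (-(l * s ^ 2)))).congr fun n => ?_
  rw [norm_gterm, ← Real.exp_add]
  congr 1
  simp
  field_simp
  ring

/-- A Gaussian sum is nonnegative. -/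
lemma gsum_nonneg (l s : ℝ) : 0 ≤ gsum l s := tsum_nonneg fun _ => (Real.exp_pos _).le

/-- Poisson: a shifted sum is at most the centred one, and the centred one satisfies the
transformation formula. -/
lemma gsum_le_centred {l : ℝ} (hl : 0 < l) (s : ℝ) :
    gsum l s ≤ gsum l 0 ∧ gsum l 0 = Real.sqrt (π / l) * gsum (π ^ 2 / l) 0 := by
  set A : ℂ := ((l / π : ℝ) : ℂ) with hA
  have hAre : 0 < A.re := by simpa [hA] using div_pos hl Real.pi_pos
  -- Poisson summation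
  have key : ∀ t : ℝ, (gsum l t : ℂ) = ((Real.sqrt (π / l) : ℝ) : ℂ) *
      ∑' k : ℤ, cexp (-π / A * (k : ℂ) ^ 2 + 2 * π * I * (k : ℂ) * t) := by
    intro t
    have h := Complex.tsum_exp_neg_quadratic hAre (-(A * t))
    have e1 : ∀ n : ℤ, cexp (-π * A * (n : ℂ) ^ 2 + 2 * π * (-(A * t)) * n)
        = cexp ((l * t ^ 2 : ℝ) : ℂ) * ((Real.exp (-(l * ((n : ℝ) + t) ^ 2)) : ℝ) : ℂ) :=
            fun n => by
      rw [Complex.ofReal_exp, ← Complex.exp_add]
      congr 1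
      have hpi : (π : ℂ) ≠ 0 := by exact_mod_cast Real.pi_ne_zero
      rw [hA]
      push_cast
      field_simp
      ring
    have e2 : ∀ n : ℤ, cexp (-π / A * ((n : ℂ) + I * (-(A * t))) ^ 2)
        = cexp ((l * t ^ 2 : ℝ) : ℂ) * cexp (-π / A * (n : ℂ) ^ 2 + 2 * π * I * (n : ℂ) * t) :=
            fun n => by
      rw [← Complex.exp_add]
      congr 1
      have hpi : (π : ℂ) ≠ 0 := by exact_mod_cast Real.pi_ne_zero
      have hlc : (l : ℂ) ≠ 0 := by exact_mod_cast hl.ne'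
      rw [hA]
      push_cast
      field_simp
      ring_nf
      rw [I_sq]
      ring
    rw [tsum_congr e1, tsum_congr e2, tsum_mul_left, tsum_mul_left, mul_left_comm] at h
    have h2 := mul_left_cancel₀ (Complex.exp_ne_zero _) h
    rw [← Complex.ofReal_tsum] at h2
    rw [gsum, h2]
    congr 1
    rw [hA, show ((1 : ℂ) / 2) = (((1 : ℝ) / 2 : ℝ) : ℂ) by norm_num,
      ← Complex.ofReal_cpow (div_pos hl Real.pi_pos).le, ← Real.sqrt_eq_rpow, one_div,
      ← Complex.ofReal_inv, ← Real.sqrt_inv, inv_div]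
  -- the absolute value of a dual term does not depend on the shift
  have hk : ∀ k : ℤ, ∀ t : ℝ, ‖cexp (-π / A * (k : ℂ) ^ 2 + 2 * π * I * (k : ℂ) * t)‖
      = Real.exp (-(π ^ 2 / l * ((k : ℝ) + 0) ^ 2)) := fun k t => by
    rw [Complex.norm_exp]
    congr 1
    have e : -(π : ℂ) / A * (k : ℂ) ^ 2 = ((-(π ^ 2 / l * (k : ℝ) ^ 2) : ℝ) : ℂ) := by
      have hpi : (π : ℂ) ≠ 0 := by exact_mod_cast Real.pi_ne_zero
      rw [hA]; push_cast; field_simp
    rw [e, Complex.add_re, Complex.ofReal_re]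
    simp
  have hl' : 0 < π ^ 2 / l := by positivity
  -- the identity at `t = 0`
  have h0 : gsum l 0 = Real.sqrt (π / l) * gsum (π ^ 2 / l) 0 := by
    apply Complex.ofReal_injective
    rw [key 0, Complex.ofReal_mul, gsum, Complex.ofReal_tsum]
    congr 1
    refine tsum_congr fun k => ?_
    rw [Complex.ofReal_exp]
    congr 1
    have hpi : (π : ℂ) ≠ 0 := by exact_mod_cast Real.pi_ne_zero
    rw [hA]
    push_cast
    field_simp
    simp
    ring
  refine ⟨?_, h0⟩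
  -- the triangle inequality gives the bound
  have hb := congrArg norm (key s)
  rw [Complex.norm_real, norm_mul, Complex.norm_real, Real.norm_of_nonneg (gsum_nonneg _ _),
    Real.norm_of_nonneg (Real.sqrt_nonneg _)] at hb
  rw [hb, h0]
  refine mul_le_mul_of_nonneg_left ?_ (Real.sqrt_nonneg _)
  refine (norm_tsum_le_tsum_norm ?_).trans (le_of_eq (tsum_congr fun k => hk k s))
  simpa only [hk] using summable_gsum hl' 0

/-- The Gaussian sum decreases in the parameter. -/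
lemma gsum_anti {l₁ l₂ : ℝ} (h₁ : 0 < l₁) (h : l₁ ≤ l₂) : gsum l₂ 0 ≤ gsum l₁ 0 :=
  (summable_gsum (h₁.trans_le h) 0).tsum_le_tsum
    (fun _ => Real.exp_le_exp.2 (neg_le_neg (mul_le_mul_of_nonneg_right h (sq_nonneg _))))
    (summable_gsum h₁ 0)

/-- Uniform bound for shifted sums with variable width. -/
lemma gsum_le {c : ℝ} (hc : 0 < c) :
    ∃ C, 0 ≤ C ∧ ∀ (t : ℝ), 0 < t → ∀ s, gsum (c / t ^ 2) s ≤ C * (1 + t) := by
  refine ⟨max (gsum c 0) (Real.sqrt (π / c) * gsum (π ^ 2 / c) 0),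
    le_max_of_le_left (gsum_nonneg _ _), fun t ht s => ?_⟩
  set C := max (gsum c 0) (Real.sqrt (π / c) * gsum (π ^ 2 / c) 0)
  have hC : 0 ≤ C := le_max_of_le_left (gsum_nonneg _ _)
  have hl : 0 < c / t ^ 2 := by positivity
  refine (gsum_le_centred hl s).1.trans ?_
  rcases le_total t 1 with h1 | h1
  · have : c ≤ c / t ^ 2 := by
      rw [le_div_iff₀ (by positivity)]
      exact mul_le_of_le_one_right hc.le (pow_le_one₀ ht.le h1)
    exact (gsum_anti hc this).trans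
      ((le_max_left _ _).trans (le_mul_of_one_le_right hC (by linarith)))
  · rw [(gsum_le_centred hl 0).2, show π / (c / t ^ 2) = π / c * t ^ 2 by field_simp,
      Real.sqrt_mul (by positivity), Real.sqrt_sq ht.le]
    have h2 : gsum (π ^ 2 / (c / t ^ 2)) 0 ≤ gsum (π ^ 2 / c) 0 := by
      refine gsum_anti (by positivity) ?_
      rw [show π ^ 2 / (c / t ^ 2) = π ^ 2 / c * t ^ 2 by field_simp]
      exact le_mul_of_one_le_right (by positivity) (one_le_pow₀ h1)
    calc Real.sqrt (π / c) * t * gsum (π ^ 2 / (c / t ^ 2)) 0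
        ≤ Real.sqrt (π / c) * t * gsum (π ^ 2 / c) 0 :=
          mul_le_mul_of_nonneg_left h2 (by positivity)
      _ = t * (Real.sqrt (π / c) * gsum (π ^ 2 / c) 0) := by ring
      _ ≤ (1 + t) * C := mul_le_mul (by linarith) (le_max_right _ _)
          (mul_nonneg (Real.sqrt_nonneg _) (gsum_nonneg _ _)) (by linarith)
      _ = C * (1 + t) := by ring

/-- Coordinates of the dual lattice. -/
abbrev Lz : Type := ℤ × (ℤ × ℤ) × ℤ

/-- The point of the dual lattice. -/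
noncomputable def vec (X : Lz) : HV := ((X.1 : ℝ), demb X.2.1, (X.2.2 : ℝ))

/-- Three times the quadratic form. -/
def q3 (X : Lz) : ℤ := qd X.2.1.1 X.2.1.2 - 3 * (X.1 * X.2.2)

/-- Three times the bilinear form. -/
def b3 (X Y : Lz) : ℤ :=
  2 * X.2.1.1 * Y.2.1.1 - X.2.1.1 * Y.2.1.2 - X.2.1.2 * Y.2.1.1 + 2 * X.2.1.2 * Y.2.1.2
    - 3 * (X.1 * Y.2.2 + Y.1 * X.2.2)

/-- Three times the form is the integral form. -/
lemma q3_eq (X : Lz) : 3 * qf (vec X) = (q3 X : ℝ) := by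
  rw [qf, vec, q3]
  simp only
  have h := normSq_demb X.2.1
  push_cast at h ⊢
  linarith

/-- The majorant in coordinates. -/
lemma maj_coord (X : HV) (z : ℂ) {t : ℝ} (ht : 0 < t) :
    maj X (H3.mk z t) = Complex.normSq (X.2.1 - (X.2.2 : ℂ) * z)
      + ((num X z / t) ^ 2 + (X.2.2 * t) ^ 2) / 2 := by
  have h := maj_base (act (triMat z ht)⁻¹ X)
  rw [act_inv_triMat X z ht] at h
  rw [← h, maj, maj, lin_mk_coord X z ht, lin_base, tr2]
  congr 1
  have hq := qf_act (triMat z ht)⁻¹ X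
  rw [act_inv_triMat X z ht] at hq
  exact hq.symm

/-- The three summations of the Gaussian sum. -/
noncomputable def gterm3 (a : ℝ) (z : ℂ) (t : ℝ) (X : ℤ × (ℤ × ℤ) × ℤ) : ℝ :=
  Real.exp (-(a / 2 / t ^ 2 * ((X.1 : ℝ) + (num (0, demb X.2.1, (X.2.2 : ℝ)) z)) ^ 2))
    * (Real.exp (-(a * Complex.normSq (demb X.2.1 - (X.2.2 : ℂ) * z)))
      * Real.exp (-(a * t ^ 2 / 2 * ((X.2.2 : ℝ) + 0) ^ 2)))

/-- The Gaussian of the majorant splits into the three summations. -/
lemma exp_maj (a : ℝ) (z : ℂ) {t : ℝ} (ht : 0 < t) (X : Lz) :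
    Real.exp (-(a * maj (vec X) (H3.mk z t))) = gterm3 a z t X := by
  rw [maj_coord _ z ht, gterm3, ← Real.exp_add, ← Real.exp_add]
  congr 1
  simp [vec, num]
  field_simp
  ring

/-- The hexagonal Gaussian sum is bounded by two one-dimensional sums. -/
lemma summable_hexshift {a : ℝ} (ha : 0 < a) (s : ℂ) :
    Summable (fun p : ℤ × ℤ => Real.exp (-(a * Complex.normSq (demb p - s)))) ∧
      ∑' p : ℤ × ℤ, Real.exp (-(a * Complex.normSq (demb p - s)))
        ≤ gsum (a / 4) 0 * gsum (a / 3) 0 := by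
  -- complete the square in lattice coordinates
  have e : ∀ p : ℤ × ℤ, Real.exp (-(a * Complex.normSq (demb p - s)))
      = Real.exp (-(a / 4 * ((p.1 : ℝ) + (-2 * s.re)) ^ 2))
        * Real.exp (-(a / 3 * ((p.2 : ℝ) + (-(p.1 : ℝ) / 2 - Real.sqrt 3 * s.im)) ^ 2)) :=
            fun p => by
    rw [← Real.exp_add, Complex.normSq_apply]
    congr 1
    simp [demb]
    have := sqrt_three_ne
    field_simp
    have h3 : Real.sqrt 3 ^ 2 = 3 := by rw [sq]; exact sqrt_three_sq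
    ring_nf
    simp only [h3, show Real.sqrt 3 ^ 3 = 3 * Real.sqrt 3 by rw [pow_succ, h3],
      show Real.sqrt 3 ^ 4 = 9 by rw [show (4 : ℕ) = 2 * 2 from rfl, pow_mul, h3]; norm_num]
    ring
  simp only [e]
  -- each row is at most its centred Gaussian sum
  have hrow : ∀ p : ℤ, Summable fun q : ℤ =>
      Real.exp (-(a / 4 * ((p : ℝ) + (-2 * s.re)) ^ 2))
        * Real.exp (-(a / 3 * ((q : ℝ) + (-(p : ℝ) / 2 - Real.sqrt 3 * s.im)) ^ 2)) :=
    fun p => (summable_gsum (by positivity) _).mul_left _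
  have hrs : ∀ p : ℤ, ∑' q : ℤ, Real.exp (-(a / 4 * ((p : ℝ) + (-2 * s.re)) ^ 2))
        * Real.exp (-(a / 3 * ((q : ℝ) + (-(p : ℝ) / 2 - Real.sqrt 3 * s.im)) ^ 2))
      ≤ Real.exp (-(a / 4 * ((p : ℝ) + (-2 * s.re)) ^ 2)) * gsum (a / 3) 0 := fun p => by
    rw [tsum_mul_left]
    exact mul_le_mul_of_nonneg_left (gsum_le_centred (by positivity) _).1 (Real.exp_pos _).le
  have hout :=
    (summable_gsum (show (0 : ℝ) < a / 4 by positivity) (-2 * s.re)).mul_right (gsum (a / 3) 0)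
  have hsum : Summable fun p : ℤ × ℤ => Real.exp (-(a / 4 * ((p.1 : ℝ) + (-2 * s.re)) ^ 2))
      * Real.exp (-(a / 3 * ((p.2 : ℝ) + (-(p.1 : ℝ) / 2 - Real.sqrt 3 * s.im)) ^ 2)) :=
    (summable_prod_of_nonneg fun _ => mul_nonneg (Real.exp_pos _).le (Real.exp_pos _).le).2
      ⟨hrow, hout.of_nonneg_of_le (fun _ => tsum_nonneg fun _ =>
        mul_nonneg (Real.exp_pos _).le (Real.exp_pos _).le) hrs⟩
  refine ⟨hsum, ?_⟩
  -- then sum this bound over the rows
  rw [hsum.tsum_prod]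
  refine (Summable.tsum_le_tsum hrs ?_ hout).trans ?_
  · exact hout.of_nonneg_of_le (fun _ => tsum_nonneg fun _ =>
      mul_nonneg (Real.exp_pos _).le (Real.exp_pos _).le) hrs
  · rw [tsum_mul_right]
    exact mul_le_mul_of_nonneg_right (gsum_le_centred (by positivity) _).1 (gsum_nonneg _ _)

/-- The term with its summations written out. -/
lemma gterm3_mk (a : ℝ) (z : ℂ) (t : ℝ) (n : ℤ) (p : ℤ × ℤ) (d : ℤ) :
    gterm3 a z t (n, p, d)
      = Real.exp (-(a / 2 / t ^ 2 * ((n : ℝ) + (num (0, demb p, (d : ℝ)) z)) ^ 2))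
        * (Real.exp (-(a * Complex.normSq (demb p - (d : ℂ) * z)))
          * Real.exp (-(a * t ^ 2 / 2 * ((d : ℝ) + 0) ^ 2))) := rfl

/-- The term is nonnegative. -/
lemma gterm3_nonneg (a : ℝ) (z : ℂ) (t : ℝ) (X : Lz) : 0 ≤ gterm3 a z t X :=
  mul_nonneg (Real.exp_pos _).le (mul_nonneg (Real.exp_pos _).le (Real.exp_pos _).le)

attribute [local irreducible] gterm3 gsum

/-- **The Gaussian bound.** The Gaussian sum over the lattice at height `t` is at most
`C (1 + t) (1 + t⁻¹)`. -/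
theorem exists_maj_bound {a : ℝ} (ha : 0 < a) : ∃ C, 0 ≤ C ∧ ∀ (z : ℂ) (t : ℝ), 0 < t →
    Summable (fun X : Lz => Real.exp (-(a * maj (vec X) (H3.mk z t)))) ∧
      ∑' X : Lz, Real.exp (-(a * maj (vec X) (H3.mk z t))) ≤ C * (1 + t) * (1 + t⁻¹) := by
  obtain ⟨C1, hC1, h1⟩ := gsum_le (c := a / 2) (by positivity)
  obtain ⟨C2, hC2, h2⟩ := gsum_le (c := a / 2) (by positivity)
  set H := gsum (a / 4) 0 * gsum (a / 3) 0
  have hH : 0 ≤ H := mul_nonneg (gsum_nonneg _ _) (gsum_nonneg _ _)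
  refine ⟨C1 * H * C2, by positivity, fun z t ht => ?_⟩
  simp only [exp_maj a z ht]
  have hl : 0 < a / 2 / t ^ 2 := by positivity
  -- order the variables as `(d, p, a)`
  let e : ℤ × (ℤ × ℤ) × ℤ ≃ Lz :=
    ⟨fun v => (v.2.2, v.2.1, v.1), fun v => (v.2.2, v.2.1, v.1), fun _ => rfl, fun _ => rfl⟩
  have hin : ∀ (d : ℤ) (p : ℤ × ℤ), Summable (fun n : ℤ => gterm3 a z t (n, p, d)) ∧
      ∑' n : ℤ, gterm3 a z t (n, p, d) ≤ C1 * (1 + t) *
        (Real.exp (-(a * Complex.normSq (demb p - (d : ℂ) * z)))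
          * Real.exp (-(a * t ^ 2 / 2 * ((d : ℝ) + 0) ^ 2))) := fun d p => by
    simp only [gterm3_mk]
    refine ⟨(summable_gsum hl _).mul_right _, ?_⟩
    rw [tsum_mul_right]
    refine mul_le_mul_of_nonneg_right ?_ (mul_nonneg (Real.exp_pos _).le (Real.exp_pos _).le)
    have h := h1 t ht (num (0, demb p, (d : ℝ)) z)
    rw [gsum] at h
    exact h
  have hpos : ∀ X, 0 ≤ gterm3 a z t X := gterm3_nonneg a z t
  have hmid : ∀ d : ℤ, Summable (fun q : (ℤ × ℤ) × ℤ => gterm3 a z t (q.2, q.1, d)) ∧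
      ∑' q : (ℤ × ℤ) × ℤ, gterm3 a z t (q.2, q.1, d)
        ≤ C1 * (1 + t) * H * Real.exp (-(a * t ^ 2 / 2 * ((d : ℝ) + 0) ^ 2)) := fun d => by
    obtain ⟨hs, hle⟩ := summable_hexshift ha ((d : ℂ) * z)
    have hs' :=
      (hs.mul_right (Real.exp (-(a * t ^ 2 / 2 * ((d : ℝ) + 0) ^ 2)))).mul_left (C1 * (1 + t))
    have hsum : Summable fun q : (ℤ × ℤ) × ℤ => gterm3 a z t (q.2, q.1, d) :=
      (summable_prod_of_nonneg fun _ => hpos _).2 ⟨fun p => (hin d p).1,
        hs'.of_nonneg_of_le (fun _ => tsum_nonneg fun _ => hpos _) fun p => (hin d p).2⟩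
    refine ⟨hsum, ?_⟩
    rw [hsum.tsum_prod]
    refine (Summable.tsum_le_tsum (fun p => (hin d p).2) ?_ hs').trans ?_
    · exact hs'.of_nonneg_of_le (fun _ => tsum_nonneg fun _ => hpos _) fun p => (hin d p).2
    · rw [tsum_mul_left, tsum_mul_right, mul_assoc (C1 * (1 + t)) H]
      gcongr
  have hd : Summable fun d : ℤ => Real.exp (-(a * t ^ 2 / 2 * ((d : ℝ) + 0) ^ 2)) :=
    summable_gsum (by positivity) 0
  have hdle : ∑' d : ℤ, Real.exp (-(a * t ^ 2 / 2 * ((d : ℝ) + 0) ^ 2)) ≤ C2 * (1 + t⁻¹) := by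
    have := h2 t⁻¹ (inv_pos.2 ht) 0
    rwa [gsum, show a / 2 / t⁻¹ ^ 2 = a * t ^ 2 / 2 by field_simp] at this
  have hd' := hd.mul_left (C1 * (1 + t) * H)
  have hall : Summable fun v : ℤ × (ℤ × ℤ) × ℤ => gterm3 a z t (e v) :=
    (summable_prod_of_nonneg fun _ => hpos _).2 ⟨fun d => (hmid d).1,
      hd'.of_nonneg_of_le (fun _ => tsum_nonneg fun _ => hpos _) fun d => (hmid d).2⟩
  refine ⟨e.summable_iff.1 hall, ?_⟩
  rw [← e.tsum_eq, hall.tsum_prod]
  refine (Summable.tsum_le_tsum (fun d => (hmid d).2) ?_ hd').trans ?_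
  · exact hd'.of_nonneg_of_le (fun _ => tsum_nonneg fun _ => hpos _) fun d => (hmid d).2
  · rw [tsum_mul_left]
    calc C1 * (1 + t) * H * ∑' d : ℤ, Real.exp (-(a * t ^ 2 / 2 * ((d : ℝ) + 0) ^ 2))
        ≤ C1 * (1 + t) * H * (C2 * (1 + t⁻¹)) := mul_le_mul_of_nonneg_left hdle (by positivity)
      _ = C1 * H * C2 * (1 + t) * (1 + t⁻¹) := by ring

/-- The Gaussian of the majorant is summable over the lattice. -/
lemma summable_maj {a : ℝ} (ha : 0 < a) (w : H3) :
    Summable fun X : Lz => Real.exp (-(a * maj (vec X) w)) := by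
  obtain ⟨C, -, h⟩ := exists_maj_bound ha
  have := (h (H3.coord w).1 (H3.coord w).2 (H3.coord_pos w)).1
  rwa [H3.mk_coord] at this

end Fermat.LT3
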