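import Fermat.Agent.LT3.Bridge

/-!
# `ℤ[ω]/E` as a product of residue fields

Detection of zero and units at the places, lifting of residue data.
-/

set_option autoImplicit false
open IsDedekindDomain NumberField QuadraticAlgebra Matrix

namespace Fermat.LT3
open Fermat.LT

variable {K : Type*} [Field K] [NumberField K] (D : KData K) {E : ℕ} [NeZero E]

/-- The places dividing `E`. -/
abbrev ETp (E : ℕ) : Type _ := {v : Place K // D.e (E : EI) ∈ v.asIdeal}

/-- Residue at a place dividing `E`. -/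
noncomputable def rE (v : ETp D E) : ER (ZMod E) →+* Res v.1 := rMod D v.1 v.2

/-- A prime ideal of `ℤ[ω]/n` is a place. -/
lemma exists_place_of_prime {n : ℕ} [NeZero n] (P : Ideal (ER (ZMod n))) [P.IsPrime] :
    ∃ (v : Place K) (hn : D.e (n : EI) ∈ v.asIdeal), ∀ x, x ∈ P ↔ rMod D v hn x = 0 := by
  set Q : Ideal (𝓞 K) := P.comap ((red n).comp D.e.symm.toRingHom) with hQ
  have : Q.IsPrime := Ideal.comap_isPrime _ _
  have hnQ : D.e (n : EI) ∈ Q := by
    change red n (D.e.symm (D.e (n : EI))) ∈ P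
    rw [RingEquiv.symm_apply_apply, map_natCast, show ((n : ℕ) : ER (ZMod n)) = 0 by
      ext <;> simp]
    exact P.zero_mem
  have hne : Q ≠ ⊥ := fun h => by
    rw [h, Ideal.mem_bot, map_eq_zero_iff _ D.e.injective, Nat.cast_eq_zero] at hnQ
    exact NeZero.ne n hnQ
  refine ⟨⟨Q, inferInstance, hne⟩, hnQ, fun x => ?_⟩
  obtain ⟨y, rfl⟩ := red_surjective n x
  rw [rMod_red, rZ_eq_zero_iff]
  change red n y ∈ P ↔ red n (D.e.symm (D.e y)) ∈ P
  rw [RingEquiv.symm_apply_apply]

/-- Finitely many places divide `E`. -/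
lemma finite_ETp : Finite (ETp D E) := by
  have hne : Ideal.span {D.e (E : EI)} ≠ ⊥ := by
    rw [Ne, Ideal.span_singleton_eq_bot, map_eq_zero_iff _ D.e.injective, Nat.cast_eq_zero]
    exact NeZero.ne E
  refine Set.finite_coe_iff.2 ((Ideal.finite_factors hne).subset fun v hv => ?_)
  exact Ideal.dvd_iff_le.2 ((Ideal.span_singleton_le_iff_mem _).2 hv)

/-- A choice of enumeration of the places dividing `E`. -/
noncomputable instance instFintypeETp : Fintype (ETp D E) :=
  @Fintype.ofFinite _ (finite_ETp D)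

omit [NeZero E] in
/-- For squarefree `E` prime to `3` the ring `ℤ[ω]/E` is reduced. -/
lemma er_isReduced (hsq : Squarefree E) (h3 : ¬ 3 ∣ E) {x : ER (ZMod E)} (hx : IsNilpotent x) :
    x = 0 := by
  have : IsReduced (ZMod E) := isReduced_zmod.2 (Or.inl hsq)
  have h3u : IsUnit (3 : ZMod E) := by
    rw [show (3 : ZMod E) = ((3 : ℕ) : ZMod E) by norm_num, ZMod.isUnit_iff_coprime]
    exact Nat.prime_three.coprime_iff_not_dvd.2 h3
  have hs : IsNilpotent (star x) := by
    obtain ⟨k, hk⟩ := hx
    exact ⟨k, by rw [← star_pow, hk, star_zero]⟩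
  have hn : QuadraticAlgebra.norm x = 0 := by
    obtain ⟨k, hk⟩ := hx
    exact IsReduced.eq_zero _ ⟨k, by rw [← map_pow, hk]; simp [QuadraticAlgebra.norm_def]⟩
  have ht : 2 * x.re + x.im = 0 := by
    obtain ⟨k, hk⟩ := (Commute.all x (star x)).isNilpotent_add hx hs
    have e : x + star x = QuadraticAlgebra.C (2 * x.re + x.im) := by
      ext <;> simp [two_mul]
      ring
    rw [e] at hk
    refine IsReduced.eq_zero _ ⟨k, ?_⟩
    have := congrArg QuadraticAlgebra.re hk
    rw [QuadraticAlgebra.C_eq_algebraMap, ← map_pow, ← QuadraticAlgebra.C_eq_algebraMap] at this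
    rwa [QuadraticAlgebra.re_C, QuadraticAlgebra.re_zero] at this
  have hre : x.re = 0 := by
    have h : 3 * x.re ^ 2 = 0 := by
      rw [QuadraticAlgebra.norm_def, show x.im = -(2 * x.re) by linear_combination ht] at hn
      linear_combination hn
    exact IsReduced.eq_zero _ ⟨2, (h3u.mul_right_eq_zero).1 h⟩
  refine QuadraticAlgebra.ext hre ?_
  rw [hre, mul_zero, zero_add] at ht
  exact ht

/-- **Zero is detected at the places.** For squarefree `E` prime to `3` a residue modulo `E`
vanishing at every place over `E` is zero. -/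
lemma eq_zero_of_rE (hsq : Squarefree E) (h3 : ¬ 3 ∣ E) {x : ER (ZMod E)}
    (h : ∀ v : ETp D E, rE D v x = 0) : x = 0 := by
  refine er_isReduced hsq h3 ?_
  rw [nilpotent_iff_mem_prime]
  intro P hP
  have := hP
  obtain ⟨v, hv, hx⟩ := exists_place_of_prime D P
  exact (hx x).2 (h ⟨v, hv⟩)

omit [NeZero E] in
/-- Units are detected at the places. -/
lemma isUnit_of_rMod {n : ℕ} [NeZero n] {x : ER (ZMod n)}
    (h : ∀ (v : Place K) (hv : D.e (n : EI) ∈ v.asIdeal), rMod D v hv x ≠ 0) : IsUnit x := by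
  by_contra hx
  obtain ⟨P, hP, hxP⟩ := exists_max_ideal_of_mem_nonunits hx
  have := hP.isPrime
  obtain ⟨v, hv, hxv⟩ := exists_place_of_prime D P
  exact h v hv ((hxv x).1 hxP)

variable {D} {S : Set (Place K)} {v3 : Place K} (hB : BData D E S v3)
include hB

omit hB [NeZero E] in
/-- Prescribed residues at the places of the level. -/
lemma exists_res [Finite S] (f : ∀ u ∈ S, Res u) :
    ∃ x : EI, ∀ u, ∀ hu : u ∈ S, rZ D u x = f u hu := by
  choose a ha using fun u : S => toResidue_surjective u.1 (f u.1 u.2)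
  let s : Finset (Place K) := (Set.toFinite S).toFinset
  obtain ⟨c, hc⟩ := IsDedekindDomain.exists_forall_sub_mem_ideal (s := s)
    (fun v : Place K => v.asIdeal) (fun _ => 1) (fun v _ => v.prime)
    (fun v _ u _ hne => fun e => hne (HeightOneSpectrum.ext e))
    (fun v => a ⟨v.1, (Set.toFinite S).mem_toFinset.1 v.2⟩)
  refine ⟨D.e.symm c, fun u hu => ?_⟩
  have := hc u (by simpa [s] using hu)
  rw [pow_one, ← ker_toResidue, RingHom.mem_ker, map_sub, sub_eq_zero] at this
  rw [rZ, RingHom.comp_apply]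
  simpa [ha ⟨u, hu⟩] using this

/-- **Prescribed residue matrices.** Invertible residue matrices at the places of `S` come from one
matrix modulo `9E`. -/
lemma exists_liftGN [Finite S] (N : ∀ u ∈ S, GL (Fin 2) (Res u)) :
    ∃ k : GN (3 * E), ∀ u, ∀ hu : u ∈ S, rG hB hu k = N u hu := by
  choose A hA using fun i j => exists_res fun u hu => (N u hu).val i j
  have hr : ∀ u, ∀ hu : u ∈ S,
      ((Matrix.of A).map (red (3 * (3 * E)))).map (rS hB hu) = (N u hu).val := fun u hu => by
    ext i j
    change rS hB hu (red _ (A i j)) = _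
    rw [rS, rMod_red, hA]
  have hdet : IsUnit ((Matrix.of A).map (red (3 * (3 * E)))).det := by
    refine isUnit_of_rMod D fun v hv => ?_
    have hvS : v ∈ S := by
      rw [hB.mem_iff]
      rw [Nat.cast_mul, map_mul] at hv
      rcases v.isPrime.mem_or_mem hv with h | h
      · rw [Nat.cast_mul, map_mul]; exact v.asIdeal.mul_mem_right _ h
      · exact h
    rw [show rMod D v hv _ = rS hB hvS _ from rfl, RingHom.map_det, RingHom.mapMatrix_apply, hr]
    rw [← Matrix.GeneralLinearGroup.val_det_apply]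
    exact Units.ne_zero _
  exact ⟨((Matrix.isUnit_iff_isUnit_det _).2 hdet).unit, fun u hu => Units.ext (hr u hu)⟩

omit [NeZero E] in
/-- An element with zero residue at `v3` vanishes modulo `√-3`. -/
lemma BData.castPi_eq_zero {x : RN E} (h : rS hB hB.v3_mem x = 0) : castPi E x = 0 := by
  obtain ⟨y, rfl⟩ := red_surjective (3 * (3 * E)) x
  rw [rS, rMod_red, hB.rZ_v3] at h
  have : CharP (Res v3) 3 := (CharP.charP_iff_prime_eq_zero Nat.prime_three).2 hB.three_res
  rw [CharP.intCast_eq_zero_iff (Res v3) 3] at h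
  rw [castPi, RingHom.comp_apply, castER_red]
  change ((y.re : ZMod 3) - (y.im : ZMod 3)) = 0
  rwa [← Int.cast_sub, ZMod.intCast_zmod_eq_zero_iff_dvd]

omit [NeZero E] in
/-- A place dividing `E` is not the place over `3`. -/
lemma BData.ne_v3 {v : Place K} (hv : D.e (E : EI) ∈ v.asIdeal) : v ≠ v3 := by
  rintro rfl
  have h3 := hB.three_res
  have hE : ((E : ℕ) : Res v) = 0 := by rw [← rZ_natCast D, rZ_eq_zero_iff]; exact hv
  have : CharP (Res v) 3 := (CharP.charP_iff_prime_eq_zero Nat.prime_three).2 h3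
  exact hB.not_three ((CharP.cast_eq_zero_iff (Res v) 3 E).1 hE)

omit [NeZero E] in
/-- A place dividing `E` is in `S`. -/
lemma BData.mem_of_E {v : Place K} (hv : D.e (E : EI) ∈ v.asIdeal) : v ∈ S := by
  rw [hB.mem_iff, Nat.cast_mul, map_mul]
  exact v.asIdeal.mul_mem_left _ hv

omit [NeZero E] in
/-- At a place dividing `E` the residue factors through reduction modulo `E`. -/
lemma rS_eq_rE (v : ETp D E) (x : RN E) :
    rS hB (hB.mem_of_E v.2) x = rE D v (castEh E x) :=
  rS_eq_rMod hB (hB.mem_of_E v.2) (hB.ne_v3 v.2) x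

end Fermat.LT3
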