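import Fermat.Agent.LT3.Herm
import Mathlib.Analysis.Complex.Isometry
import Mathlib.Analysis.SpecialFunctions.PolarCoord

/-!
# The joint distribution of distance and height function

For a point `w` and a form `X` the image of the invariant measure under
`u ↦ (cosh d(w, u), lin X u)` is `2π/e dC dl` on the region `|l - α C| < e √(C² - 1)`,
where `α = lin X w` and `e² = α² + qf X`.
-/

set_option autoImplicit false
open MeasureTheory Set
open scoped ENNReal Matrix ComplexConjugate Real

namespace Fermat.LT3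
open Fermat.LT

/-- The chart of the hyperboloid. -/
noncomputable def chart (p : ℂ × ℝ) : ℂ × ℝ :=
  (p.1 / (p.2 : ℂ), (Complex.normSq p.1 + p.2 ^ 2 - 1) / (2 * p.2))

/-- The time coordinate `√(1 + |z|² + x²)` of a point of the hyperboloid. -/
noncomputable def tim (q : ℂ × ℝ) : ℝ := Real.sqrt (1 + Complex.normSq q.1 + q.2 ^ 2)

/-- The chart is measurable. -/
lemma measurable_chart : Measurable chart := by unfold chart; fun_prop

/-- The time coordinate is measurable. -/
lemma measurable_tim : Measurable tim := by unfold tim; fun_prop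

/-- The time coordinate of a chart point. -/
lemma tim_chart {p : ℂ × ℝ} (hp : 0 < p.2) :
    tim (chart p) = (Complex.normSq p.1 + p.2 ^ 2 + 1) / (2 * p.2) := by
  have h0 := Complex.normSq_nonneg p.1
  rw [tim, Real.sqrt_eq_iff_eq_sq (by positivity [Complex.normSq_nonneg (chart p).1])
    (by positivity), chart, Complex.normSq_div, Complex.normSq_ofReal]
  field_simp
  ring

/-- Scaling the variable of a plane integral. -/
lemma lintegral_scale {s : ℝ} (hs : 0 < s) {H : ℂ → ℝ≥0∞} (hH : Measurable H) :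
    ∫⁻ z : ℂ, H (z / (s : ℂ)) = ENNReal.ofReal (s ^ 2) * ∫⁻ v : ℂ, H v := by
  have hm : Measure.map (fun z : ℂ => s⁻¹ • z) volume
      = ENNReal.ofReal (s ^ 2) • (volume : Measure ℂ) := by
    rw [Measure.map_addHaar_smul _ (by positivity), Complex.finrank_real_complex, inv_pow,
      inv_inv, abs_of_nonneg (sq_nonneg s)]
  have e : (fun z : ℂ => H (z / (s : ℂ))) = fun z => H (s⁻¹ • z) := by
    funext z
    rw [Complex.real_smul, Complex.ofReal_inv, inv_mul_eq_div]
  rw [e, ← lintegral_map hH (by fun_prop : Measurable fun z : ℂ => s⁻¹ • z), hm,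
    lintegral_smul_measure]
  rfl

/-- A change of variable along the heights. -/
lemma lintegral_height (c : ℝ) (hc : 0 < c) (G : ℝ → ℝ≥0∞) :
    ∫⁻ s in Ioi (0 : ℝ), ENNReal.ofReal s⁻¹ * G ((c * s - s⁻¹) / 2)
      = ∫⁻ x : ℝ, ENNReal.ofReal (Real.sqrt (c + x ^ 2))⁻¹ * G x := by
  set f : ℝ → ℝ := fun s => (c * s - s⁻¹) / 2 with hf
  have hsq : ∀ x : ℝ, 0 ≤ c + x ^ 2 := fun x => by positivity
  -- `f` maps `(0, ∞)` onto `ℝ`, injectively
  have himg : f '' Ioi 0 = univ := by
    refine eq_univ_of_forall fun x => ⟨(x + Real.sqrt (c + x ^ 2)) / c, ?_, ?_⟩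
    · have : |x| < Real.sqrt (c + x ^ 2) := by
        rw [← Real.sqrt_sq_eq_abs]
        exact Real.sqrt_lt_sqrt (sq_nonneg x) (by linarith)
      exact div_pos (by linarith [neg_abs_le x]) hc
    · have h1 := Real.mul_self_sqrt (hsq x)
      have h2 : 0 < x + Real.sqrt (c + x ^ 2) := by
        have : |x| < Real.sqrt (c + x ^ 2) := by
          rw [← Real.sqrt_sq_eq_abs]
          exact Real.sqrt_lt_sqrt (sq_nonneg x) (by linarith)
        linarith [neg_abs_le x]
      simp only [hf]
      field_simp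
      nlinarith [h1]
  have hinj : InjOn f (Ioi 0) := fun s (hs : 0 < s) t (ht : 0 < t) h => by
    simp only [hf] at h
    field_simp at h
    have : (s - t) * (c * (s * t) + 1) = 0 := by nlinarith [h]
    rcases mul_eq_zero.1 this with h' | h'
    · linarith
    · nlinarith [mul_pos hc (mul_pos hs ht)]
  have hd : ∀ s ∈ Ioi (0 : ℝ), HasDerivWithinAt f ((c + (s ^ 2)⁻¹) / 2) (Ioi 0) s := by
    intro s hs
    have h := (((hasDerivAt_id s).const_mul c).sub
      (hasDerivAt_inv (ne_of_gt (show (0 : ℝ) < s from hs)))).div_const 2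
    exact (h.congr_deriv (by ring)).hasDerivWithinAt
  -- so substitute `x = f s`
  conv_rhs => rw [← setLIntegral_univ, ← himg]
  rw [lintegral_image_eq_lintegral_abs_deriv_mul measurableSet_Ioi hd hinj]
  refine setLIntegral_congr_fun measurableSet_Ioi fun s (hs : 0 < s) => ?_
  -- at `x = f s` the square root is `(c * s + s⁻¹) / 2`, so `|f'|` leaves `s⁻¹`
  have e : Real.sqrt (c + f s ^ 2) = (c * s + s⁻¹) / 2 := by
    rw [Real.sqrt_eq_iff_eq_sq (hsq _) (by positivity), hf]
    field_simp
    ring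
  rw [e, abs_of_pos (by positivity), ← mul_assoc, ← ENNReal.ofReal_mul (by positivity)]
  congr 2
  field_simp

/-- The chart carries the invariant volume to `dq / tim`. -/
lemma lintegral_chart {G : ℂ × ℝ → ℝ≥0∞} (hG : Measurable G) :
    ∫⁻ p, G (chart p) ∂hvol = ∫⁻ q : ℂ × ℝ, ENNReal.ofReal (tim q)⁻¹ * G q := by
  rw [lintegral_hvol_iter (fun p => G (chart p)) (hG.comp measurable_chart)]
  have hm : Measurable fun q : ℂ × ℝ => ENNReal.ofReal ((q.2 ^ 3)⁻¹) * G (chart q) := by
    have := measurable_chart; fun_prop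
  rw [lintegral_lintegral_swap
    (f := fun z t => ENNReal.ofReal ((t ^ 3)⁻¹) * G (chart (z, t))) hm.aemeasurable]
  have h1 : ∀ s ∈ Ioi (0 : ℝ), ∫⁻ z : ℂ, ENNReal.ofReal ((s ^ 3)⁻¹) * G (chart (z, s))
      = ∫⁻ v : ℂ, ENNReal.ofReal s⁻¹ * G (v, ((Complex.normSq v + 1) * s - s⁻¹) / 2) := by
    intro s (hs : 0 < s)
    rw [lintegral_const_mul' _ _ ENNReal.ofReal_ne_top,
      lintegral_const_mul' _ _ ENNReal.ofReal_ne_top]
    have e : (fun z : ℂ => G (chart (z, s)))
        = fun z => (fun v : ℂ => G (v, ((Complex.normSq v + 1) * s - s⁻¹) / 2)) (z / (s : ℂ)) := by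
      funext z
      simp only [chart, Complex.normSq_div, Complex.normSq_ofReal]
      congr 2
      field_simp
    rw [e, lintegral_scale hs (H := fun v : ℂ => G (v, ((Complex.normSq v + 1) * s - s⁻¹) / 2))
      (by fun_prop), ← mul_assoc, ← ENNReal.ofReal_mul (by positivity)]
    congr 2
    field_simp
  rw [setLIntegral_congr_fun measurableSet_Ioi h1]
  rw [lintegral_lintegral_swap (f := fun s v =>
    ENNReal.ofReal s⁻¹ * G (v, ((Complex.normSq v + 1) * s - s⁻¹) / 2)) (by fun_prop)]
  rw [Measure.volume_eq_prod, lintegral_prod _ (by unfold tim; fun_prop)]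
  refine lintegral_congr fun v => ?_
  rw [lintegral_height (Complex.normSq v + 1) (by linarith [Complex.normSq_nonneg v])
    (fun x => G (v, x))]
  refine lintegral_congr fun x => ?_
  simp only [tim]
  rw [add_comm (Complex.normSq v) 1]

/-- Integrating a function of the squared absolute value over `ℂ`. -/
lemma lintegral_normSq {g : ℝ → ℝ≥0∞} (hg : Measurable g) :
    ∫⁻ v : ℂ, g (Complex.normSq v) = ENNReal.ofReal π * ∫⁻ r in Ioi (0 : ℝ), g r := by
  rw [← Complex.lintegral_comp_polarCoord_symm, polarCoord_target]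
  have e : ∀ p ∈ Ioi (0 : ℝ) ×ˢ Ioo (-π) π,
      ENNReal.ofReal p.1 • g (Complex.normSq (Complex.polarCoord.symm p))
        = ENNReal.ofReal p.1 * g (p.1 ^ 2) := fun p _ => by
    rw [smul_eq_mul, Complex.normSq_eq_norm_sq, Complex.norm_polarCoord_symm, sq_abs]
  rw [setLIntegral_congr_fun (measurableSet_Ioi.prod measurableSet_Ioo) e,
    Measure.volume_eq_prod, ← Measure.prod_restrict, lintegral_prod _ (by fun_prop)]
  simp only [lintegral_const, Measure.restrict_apply MeasurableSet.univ, univ_inter,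
    Real.volume_Ioo]
  rw [lintegral_mul_const' _ _ ENNReal.ofReal_ne_top]
  have himg : (fun r : ℝ => r ^ 2) '' Ioi 0 = Ioi 0 := by
    ext x
    exact ⟨fun ⟨r, hr, h⟩ => h ▸ pow_pos (show (0 : ℝ) < r from hr) 2,
      fun hx => ⟨Real.sqrt x, Real.sqrt_pos.2 hx, Real.sq_sqrt (le_of_lt hx)⟩⟩
  conv_rhs => rw [← himg]
  rw [lintegral_image_eq_lintegral_abs_deriv_mul measurableSet_Ioi (f' := fun r => 2 * r)
    (fun x _ => by simpa using (hasDerivAt_pow 2 x).hasDerivWithinAt)
    (fun s hs t ht h => (pow_left_inj₀ (le_of_lt hs) (le_of_lt ht) two_ne_zero).1 h),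
    mul_comm _ (ENNReal.ofReal _)]
  rw [show ∫⁻ r in Ioi (0 : ℝ), ENNReal.ofReal |2 * r| * g (r ^ 2)
      = ENNReal.ofReal 2 * ∫⁻ r in Ioi (0 : ℝ), ENNReal.ofReal r * g (r ^ 2) from by
    rw [← lintegral_const_mul' _ _ ENNReal.ofReal_ne_top]
    refine setLIntegral_congr_fun measurableSet_Ioi fun r (hr : 0 < r) => ?_
    rw [← mul_assoc, ← ENNReal.ofReal_mul (by norm_num), abs_of_pos (by positivity)]]
  rw [← mul_assoc, ← ENNReal.ofReal_mul Real.pi_pos.le]
  congr 2
  ring

/-- The inner product on `ℂ × ℝ`. -/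
def dot (w x : ℂ × ℝ) : ℝ := (w.1 * conj x.1).re + w.2 * x.2

/-- Squared length. -/
noncomputable def len2 (x : ℂ × ℝ) : ℝ := Complex.normSq x.1 + x.2 ^ 2

/-- Exchange the imaginary part and the real coordinate. -/
def perm (p : ℂ × ℝ) : ℂ × ℝ := (⟨p.1.re, p.2⟩, p.1.im)

/-- `perm` preserves the measure. -/
lemma measurePreserving_perm : MeasurePreserving perm volume volume := by
  have he := Complex.volume_preserving_equiv_real_prod.prod
    (MeasurePreserving.id (volume : Measure ℝ))
  have hes := (Complex.volume_preserving_equiv_real_prod.symm).prod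
    (MeasurePreserving.id (volume : Measure ℝ))
  have ha : MeasurePreserving (MeasurableEquiv.prodAssoc : (ℝ × ℝ) × ℝ ≃ᵐ ℝ × ℝ × ℝ)
      ((volume.prod volume).prod volume) (volume.prod (volume.prod volume)) :=
    measurePreserving_prodAssoc _ _ _
  have hs := (MeasurePreserving.id (volume : Measure ℝ)).prod
    (Measure.measurePreserving_swap (μ := (volume : Measure ℝ)) (ν := (volume : Measure ℝ)))
  have h := hes.comp ((ha.symm _).comp (hs.comp (ha.comp he)))
  exact h

/-- Multiply the complex coordinate by a unit. -/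
noncomputable def rot (c : Circle) (p : ℂ × ℝ) : ℂ × ℝ := ((c : ℂ) * p.1, p.2)

/-- `rot c` preserves the measure. -/
lemma measurePreserving_rot (c : Circle) : MeasurePreserving (rot c) volume volume :=
  (rotation c).measurePreserving.prod (MeasurePreserving.id (volume : Measure ℝ))

/-- A measure preserving rotation moves a vector onto the axis. -/
lemma exists_rotate (w : ℂ × ℝ) : ∃ T : ℂ × ℝ → ℂ × ℝ,
    MeasurePreserving T volume volume ∧
      ∀ x, dot w (T x) = Real.sqrt (len2 w) * x.2 ∧ len2 (T x) = len2 x := by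
  have hlen : ∀ c : Circle, ∀ x, len2 (rot c x) = len2 x := fun c x => by
    simp [len2, rot, Complex.normSq_eq_norm_sq]
  have hperm : ∀ x, len2 (perm x) = len2 x := fun x => by
    simp only [len2, perm, Complex.normSq_apply]; ring
  set c : Circle := Circle.exp w.1.arg with hc
  set μ : ℂ := ⟨‖w.1‖, w.2⟩ with hμ
  have hμn : ‖μ‖ = Real.sqrt (len2 w) := by
    rw [Complex.norm_def, len2]
    congr 1
    rw [hμ, Complex.normSq_mk, Complex.normSq_eq_norm_sq w.1]; ring
  set c' : Circle := Circle.exp (μ.arg - π / 2) with hc'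
  -- Rotate `w.1` to the real axis, permute coordinates, rotate again, permute back.
  refine ⟨rot c ∘ perm ∘ rot c' ∘ perm,
    (measurePreserving_rot c).comp (measurePreserving_perm.comp
      ((measurePreserving_rot c').comp measurePreserving_perm)),
    fun x => ⟨?_, by simp [hlen, hperm]⟩⟩
  have hw1 : w.1 = (‖w.1‖ : ℂ) * (c : ℂ) := by
    rw [hc, Circle.coe_exp]; exact (Complex.norm_mul_exp_arg_mul_I _).symm
  have hμ1 : μ = (‖μ‖ : ℂ) * ((c' : ℂ) * Complex.I) := by
    rw [hc', Circle.coe_exp, Complex.ofReal_sub, sub_mul, Complex.exp_sub]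
    have : Complex.exp (((π / 2 : ℝ) : ℂ) * Complex.I) = Complex.I := by
      push_cast; exact Complex.exp_pi_div_two_mul_I
    rw [this, div_mul_cancel₀ _ Complex.I_ne_zero]
    exact (Complex.norm_mul_exp_arg_mul_I _).symm
  -- Compute the inner product through the three steps.
  have step1 : ∀ y : ℂ × ℝ, dot w (rot c y) = ‖w.1‖ * y.1.re + w.2 * y.2 := fun y => by
    simp only [dot, rot]
    congr 1
    conv_lhs => rw [hw1, map_mul, show (‖w.1‖ : ℂ) * (c : ℂ) * (conj (c : ℂ) * conj y.1)
      = (‖w.1‖ : ℂ) * ((c : ℂ) * conj (c : ℂ)) * conj y.1 by ring, Complex.mul_conj,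
      Circle.normSq_coe]
    simp
  have step2 : ∀ q : ℂ × ℝ, ‖w.1‖ * (perm q).1.re + w.2 * (perm q).2
      = (μ * conj q.1).re := fun q => by
    simp [perm, hμ]
  have step3 : ∀ r : ℂ × ℝ, (μ * conj (rot c' r).1).re = ‖μ‖ * r.1.im := fun r => by
    simp only [rot]
    conv_lhs => rw [hμ1, map_mul, show (‖μ‖ : ℂ) * ((c' : ℂ) * Complex.I)
      * (conj (c' : ℂ) * conj r.1) = (‖μ‖ : ℂ) * ((c' : ℂ) * conj (c' : ℂ))
      * (Complex.I * conj r.1) by ring, Complex.mul_conj, Circle.normSq_coe]
    simp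
  simp only [Function.comp_apply]
  rw [step1, step2, step3, hμn]
  simp [perm]

/-- The image measure of the profile, on its region in the plane. -/
noncomputable def profMeas (α e : ℝ) : Measure (ℝ × ℝ) :=
  ENNReal.ofReal (2 * π / e) •
    volume.restrict {p : ℝ × ℝ | 1 < p.1 ∧ |p.2 - α * p.1| < e * Real.sqrt (p.1 ^ 2 - 1)}

/-- The region of the profile is measurable. -/
lemma measurableSet_profRegion (α e : ℝ) : MeasurableSet
    {p : ℝ × ℝ | 1 < p.1 ∧ |p.2 - α * p.1| < e * Real.sqrt (p.1 ^ 2 - 1)} :=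
  (measurableSet_lt measurable_const measurable_fst).inter
    (measurableSet_lt (f := fun p : ℝ × ℝ => |p.2 - α * p.1|)
      (g := fun p : ℝ × ℝ => e * Real.sqrt (p.1 ^ 2 - 1)) (by fun_prop) (by fun_prop))

/-- The chart integral is the profile measure. -/
lemma lintegral_tim {G : ℝ × ℝ → ℝ≥0∞} (hG : Measurable G) (α : ℝ) {e : ℝ} (he : 0 < e) :
    ∫⁻ q : ℂ × ℝ, ENNReal.ofReal (tim q)⁻¹ * G (tim q, α * tim q + e * q.2)
      = ∫⁻ p, G p ∂(profMeas α e) := by
  set R : Set (ℝ × ℝ) := {p | 1 < p.1 ∧ p.2 ^ 2 < p.1 ^ 2 - 1} with hR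
  have hRm : MeasurableSet R := (measurableSet_lt measurable_const measurable_fst).inter
    (measurableSet_lt (f := fun p : ℝ × ℝ => p.2 ^ 2)
      (g := fun p : ℝ × ℝ => p.1 ^ 2 - 1) (by fun_prop) (by fun_prop))
  rw [Measure.volume_eq_prod, lintegral_prod_symm' _ (by have := measurable_tim; fun_prop)]
  -- for fixed `x`, substitute `|v|² = C² - 1 - x²` in the integral over `v`
  have h1 : ∀ x : ℝ, ∫⁻ v : ℂ, ENNReal.ofReal (tim (v, x))⁻¹ *
      G (tim (v, x), α * tim (v, x) + e * x)
      = ENNReal.ofReal (2 * π) *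
        ∫⁻ C : ℝ, R.indicator (fun p => G (p.1, α * p.1 + e * p.2)) (C, x) := by
    intro x
    simp only [tim]
    rw [lintegral_normSq (g := fun r => ENNReal.ofReal (Real.sqrt (1 + r + x ^ 2))⁻¹
      * G (Real.sqrt (1 + r + x ^ 2), α * Real.sqrt (1 + r + x ^ 2) + e * x)) (by fun_prop)]
    set b := Real.sqrt (1 + x ^ 2) with hb
    have hb2 : b ^ 2 = 1 + x ^ 2 := Real.sq_sqrt (by positivity)
    have hb1 : 1 ≤ b := Real.one_le_sqrt.2 (by nlinarith [sq_nonneg x])
    have himg : (fun C : ℝ => C ^ 2 - b ^ 2) '' Ioi b = Ioi 0 := by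
      ext r
      refine ⟨?_, fun (hr : 0 < r) => ⟨Real.sqrt (r + b ^ 2),
        (Real.lt_sqrt (by linarith)).2 (by linarith), ?_⟩⟩
      · rintro ⟨C, hC, rfl⟩
        exact sub_pos.2 (pow_lt_pow_left₀ (show b < C from hC) (by linarith) two_ne_zero)
      · simp [Real.sq_sqrt (by positivity : 0 ≤ r + b ^ 2)]
    rw [← himg, lintegral_image_eq_lintegral_abs_deriv_mul measurableSet_Ioi
      (f' := fun C => 2 * C) (fun C _ => by
        simpa using ((hasDerivWithinAt_id C (Ioi b)).pow 2).sub_const (b ^ 2))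
      (fun s hs t ht h => (pow_left_inj₀ (le_trans (by linarith) (le_of_lt hs))
        (le_trans (by linarith) (le_of_lt ht)) two_ne_zero).1 (by simpa using h))]
    have hind : ∫⁻ C : ℝ, R.indicator (fun p => G (p.1, α * p.1 + e * p.2)) (C, x)
        = ∫⁻ C in Ioi b, G (C, α * C + e * x) := by
      rw [← lintegral_indicator measurableSet_Ioi]
      refine lintegral_congr fun C => ?_
      by_cases hC : b < C
      · rw [indicator_of_mem (show (C, x) ∈ R from ⟨by linarith, by nlinarith⟩),
          indicator_of_mem (show C ∈ Ioi b from hC)]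
      · rw [indicator_of_notMem (show C ∉ Ioi b from hC), indicator_of_notMem]
        rintro ⟨h1, h2⟩
        simp only at h1 h2
        exact hC (by nlinarith)
    rw [hind, ← lintegral_const_mul' _ _ ENNReal.ofReal_ne_top,
      ← lintegral_const_mul' _ _ ENNReal.ofReal_ne_top]
    refine setLIntegral_congr_fun measurableSet_Ioi fun C (hC : b < C) => ?_
    have hC0 : 0 < C := by linarith
    have e1 : Real.sqrt (1 + (C ^ 2 - b ^ 2) + x ^ 2) = C := by
      rw [hb2, show 1 + (C ^ 2 - (1 + x ^ 2)) + x ^ 2 = C ^ 2 by ring, Real.sqrt_sq hC0.le]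
    rw [e1, abs_of_pos (by positivity), ← mul_assoc (ENNReal.ofReal (2 * C)),
      ← ENNReal.ofReal_mul (by positivity), ← mul_assoc, ← ENNReal.ofReal_mul Real.pi_pos.le]
    congr 2
    field_simp
  -- exchange the order of integration
  simp only [h1]
  rw [lintegral_const_mul' _ _ ENNReal.ofReal_ne_top, lintegral_lintegral_swap
    (Measurable.aemeasurable (by
      exact (Measurable.indicator (by fun_prop) hRm).comp (measurable_snd.prodMk measurable_fst)))]
  rw [profMeas, lintegral_smul_measure, smul_eq_mul, ← lintegral_indicator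
    (measurableSet_profRegion α e), Measure.volume_eq_prod, lintegral_prod _
    ((hG.indicator (measurableSet_profRegion α e)).aemeasurable),
    show 2 * π / e = 2 * π * e⁻¹ from div_eq_mul_inv _ _,
    ENNReal.ofReal_mul (p := 2 * π) (by positivity), mul_assoc]
  congr 1
  rw [← lintegral_const_mul' _ _ ENNReal.ofReal_ne_top]
  refine lintegral_congr fun C => ?_
  -- for fixed `C`, substitute `l = e x + α C`
  set H : ℝ → ℝ≥0∞ := fun l =>
    {p : ℝ × ℝ | 1 < p.1 ∧ |p.2 - α * p.1| < e * Real.sqrt (p.1 ^ 2 - 1)}.indicator G (C, l)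
    with hH
  have hHm : Measurable H :=
    (hG.indicator (measurableSet_profRegion α e)).comp (measurable_const.prodMk measurable_id)
  have e2 : ∀ x : ℝ, R.indicator (fun p => G (p.1, α * p.1 + e * p.2)) (C, x)
      = H (e * x + α * C) := fun x => by
    have hiff : (C, x) ∈ R ↔ (C, e * x + α * C) ∈
        {p : ℝ × ℝ | 1 < p.1 ∧ |p.2 - α * p.1| < e * Real.sqrt (p.1 ^ 2 - 1)} := by
      simp only [hR, mem_ofPred_eq, add_sub_cancel_right, abs_mul, abs_of_pos he]
      refine and_congr_right fun hC => ?_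
      rw [mul_lt_mul_iff_right₀ he, Real.lt_sqrt (abs_nonneg x), sq_abs]
    simp only [hH]
    by_cases h : (C, x) ∈ R
    · rw [indicator_of_mem h, indicator_of_mem (hiff.1 h), add_comm]
    · rw [indicator_of_notMem h, indicator_of_notMem (fun h' => h (hiff.2 h'))]
  simp only [e2]
  have hmap : Measure.map (fun x : ℝ => e * x) volume = ENNReal.ofReal e⁻¹ • volume := by
    rw [Real.map_volume_mul_left he.ne', abs_of_pos (inv_pos.2 he)]
  calc ∫⁻ x : ℝ, H (e * x + α * C)
      = ∫⁻ y : ℝ, H (y + α * C) ∂(Measure.map (fun x : ℝ => e * x) volume) :=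
        (lintegral_map (f := fun y => H (y + α * C)) (g := fun x : ℝ => e * x)
          (hHm.comp (measurable_add_const _)) (measurable_const_mul e)).symm
    _ = ENNReal.ofReal e⁻¹ * ∫⁻ y, H y := by
        rw [hmap, lintegral_smul_measure, smul_eq_mul, lintegral_add_right_eq_self]

/-- The height function in the chart. -/
lemma lin_hmk_chart (X : HV) {p : ℂ × ℝ} (hp : 0 < p.2) :
    lin X (hmk p) = tr2 X * tim (chart p) + dot (-X.2.1, (X.2.2 - X.1) / 2) (chart p) := by
  rw [tim_chart hp, hmk, lin_mk_coord X p.1 hp, num, chart, dot, tr2]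
  simp [Complex.normSq_apply]
  field_simp
  ring

/-- The distance from the origin is the time coordinate. -/
lemma coshd_base_hmk {p : ℂ × ℝ} (hp : 0 < p.2) : coshd base (hmk p) = tim (chart p) := by
  have h1 : base = H3.mk 0 1 := by
    rw [H3.mk_of_pos 0 one_pos]
    change ((1 : GL (Fin 2) ℂ) : H3) = _
    congr 1
    apply Units.ext
    ext i j
    rw [coe_triMat]
    fin_cases i <;> fin_cases j <;> simp
  rw [h1, hmk, coshd_mk 0 p.1 one_pos hp, tim_chart hp, cd]
  simp [Complex.normSq_neg]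
  ring_nf

/-- The pair of distance and height is measurable. -/
lemma measurable_pairBase (X : HV) (w : H3) :
    Measurable fun u => (coshd w u, lin X u) :=
  ((continuous_coshd.comp (Continuous.prodMk_right w)).prodMk (continuous_lin X)).measurable

/-- At the origin the joint distribution is the profile measure. -/
lemma map_profile_base (X : HV) (h : 0 < tr2 X ^ 2 + qf X) :
    Measure.map (fun u => (coshd base u, lin X u)) hmeas
      = profMeas (tr2 X) (Real.sqrt (tr2 X ^ 2 + qf X)) := by
  set w : ℂ × ℝ := (-X.2.1, (X.2.2 - X.1) / 2) with hw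
  have hlw : len2 w = tr2 X ^ 2 + qf X := by
    simp [len2, hw, tr2, qf]; ring
  obtain ⟨T, hT, hTx⟩ := exists_rotate w
  refine Measure.ext_of_lintegral _ fun G hG => ?_
  rw [lintegral_map hG (measurable_pairBase X base)]
  rw [lintegral_hmeas (F := fun u => G (coshd base u, lin X u))
    (hG.comp (measurable_pairBase X base))]
  let G' : ℂ × ℝ → ℝ≥0∞ := fun q => G (tim q, tr2 X * tim q + dot w q)
  have hdm : Measurable fun q : ℂ × ℝ => dot w q := by unfold dot; fun_prop
  have hG' : Measurable G' := hG.comp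
    (measurable_tim.prodMk ((measurable_const.mul measurable_tim).add hdm))
  have e : ∫⁻ p, (fun u => G (coshd base u, lin X u)) (hmk p) ∂hvol
      = ∫⁻ p, G' (chart p) ∂hvol := by
    rw [lintegral_hvol, lintegral_hvol]
    refine setLIntegral_congr_fun (MeasurableSet.univ.prod measurableSet_Ioi) fun p hp => ?_
    simp only [G', coshd_base_hmk hp.2, lin_hmk_chart X hp.2, hw]
  simp only at e ⊢
  rw [e, lintegral_chart hG']
  rw [← lintegral_tim hG (tr2 X) (Real.sqrt_pos.2 h)]
  have hm : Measurable fun q : ℂ × ℝ => ENNReal.ofReal (tim q)⁻¹ * G' q := by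
    have := measurable_tim; fun_prop
  rw [← hT.lintegral_comp hm]
  refine lintegral_congr fun q => ?_
  obtain ⟨h1, h2⟩ := hTx q
  have ht : tim (T q) = tim q := by
    simp only [len2] at h2
    simp only [tim, add_assoc, h2]
  simp only [G', ht, h1, hlw]

/-- **The profile**: distribution of `(cosh d(w, ·), lin X)`. -/
theorem map_profile (X : HV) (w : H3) (h : 0 < lin X w ^ 2 + qf X) :
    Measure.map (fun u => (coshd w u, lin X u)) hmeas
      = profMeas (lin X w) (Real.sqrt (lin X w ^ 2 + qf X)) := by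
  obtain ⟨g, rfl⟩ := QuotientGroup.mk_surjective w
  have hl : lin X (g : H3) = tr2 (act g⁻¹ X) := lin_mk X g
  have hq : qf (act g⁻¹ X) = qf X := qf_act _ _
  have hbase : g • base = (g : H3) := by
    rw [MulAction.Quotient.smul_coe, smul_eq_mul, mul_one]
  rw [hl, ← hq, ← map_profile_base (act g⁻¹ X) (by rw [hq, ← hl]; exact h)]
  rw [← (measurePreserving_smul_H3 g).map_eq,
    Measure.map_map (measurable_pairBase X _) (continuous_const_smul g).measurable,
    (measurePreserving_smul_H3 g).map_eq]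
  congr 1
  funext u
  simp only [Function.comp_apply, ← hbase, coshd_smul, lin_smul]

end Fermat.LT3
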