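import Fermat.Agent.LT3.Adel
import Fermat.Agent.LT.Mult.Main

/-!
# Raising a form which is spherical at a place of the level

`Φ (g · diag (1, ϖ))` has no nonzero part invariant under `SL₂(κ)`: otherwise `Φ` would be
invariant under `diag (ϖ, ϖ⁻¹)` on the right, so all its Fourier coefficients would vanish.
-/

set_option autoImplicit false
open NumberField
open scoped Classical

namespace Fermat.LT3
open Fermat.LT

variable {F : Type*} [Field F] [NumberField F] {S : Set (Place F)} {v : Place F}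

/-- Invariant under `GL₂(κ)` at `v`. -/
def SphAt (v : Place F) (Φ : Pt F S → ℂ) : Prop :=
  ∀ (k : GL (Fin 2) (Res v)) (p : Pt F S), Φ (p.1.set v (rtV k (p.1.1 v)), p.2) = Φ p

/-- For a function invariant under `GL₂(κ)` at `v`, vertices differing by an integral matrix up
to scalars give the same value. -/
lemma SphAt.set_mk {Φ : Pt F S → ℂ} (h : SphAt v Φ) (hvS : v ∈ S) {g g' : GL (Fin 2) F}
    (hg : g⁻¹ * g' ∈ U0 (v.valuation F)) (ω : FinPt F S) (x : InfinitePlace F → H3) :
    Φ (ω.set v (g' : Vert S v), x) = Φ (ω.set v (g : Vert S v), x) := by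
  obtain ⟨c, a, ha⟩ := exists_eq_scal_incGL hg
  have e : (g' : Vert S v) = rtV (redG v a) (g : Vert S v) := by
    rw [rtV_mk hvS, ← fcl_scal hvS c, show fcl S (scal c * g) (redG v a)
      = fcl S (scal c * g) (redG v a * 1) by rw [mul_one], ← fcl_mul_incGL hvS, fcl_one _ hvS,
      mul_assoc, scal_comm, mul_assoc, ← scal_comm, ← ha, mul_inv_cancel_left]
  have h2 := h (redG v a) (ω.set v (g : Vert S v), x)
  simp only [FinPt.set_self, FinPt.set_set] at h2
  rw [e, h2]

/-- A uniformiser. -/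
noncomputable def unif (v : Place F) : Fˣ :=
  Units.mk0 (v.valuation_exists_uniformizer F).choose fun h => by
    have e := (v.valuation_exists_uniformizer F).choose_spec
    rw [h, map_zero] at e
    exact WithZero.exp_ne_zero e.symm

/-- The chosen uniformiser has valuation one step below `1`. -/
lemma val_unif (v : Place F) : v.valuation F (unif v : F) = WithZero.exp (-1 : ℤ) :=
  (v.valuation_exists_uniformizer F).choose_spec

/-- `diag (1, ϖ)`. -/
noncomputable def dMat (v : Place F) : GL (Fin 2) F :=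
  scal (unif v) * upMat (unif v)⁻¹ 0

/-- The entries of `diag (1, ϖ)`. -/
lemma coe_dMat (v : Place F) :
    (dMat v : Matrix (Fin 2) (Fin 2) F) = !![1, 0; 0, (unif v : F)] := by
  rw [dMat, Units.val_mul, scal_coe, coe_upMat, Matrix.scalar_apply]
  ext i j
  fin_cases i <;> fin_cases j <;> simp

/-- The entries of the inverse of `diag (1, ϖ)`. -/
lemma coe_dMat_inv (v : Place F) :
    ((dMat v)⁻¹ : GL (Fin 2) F).val = !![1, 0; 0, (unif v : F)⁻¹] := by
  rw [Matrix.coe_units_inv, coe_dMat]
  refine Matrix.inv_eq_left_inv ?_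
  ext i j
  fin_cases i <;> fin_cases j <;> simp [Matrix.mul_apply, Fin.sum_univ_two]

/-- An integral element with zero residue has valuation less than `1`. -/
lemma valuation_residue_lt {v : Place F} {x : (v.valuation F).integer}
    (h : IsLocalRing.residue (v.valuation F).valuationSubring x = 0) : v.valuation F (x : F) < 1 :=
  (residue_eq_zero_iff_v (v.valuation F) (x : (v.valuation F).valuationSubring)).1 h

/-- The entries of the conjugate of `g` by `diag (1, ϖ)`. -/
lemma conj_dMat_val (v : Place F) (g : GL (Fin 2) F) :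
    ((dMat v)⁻¹ * g * dMat v : GL (Fin 2) F).val
      = !![g.val 0 0, g.val 0 1 * (unif v : F); (unif v : F)⁻¹ * g.val 1 0, g.val 1 1] := by
  have hu0 : (unif v : F) ≠ 0 := (unif v).ne_zero
  rw [Units.val_mul, Units.val_mul, coe_dMat_inv, coe_dMat]
  conv_lhs => rw [Matrix.eta_fin_two g.val]
  ext i j
  fin_cases i <;> fin_cases j <;> simp [Matrix.mul_apply, Fin.sum_univ_two]
  field_simp

/-- An integral matrix with upper triangular residue stays integral after conjugation by `dMat`. -/
lemma conj_dMat_mem (a : GL (Fin 2) (v.valuation F).integer)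
    (h : (redG v a : Matrix (Fin 2) (Fin 2) (Res v)) 1 0 = 0) :
    (dMat v)⁻¹ * incGL v a * dMat v ∈ intGL (v.valuation F) := by
  have hbound : ∀ b : GL (Fin 2) (v.valuation F).integer,
      (redG v b : Matrix (Fin 2) (Fin 2) (Res v)) 1 0 = 0 →
      ∀ i j, v.valuation F (((dMat v)⁻¹ * incGL v b * dMat v : GL (Fin 2) F).val i j) ≤ 1 := by
    intro b hb i j
    have h10 := valuation_residue_lt ((coe_redG b 1 0).symm.trans hb)
    have hle : ∀ i j, v.valuation F ((incGL v b : Matrix (Fin 2) (Fin 2) F) i j) ≤ 1 :=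
      fun i j => ((b : Matrix (Fin 2) (Fin 2) (v.valuation F).integer) i j).2
    have hu : v.valuation F (unif v : F) ≤ 1 := by
      rw [val_unif, ← WithZero.exp_zero, WithZero.exp_le_exp]; omega
    rw [conj_dMat_val]
    fin_cases i <;> fin_cases j <;>
      simp only [Matrix.of_apply, Matrix.cons_val', Matrix.cons_val_zero, Matrix.cons_val_one,
        Matrix.cons_val_fin_one, Fin.zero_eta, Fin.mk_one, Fin.isValue, map_mul, map_inv₀]
    · exact hle 0 0
    · exact mul_le_one' (hle 0 1) hu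
    · rw [val_unif, ← WithZero.exp_neg, neg_neg]
      change v.valuation F ((incGL v b : Matrix (Fin 2) (Fin 2) F) 1 0) < 1 at h10
      rcases eq_or_ne (v.valuation F ((incGL v b : Matrix (Fin 2) (Fin 2) F) 1 0)) 0 with h0 | h0
      · rw [h0, mul_zero]; exact zero_le
      · rw [← WithZero.exp_log h0, ← WithZero.exp_zero, WithZero.exp_lt_exp] at h10
        rw [← WithZero.exp_log h0, ← WithZero.exp_add, ← WithZero.exp_zero, WithZero.exp_le_exp]
        omega
    · exact hle 1 1
  have hinv : (redG v a⁻¹ : Matrix (Fin 2) (Fin 2) (Res v)) 1 0 = 0 := by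
    rw [map_inv, Matrix.coe_units_inv, Matrix.inv_def, Matrix.adjugate_fin_two]
    simp [h]
  refine mem_intGL_of_le (hbound a h) fun i j => ?_
  rw [show ((dMat v)⁻¹ * incGL v a * dMat v)⁻¹ = (dMat v)⁻¹ * incGL v a⁻¹ * dMat v by
    rw [map_inv]; group]
  exact hbound _ hinv i j

/-- `diag (1, ϖ)` on the right. -/
noncomputable def rd (y : Vert S v) : Vert S v := ((y.out * dMat v : GL (Fin 2) F) : Vert S v)

/-- The function composed with `rd` at the place `v`. -/
noncomputable def rais (v : Place F) (Φ : Pt F S → ℂ) : Pt F S → ℂ :=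
  fun p => Φ (p.1.set v (rd (p.1.1 v)), p.2)

/-- Raising is the operator at `v` with one term. -/
lemma rais_eq_opV (Φ : Pt F S → ℂ) :
    rais v Φ = opV (v := v) (ι := Unit) (fun _ => 1) (fun _ => rd) Φ := by
  funext p; simp [rais, opV]

/-- The level group is conjugated by `diag (1, ϖ)` into the maximal group. -/
lemma conj_dMat_mem_U0 (hvS : v ∈ S) (u : lev S v) :
    (dMat v)⁻¹ * ↑u * dMat v ∈ U0 (v.valuation F) := by
  obtain ⟨d, hd⟩ := (lev_of_mem hvS).le u.2
  obtain ⟨a, ha⟩ := hd.1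
  have h1 : redG v a = 1 := (redG_eq_one_iff a).2 (by rw [show incGL v a = _ from ha]; exact hd)
  refine ⟨d, ?_⟩
  have h2 := conj_dMat_mem a (by rw [h1]; simp)
  rw [show incGL v a = scal d * (u : GL (Fin 2) F) from ha] at h2
  rwa [← mul_assoc, ← mul_assoc, scal_comm, mul_assoc ((dMat v)⁻¹) (scal d)]

/-- Raising at the vertex of `g` uses the vertex of `g * diag (1, ϖ)`, whatever representative is
chosen. -/
lemma SphAt.rd_mk {Φ : Pt F S → ℂ} (h : SphAt v Φ) (hvS : v ∈ S) (g : GL (Fin 2) F)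
    (ω : FinPt F S) (x : InfinitePlace F → H3) :
    Φ (ω.set v (rd (g : Vert S v)), x)
      = Φ (ω.set v ((g * dMat v : GL (Fin 2) F) : Vert S v), x) := by
  obtain ⟨u, hu⟩ := QuotientGroup.mk_out_eq_mul (lev S v) g
  refine h.set_mk hvS ?_ ω x
  rw [hu, show (g * dMat v)⁻¹ * (g * ↑u * dMat v) = (dMat v)⁻¹ * ↑u * dMat v by group]
  exact conj_dMat_mem_U0 hvS u

/-- Moving the raised function by a residual matrix, in terms of a lift of that matrix. -/
lemma SphAt.rais_rtV {Φ : Pt F S → ℂ} (h : SphAt v Φ) (hvS : v ∈ S) (k : GL (Fin 2) (Res v))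
    (p : Pt F S) : rais v Φ (p.1.set v (rtV k (p.1.1 v)), p.2)
      = Φ (p.1.set v (((p.1.1 v).out * incGL v (Function.surjInv redG_surjective k) * dMat v
          : GL (Fin 2) F) : Vert S v), p.2) := by
  rw [rais]
  simp only [FinPt.set_self, FinPt.set_set]
  exact h.rd_mk hvS _ _ _

/-- Upper triangular elements fix the raised function. -/
lemma SphAt.rais_borel {Φ : Pt F S → ℂ} (h : SphAt v Φ) (hvS : v ∈ S) (k : GL (Fin 2) (Res v))
    (hk : (k : Matrix (Fin 2) (Fin 2) (Res v)) 1 0 = 0) (p : Pt F S) :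
    rais v Φ (p.1.set v (rtV k (p.1.1 v)), p.2) = rais v Φ p := by
  rw [h.rais_rtV hvS]
  conv_rhs => rw [rais]
  refine h.set_mk hvS (g := (p.1.1 v).out * dMat v) ?_ _ _
  rw [show ((p.1.1 v).out * dMat v)⁻¹ * ((p.1.1 v).out
      * incGL v (Function.surjInv redG_surjective k) * dMat v)
    = (dMat v)⁻¹ * incGL v (Function.surjInv redG_surjective k) * dMat v by group]
  exact le_withScalars _ (conj_dMat_mem _ (by rwa [Function.surjInv_eq redG_surjective]))

variable [Finite S] {v3 : Place F} {lam : Place F → ℝ}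

/-- Raising preserves the properties of forms. -/
theorem IsPreForm.local_rais {Φ : Pt F S → ℂ} (h : IsPreForm S v3 lam Φ) (hs : SphAt v Φ)
    (hv3 : pnorm v3 = 3) (h3S : v3 ∈ S) (hvS : v ∈ S) (hne : v ≠ v3) :
    IsPreForm S v3 lam (rais v Φ) := by
  rw [rais_eq_opV]
  refine h.local_op hv3 h3S hvS hne _ _ fun _ g p => ?_
  obtain ⟨y, hy⟩ := QuotientGroup.mk_surjective (p.1.1 v)
  rw [← hy, MulAction.Quotient.smul_coe, hs.rd_mk hvS]
  obtain ⟨u, hu⟩ := QuotientGroup.mk_out_eq_mul (lev S v) y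
  refine hs.set_mk hvS (g := g * ((y : Vert S v).out * dMat v)) ?_ _ _
  rw [hu, smul_eq_mul, show (g * (y * ↑u * dMat v))⁻¹ * (g * y * dMat v)
    = ((dMat v)⁻¹ * ↑u * dMat v)⁻¹ by group]
  exact (U0 _).inv_mem (conj_dMat_mem_U0 hvS u)

omit [Finite S] in
/-- The Weyl element over the local ring. -/
noncomputable def wI (v : Place F) : GL (Fin 2) (v.valuation F).integer where
  val := !![0, -1; 1, 0]
  inv := !![0, 1; -1, 0]
  val_inv := by
    ext i j : 1; fin_cases i <;> fin_cases j <;> simp [Matrix.mul_apply, Fin.sum_univ_two]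
  inv_val := by
    ext i j : 1; fin_cases i <;> fin_cases j <;> simp [Matrix.mul_apply, Fin.sum_univ_two]

omit [Finite S] in
/-- The Weyl element over the residue field. -/
noncomputable def wR (v : Place F) : GL (Fin 2) (Res v) := redG v (wI v)

variable [IsTotallyComplex F]

/-- **The raised function is not invariant under the Weyl element.** -/
theorem exists_rais_ne {Φ : Pt F S → ℂ} (h : IsPreForm S v3 lam Φ) (hs : SphAt v Φ)
    (hv3 : pnorm v3 = 3) (h3S : v3 ∈ S) (hvS : v ∈ S) (hΦ : ∃ p, Φ p ≠ 0) :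
    ∃ p : Pt F S, rais v Φ (p.1.set v (rtV (wR v) (p.1.1 v)), p.2) ≠ rais v Φ p := by
  by_contra hcon
  push Not at hcon
  set aW := wI v with haW
  have hred : redG v aW = wR v := rfl
  set D : GL (Fin 2) F := upMat (unif v ^ 2) 0 with hD
  -- invariance under `diag (ϖ ^ 2, 1)`
  have hstep : ∀ (g : GL (Fin 2) F) (ω : FinPt F S) (x : InfinitePlace F → H3),
      Φ (ω.set v ((g * D : GL (Fin 2) F) : Vert S v), x) = Φ (ω.set v (g : Vert S v), x) := by
    intro g ω x
    have h0 := hcon (ω.set v ((g * (dMat v)⁻¹ : GL (Fin 2) F) : Vert S v), x)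
    rw [hs.rais_rtV hvS] at h0
    simp only [rais, FinPt.set_self, FinPt.set_set] at h0
    rw [hs.rd_mk hvS, inv_mul_cancel_right] at h0
    rw [← h0]
    set y := ((g * (dMat v)⁻¹ : GL (Fin 2) F) : Vert S v)
    refine hs.set_mk hvS ?_ _ _
    obtain ⟨u, hu⟩ := QuotientGroup.mk_out_eq_mul (lev S v) (g * (dMat v)⁻¹)
    set l := Function.surjInv redG_surjective (wR v)
    rw [hu, show (g * (dMat v)⁻¹ * ↑u * incGL v l * dMat v)⁻¹ * (g * D)
      = ((dMat v)⁻¹ * ((incGL v aW)⁻¹ * (↑u * incGL v l)) * dMat v)⁻¹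
        * ((dMat v)⁻¹ * incGL v aW * dMat v)⁻¹ * D by group]
    have hu1 : (dMat v)⁻¹ * ((incGL v aW)⁻¹ * (↑u * incGL v l)) * dMat v ∈ U0 (v.valuation F) := by
      obtain ⟨d, hd⟩ := (lev_of_mem hvS).le u.2
      obtain ⟨a, ha⟩ := hd.1
      have h1 : redG v a = 1 := (redG_eq_one_iff a).2 (by rw [show incGL v a = _ from ha]; exact hd)
      refine ⟨d, ?_⟩
      have h2 := conj_dMat_mem (aW⁻¹ * (a * l)) (by
        rw [map_mul, map_mul, map_inv, h1, hred, Function.surjInv_eq redG_surjective]; simp)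
      rw [map_mul, map_mul, map_inv, show incGL v a = scal d * (u : GL (Fin 2) F) from ha] at h2
      convert h2 using 1
      simp only [← mul_assoc, scal_comm d ((dMat v)⁻¹)]
      rw [mul_assoc ((dMat v)⁻¹) (scal d), scal_comm d ((incGL v aW)⁻¹), ← mul_assoc]
    rw [mul_assoc]
    refine (U0 _).mul_mem ((U0 _).inv_mem hu1) ?_
    refine ⟨(unif v)⁻¹, (wI v)⁻¹, ?_⟩
    rw [show ((dMat v)⁻¹ * incGL v aW * dMat v)⁻¹ * D
      = (dMat v)⁻¹ * (incGL v aW)⁻¹ * dMat v * D by group]
    refine Units.ext ?_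
    have e1 : (incGL v aW)⁻¹.val = !![0, 1; -1, 0] := by
      rw [← map_inv]
      change ((wI v)⁻¹).val.map _ = _
      rw [show ((wI v)⁻¹).val = !![0, 1; -1, 0] from rfl]
      ext i j
      fin_cases i <;> fin_cases j <;> simp
    change (wI v)⁻¹.val.map _ = _
    rw [show ((wI v)⁻¹).val = !![0, 1; -1, 0] from rfl, Units.val_mul, Units.val_mul, scal_coe,
      conj_dMat_val, hD, coe_upMat, e1, Matrix.scalar_apply, Units.val_inv_eq_inv_val]
    have hu0 : (unif v : F) ≠ 0 := (unif v).ne_zero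
    ext i j
    fin_cases i <;> fin_cases j <;> simp [Matrix.mul_apply, Fin.sum_univ_two]
    all_goals field_simp
  have hB : Mult.IsBasic Φ := ⟨h.invariant, h.continuous⟩
  -- all coefficients vanish
  obtain ⟨p, hp⟩ := hΦ
  refine hp (congrFun (Mult.eq_zero_of_van h3S hv3 hB h.cuspType fun ω t ht => ?_) p)
  -- a representative `upMat a b`, which may be moved down by even powers of `ϖ`
  obtain ⟨a, b, hab⟩ := exists_upMat_mod_U0 (v.valuation F) (ω.1 v).out
  obtain ⟨x, hx, hne⟩ := Mult.exists_psi_ne v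
  have hk : ∀ k : ℕ, ∀ y,
      Φ (ω.set v ((upMat (a * ((unif v)⁻¹ ^ (2 * k))) b : GL (Fin 2) F) : Vert S v), y)
      = Φ (ω, y) := by
    intro k
    induction k with
    | zero =>
      intro y
      conv_rhs => rw [← FinPt.set_eq_self ω v, ← QuotientGroup.out_eq' (ω.1 v)]
      simp only [Nat.mul_zero, pow_zero, mul_one]
      exact (hs.set_mk hvS hab _ _).symm
    | succ k ih =>
      intro y
      rw [← ih y, ← hstep (upMat (a * ((unif v)⁻¹ ^ (2 * (k + 1)))) b), hD, upMat_mul, mul_zero,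
        zero_add]
      congr 4
      rw [show 2 * (k + 1) = 2 * k + 2 by ring, pow_add, mul_assoc, mul_assoc, inv_pow (unif v) 2,
        inv_mul_cancel, mul_one]
  have ha0 : v.valuation F (a : F) ≠ 0 := (v.valuation F).ne_zero_iff.2 a.ne_zero
  -- take `k` so large that a translation with nontrivial character fixes the vertex
  set k := (Mult.cnd v + 2 - WithZero.log (v.valuation F (a : F))).toNat with hkdef
  set a' := a * ((unif v)⁻¹ ^ (2 * k)) with ha'
  have hval : Mult.cnd v + 2 ≤ WithZero.log (v.valuation F (a' : F)) := by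
    have e : v.valuation F (a' : F)
        = WithZero.exp (WithZero.log (v.valuation F (a : F)) + (2 * k : ℕ)) := by
      rw [ha', Units.val_mul, map_mul, Units.val_pow_eq_pow_val, map_pow, Units.val_inv_eq_inv_val,
        map_inv₀, val_unif, ← WithZero.exp_neg, ← WithZero.exp_nsmul, WithZero.exp_add,
        WithZero.exp_log ha0]
      simp
    rw [e, WithZero.log_exp]; omega
  rw [show Mult.Wh Φ ω t = Mult.Wh Φ (ω.set v ((upMat a' b : GL (Fin 2) F) : Vert S v)) t by
    simp only [Mult.Wh, Mult.slice, ha']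
    congr 1; funext z; rw [hk k]]
  -- so the coefficient vanishes
  refine hB.Wh_eq_zero_of_fix (v := v) (x := x) ?_ hne ht
  rw [FinPt.set_self, MulAction.Quotient.smul_coe, QuotientGroup.eq, lev_of_mem hvS, smul_eq_mul,
    upMat_mul, upMat_inv, upMat_mul]
  refine le_withScalars _ ⟨upMat_mem_intGL _ (by simp) ?_, fun i j => ?_⟩
  all_goals
    have hx' : v.valuation F (((a'⁻¹ : Fˣ) : F) * x) < 1 := by
      rw [map_mul, Units.val_inv_eq_inv_val, map_inv₀]
      rw [inv_mul_lt_one₀ (zero_lt_iff.2 ((v.valuation F).ne_zero_iff.2 a'.ne_zero))]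
      refine hx.trans_lt ?_
      rw [← WithZero.exp_log ((v.valuation F).ne_zero_iff.2 a'.ne_zero), WithZero.exp_lt_exp]
      omega
  · simp only [one_mul, Units.val_one]
    rw [show ((a'⁻¹ : Fˣ) : F) * b + -((a'⁻¹ : Fˣ) : F) * (b + x) = -((((a'⁻¹ : Fˣ) : F)) * x) by
      ring, Valuation.map_neg]
    exact hx'.le
  · fin_cases i <;> fin_cases j <;> simp
    rw [show (a' : F)⁻¹ * b + -((a' : F)⁻¹ * (b + x)) = -((((a'⁻¹ : Fˣ) : F)) * x) by simp; ring,
      Valuation.map_neg]
    exact hx'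

end Fermat.LT3
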