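import Fermat.Agent.LT3.DAct
import Fermat.Agent.LT3.Kernel

/-!
# The twists of the special functions are special

Modulo `9E` a matrix with determinant of norm one is `γ · diag(δ, 1)` with `γ` integral.
-/

set_option autoImplicit false
open Matrix QuadraticAlgebra
open scoped MatrixGroups

namespace Fermat.LT3
open Fermat.LT

section Decomp

variable {N : ℕ} [NeZero N]

/-- `diag(δ, 1)`. -/
def dgN (δ : (ER (ZMod (3 * N)))ˣ) : GN N where
  val := !![(δ : ER (ZMod (3 * N))), 0; 0, 1]
  inv := !![((δ⁻¹ : (ER (ZMod (3 * N)))ˣ) : ER (ZMod (3 * N))), 0; 0, 1]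
  val_inv := by
    ext i j : 1; fin_cases i <;> fin_cases j <;> simp [Matrix.mul_apply, Fin.sum_univ_two]
  inv_val := by
    ext i j : 1; fin_cases i <;> fin_cases j <;> simp [Matrix.mul_apply, Fin.sum_univ_two]

omit [NeZero N] in
/-- The norm of the determinant of `diag(δ, 1)` is the norm of `δ`. -/
lemma ndet_dgN (δ : (ER (ZMod (3 * N)))ˣ) :
    ndet (dgN δ) = QuadraticAlgebra.norm (δ : ER (ZMod (3 * N))) := by
  simp [ndet, dgN, Matrix.det_fin_two_of]

/-- A matrix of norm one determinant is an integral matrix times `dgN δ` with `δ` of norm one. -/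
theorem exists_decomp {M : GN N} (h : ndet M = 1) :
    ∃ (γ : GL (Fin 2) EI) (δ : (ER (ZMod (3 * N)))ˣ),
      QuadraticAlgebra.norm (δ : ER (ZMod (3 * N))) = 1 ∧ M = gr (3 * N) γ * dgN δ := by
  set δ := Matrix.GeneralLinearGroup.det M with hδ
  have hdet : (M * (dgN δ)⁻¹ : GN N).val.det = 1 := by
    rw [Units.val_mul, Matrix.det_mul, show ((dgN δ)⁻¹ : GN N).val
      = !![((δ⁻¹ : (ER (ZMod (3 * N)))ˣ) : ER (ZMod (3 * N))), 0; 0, 1] from rfl,
      Matrix.det_fin_two_of, ← Matrix.GeneralLinearGroup.val_det_apply, ← hδ]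
    simp
  obtain ⟨g, hg⟩ := sl2_red_surjective (3 * N) ⟨_, hdet⟩
  refine ⟨Matrix.SpecialLinearGroup.toGL g, δ, ?_, ?_⟩
  · rw [hδ, Matrix.GeneralLinearGroup.val_det_apply]; exact h
  · refine eq_mul_inv_iff_mul_eq.1 (Units.ext ?_) |>.symm
    rw [gr_coe]
    exact congrArg Subtype.val hg

end Decomp

variable {E : ℕ} [NeZero E]

/-- Reduction of the modulus. -/
def castER (m : ℕ) {n : ℕ} (h : m ∣ n) : ER (ZMod n) →+* ER (ZMod m) :=
  erMap (ZMod.castHom h (ZMod m))

/-- Reduction of the modulus is compatible with reduction from `ℤ[ω]`. -/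
lemma castER_red (m : ℕ) {n : ℕ} (h : m ∣ n) (x : EI) : castER m h (red n x) = red m x := by
  apply QuadraticAlgebra.ext <;> simp [castER]

/-- Reduction of the modulus commutes with the norm. -/
lemma norm_castER (m : ℕ) {n : ℕ} (h : m ∣ n) (x : ER (ZMod n)) :
    QuadraticAlgebra.norm (castER m h x) = ZMod.castHom h (ZMod m) (QuadraticAlgebra.norm x) := by
  simp only [castER, QuadraticAlgebra.norm_def, erMap_re, erMap_im, map_mul, map_add, map_sub,
    map_neg, map_one]

/-- The modulo three part. -/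
def castThree (x : ER (ZMod (3 * (3 * E)))) : ER (ZMod 3) := castER 3 (dvd_mul_right 3 _) x

/-- Reduction modulo `E` from the modulus `9E`. -/
def castEh (E : ℕ) : ER (ZMod (3 * (3 * E))) →+* ER (ZMod E) :=
  castER E ((dvd_mul_left E 3).trans (dvd_mul_left _ 3))

/-- The map into dual coordinates is injective. -/
lemma lam_injective : Function.Injective lam := fun μ ν h => by
  simp only [lam, Prod.mk.injEq] at h
  exact Prod.ext h.1 (Prod.ext (Prod.ext (by omega) (by omega)) h.2.2)

/-- **The twist of a special function.** A norm one diagonal twist of a special function is again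
special. -/
theorem twist_spec (cls : Cl3) (φ : CP E → ℂ) (δ : (ER (ZMod (3 * (3 * E))))ˣ)
    (hδ : QuadraticAlgebra.norm (δ : ER (ZMod (3 * (3 * E)))) = 1) :
    twist (N := 3 * E) (spec cls φ) (dgN δ)
      = spec (cls.1, cmul (prER (castThree (δ : ER (ZMod (3 * (3 * E)))))) cls.2.1, cls.2.2)
          (fun x => φ (cmul (prER (castEh E ((δ⁻¹ : _ˣ) : ER (ZMod (3 * (3 * E)))))) x)) := by
  set e : ER (ZMod (3 * (3 * E))) := ((δ⁻¹ : _ˣ) : ER (ZMod (3 * (3 * E)))) with he
  -- an integral lift `d` of `δ⁻¹`, which acts on dual coordinates by multiplication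
  obtain ⟨d, hd⟩ := red_surjective (3 * (3 * E)) e
  have hm : (!![d, 0; 0, 1] : Matrix (Fin 2) (Fin 2) EI).map (red (3 * (3 * E)))
      = ((dgN δ)⁻¹).val := by
    change _ = !![e, 0; 0, 1]
    ext i j : 1
    fin_cases i <;> fin_cases j <;> simp [hd]
  have hne : QuadraticAlgebra.norm e = 1 := by
    have := congrArg QuadraticAlgebra.norm (δ.inv_mul)
    rw [map_mul, hδ, mul_one, map_one] at this
    exact this
  have hlam : ∀ μ : Lz, dact !![d, 0; 0, 1] (lam μ)
      = lam (μ.1 * QuadraticAlgebra.norm d,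
          ((d * ⟨μ.2.1.1, μ.2.1.2⟩).re, (d * ⟨μ.2.1.1, μ.2.1.2⟩).im), μ.2.2) := fun μ => by
    rw [dact_lam]
    congr 1
    simp [lact, dact, lam, dotE, QuadraticAlgebra.norm_def]
  funext X
  rw [twist_eq (per_spec cls φ) hm X]
  -- on the dual lattice, compare the classes modulo three and modulo `E`
  by_cases hX : X ∈ Set.range lam
  · obtain ⟨μ, rfl⟩ := hX
    rw [hlam, spec_lam, spec_lam]
    have h1 : ((QuadraticAlgebra.norm d : ℤ) : ZMod 3) = 1 := by
      have h := norm_castER 3 (dvd_mul_right 3 (3 * E)) e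
      rw [hne, map_one, ← hd, castER_red] at h
      rw [← h]
      simp [QuadraticAlgebra.norm_def]
    have hb : ∀ n : ℕ, redv n ((d * ⟨μ.2.1.1, μ.2.1.2⟩).re, (d * ⟨μ.2.1.1, μ.2.1.2⟩).im)
        = cmul (prER (red n d)) (redv n μ.2.1) := fun n => by
      simp [redv, cmul, prER, sub_eq_add_neg]
    have hbE : prER (red E d) = prER (castEh E e) := by rw [castEh, ← hd, castER_red]
    have hb3 : prER (red 3 d) = prER (castThree e) := by rw [castThree, ← hd, castER_red]
    have hinv : ∀ x : CP 3, cmul (prER (castThree e)) x = cls.2.1 ↔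
        x = cmul (prER (castThree (δ : ER (ZMod (3 * (3 * E)))))) cls.2.1 := fun x => by
      have hl : ∀ u v : ER (ZMod 3), ∀ y : CP 3, cmul (prER u) (cmul (prER v) y)
          = cmul (prER (u * v)) y := fun u v y => by
        rw [prER_mul]; simp [cmul]; constructor <;> ring
      have h1' : ∀ y : CP 3, cmul (prER (1 : ER (ZMod 3))) y = y := fun y => by
        simp [cmul, prER]
      constructor
      · intro h
        rw [← h, hl, castThree, castThree, ← map_mul, he, Units.mul_inv, map_one, h1']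
      · intro h
        rw [h, hl, castThree, castThree, ← map_mul, he, Units.inv_mul, map_one, h1']
    simp only [hb, hbE, hb3, Int.cast_mul, h1, mul_one, Prod.ext_iff (x := ((μ.1 : ZMod 3), _)),
      Prod.ext_iff (x := ((_ : CP 3), (μ.2.2 : ZMod 3))), hinv]
  -- off the dual lattice both sides vanish
  · have hX1 : dact !![d, 0; 0, 1] X ∈ Set.range lam → False := fun ⟨ν, hν⟩ => by
      obtain ⟨d', hd'⟩ := red_surjective (3 * (3 * E)) (δ : ER (ZMod (3 * (3 * E))))
      have h34 := red34_congr (N := 3 * E) (m := !![d', 0; 0, 1] * !![d, 0; 0, 1]) (m' := 1) (by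
        have hu : (δ : ER (ZMod (3 * (3 * E)))) * e = 1 := δ.mul_inv
        ext i j : 1
        fin_cases i <;> fin_cases j <;> simp [hd, hd', hu]) X
      rw [dact_mul, ← hν, dact_lam, dact_one] at h34
      obtain ⟨Z, hZ⟩ := exists_of_red34 h34
      refine hX ⟨lact !![d', 0; 0, 1] ν + (((3 * E : ℕ) : ℤ) * (3 * Z.1),
        (((3 * E : ℕ) : ℤ) * (2 * Z.2.1.1 - Z.2.1.2), ((3 * E : ℕ) : ℤ) * (2 * Z.2.1.2 - Z.2.1.1)),
        ((3 * E : ℕ) : ℤ) * (3 * Z.2.2)), ?_⟩
      rw [hZ]
      simp [lam, Prod.ext_iff]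
      refine ⟨?_, ⟨?_, ?_⟩, ?_⟩ <;> ring
    have hz : ∀ (c : Cl3) (ψ : CP E → ℂ) (Z : Lz), Z ∉ Set.range lam → spec c ψ Z = 0 :=
      fun c ψ Z hZ => by
        by_contra h
        exact hZ (support_spec c ψ h)
    rw [hz _ _ _ hX, hz _ _ _ hX1]

end Fermat.LT3
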