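import Fermat.Agent.LT3.KData
import Fermat.Agent.LT3.TwistSpec
import Fermat.Agent.LT.Approx
import Fermat.Agent.LT.FibKer

/-!
# Places of `ℚ(√-3)` and reduction of `ℤ[ω]`

Primes of `ℤ[ω]` give places; `rMod` are the residue maps on `ℤ[ω]/n`.
-/

set_option autoImplicit false
open IsDedekindDomain NumberField

namespace Fermat.LT3
open Fermat.LT

variable {K : Type*} [Field K] [NumberField K] (D : KData K)

/-- Reduction of `ℤ[ω]` at a place. -/
noncomputable def rZ (v : Place K) : EI →+* Res v := (toResidue v).comp D.e.toRingHom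

/-- Reduction of `ℤ[ω]` at a place is surjective. -/
lemma rZ_surjective (v : Place K) : Function.Surjective (rZ D v) :=
  (toResidue_surjective v).comp D.e.surjective

/-- The kernel of reduction at `v` is the ideal of `v`. -/
lemma rZ_eq_zero_iff (v : Place K) (x : EI) : rZ D v x = 0 ↔ D.e x ∈ v.asIdeal := by
  rw [rZ, RingHom.comp_apply, ← RingHom.mem_ker, ker_toResidue]
  rfl

/-- Reduction sends a natural number to its class. -/
lemma rZ_natCast (v : Place K) (n : ℕ) : rZ D v (n : EI) = (n : Res v) := map_natCast _ n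

/-- If `v` is generated by `π`, membership in `v` is divisibility by `π`. -/
lemma mem_iff_dvd_of_span {v : Place K} {π : EI} (h : v.asIdeal = Ideal.span {D.e π}) (x : EI) :
    D.e x ∈ v.asIdeal ↔ π ∣ x := by
  rw [h, Ideal.mem_span_singleton, map_dvd_iff]

/-- Every place comes from a prime of `ℤ[ω]`. -/
lemma exists_prime_gen (v : Place K) : ∃ π : EI, Prime π ∧ v.asIdeal = Ideal.span {D.e π} := by
  have := D.pid
  obtain ⟨a, ha⟩ := (IsPrincipalIdealRing.principal v.asIdeal).principal
  refine ⟨D.e.symm a, ?_, by rw [RingEquiv.apply_symm_apply, ha]⟩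
  have ha0 : a ≠ 0 := fun h => v.ne_bot (by rw [ha, h]; simp)
  have hp : Prime a := (Ideal.span_singleton_prime ha0).1 (by
    have := v.isPrime; rwa [ha] at this)
  exact (MulEquiv.prime_iff (D.e.symm : 𝓞 K ≃* EI)).2 hp

/-- The place of a prime. -/
noncomputable def piPlace {π : EI} (h : Prime π) : Place K :=
  ⟨Ideal.span {D.e π}, (Ideal.span_singleton_prime (fun e => h.ne_zero
    (D.e.injective (e.trans (map_zero D.e).symm)))).2
        ((MulEquiv.prime_iff (D.e : EI ≃* 𝓞 K)).2 h), by
    rw [Ne, Ideal.span_singleton_eq_bot]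
    exact fun e => h.ne_zero (D.e.injective (e.trans (map_zero D.e).symm))⟩

/-- Membership in the place of a prime is divisibility by that prime. -/
lemma mem_piPlace {π : EI} (h : Prime π) (x : EI) : D.e x ∈ (piPlace D h).asIdeal ↔ π ∣ x :=
  mem_iff_dvd_of_span D rfl x

/-- A place containing the prime `π` is the place of `π`. -/
lemma eq_piPlace {v : Place K} {π : EI} (h : Prime π) (hv : D.e π ∈ v.asIdeal) :
    piPlace D h = v :=
  HeightOneSpectrum.ext ((piPlace D h).isMaximal.eq_of_le v.isPrime.ne_top
    ((Ideal.span_singleton_le_iff_mem _).2 hv))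

variable {n : ℕ} [NeZero n]

/-- Reduction from `ℤ[ω]/n` at a place containing `n`. -/
noncomputable def rMod (v : Place K) (hn : D.e (n : EI) ∈ v.asIdeal) : ER (ZMod n) →+* Res v :=
  (red n).liftOfRightInverse (Function.surjInv (red_surjective n))
    (Function.rightInverse_surjInv (red_surjective n))
    ⟨rZ D v, fun x hx => by
      obtain ⟨y, rfl⟩ := (red_eq_zero_iff n x).1 hx
      rw [RingHom.mem_ker, map_mul, (rZ_eq_zero_iff D v _).2 hn, zero_mul]⟩

omit [NeZero n] in
/-- Reduction modulo `n` followed by reduction at `v` is reduction at `v`. -/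
@[simp] lemma rMod_red (v : Place K) (hn : D.e (n : EI) ∈ v.asIdeal) (x : EI) :
    rMod D v hn (red n x) = rZ D v x :=
  (red n).liftOfRightInverse_comp_apply _ _ _ x

omit [NeZero n] in
/-- Residue maps are compatible with change of modulus. -/
lemma rMod_castER {m : ℕ} (h : m ∣ n) (v : Place K) (hn : D.e (n : EI) ∈ v.asIdeal)
    (hm : D.e (m : EI) ∈ v.asIdeal) (x : ER (ZMod n)) :
    rMod D v hm (castER m h x) = rMod D v hn x := by
  obtain ⟨y, rfl⟩ := red_surjective n x
  rw [castER_red, rMod_red, rMod_red]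

omit [NeZero n] in
/-- An element which is a unit modulo `n` lies outside every place over `n`. -/
lemma rMod_isUnit (v : Place K) (hn : D.e (n : EI) ∈ v.asIdeal) {x : EI} (hx : IsUnit (red n x)) :
    D.e x ∉ v.asIdeal := by
  rw [← rZ_eq_zero_iff, ← rMod_red D v hn x]
  exact (hx.map (rMod D v hn)).ne_zero

end Fermat.LT3
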