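import Fermat.Agent.LT3.BridgeOps
import Fermat.Agent.LT3.Places

/-!
# Every adelic point comes from a matrix modulo `9E`

`exists_smul_ptF` gives this, by approximating local matrices by a rational one
(`exists_upMat_U0`).
-/

set_option autoImplicit false
open IsDedekindDomain Matrix
open scoped Classical

namespace Fermat.LT3
open Fermat.LT

variable {K : Type*} [Field K] [NumberField K] (D : KData K)

include D in
/-- Prescribed orders at finitely many places, units elsewhere. -/
lemma exists_ord (T : Finset (Place K)) (n : Place K → ℤ) :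
    ∃ a : Kˣ, (∀ v ∈ T, v.valuation K (a : K) = WithZero.exp (n v)) ∧
      ∀ v ∉ T, v.valuation K (a : K) = 1 := by
  induction T using Finset.induction_on with
  | empty => exact ⟨1, by simp, by simp⟩
  | insert u T hu ih =>
    obtain ⟨a, ha, ha'⟩ := ih
    obtain ⟨π, hπ, hu'⟩ := exists_prime_gen D u
    have hpl : piPlace D hπ = u := HeightOneSpectrum.ext hu'.symm
    have h1 : u.valuation K (D.ι π) = WithZero.exp (-1 : ℤ) := hpl ▸ val_piPlace D hπ
    refine ⟨a * piU D hπ.ne_zero ^ (-n u), fun v hv => ?_, fun v hv => ?_⟩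
    · rw [Units.val_mul, Units.val_zpow_eq_zpow_val, map_mul, map_zpow₀]
      rcases Finset.mem_insert.1 hv with rfl | hvT
      · rw [ha' v hu, one_mul, show ((piU D hπ.ne_zero : Kˣ) : K) = D.ι π from rfl, h1,
          ← WithZero.exp_zsmul]
        simp
      · have hne : v ≠ piPlace D hπ := by rw [hpl]; rintro rfl; exact hu hvT
        rw [show ((piU D hπ.ne_zero : Kˣ) : K) = D.ι π from rfl, val_eq_one_of_ne D hπ hne,
          _root_.one_zpow, mul_one, ha v hvT]
    · rw [Finset.mem_insert, not_or] at hv
      rw [Units.val_mul, Units.val_zpow_eq_zpow_val, map_mul, map_zpow₀,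
        show ((piU D hπ.ne_zero : Kˣ) : K) = D.ι π from rfl,
        val_eq_one_of_ne D hπ (by rw [hpl]; exact hv.1), _root_.one_zpow, mul_one, ha' v hv.2]

include D in
/-- One rational matrix matches given local matrices modulo `U0` at finitely many places and is
integral elsewhere. -/
lemma exists_upMat_U0 (T : Finset (Place K)) (x : Place K → GL (Fin 2) K) :
    ∃ g : GL (Fin 2) K, (∀ v ∉ T, g ∈ intGL (v.valuation K)) ∧
      ∀ v ∈ T, g⁻¹ * x v ∈ U0 (v.valuation K) := by
  choose a b hab using fun v : Place K => exists_upMat_mod_U0 (v.valuation K) (x v)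
  have hn : ∀ v : Place K, v.valuation K (a v : K) ≠ 0 := fun v =>
    (v.valuation K).ne_zero_iff.2 (a v).ne_zero
  obtain ⟨α, hα, hα'⟩ := exists_ord D T fun v => WithZero.log (v.valuation K (a v : K))
  obtain ⟨N, hN⟩ :=
    Finset.bddAbove (T.image fun v => (-WithZero.log (v.valuation K (a v : K))).toNat)
  obtain ⟨β, hβ, hβ'⟩ := exists_approx T b N
  set g := upMat α β with hg
  have hout : ∀ v ∉ T, g ∈ intGL (v.valuation K) :=
    fun v hv => upMat_mem_intGL _ (hα' v hv) (hβ' v hv)
  have hin : ∀ v ∈ T, g⁻¹ * upMat (a v) (b v) ∈ intGL (v.valuation K) := by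
    intro v hv
    have hval : v.valuation K (α : K) = v.valuation K (a v : K) := by
      rw [hα v hv, WithZero.exp_log (hn v)]
    rw [hg, upMat_inv, upMat_mul]
    refine upMat_mem_intGL _ ?_ ?_
    · rw [Units.val_mul, Units.val_inv_eq_inv_val, map_mul, map_inv₀, hval, inv_mul_cancel₀ (hn v)]
    · rw [Units.val_inv_eq_inv_val, show ((α : K))⁻¹ * b v + -(α : K)⁻¹ * β =
        (α : K)⁻¹ * -(β - b v) by ring,
        map_mul, map_inv₀, Valuation.map_neg, hval, inv_mul_le_one₀ (zero_lt_iff.2 (hn v))]
      refine (hβ v hv).trans ?_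
      conv_rhs => rw [← WithZero.exp_log (hn v)]
      rw [WithZero.exp_le_exp]
      have h1 : (-WithZero.log (v.valuation K (a v : K))).toNat ≤ N :=
        hN (Finset.mem_coe.2 (Finset.mem_image_of_mem _ hv))
      omega
  refine ⟨g, hout, fun v hv => ?_⟩
  have := (U0 _).mul_mem (le_withScalars _ (hin v hv)) (hab v)
  simpa [mul_assoc] using this

variable {D} {E : ℕ} [NeZero E] {S : Set (Place K)} {v3 : Place K} [Finite S]

/-- **Every finite point is a translate of a classical one.** -/
theorem exists_smul_ptF (hB : BData D E S v3) (o : FinPt K S) :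
    ∃ (g : GL (Fin 2) K) (M : GN (3 * E)), g • ptF hB M = o := by
  set T : Finset (Place K) :=
    (Filter.eventually_cofinite.1 o.2).toFinset ∪ (Set.toFinite S).toFinset
  -- approximate the local upper triangular representatives by one rational matrix `g`
  obtain ⟨g, hout, hU⟩ := exists_upMat_U0 D T fun v => (o.1 v).out
  -- at the places of the level, lift the residual components to one `M`
  have hfib : ∀ v, ∀ hv : v ∈ S, ∃ X, fcl S (1 : GL (Fin 2) K) X = g⁻¹ • o.1 v := by
    intro v hv
    refine exists_fcl_eq hv (1 : GL (Fin 2) K) ?_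
    have hvT : v ∈ T := Finset.mem_union_right _ ((Set.toFinite S).mem_toFinset.2 hv)
    conv => arg 2; rw [← QuotientGroup.out_eq' (o.1 v), MulAction.Quotient.smul_coe, smul_eq_mul]
    obtain ⟨u, hu⟩ := QuotientGroup.mk_out_eq_mul (lev S v) (g⁻¹ * (o.1 v).out)
    rw [hu, inv_one, one_mul]
    exact (U0 _).mul_mem (hU v hvT) (lev_le_U0 S v u.2)
  choose X hX using hfib
  obtain ⟨M, hM⟩ := exists_liftGN hB X
  -- compare place by place
  refine ⟨g, M, eq_inv_smul_iff.1 (Subtype.ext (funext fun v => ?_))⟩
  rw [FinPt.smul_apply]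
  by_cases hv : v ∈ S
  · rw [ptF_mem hB hv, hM v hv, hX v hv]
  · rw [ptF_not_mem hB hv]
    by_cases hvT : v ∈ T
    · conv_rhs => rw [← QuotientGroup.out_eq' (o.1 v), MulAction.Quotient.smul_coe, smul_eq_mul]
      rw [QuotientGroup.eq]
      refine (lev_of_not_mem hv).ge ?_
      rw [inv_one, one_mul]
      exact hU v hvT
    · simp only [T, Finset.mem_union, Set.Finite.mem_toFinset, Set.mem_ofPred_eq, not_or,
        not_not] at hvT
      rw [hvT.1, MulAction.Quotient.smul_coe, smul_eq_mul, mul_one, QuotientGroup.eq,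
        lev_of_not_mem hv, inv_one, one_mul]
      exact (U0 _).inv_mem (le_withScalars _ (hout v (by
        simp only [T, Finset.mem_union, Set.Finite.mem_toFinset, Set.mem_ofPred_eq, not_or, not_not]
        exact hvT)))

end Fermat.LT3
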